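import Mathlib
import Fermat.Prelude.Def_ModularCurve_ArithmeticGalois
import Fermat.Prelude.Def_ModularCurve_JqCoeff
import Fermat.Agent.S28.RedHyp
import Fermat.Agent.S18.GaussADefs
import Fermat.Agent.S18.ResField

/-!
# S37 / KappaAut: coefficientwise automorphisms of the residue function field `κ_L = k(j̄, ū_L)`

For a field `k` and a ring automorphism `θ : k ≃+* k`, the coefficientwise action of `θ` on
`k((q))` preserves `κ_L = GaussA.kappa k L` (the generators `j̄`, `ū_L` have coefficients in the
prime ring), and is semilinear over `θ`: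

* `seriesAut θ : LaurentSeries k ≃+* LaurentSeries k`;
* `kappaGalois k L : (k ≃+* k) →* SemilinearAut k (GaussA.kappa k L)`, exactly parallel to the
  Prelude's `ModularCurve.arithmeticGalois`;
* `frob k ℓ L` : the coefficientwise Frobenius `a ↦ a ^ ℓ` (for `ExpChar k ℓ`, `PerfectRing k ℓ`),
  and `frobA hℓ A hA L` : the same for the residue field of a valuation subring of `ℚ̄` over `ℓ`.
-/

set_option autoImplicit false
set_option synthInstance.maxHeartbeats 400000

noncomputable section

namespace Fermat.Agent.S37.KappaAut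

open ModularCurve AlgebraicCurve HahnSeries Fermat.Agent.S18

variable {k : Type*} [Field k]

/-- Coefficientwise action of a ring automorphism of `k` on `k((q))`. -/
def seriesAut (θ : k ≃+* k) : LaurentSeries k ≃+* LaurentSeries k where
  toFun x := coeffMap (θ : k →+* k) x
  invFun x := coeffMap (θ.symm : k →+* k) x
  left_inv x := by
    show coeffMap (θ.symm : k →+* k) (coeffMap (θ : k →+* k) x) = x
    rw [coeffMap_coeffMap,
      coeffMap_congr (g := RingHom.id k) (RingHom.ext fun a => θ.symm_apply_apply a) x,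
      coeffMap_id]
  right_inv x := by
    show coeffMap (θ : k →+* k) (coeffMap (θ.symm : k →+* k) x) = x
    rw [coeffMap_coeffMap,
      coeffMap_congr (g := RingHom.id k) (RingHom.ext fun a => θ.apply_symm_apply a) x,
      coeffMap_id]
  map_mul' x y := map_mul (coeffMap (θ : k →+* k)) x y
  map_add' x y := map_add (coeffMap (θ : k →+* k)) x y

@[simp]
theorem seriesAut_apply (θ : k ≃+* k) (x : LaurentSeries k) :
    seriesAut θ x = coeffMap (θ : k →+* k) x := rfl

theorem seriesAut_coeff (θ : k ≃+* k) (x : LaurentSeries k) (n : ℤ) :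
    (seriesAut θ x).coeff n = θ (x.coeff n) := rfl

/-- A coefficientwise ring endomorphism preserves an intermediate field generated by series
fixed by it. -/
theorem coeffMap_mem_adjoin (f : k →+* k) (S : Set (LaurentSeries k))
    (hS : ∀ s ∈ S, coeffMap f s = s) {x : LaurentSeries k}
    (hx : x ∈ IntermediateField.adjoin k S) : coeffMap f x ∈ IntermediateField.adjoin k S := by
  have hx' : x ∈ Subfield.closure (Set.range (algebraMap k (LaurentSeries k)) ∪ S) := hx
  clear hx
  induction hx' using Subfield.closure_induction with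
  | mem y hy =>
      rcases hy with ⟨a, rfl⟩ | hy
      · rw [coeffMap_algebraMap]
        exact (IntermediateField.adjoin k S).algebraMap_mem _
      · rw [hS y hy]
        exact IntermediateField.subset_adjoin k S hy
  | one => rw [map_one]; exact one_mem _
  | add x y _ _ hx hy => rw [map_add]; exact add_mem hx hy
  | neg x _ hx => rw [map_neg]; exact neg_mem hx
  | inv x _ hx => rw [map_inv₀]; exact inv_mem hx
  | mul x y _ _ hx hy => rw [map_mul]; exact mul_mem hx hy

theorem coeffMap_jb (f : k →+* k) : coeffMap f (jqModC k) = jqModC k :=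
  map_jqModC f

theorem coeffMap_ub (f : k →+* k) (L : ℕ) : coeffMap f (GaussA.ub k L) = GaussA.ub k L :=
  Fermat.Agent.S28.RedHyp.coeffMap_intCast_comp f _

/-- Coefficientwise ring endomorphisms preserve `κ_L`. -/
theorem coeffMap_mem_kappa (f : k →+* k) (L : ℕ) {x : LaurentSeries k}
    (hx : x ∈ GaussA.kappa k L) : coeffMap f x ∈ GaussA.kappa k L := by
  refine coeffMap_mem_adjoin f _ ?_ hx
  intro s hs
  rcases hs with rfl | hs
  · exact coeffMap_jb f
  · rw [Set.mem_singleton_iff] at hs
    subst hs
    exact coeffMap_ub f L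

/-- The coefficientwise action of `θ` on `κ_L`. -/
def kappaRingAut (L : ℕ) (θ : k ≃+* k) : GaussA.kappa k L ≃+* GaussA.kappa k L where
  toFun x := ⟨coeffMap (θ : k →+* k) (x : LaurentSeries k), coeffMap_mem_kappa _ L x.2⟩
  invFun x := ⟨coeffMap (θ.symm : k →+* k) (x : LaurentSeries k), coeffMap_mem_kappa _ L x.2⟩
  left_inv x := Subtype.ext <| by
    show coeffMap (θ.symm : k →+* k) (coeffMap (θ : k →+* k) (x : LaurentSeries k))
      = (x : LaurentSeries k)
    rw [coeffMap_coeffMap,
      coeffMap_congr (g := RingHom.id k) (RingHom.ext fun a => θ.symm_apply_apply a)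
        (x : LaurentSeries k),
      coeffMap_id]
  right_inv x := Subtype.ext <| by
    show coeffMap (θ : k →+* k) (coeffMap (θ.symm : k →+* k) (x : LaurentSeries k))
      = (x : LaurentSeries k)
    rw [coeffMap_coeffMap,
      coeffMap_congr (g := RingHom.id k) (RingHom.ext fun a => θ.apply_symm_apply a)
        (x : LaurentSeries k),
      coeffMap_id]
  map_mul' x y :=
    Subtype.ext (map_mul (coeffMap (θ : k →+* k)) (x : LaurentSeries k) (y : LaurentSeries k))
  map_add' x y :=
    Subtype.ext (map_add (coeffMap (θ : k →+* k)) (x : LaurentSeries k) (y : LaurentSeries k))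

@[simp]
theorem coe_kappaRingAut_apply (L : ℕ) (θ : k ≃+* k) (x : GaussA.kappa k L) :
    (kappaRingAut L θ x : LaurentSeries k) = coeffMap (θ : k →+* k) (x : LaurentSeries k) :=
  rfl

theorem kappaRingAut_algebraMap (L : ℕ) (θ : k ≃+* k) (a : k) :
    kappaRingAut L θ (algebraMap k (GaussA.kappa k L) a)
      = algebraMap k (GaussA.kappa k L) (θ a) :=
  Subtype.ext (coeffMap_algebraMap (θ : k →+* k) a)

variable (k) in
/-- **The coefficientwise action on `κ_L`** as semilinear automorphisms (parallel to
`ModularCurve.arithmeticGalois`). -/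
def kappaGalois (L : ℕ) : (k ≃+* k) →* SemilinearAut k (GaussA.kappa k L) where
  toFun θ := ⟨(kappaRingAut L θ, θ), fun a => kappaRingAut_algebraMap L θ a⟩
  map_one' := by
    refine Subtype.ext (Prod.ext (RingEquiv.ext fun x => Subtype.ext ?_) rfl)
    show coeffMap ((1 : k ≃+* k) : k →+* k) (x : LaurentSeries k) = (x : LaurentSeries k)
    rw [show ((1 : k ≃+* k) : k →+* k) = RingHom.id k from RingHom.ext fun _ => rfl,
      coeffMap_id]
  map_mul' σ τ := by
    refine Subtype.ext (Prod.ext (RingEquiv.ext fun x => Subtype.ext ?_) rfl)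
    show coeffMap ((σ * τ : k ≃+* k) : k →+* k) (x : LaurentSeries k)
      = coeffMap (σ : k →+* k) (coeffMap (τ : k →+* k) (x : LaurentSeries k))
    rw [coeffMap_coeffMap]
    exact coeffMap_congr (RingHom.ext fun _ => rfl) _

@[simp]
theorem toRingAut_kappaGalois (L : ℕ) (θ : k ≃+* k) :
    SemilinearAut.toRingAut (kappaGalois k L θ) = kappaRingAut L θ :=
  rfl

@[simp]
theorem baseAut_kappaGalois (L : ℕ) (θ : k ≃+* k) :
    SemilinearAut.baseAut (kappaGalois k L θ) = θ :=
  rfl

theorem coe_kappaGalois_smul (L : ℕ) (θ : k ≃+* k) (x : GaussA.kappa k L) :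
    ((kappaGalois k L θ • x : GaussA.kappa k L) : LaurentSeries k)
      = coeffMap (θ : k →+* k) (x : LaurentSeries k) :=
  rfl

theorem coeff_kappaGalois_smul (L : ℕ) (θ : k ≃+* k) (x : GaussA.kappa k L) (n : ℤ) :
    ((kappaGalois k L θ • x : GaussA.kappa k L) : LaurentSeries k).coeff n
      = θ ((x : LaurentSeries k).coeff n) :=
  rfl

theorem kappaGalois_smul_jbE (L : ℕ) (θ : k ≃+* k) :
    kappaGalois k L θ • GaussA.jbE k L = GaussA.jbE k L :=
  Subtype.ext (coeffMap_jb (θ : k →+* k))

theorem kappaGalois_smul_ubE (L : ℕ) (θ : k ≃+* k) :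
    kappaGalois k L θ • GaussA.ubE k L = GaussA.ubE k L :=
  Subtype.ext (coeffMap_ub (θ : k →+* k) L)

theorem kappaGalois_smul_algebraMap (L : ℕ) (θ : k ≃+* k) (a : k) :
    kappaGalois k L θ • algebraMap k (GaussA.kappa k L) a
      = algebraMap k (GaussA.kappa k L) (θ a) :=
  kappaRingAut_algebraMap L θ a

/-! ### The coefficientwise Frobenius -/

section Frob

variable (k) (ℓ : ℕ) [ExpChar k ℓ] [PerfectRing k ℓ] (L : ℕ)

/-- **The coefficientwise Frobenius** `a ↦ a ^ ℓ` on `κ_L`. -/
def frob : SemilinearAut k (GaussA.kappa k L) := kappaGalois k L (frobeniusEquiv k ℓ)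

theorem frob_def : frob k ℓ L = kappaGalois k L (frobeniusEquiv k ℓ) := rfl

@[simp]
theorem baseAut_frob : SemilinearAut.baseAut (frob k ℓ L) = frobeniusEquiv k ℓ := rfl

theorem coe_frob_smul (x : GaussA.kappa k L) :
    ((frob k ℓ L • x : GaussA.kappa k L) : LaurentSeries k)
      = coeffMap (frobenius k ℓ) (x : LaurentSeries k) :=
  rfl

theorem coeff_frob_smul (x : GaussA.kappa k L) (n : ℤ) :
    ((frob k ℓ L • x : GaussA.kappa k L) : LaurentSeries k).coeff n
      = ((x : LaurentSeries k).coeff n) ^ ℓ :=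
  rfl

theorem frob_inv : (frob k ℓ L)⁻¹ = kappaGalois k L (frobeniusEquiv k ℓ).symm :=
  (map_inv (kappaGalois k L) (frobeniusEquiv k ℓ)).symm

theorem coeff_frob_inv_smul_pow (x : GaussA.kappa k L) (n : ℤ) :
    ((((frob k ℓ L)⁻¹ • x : GaussA.kappa k L) : LaurentSeries k).coeff n) ^ ℓ
      = (x : LaurentSeries k).coeff n := by
  rw [frob_inv]
  show ((frobeniusEquiv k ℓ).symm ((x : LaurentSeries k).coeff n)) ^ ℓ = _
  exact frobeniusEquiv_symm_pow_p k ℓ _

theorem frob_smul_algebraMap (a : k) :
    frob k ℓ L • algebraMap k (GaussA.kappa k L) a = algebraMap k (GaussA.kappa k L) (a ^ ℓ) :=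
  kappaGalois_smul_algebraMap L (frobeniusEquiv k ℓ) a

end Frob

/-! ### The residue field of a valuation subring of `ℚ̄` over `ℓ` -/

section ResidueField

variable {ℓ : ℕ} (hℓ : ℓ.Prime) (A : ValuationSubring (AlgebraicClosure ℚ))
  (hA : A.LiesOverPrime ℓ)

include hℓ hA in
theorem expChar_res : ExpChar (IsLocalRing.ResidueField A) ℓ :=
  haveI : CharP (IsLocalRing.ResidueField A) ℓ := ResField.charP A hℓ hA
  ExpChar.prime hℓ

include hℓ hA in
theorem perfectRing_res : PerfectRing (IsLocalRing.ResidueField A) ℓ :=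
  haveI : ExpChar (IsLocalRing.ResidueField A) ℓ := expChar_res hℓ A hA
  haveI : IsAlgClosed (IsLocalRing.ResidueField A) := ResField.isAlgClosed A
  inferInstance

/-- **The coefficientwise Frobenius on `κ_L`** for the residue field of `A` over `ℓ`. -/
def frobA (L : ℕ) : SemilinearAut (IsLocalRing.ResidueField A)
    (GaussA.kappa (IsLocalRing.ResidueField A) L) :=
  haveI : ExpChar (IsLocalRing.ResidueField A) ℓ := expChar_res hℓ A hA
  haveI : PerfectRing (IsLocalRing.ResidueField A) ℓ := perfectRing_res hℓ A hA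
  frob (IsLocalRing.ResidueField A) ℓ L

theorem coeff_frobA_smul (L : ℕ) (x : GaussA.kappa (IsLocalRing.ResidueField A) L) (n : ℤ) :
    ((frobA hℓ A hA L • x : GaussA.kappa (IsLocalRing.ResidueField A) L) :
      LaurentSeries (IsLocalRing.ResidueField A)).coeff n
      = ((x : LaurentSeries (IsLocalRing.ResidueField A)).coeff n) ^ ℓ :=
  rfl

theorem coeff_frobA_inv_smul_pow (L : ℕ) (x : GaussA.kappa (IsLocalRing.ResidueField A) L)
    (n : ℤ) :
    ((((frobA hℓ A hA L)⁻¹ • x : GaussA.kappa (IsLocalRing.ResidueField A) L) :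
      LaurentSeries (IsLocalRing.ResidueField A)).coeff n) ^ ℓ
      = (x : LaurentSeries (IsLocalRing.ResidueField A)).coeff n :=
  haveI : ExpChar (IsLocalRing.ResidueField A) ℓ := expChar_res hℓ A hA
  haveI : PerfectRing (IsLocalRing.ResidueField A) ℓ := perfectRing_res hℓ A hA
  coeff_frob_inv_smul_pow (IsLocalRing.ResidueField A) ℓ L x n

theorem frobA_smul_algebraMap (L : ℕ) (a : IsLocalRing.ResidueField A) :
    frobA hℓ A hA L • algebraMap (IsLocalRing.ResidueField A)
        (GaussA.kappa (IsLocalRing.ResidueField A) L) a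
      = algebraMap (IsLocalRing.ResidueField A)
        (GaussA.kappa (IsLocalRing.ResidueField A) L) (a ^ ℓ) :=
  haveI : ExpChar (IsLocalRing.ResidueField A) ℓ := expChar_res hℓ A hA
  haveI : PerfectRing (IsLocalRing.ResidueField A) ℓ := perfectRing_res hℓ A hA
  frob_smul_algebraMap (IsLocalRing.ResidueField A) ℓ L a

theorem frobA_smul_jbE (L : ℕ) :
    frobA hℓ A hA L • GaussA.jbE (IsLocalRing.ResidueField A) L
      = GaussA.jbE (IsLocalRing.ResidueField A) L :=
  kappaGalois_smul_jbE L _

theorem frobA_smul_ubE (L : ℕ) :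
    frobA hℓ A hA L • GaussA.ubE (IsLocalRing.ResidueField A) L
      = GaussA.ubE (IsLocalRing.ResidueField A) L :=
  kappaGalois_smul_ubE L _

end ResidueField

end Fermat.Agent.S37.KappaAut

end
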