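import Mathlib
import Fermat.Prelude.Def_EllipticCurve_FrobeniusTrace
import Fermat.Prelude.Def_FLTPrelim_Ramification
import Fermat.Prelude.Def_ModularCurve_ArithmeticGalois
import Fermat.Agent.S18.GaussACore
import Fermat.Agent.S18.GaussADefs
import Fermat.Agent.S28.RedHyp
import Fermat.Agent.S37.KappaAut

/-!
# S37 / PH: Frobenius, inertia and the Gauss reduction relation

* `mem_inertiaSubgroupIn_iff` : `τ ∈ A.inertiaSubgroupIn K` iff `τ` is in the decomposition group
  and acts trivially on the residue field.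
* `mul_inv_mem_inertia`, `inv_mul_mem_inertia` : two Frobenius elements differ by inertia.
* `redS_smul` (generic): the Gauss reduction relation `GaussA.RedS A j u` is equivariant for the
  decomposition group, when `j`, `u` are fixed.
* `red_smul`, `red_smul_iff` : `GaussA.Red A L f x ↔ GaussA.Red A L (σ • f) (σ̄ • x)` for `σ` in the
  decomposition group of `A`.
* `red_inertia_iff` : `GaussA.Red A L (τ • f) x ↔ GaussA.Red A L f x` for `τ` in inertia.
* `red_frobenius_iff` : `GaussA.Red A L (σ • f) (Frob • x) ↔ GaussA.Red A L f x` for a Frobenius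
  element `σ` at `A`.
-/

set_option autoImplicit false
set_option synthInstance.maxHeartbeats 400000

noncomputable section

namespace Fermat.Agent.S37.Frob

open ValuationSubring ModularCurve Polynomial Fermat.Agent.S18 Fermat.Agent.S28.Chart
  Fermat.Agent.S28.RedHyp AlgebraicCurve

section Generic

variable {K L : Type*} [Field K] [Field L] [Algebra K L]

/-- Membership in `inertiaSubgroupIn`: in the decomposition group and acting trivially on
the residue field. -/
theorem mem_inertiaSubgroupIn_iff (A : ValuationSubring L) (τ : L ≃ₐ[K] L) :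
    τ ∈ A.inertiaSubgroupIn K ↔
      ∃ hτ : τ ∈ A.decompositionSubgroup K,
        ∀ x : IsLocalRing.ResidueField A, (⟨τ, hτ⟩ : A.decompositionSubgroup K) • x = x := by
  unfold ValuationSubring.inertiaSubgroupIn
  constructor
  · rintro ⟨g, hg, rfl⟩
    refine ⟨g.2, fun x => ?_⟩
    have h1 : MulSemiringAction.toRingAut (A.decompositionSubgroup K)
        (IsLocalRing.ResidueField A) g = 1 := hg
    have h2 := congrArg (fun e : RingAut (IsLocalRing.ResidueField A) => e x) h1
    simpa using h2
  · rintro ⟨hτ, h⟩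
    refine ⟨⟨τ, hτ⟩, ?_, rfl⟩
    show MulSemiringAction.toRingAut (A.decompositionSubgroup K)
        (IsLocalRing.ResidueField A) ⟨τ, hτ⟩ = 1
    ext x
    exact h x

/-- Inertia elements lie in the decomposition group. -/
theorem inertiaSubgroupIn_le_decomposition (A : ValuationSubring L) :
    A.inertiaSubgroupIn K ≤ A.decompositionSubgroup K := by
  intro τ hτ
  exact ((mem_inertiaSubgroupIn_iff A τ).1 hτ).1

/-- Two Frobenius elements at the same place differ by inertia. -/
theorem mul_inv_mem_inertia (A : ValuationSubring L) {σ σ' : L ≃ₐ[K] L} {q : ℕ}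
    (h : A.IsFrobeniusAt σ q) (h' : A.IsFrobeniusAt σ' q) :
    σ' * σ⁻¹ ∈ A.inertiaSubgroupIn K := by
  rw [mem_inertiaSubgroupIn_iff]
  obtain ⟨hσ, hF⟩ := h
  obtain ⟨hσ', hF'⟩ := h'
  refine ⟨(A.decompositionSubgroup K).mul_mem hσ' ((A.decompositionSubgroup K).inv_mem hσ),
    fun x => ?_⟩
  set g : A.decompositionSubgroup K := ⟨σ, hσ⟩ with hg
  set g' : A.decompositionSubgroup K := ⟨σ', hσ'⟩ with hg'
  have hmul : (⟨σ' * σ⁻¹, (A.decompositionSubgroup K).mul_mem hσ'
      ((A.decompositionSubgroup K).inv_mem hσ)⟩ : A.decompositionSubgroup K) = g' * g⁻¹ := rfl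
  rw [hmul, mul_smul]
  rw [hF' (g⁻¹ • x), ← hF (g⁻¹ • x), smul_inv_smul]

/-- Variant: `σ⁻¹ * σ'` is in inertia. -/
theorem inv_mul_mem_inertia (A : ValuationSubring L) {σ σ' : L ≃ₐ[K] L} {q : ℕ}
    (h : A.IsFrobeniusAt σ q) (h' : A.IsFrobeniusAt σ' q) :
    σ⁻¹ * σ' ∈ A.inertiaSubgroupIn K := by
  rw [mem_inertiaSubgroupIn_iff]
  obtain ⟨hσ, hF⟩ := h
  obtain ⟨hσ', hF'⟩ := h'
  refine ⟨(A.decompositionSubgroup K).mul_mem ((A.decompositionSubgroup K).inv_mem hσ) hσ',
    fun x => ?_⟩
  set g : A.decompositionSubgroup K := ⟨σ, hσ⟩ with hg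
  set g' : A.decompositionSubgroup K := ⟨σ', hσ'⟩ with hg'
  have hmul : (⟨σ⁻¹ * σ', (A.decompositionSubgroup K).mul_mem
      ((A.decompositionSubgroup K).inv_mem hσ) hσ'⟩ : A.decompositionSubgroup K) = g⁻¹ * g' := rfl
  rw [hmul, mul_smul, hF' x, ← hF x, inv_smul_smul]

variable (A : ValuationSubring L)

/-- The action of an element of the decomposition group on `A`, as a ring hom. -/
def actA (g : A.decompositionSubgroup K) : A →+* A :=
  MulSemiringAction.toRingHom (A.decompositionSubgroup K) A g

/-- The action of an element of the decomposition group on the residue field, as a ring hom. -/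
def actRes (g : A.decompositionSubgroup K) :
    IsLocalRing.ResidueField A →+* IsLocalRing.ResidueField A :=
  MulSemiringAction.toRingHom (A.decompositionSubgroup K) (IsLocalRing.ResidueField A) g

theorem actA_apply (g : A.decompositionSubgroup K) (a : A) : actA A g a = g • a := rfl

theorem actRes_apply (g : A.decompositionSubgroup K) (x : IsLocalRing.ResidueField A) :
    actRes A g x = g • x := rfl

theorem coe_actA (g : A.decompositionSubgroup K) (a : A) :
    ((actA A g a : A) : L) = (g : L ≃ₐ[K] L) (a : L) := rfl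

theorem subtype_comp_actA (g : A.decompositionSubgroup K) :
    A.subtype.comp (actA A g) = (((g : L ≃ₐ[K] L) : L ≃ₐ[K] L) : L →+* L).comp A.subtype :=
  RingHom.ext fun _ => rfl

theorem residue_comp_actA (g : A.decompositionSubgroup K) :
    (IsLocalRing.residue A).comp (actA A g) = (actRes A g).comp (IsLocalRing.residue A) :=
  RingHom.ext fun a => IsLocalRing.ResidueField.residue_smul _ g a

theorem actRes_injective (g : A.decompositionSubgroup K) : Function.Injective (actRes A g) :=
  (actRes A g).injective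

theorem actRes_eq_toRingAut (g : A.decompositionSubgroup K) :
    actRes A g = ((MulSemiringAction.toRingAut (A.decompositionSubgroup K)
      (IsLocalRing.ResidueField A) g : IsLocalRing.ResidueField A ≃+* IsLocalRing.ResidueField A) :
        IsLocalRing.ResidueField A →+* IsLocalRing.ResidueField A) :=
  RingHom.ext fun _ => rfl

/-- **Equivariance of the Gauss reduction relation** under the decomposition group: if the
integral series `j`, `u` are fixed by `g` (coefficientwise), then `RedS x y` implies
`RedS (g x) (ḡ y)`. -/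
theorem redS_smul (g : A.decompositionSubgroup K) {j u : LaurentSeries A}
    (hj : coeffMap (actA A g) j = j) (hu : coeffMap (actA A g) u = u)
    {x : LaurentSeries L} {y : LaurentSeries (IsLocalRing.ResidueField A)}
    (h : GaussA.RedS A j u x y) :
    GaussA.RedS A j u (coeffMap (((g : L ≃ₐ[K] L) : L ≃ₐ[K] L) : L →+* L) x)
      (coeffMap (actRes A g) y) := by
  obtain ⟨p, r, hp, h1, h2⟩ := h
  have e1 : ev1 HahnSeries.C j (p.map (actA A g)) = coeffMap (actA A g) (ev1 HahnSeries.C j p) := by
    rw [coeffMap_ev1, hj]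
  have e2 : ev2 HahnSeries.C j u (r.map (mapRingHom (actA A g)))
      = coeffMap (actA A g) (ev2 HahnSeries.C j u r) := by
    rw [coeffMap_ev2, hj, hu]
  have c1 : ∀ z : LaurentSeries A, coeffMap A.subtype (coeffMap (actA A g) z)
      = coeffMap (((g : L ≃ₐ[K] L) : L ≃ₐ[K] L) : L →+* L) (coeffMap A.subtype z) := by
    intro z
    rw [coeffMap_coeffMap, coeffMap_coeffMap, subtype_comp_actA]
  have c2 : ∀ z : LaurentSeries A, coeffMap (IsLocalRing.residue A) (coeffMap (actA A g) z)
      = coeffMap (actRes A g) (coeffMap (IsLocalRing.residue A) z) := by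
    intro z
    rw [coeffMap_coeffMap, coeffMap_coeffMap, residue_comp_actA]
  refine ⟨p.map (actA A g), r.map (mapRingHom (actA A g)), ?_, ?_, ?_⟩
  · rw [Polynomial.map_map, residue_comp_actA, ← Polynomial.map_map]
    intro h0
    apply hp
    exact Polynomial.map_injective _ (actRes_injective A g) (by rw [h0, Polynomial.map_zero])
  · rw [e1, e2, c1, c1, ← map_mul, h1]
  · rw [e1, e2, c2, c2, ← map_mul, h2]

end Generic

section Concrete

variable (A : ValuationSubring (AlgebraicClosure ℚ)) (L : ℕ)

theorem coeffMap_actA_jq (g : A.decompositionSubgroup ℚ) :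
    coeffMap (actA A g) (jqModC A) = jqModC A :=
  map_jqModC _

theorem coeffMap_actA_uA (g : A.decompositionSubgroup ℚ) :
    coeffMap (actA A g) (GaussA.uA A L) = GaussA.uA A L :=
  coeffMap_intCast_comp _ _

/-- The automorphism of the residue field induced by an element of the decomposition group. -/
def resAut (g : A.decompositionSubgroup ℚ) :
    IsLocalRing.ResidueField A ≃+* IsLocalRing.ResidueField A :=
  MulSemiringAction.toRingAut (A.decompositionSubgroup ℚ) (IsLocalRing.ResidueField A) g

theorem resAut_apply (g : A.decompositionSubgroup ℚ) (x : IsLocalRing.ResidueField A) :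
    resAut A g x = g • x := rfl

theorem resAut_inv (g : A.decompositionSubgroup ℚ) : resAut A g⁻¹ = (resAut A g)⁻¹ :=
  map_inv (MulSemiringAction.toRingAut (A.decompositionSubgroup ℚ) (IsLocalRing.ResidueField A)) g

/-- **Red is equivariant for the decomposition group** (one direction). -/
theorem red_smul (g : A.decompositionSubgroup ℚ) {f : modularFunctionFieldBar L}
    {x : GaussA.kappa (IsLocalRing.ResidueField A) L} (h : GaussA.Red A L f x) :
    GaussA.Red A L
      (arithmeticGalois (modularFunctionFieldFull L)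
        ((g : AlgebraicClosure ℚ ≃ₐ[ℚ] AlgebraicClosure ℚ)) • f)
      (KappaAut.kappaGalois (IsLocalRing.ResidueField A) L (resAut A g) • x) :=
  redS_smul A g (coeffMap_actA_jq A g) (coeffMap_actA_uA A L g) h

/-- **Red is equivariant for the decomposition group.** -/
theorem red_smul_iff (g : A.decompositionSubgroup ℚ) (f : modularFunctionFieldBar L)
    (x : GaussA.kappa (IsLocalRing.ResidueField A) L) :
    GaussA.Red A L
      (arithmeticGalois (modularFunctionFieldFull L)
        ((g : AlgebraicClosure ℚ ≃ₐ[ℚ] AlgebraicClosure ℚ)) • f)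
      (KappaAut.kappaGalois (IsLocalRing.ResidueField A) L (resAut A g) • x) ↔
    GaussA.Red A L f x := by
  refine ⟨fun h => ?_, red_smul A L g⟩
  have h' := red_smul A L g⁻¹ h
  rw [resAut_inv, Subgroup.coe_inv, map_inv, map_inv, inv_smul_smul, inv_smul_smul] at h'
  exact h'

/-- **Inertia acts trivially through Red**: `Red (τ • f) x ↔ Red f x` for `τ` in the inertia
group of `A`. -/
theorem red_inertia_iff {τ : AlgebraicClosure ℚ ≃ₐ[ℚ] AlgebraicClosure ℚ}
    (hτ : τ ∈ A.inertiaSubgroupIn ℚ) (f : modularFunctionFieldBar L)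
    (x : GaussA.kappa (IsLocalRing.ResidueField A) L) :
    GaussA.Red A L (arithmeticGalois (modularFunctionFieldFull L) τ • f) x ↔
      GaussA.Red A L f x := by
  obtain ⟨hτD, hτx⟩ := (mem_inertiaSubgroupIn_iff A τ).1 hτ
  have h1 : resAut A ⟨τ, hτD⟩ = 1 := RingEquiv.ext fun x => hτx x
  have h := red_smul_iff A L ⟨τ, hτD⟩ f x
  rw [h1, map_one, one_smul] at h
  exact h

/-- **Frobenius acts through Red as the coefficientwise Frobenius**:
`Red (σ • f) (Frob • x) ↔ Red f x` for a Frobenius element `σ` at `A`. -/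
theorem red_frobenius_iff {ℓ : ℕ} (hℓ : ℓ.Prime) (hA : A.LiesOverPrime ℓ)
    {σ : AlgebraicClosure ℚ ≃ₐ[ℚ] AlgebraicClosure ℚ} (hσ : A.IsFrobeniusAt σ ℓ)
    (f : modularFunctionFieldBar L) (x : GaussA.kappa (IsLocalRing.ResidueField A) L) :
    GaussA.Red A L (arithmeticGalois (modularFunctionFieldFull L) σ • f)
        (KappaAut.frobA hℓ A hA L • x) ↔
      GaussA.Red A L f x := by
  obtain ⟨hσD, hσx⟩ := hσ
  have : ExpChar (IsLocalRing.ResidueField A) ℓ := KappaAut.expChar_res hℓ A hA
  have : PerfectRing (IsLocalRing.ResidueField A) ℓ := KappaAut.perfectRing_res hℓ A hA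
  have h1 : resAut A ⟨σ, hσD⟩ = frobeniusEquiv (IsLocalRing.ResidueField A) ℓ :=
    RingEquiv.ext fun x => hσx x
  have h := red_smul_iff A L ⟨σ, hσD⟩ f x
  rw [h1] at h
  exact h

end Concrete

section Pic

variable (N : ℕ)

/-- The Galois action on `J₀(N)` on a class: `σ • [D] = [σ • D]`, where `σ` acts on divisors
through `arithmeticGalois` (coefficientwise action on `q`-expansions). -/
theorem jzero_smul_mk (σ : AlgebraicClosure ℚ ≃ₐ[ℚ] AlgebraicClosure ℚ)
    (D : Divisor.degZero (K := AlgebraicClosure ℚ) (F := modularFunctionFieldBar N)) :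
    σ • (Pic0.mk D : JZero N)
      = Pic0.mk (SemilinearAut.degZeroSMulHom
          (arithmeticGalois (modularFunctionFieldFull N) σ) D) :=
  rfl

/-- The underlying divisor of the representative of `σ • [D]`. -/
theorem coe_degZeroSMulHom_arithmeticGalois (σ : AlgebraicClosure ℚ ≃ₐ[ℚ] AlgebraicClosure ℚ)
    (D : Divisor.degZero (K := AlgebraicClosure ℚ) (F := modularFunctionFieldBar N)) :
    ((SemilinearAut.degZeroSMulHom (arithmeticGalois (modularFunctionFieldFull N) σ) D :
        Divisor.degZero (K := AlgebraicClosure ℚ) (F := modularFunctionFieldBar N)) :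
      Divisor (AlgebraicClosure ℚ) (modularFunctionFieldBar N))
      = arithmeticGalois (modularFunctionFieldFull N) σ •
          (D : Divisor (AlgebraicClosure ℚ) (modularFunctionFieldBar N)) :=
  rfl

/-- `σ • [D] - [D]` is the class of `σ • D - D`. -/
theorem jzero_smul_mk_sub (σ : AlgebraicClosure ℚ ≃ₐ[ℚ] AlgebraicClosure ℚ)
    (D : Divisor.degZero (K := AlgebraicClosure ℚ) (F := modularFunctionFieldBar N)) :
    σ • (Pic0.mk D : JZero N) - Pic0.mk D
      = Pic0.mk (SemilinearAut.degZeroSMulHom
          (arithmeticGalois (modularFunctionFieldFull N) σ) D - D) :=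
  rfl

end Pic

end Fermat.Agent.S37.Frob

end
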