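import Mathlib
import Fermat.Prelude.Def_AlgebraicCurve_DivisorPushPull
import Fermat.Prelude.Def_AlgebraicCurve_Correspondence
import Fermat.Agent.RR.Defs
import Fermat.Agent.RR.RiemannFacts
import Fermat.Agent.S24.Principal
import Fermat.Agent.S18.GenusGeRat

/-!
# S37 / FundId (PA1): the fundamental identity `∑ e_w f_w = [F' : F]`

`F ⊆ F'` function fields over `K` (any characteristic), both satisfying the place facts
`RR.PlaceFacts` (in particular all places have degree one).  For every place `v` of `F`

  `∑_{w | v} e(w | v) = [F' : F]`,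

hence `FundamentalIdentity K F F'` (and the `Along` form for an embedding `φ : F →ₐ[K] F'`).

Proof: Riemann's theorem on `F` gives `y : F`, transcendental, whose only zero is `v`
(`exists_single_zero`).  The degree formula `PlaceFacts.hsum` for `y` on `F` reads
`ord_v y = [F : K(y)]`; for `y` on `F'` it reads `∑_{w | v} e_w ord_v y = [F' : K(y)]`
(`Place.ord_restrict`: the zeros of `y` on `F'` are the places over `v`).  The tower law
`[F' : K(y)] = [F : K(y)] [F' : F]` finishes.
-/

set_option autoImplicit false

noncomputable section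

namespace Fermat.Agent.S37.FundId

open AlgebraicCurve IntermediateField

section Single

variable {K F : Type*} [Field K] [Field F] [Algebra K F]

/-- **A function with a single zero.**  For every place `v` there is a transcendental `y`
whose only zero is `v`. -/
theorem exists_single_zero (hP : Fermat.Agent.RR.PlaceFacts K F) (v : Place K F) :
    ∃ y : F, Transcendental K y ∧ 0 < v.ord y ∧ ∀ v' : Place K F, v' ≠ v → v'.ord y ≤ 0 := by
  classical
  have hR := Fermat.Agent.RR.riemannFacts_of_placeFacts hP
  set g : ℕ := Module.finrank K (H1 (0 : Divisor K F)) with hg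
  set D : Divisor K F := Finsupp.single v ((g : ℤ) + 1) with hD
  have hdeg : Divisor.degree D = (g : ℤ) + 1 := by
    rw [hD, Divisor.degree_single, hP.hdeg v]; norm_num
  have hriem := hR.riemann D
  rw [hdeg] at hriem
  have := hR.finite_L D
  have h2 : 1 < Module.finrank K (riemannRochSpace D) := by
    have : (0 : ℤ) ≤ (Module.finrank K (H1 D) : ℤ) := Int.natCast_nonneg _
    have h3 : (2 : ℤ) ≤ (Module.finrank K (riemannRochSpace D) : ℤ) := by
      rw [← hg] at hriem
      linarith
    omega
  -- `1 ∈ L(D)`
  have hone : (1 : F) ∈ riemannRochSpace D := by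
    rw [mem_riemannRochSpace_iff]
    intro v'
    right
    rw [Place.ord_one, hD]
    by_cases hv : v' = v
    · subst hv
      rw [Finsupp.single_eq_same]
      have : (0 : ℤ) ≤ (g : ℤ) := Int.natCast_nonneg _
      omega
    · rw [Finsupp.single_apply, if_neg (Ne.symm hv)]; simp
  have hone0 : (⟨1, hone⟩ : riemannRochSpace D) ≠ 0 := by
    intro h
    exact one_ne_zero (congrArg Subtype.val h)
  obtain ⟨y, hy⟩ := exists_linearIndependent_pair_of_one_lt_finrank h2 hone0
  set t : F := (y : F) with ht
  have htmem : t ∈ riemannRochSpace D := y.2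
  -- `t` is not a constant
  have hnc : ∀ c : K, t ≠ algebraMap K F c := by
    intro c hc
    have hdep := LinearIndependent.pair_iff.mp hy (-c) 1 (by
      apply Subtype.ext
      show (-c) • (1 : F) + (1 : K) • (y : F) = 0
      rw [← ht, hc, Algebra.smul_def, mul_one, one_smul, map_neg, neg_add_cancel])
    exact one_ne_zero hdep.2
  have ht0 : t ≠ 0 := fun h => hnc 0 (by rw [h, map_zero])
  -- `t` is transcendental
  have htr : Transcendental K t := by
    intro halg
    have hmem0 : t ∈ riemannRochSpace (0 : Divisor K F) := by
      rw [mem_riemannRochSpace_iff]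
      intro v'
      right
      rw [Fermat.Agent.S24.Principal.ord_eq_zero_of_isAlgebraic v' halg]
      simp
    have hone' : (1 : F) ∈ riemannRochSpace (0 : Divisor K F) := by
      rw [mem_riemannRochSpace_iff]
      intro v'
      right
      simp
    have hne : (⟨1, hone'⟩ : riemannRochSpace (0 : Divisor K F)) ≠ 0 := by
      intro h
      exact one_ne_zero (congrArg Subtype.val h)
    obtain ⟨c, hc⟩ := (finrank_eq_one_iff_of_nonzero' _ hne).mp hR.finrank_L_zero ⟨t, hmem0⟩
    apply hnc c
    have := congrArg Subtype.val hc
    simp only [SetLike.val_smul] at this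
    rw [← this, Algebra.smul_def, mul_one]
  have hord : ∀ v' : Place K F, -D v' ≤ v'.ord t := fun v' =>
    ((mem_riemannRochSpace_iff.mp htmem) v').resolve_left ht0
  have hreg : ∀ v' : Place K F, v' ≠ v → 0 ≤ v'.ord t := by
    intro v' hv
    have := hord v'
    rw [hD, Finsupp.single_apply, if_neg (Ne.symm hv)] at this
    simpa using this
  obtain ⟨v₀, hv₀⟩ := Fermat.Agent.S18.GenusGe.exists_pole hP htr
  have hv₀P : v₀ = v := by
    by_contra hne
    have := hreg v₀ hne
    omega
  rw [hv₀P] at hv₀
  refine ⟨t⁻¹, Fermat.Agent.S24.Principal.transcendental_inv htr, ?_, ?_⟩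
  · rw [v.ord_inv]; omega
  · intro v' hv'
    rw [v'.ord_inv]
    have := hreg v' hv'
    omega

/-- For `y` with a single zero at `v`: `ord_v y = [F : K(y)]`. -/
theorem ord_eq_finrank_of_single_zero (hP : Fermat.Agent.RR.PlaceFacts K F) {v : Place K F}
    {y : F} (hy : Transcendental K y) (hpos : 0 < v.ord y)
    (hle : ∀ v' : Place K F, v' ≠ v → v'.ord y ≤ 0) :
    v.ord y = (Module.finrank K⟮y⟯ F : ℤ) := by
  have hsum := hP.hsum y hy
  have hset : {v' : Place K F | 0 < v'.ord y} = {v} := by
    ext v'
    rw [Set.mem_singleton_iff]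
    show 0 < v'.ord y ↔ v' = v
    constructor
    · intro hv
      by_contra hne
      have := hle v' hne
      omega
    · rintro rfl
      exact hpos
  rw [hset, finsum_mem_singleton] at hsum
  exact hsum

end Single

section Tower

variable {K F F' : Type*} [Field K] [Field F] [Field F']
  [Algebra K F] [Algebra K F'] [Algebra F F'] [IsScalarTower K F F']

/-- The tower law for `K(y) ≤ F ≤ F'`, with `K(y)` taken inside `F'`. -/
theorem finrank_adjoin_algebraMap_mul (y : F) :
    Module.finrank K⟮algebraMap F F' y⟯ F'
      = Module.finrank K⟮y⟯ F * Module.finrank F F' := by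
  have hmap : K⟮algebraMap F F' y⟯ = (K⟮y⟯).map (IsScalarTower.toAlgHom K F F') := by
    have h1 := IntermediateField.adjoin_map K {y} (IsScalarTower.toAlgHom K F F')
    rw [Set.image_singleton] at h1
    exact h1.symm
  rw [hmap]
  -- `F'` is a `K(y)`-algebra through `F` (Mathlib instance)
  rw [Module.finrank_mul_finrank K⟮y⟯ F F']
  symm
  refine Algebra.finrank_eq_of_equiv_equiv
    (IntermediateField.equivMap K⟮y⟯ (IsScalarTower.toAlgHom K F F')).toRingEquiv
    (RingEquiv.refl F') ?_
  ext x
  rfl

theorem transcendental_algebraMap {y : F} (hy : Transcendental K y) :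
    Transcendental K (algebraMap F F' y) := by
  intro halg
  exact hy ((isAlgebraic_algebraMap_iff (algebraMap F F').injective).mp halg)

/-- An extension of function fields (both with the place facts) is finite. -/
theorem finite_of_placeFacts (hP : Fermat.Agent.RR.PlaceFacts K F)
    (hP' : Fermat.Agent.RR.PlaceFacts K F') : Module.Finite F F' := by
  obtain ⟨y, hy⟩ := hP.htr
  have := hP'.hfd _ (transcendental_algebraMap (F' := F') hy)
  have hpos : 0 < Module.finrank K⟮algebraMap F F' y⟯ F' := Module.finrank_pos
  rw [finrank_adjoin_algebraMap_mul] at hpos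
  refine Module.finite_of_finrank_pos (Nat.pos_of_ne_zero fun h0 => ?_)
  rw [h0, Nat.mul_zero] at hpos
  exact lt_irrefl 0 hpos

theorem finrank_pos_of_placeFacts (hP : Fermat.Agent.RR.PlaceFacts K F)
    (hP' : Fermat.Agent.RR.PlaceFacts K F') : 0 < Module.finrank F F' := by
  have := finite_of_placeFacts hP hP'
  exact Module.finrank_pos

variable [Algebra.IsIntegral F F'] [HasPrincipalDivisors K F']

/-- **The fundamental identity, degree-one form**: `∑_{w | v} e(w | v) = [F' : F]`. -/
theorem sum_ramificationIndex (hP : Fermat.Agent.RR.PlaceFacts K F)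
    (hP' : Fermat.Agent.RR.PlaceFacts K F') (v : Place K F) :
    ∑ w ∈ v.fiber F', (w.ramificationIndex F : ℤ) = (Module.finrank F F' : ℤ) := by
  classical
  obtain ⟨y, hy, hpos, hle⟩ := exists_single_zero hP v
  have hn := ord_eq_finrank_of_single_zero hP hy hpos hle
  have hy' : Transcendental K (algebraMap F F' y) := transcendental_algebraMap hy
  have hsum := hP'.hsum (algebraMap F F' y) hy'
  have hset : {w : Place K F' | 0 < w.ord (algebraMap F F' y)} = ↑(v.fiber F') := by
    ext w
    rw [Finset.mem_coe, Place.mem_fiber]
    show 0 < w.ord (algebraMap F F' y) ↔ w.restrict F = v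
    have he : (0 : ℤ) < (Place.ramificationIndex (F := F) w : ℤ) := by
      exact_mod_cast w.ramificationIndex_pos (F := F)
    rw [w.ord_restrict y]
    constructor
    · intro hw
      by_contra hne
      have h1 := hle (w.restrict F) hne
      have : (Place.ramificationIndex (F := F) w : ℤ) * (w.restrict F).ord y ≤ 0 :=
        mul_nonpos_of_nonneg_of_nonpos he.le h1
      omega
    · intro hw
      rw [hw]
      exact mul_pos he hpos
  rw [hset, finsum_mem_coe_finset, finrank_adjoin_algebraMap_mul] at hsum
  have hsum' : (∑ w ∈ v.fiber F', (w.ramificationIndex F : ℤ)) * v.ord y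
      = (Module.finrank F F' : ℤ) * v.ord y := by
    rw [Finset.sum_mul]
    have : ∑ w ∈ v.fiber F', (w.ramificationIndex F : ℤ) * v.ord y
        = ∑ w ∈ v.fiber F', w.ord (algebraMap F F' y) := by
      refine Finset.sum_congr rfl fun w hw => ?_
      rw [w.ord_restrict y, Place.mem_fiber.mp hw]
    rw [this, hsum, hn]
    push_cast
    ring
  exact mul_right_cancel₀ (by omega : v.ord y ≠ 0) hsum'

/-- Every place of `F` has a place of `F'` above it. -/
theorem fiber_nonempty (hP : Fermat.Agent.RR.PlaceFacts K F)
    (hP' : Fermat.Agent.RR.PlaceFacts K F') (v : Place K F) : (v.fiber F').Nonempty := by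
  by_contra hne
  rw [Finset.not_nonempty_iff_eq_empty] at hne
  have h := sum_ramificationIndex hP hP' v
  rw [hne, Finset.sum_empty] at h
  have := finrank_pos_of_placeFacts hP hP'
  omega

/-- Restriction of places `Place K F' → Place K F` is surjective. -/
theorem exists_restrict_eq (hP : Fermat.Agent.RR.PlaceFacts K F)
    (hP' : Fermat.Agent.RR.PlaceFacts K F') (v : Place K F) :
    ∃ w : Place K F', w.restrict F = v := by
  obtain ⟨w, hw⟩ := fiber_nonempty hP hP' v
  exact ⟨w, Place.mem_fiber.mp hw⟩

/-- Each ramification index is at most the degree. -/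
theorem ramificationIndex_le_finrank (hP : Fermat.Agent.RR.PlaceFacts K F)
    (hP' : Fermat.Agent.RR.PlaceFacts K F') (w : Place K F') :
    w.ramificationIndex F ≤ Module.finrank F F' := by
  have h := sum_ramificationIndex hP hP' (w.restrict F)
  have hle : (w.ramificationIndex F : ℤ)
      ≤ ∑ w' ∈ (w.restrict F).fiber F', (w'.ramificationIndex F : ℤ) :=
    Finset.single_le_sum (f := fun w' : Place K F' => (w'.ramificationIndex F : ℤ))
      (fun _ _ => Int.natCast_nonneg _) (Place.restrict_mem_fiber w)
  rw [h] at hle
  exact_mod_cast hle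

/-- The number of places above `v` is at most the degree. -/
theorem card_fiber_le_finrank (hP : Fermat.Agent.RR.PlaceFacts K F)
    (hP' : Fermat.Agent.RR.PlaceFacts K F') (v : Place K F) :
    (v.fiber F').card ≤ Module.finrank F F' := by
  have h := sum_ramificationIndex hP hP' v
  have hle : ((v.fiber F').card : ℤ) ≤ ∑ w ∈ v.fiber F', (w.ramificationIndex F : ℤ) := by
    have : ((v.fiber F').card : ℤ) = ∑ _w ∈ v.fiber F', (1 : ℤ) := by simp
    rw [this]
    refine Finset.sum_le_sum fun w _ => ?_
    have := w.ramificationIndex_pos (F := F)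
    omega
  rw [h] at hle
  exact_mod_cast hle

/-- **The fundamental identity** for an extension of function fields satisfying the place
facts (all places of degree one). -/
theorem fundamentalIdentity (hP : Fermat.Agent.RR.PlaceFacts K F)
    (hP' : Fermat.Agent.RR.PlaceFacts K F') : FundamentalIdentity K F F' where
  sum_ramificationIndex_mul_deg v := by
    rw [hP.hdeg v, ← sum_ramificationIndex hP hP' v]
    push_cast
    rw [Finset.sum_mul]
    refine Finset.sum_congr rfl fun w _ => ?_
    rw [hP'.hdeg w]
    push_cast
    rfl

end Tower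

section Along

variable {K F F' : Type*} [Field K] [Field F] [Field F'] [Algebra K F] [Algebra K F']
  [HasPrincipalDivisors K F']

/-- **The fundamental identity along an embedding** `φ : F →ₐ[K] F'`. -/
theorem fundamentalIdentityAlong (φ : F →ₐ[K] F') (hφ : φ.toRingHom.IsIntegral)
    (hP : Fermat.Agent.RR.PlaceFacts K F) (hP' : Fermat.Agent.RR.PlaceFacts K F') :
    FundamentalIdentityAlong K φ hφ := by
  let _ := algebraAlong φ
  have := isScalarTower_along φ
  have := isIntegral_along φ hφ
  exact fundamentalIdentity hP hP'

end Along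

end Fermat.Agent.S37.FundId
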