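import Mathlib
import Fermat.Prelude.Def_ModularCurve_HeckeOperatorTotal
import Fermat.Agent.S18.ConstPF

/-!
# S37 / PA3 (first half): finiteness and integrality of the two degeneracy maps

Generic: for `φ : E →ₐ[K] E'` between fields over `K`, if `E'` is finite over `K(φ x)` for some
`x : E`, then `E'` is finite along `φ` (`finiteAlong_of_finite_adjoin`), hence integral along `φ`
(`isIntegral_of_finiteAlong`).

Modular (over `ℚ̄`, any `N`, `ℓ ≠ 0`): `placeFacts`, `hasPrincipalDivisors` (any level),
`finiteAlong_alpha`, `finiteAlong_beta`, `alphaIntegral : HeckeAlphaBarIntegral ℚ̄ N ℓ`,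
`betaIntegral : HeckeBetaBarIntegral ℚ̄ N ℓ`.
-/

set_option autoImplicit false
set_option linter.style.haveILetI false

namespace Fermat.Agent.S37.HeckeFin

open AlgebraicCurve IntermediateField ModularCurve

section Generic

variable {K E E' : Type*} [Field K] [Field E] [Field E'] [Algebra K E] [Algebra K E']

/-- If `E'` is finite over `K(φ x)` for some `x : E`, then `E'` is finite over `E` along `φ`. -/
theorem finiteAlong_of_finite_adjoin (φ : E →ₐ[K] E') (x : E)
    (hfd : FiniteDimensional K⟮φ x⟯ E') : FiniteAlong K φ := by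
  letI := algebraAlong φ
  show Module.Finite E E'
  have hle : K⟮φ x⟯ ≤ φ.fieldRange := by
    rw [IntermediateField.adjoin_le_iff]
    rintro _ rfl
    exact ⟨x, rfl⟩
  letI : Algebra ↥K⟮φ x⟯ ↥φ.fieldRange := (IntermediateField.inclusion hle).toRingHom.toAlgebra
  haveI : IsScalarTower ↥K⟮φ x⟯ ↥φ.fieldRange E' := IsScalarTower.of_algebraMap_eq fun _ => rfl
  haveI : Module.Finite ↥φ.fieldRange E' := Module.Finite.of_restrictScalars_finite ↥K⟮φ x⟯ _ _
  let e : E ≃+* ↥φ.fieldRange := (AlgEquiv.ofInjectiveField φ).toRingEquiv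
  refine Module.Finite.of_equiv_equiv e.symm (RingEquiv.refl E') ?_
  ext r
  obtain ⟨y, rfl⟩ := e.surjective r
  simp only [RingHom.coe_comp, RingHom.coe_coe, Function.comp_apply, RingEquiv.symm_apply_apply,
    RingEquiv.refl_apply]
  rfl

/-- Finite along `φ` implies integral along `φ`. -/
theorem isIntegral_of_finiteAlong (φ : E →ₐ[K] E') (h : FiniteAlong K φ) :
    φ.toRingHom.IsIntegral := by
  letI := algebraAlong φ
  haveI : Module.Finite E E' := h
  intro z
  exact (Algebra.IsIntegral.of_finite E E').isIntegral z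

/-- Transcendence is preserved by `K`-algebra homomorphisms of fields. -/
theorem transcendental_algHom (φ : E →ₐ[K] E') {x : E} (hx : Transcendental K x) :
    Transcendental K (φ x) := by
  intro halg
  exact hx ((isAlgebraic_algHom_iff φ φ.injective).mp halg)

/-- With the place facts on the target and a transcendental element in the source, every
`K`-algebra homomorphism of function fields is finite. -/
theorem finiteAlong_of_placeFacts (φ : E →ₐ[K] E') (hP' : Fermat.Agent.RR.PlaceFacts K E')
    {x : E} (hx : Transcendental K x) : FiniteAlong K φ :=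
  finiteAlong_of_finite_adjoin φ x (hP'.hfd _ (transcendental_algHom φ hx))

end Generic

section Modular

local notation "Qb" => AlgebraicClosure ℚ

/-- The place facts of `F_M` over `ℚ̄` (from S24 side A, via `S18/ConstPF`). -/
theorem placeFacts (M : ℕ) [NeZero M] :
    Fermat.Agent.RR.PlaceFacts Qb (modularFunctionFieldBar M) :=
  Fermat.Agent.S18.ConstPF.placeFacts_bar M

/-- Principal divisors exist on `F_M` over `ℚ̄`. -/
theorem hasPrincipalDivisors (M : ℕ) [NeZero M] :
    HasPrincipalDivisors Qb (modularFunctionFieldBar M) :=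
  Fermat.Agent.S24.hasPrincipalDivisors_of (placeFacts M).hdeg (placeFacts M).hfin
    (placeFacts M).hsum

variable (N ℓ : ℕ) [NeZero N] [NeZero ℓ]

/-- `F_{Nℓ}` is finite over `F_N` along the inclusion `α`. -/
theorem finiteAlong_alpha : FiniteAlong Qb (heckeAlphaBar Qb N ℓ) :=
  finiteAlong_of_placeFacts _ (placeFacts (N * ℓ)) (Fermat.Agent.S24.transcendental_xgen Qb N)

/-- `F_{Nℓ}` is finite over `F_N` along `β : f(q) ↦ f(q^ℓ)`. -/
theorem finiteAlong_beta : FiniteAlong Qb (heckeBetaBar Qb N ℓ) :=
  finiteAlong_of_placeFacts _ (placeFacts (N * ℓ)) (Fermat.Agent.S24.transcendental_xgen Qb N)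

/-- The inclusion `α : F_N → F_{Nℓ}` is integral. -/
theorem alphaIntegral : HeckeAlphaBarIntegral Qb N ℓ :=
  isIntegral_of_finiteAlong _ (finiteAlong_alpha N ℓ)

/-- `β : F_N → F_{Nℓ}`, `f(q) ↦ f(q^ℓ)`, is integral. -/
theorem betaIntegral : HeckeBetaBarIntegral Qb N ℓ :=
  isIntegral_of_finiteAlong _ (finiteAlong_beta N ℓ)

end Modular

end Fermat.Agent.S37.HeckeFin
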