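import Mathlib

set_option autoImplicit false
set_option linter.overlappingInstances false
set_option linter.unusedSectionVars false
set_option linter.style.haveILetI false

noncomputable section

namespace Fermat.Agent.S37.LocalNorm

open IsDedekindDomain Ideal

variable (R S : Type*) [CommRing R] [IsDomain R] [IsDiscreteValuationRing R]
  [CommRing S] [IsDomain S] [IsDedekindDomain S] [Algebra R S] [Module.Finite R S]
  [Module.IsTorsionFree R S]

theorem algebraMap_injective' : Function.Injective (algebraMap R S) :=
  Module.isTorsionFree_iff_algebraMap_injective.mp inferInstance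

variable {S} in
/-- Every height one prime of `S` lies over the maximal ideal of the DVR `R`. -/
theorem liesOver (P : HeightOneSpectrum S) :
    P.asIdeal.LiesOver (IsLocalRing.maximalIdeal R) := by
  constructor
  have hprime : (P.asIdeal.under R).IsPrime := inferInstance
  have hne : P.asIdeal.under R ≠ ⊥ := fun h => P.ne_bot (Ideal.eq_bot_of_comap_eq_bot h)
  have hmax : (P.asIdeal.under R).IsMaximal := hprime.isMaximal hne
  exact (IsLocalRing.eq_maximalIdeal hmax).symm

theorem maximalIdeal_ne_bot : IsLocalRing.maximalIdeal R ≠ ⊥ :=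
  IsDiscreteValuationRing.not_a_field R

theorem map_maximalIdeal_ne_bot :
    (IsLocalRing.maximalIdeal R).map (algebraMap R S) ≠ ⊥ := by
  intro h
  apply maximalIdeal_ne_bot R
  rw [Ideal.map_eq_bot_iff_of_injective (algebraMap_injective' R S)] at h
  exact h

variable {S} in
theorem dvd_map_maximalIdeal (P : HeightOneSpectrum S) :
    P.asIdeal ∣ (IsLocalRing.maximalIdeal R).map (algebraMap R S) := by
  rw [Ideal.dvd_iff_le, Ideal.map_le_iff_le_comap]
  have := liesOver R P
  exact le_of_eq this.over

include R in
/-- `S` is semilocal. -/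
theorem finite_heightOneSpectrum : Finite (HeightOneSpectrum S) := by
  have h := Ideal.finite_factors (map_maximalIdeal_ne_bot R S)
  have huniv : {v : HeightOneSpectrum S | v.asIdeal ∣ (IsLocalRing.maximalIdeal R).map
      (algebraMap R S)} = Set.univ :=
    Set.eq_univ_of_forall fun P => dvd_map_maximalIdeal R P
  rw [huniv] at h
  exact Set.finite_univ_iff.mp h

variable {S} in
/-- The exponent of the relative norm of a height one prime. -/
theorem exists_relNorm_eq (P : HeightOneSpectrum S) :
    ∃ s : ℕ, 0 < s ∧ relNorm R P.asIdeal = IsLocalRing.maximalIdeal R ^ s := by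
  haveI := liesOver R P
  obtain ⟨s, hs⟩ := Ideal.exists_relNorm_eq_pow_of_isPrime P.asIdeal (IsLocalRing.maximalIdeal R)
  refine ⟨s, ?_, hs⟩
  rcases Nat.eq_zero_or_pos s with h0 | h0
  · exfalso
    rw [h0, pow_zero, Ideal.one_eq_top] at hs
    have hle := Ideal.relNorm_le_comap (R := R) P.asIdeal
    rw [hs, top_le_iff] at hle
    have := (liesOver R P).over
    have hP : P.asIdeal.under R = ⊤ := hle
    rw [← this] at hP
    exact (IsLocalRing.maximalIdeal.isMaximal R).ne_top hP
  · exact h0

/-- The exponent function `s`. -/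
def sExp (P : HeightOneSpectrum S) : ℕ := (exists_relNorm_eq R P).choose

variable {S} in
theorem sExp_pos (P : HeightOneSpectrum S) : 0 < sExp R S P := (exists_relNorm_eq R P).choose_spec.1

variable {S} in
theorem relNorm_asIdeal (P : HeightOneSpectrum S) :
    relNorm R P.asIdeal = IsLocalRing.maximalIdeal R ^ sExp R S P :=
  (exists_relNorm_eq R P).choose_spec.2

variable {S} in
/-- The relative norm of a nonzero ideal of `S`. -/
theorem relNorm_eq_pow [Fintype (HeightOneSpectrum S)] {I : Ideal S} (hI : I ≠ ⊥) :
    relNorm R I = IsLocalRing.maximalIdeal R ^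
      (∑ P : HeightOneSpectrum S, sExp R S P * multiplicity P.asIdeal I) := by
  conv_lhs => rw [← Ideal.finprod_heightOneSpectrum_pow_multiplicity hI]
  rw [finprod_eq_prod_of_fintype, map_prod, ← Finset.prod_pow_eq_pow_sum]
  refine Finset.prod_congr rfl fun P _ => ?_
  rw [map_pow, relNorm_asIdeal, ← pow_mul]

theorem pow_maximalIdeal_injective :
    Function.Injective (fun n : ℕ => IsLocalRing.maximalIdeal R ^ n) := by
  intro a b h
  have hp0 : IsLocalRing.maximalIdeal R ≠ 0 := maximalIdeal_ne_bot R
  have hpu : ¬ IsUnit (IsLocalRing.maximalIdeal R) := by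
    rw [Ideal.isUnit_iff]
    exact (IsLocalRing.maximalIdeal.isMaximal R).ne_top
  have ha := multiplicity_pow_self hp0 hpu a
  have hb := multiplicity_pow_self hp0 hpu b
  have h' : IsLocalRing.maximalIdeal R ^ a = IsLocalRing.maximalIdeal R ^ b := h
  rw [h'] at ha
  omega

variable {S} in
theorem span_intNorm_eq [Fintype (HeightOneSpectrum S)] {x : S} (hx : x ≠ 0) :
    Ideal.span {Algebra.intNorm R S x} = IsLocalRing.maximalIdeal R ^
      (∑ P : HeightOneSpectrum S, sExp R S P * multiplicity P.asIdeal (Ideal.span {x})) := by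
  rw [← Ideal.relNorm_singleton, relNorm_eq_pow R (by simpa using hx)]

variable {S} in
theorem intNorm_ne_zero' {x : S} (hx : x ≠ 0) : Algebra.intNorm R S x ≠ 0 := by
  intro h
  have h1 : Ideal.span {Algebra.intNorm R S x} = ⊥ := by rw [h]; simp
  rw [← Ideal.relNorm_singleton, Ideal.relNorm_eq_bot_iff] at h1
  exact hx (by simpa using h1)

variable {S} in
/-- **Local norm formula**, integral form, with the exponents `sExp`. -/
theorem log_intValuation_intNorm [Fintype (HeightOneSpectrum S)] {x : S} (hx : x ≠ 0) :
    WithZero.log ((IsDiscreteValuationRing.maximalIdeal R).intValuation (Algebra.intNorm R S x))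
      = ∑ P : HeightOneSpectrum S, (sExp R S P : ℤ) * WithZero.log (P.intValuation x) := by
  have hN := intNorm_ne_zero' R hx
  rw [HeightOneSpectrum.intValuation_eq_exp_neg_multiplicity _ hN, WithZero.log_exp]
  have h1 : (IsDiscreteValuationRing.maximalIdeal R).asIdeal = IsLocalRing.maximalIdeal R := rfl
  rw [h1, span_intNorm_eq R hx]
  have hp0 : IsLocalRing.maximalIdeal R ≠ 0 := maximalIdeal_ne_bot R
  have hpu : ¬ IsUnit (IsLocalRing.maximalIdeal R) := by
    rw [Ideal.isUnit_iff]
    exact (IsLocalRing.maximalIdeal.isMaximal R).ne_top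
  rw [multiplicity_pow_self hp0 hpu, Nat.cast_sum, ← Finset.sum_neg_distrib]
  refine Finset.sum_congr rfl fun P _ => ?_
  rw [HeightOneSpectrum.intValuation_eq_exp_neg_multiplicity _ hx, WithZero.log_exp]
  push_cast
  ring

/-- `∑ e_P s_P = rank`. -/
theorem sum_sExp_mul_multiplicity [Fintype (HeightOneSpectrum S)] :
    ∑ P : HeightOneSpectrum S, sExp R S P *
      multiplicity P.asIdeal ((IsLocalRing.maximalIdeal R).map (algebraMap R S))
      = Module.finrank R S := by
  have h1 := relNorm_eq_pow R (map_maximalIdeal_ne_bot R S)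
  rw [Ideal.relNorm_algebraMap] at h1
  exact (pow_maximalIdeal_injective R h1).symm

variable {S} in
theorem multiplicity_map_pos (P : HeightOneSpectrum S) :
    0 < multiplicity P.asIdeal ((IsLocalRing.maximalIdeal R).map (algebraMap R S)) := by
  exact dvd_iff_multiplicity_pos.mpr (dvd_map_maximalIdeal R P)

/-- If `∑ e_P = rank` (the fundamental identity with all residue degrees one) then all the
exponents `sExp` are `1`. -/
theorem sExp_eq_one [Fintype (HeightOneSpectrum S)]
    (hFI : ∑ P : HeightOneSpectrum S,
      multiplicity P.asIdeal ((IsLocalRing.maximalIdeal R).map (algebraMap R S))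
      = Module.finrank R S) (P : HeightOneSpectrum S) : sExp R S P = 1 := by
  have h1 := sum_sExp_mul_multiplicity R S
  rw [← hFI] at h1
  by_contra hne
  have hlt : ∑ P : HeightOneSpectrum S,
      multiplicity P.asIdeal ((IsLocalRing.maximalIdeal R).map (algebraMap R S))
      < ∑ P : HeightOneSpectrum S, sExp R S P *
        multiplicity P.asIdeal ((IsLocalRing.maximalIdeal R).map (algebraMap R S)) := by
    refine Finset.sum_lt_sum (fun Q _ => ?_) ⟨P, Finset.mem_univ P, ?_⟩
    · exact Nat.le_mul_of_pos_left _ (sExp_pos R Q)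
    · have h2 : 2 ≤ sExp R S P := by
        have := sExp_pos R P
        omega
      have h3 := multiplicity_map_pos R P
      nlinarith
  omega

section Field

variable (F F' : Type*) [Field F] [Field F'] [Algebra R F] [IsFractionRing R F]
  [Algebra S F'] [IsFractionRing S F'] [Algebra F F'] [Algebra R F'] [IsScalarTower R F F']
  [IsScalarTower R S F'] [FiniteDimensional F F']

variable {S} in
theorem valuation_norm_algebraMap (x : S) :
    (IsDiscreteValuationRing.maximalIdeal R).valuation F (Algebra.norm F (algebraMap S F' x))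
      = (IsDiscreteValuationRing.maximalIdeal R).intValuation (Algebra.intNorm R S x) := by
  haveI : IsIntegralClosure S R F' := IsIntegralClosure.of_isIntegrallyClosed S R F'
  rw [← Algebra.algebraMap_intNorm (A := R) (K := F) (L := F') (B := S) x,
    HeightOneSpectrum.valuation_of_algebraMap]

variable {S F'} in
/-- **Local norm formula** over the fraction fields, with the exponents `sExp`. -/
theorem log_valuation_norm [Fintype (HeightOneSpectrum S)] {y : F'} (hy : y ≠ 0) :
    WithZero.log ((IsDiscreteValuationRing.maximalIdeal R).valuation F (Algebra.norm F y))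
      = ∑ P : HeightOneSpectrum S, (sExp R S P : ℤ) * WithZero.log (P.valuation F' y) := by
  obtain ⟨a, b, hb, rfl⟩ := IsFractionRing.div_surjective (A := S) y
  have hb0 : b ≠ 0 := nonZeroDivisors.ne_zero hb
  have ha0 : a ≠ 0 := by
    rintro rfl
    simp at hy
  have hinj : Function.Injective (algebraMap S F') := IsFractionRing.injective S F'
  have hb' : algebraMap S F' b ≠ 0 := fun h => hb0 (hinj (by rw [h, map_zero]))
  have ha' : algebraMap S F' a ≠ 0 := fun h => ha0 (hinj (by rw [h, map_zero]))
  have hnb : Algebra.norm F (algebraMap S F' b) ≠ 0 := Algebra.norm_ne_zero_iff.mpr hb'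
  have hdiv : Algebra.norm F (algebraMap S F' a / algebraMap S F' b)
      = Algebra.norm F (algebraMap S F' a) / Algebra.norm F (algebraMap S F' b) := by
    rw [eq_div_iff hnb, ← map_mul, div_mul_cancel₀ _ hb']
  rw [hdiv, map_div₀, valuation_norm_algebraMap R F F' a, valuation_norm_algebraMap R F F' b,
    WithZero.log_div (HeightOneSpectrum.intValuation_ne_zero _ _ (intNorm_ne_zero' R ha0))
      (HeightOneSpectrum.intValuation_ne_zero _ _ (intNorm_ne_zero' R hb0)),
    log_intValuation_intNorm R ha0, log_intValuation_intNorm R hb0, ← Finset.sum_sub_distrib]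
  refine Finset.sum_congr rfl fun P _ => ?_
  rw [map_div₀, HeightOneSpectrum.valuation_of_algebraMap, HeightOneSpectrum.valuation_of_algebraMap,
    WithZero.log_div (HeightOneSpectrum.intValuation_ne_zero _ _ ha0)
      (HeightOneSpectrum.intValuation_ne_zero _ _ hb0)]
  ring

variable {S} in
/-- The multiplicity of `P` in `𝔭 S` is the `P`-adic order of a uniformiser of `R`. -/
theorem multiplicity_map_eq {π : R} (hπ : Irreducible π) (P : HeightOneSpectrum S) :
    (multiplicity P.asIdeal ((IsLocalRing.maximalIdeal R).map (algebraMap R S)) : ℤ)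
      = -WithZero.log (P.valuation F' (algebraMap R F' π)) := by
  have hπ0 : algebraMap R S π ≠ 0 := fun h =>
    hπ.ne_zero (algebraMap_injective' R S (by rw [h, map_zero]))
  rw [IsScalarTower.algebraMap_apply R S F', HeightOneSpectrum.valuation_of_algebraMap,
    HeightOneSpectrum.intValuation_eq_exp_neg_multiplicity _ hπ0, WithZero.log_exp, neg_neg,
    hπ.maximalIdeal_eq, Ideal.map_span, Set.image_singleton]

/-- **Local norm formula**: if `∑_P e_P = [F' : F]` (`e_P` = the `P`-adic order of a uniformiser
of `R`), then the order of the norm is the sum of the orders. -/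
theorem log_valuation_norm_of_sum [Fintype (HeightOneSpectrum S)] {π : R} (hπ : Irreducible π)
    (hFI : ∑ P : HeightOneSpectrum S, -WithZero.log (P.valuation F' (algebraMap R F' π))
      = (Module.finrank F F' : ℤ)) {y : F'} (hy : y ≠ 0) :
    WithZero.log ((IsDiscreteValuationRing.maximalIdeal R).valuation F (Algebra.norm F y))
      = ∑ P : HeightOneSpectrum S, WithZero.log (P.valuation F' y) := by
  have hFI' : ∑ P : HeightOneSpectrum S,
      multiplicity P.asIdeal ((IsLocalRing.maximalIdeal R).map (algebraMap R S))
      = Module.finrank R S := by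
    have h1 : ((∑ P : HeightOneSpectrum S,
        multiplicity P.asIdeal ((IsLocalRing.maximalIdeal R).map (algebraMap R S)) : ℕ) : ℤ)
        = (Module.finrank R S : ℤ) := by
      rw [Nat.cast_sum, ← IsFractionRing.finrank_eq R F S F', ← hFI]
      exact Finset.sum_congr rfl fun P _ => multiplicity_map_eq R F' hπ P
    exact_mod_cast h1
  rw [log_valuation_norm (S := S) R F hy]
  refine Finset.sum_congr rfl fun P _ => ?_
  rw [sExp_eq_one R S hFI' P, Nat.cast_one, one_mul]

end Field

end Fermat.Agent.S37.LocalNorm

end
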