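import Mathlib
import Fermat.Agent.S24.PlacesOver
import Fermat.Agent.S37.LocalNorm
import Fermat.Prelude.Def_AlgebraicCurve_DivisorPushPull
import Fermat.Prelude.Def_AlgebraicCurve_Correspondence

/-!
# S37 / PA2 (backup): the norm formula for divisors

For a finite separable extension `F'/F` of function fields over `K` in which all places have
degree one and the fundamental identity `∑_{w ∣ v} e_w = [F' : F]` holds:
`ord_v (N_{F'/F} f) = ∑_{w ∣ v} ord_w f`, i.e. `Divisor.PushforwardNormFormula K F F'`.

Proof: `S24.PlacesOver` dictionary between the places over `v` and the height one primes of the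
integral closure of `O_v` in `F'`, and the local norm formula `LocalNorm.log_valuation_norm_of_sum`.
-/

set_option autoImplicit false
set_option linter.unusedSectionVars false
set_option linter.style.haveILetI false
set_option linter.overlappingInstances false

noncomputable section

namespace Fermat.Agent.S37.NormPlaces

open AlgebraicCurve IsDedekindDomain

variable {K F F' : Type*} [Field K] [Field F] [Field F']
  [Algebra K F] [Algebra K F'] [Algebra F F'] [IsScalarTower K F F']
  [Module.Finite F F'] [Algebra.IsSeparable F F'] [HasPrincipalDivisors K F']

/-- `F'` as an algebra over the valuation ring of `v`. -/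
abbrev algV (F' : Type*) [Field F'] [Algebra F F'] (v : Place K F) :
    Algebra v.toValuationSubring F' :=
  ((algebraMap F F').comp (algebraMap v.toValuationSubring F)).toAlgebra

/-- The sum of the orders of `f` over the places above `v` is the order of the norm of `f`. -/
theorem sum_fiber_ord_eq (v : Place K F)
    (hsum : ∑ w ∈ v.fiber F', (w.ramificationIndex F : ℤ) = (Module.finrank F F' : ℤ))
    {f : F'} (hf : f ≠ 0) :
    ∑ w ∈ v.fiber F', w.ord f = v.ord (Algebra.norm F f) := by
  classical
  letI := algV F' v
  haveI : IsScalarTower v.toValuationSubring F F' := IsScalarTower.of_algebraMap_eq fun _ => rfl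
  let S := integralClosure v.toValuationSubring F'
  haveI : IsFractionRing S F' := integralClosure.isFractionRing_of_finite_extension F F'
  haveI : IsDedekindDomain S := integralClosure.isDedekindDomain v.toValuationSubring F F'
  haveI : Module.Finite v.toValuationSubring S :=
    IsIntegralClosure.finite v.toValuationSubring F F' S
  haveI : Module.IsTorsionFree v.toValuationSubring S := by
    rw [Module.isTorsionFree_iff_algebraMap_injective]
    intro a b hab
    have h1 : algebraMap S F' (algebraMap v.toValuationSubring S a)
        = algebraMap S F' (algebraMap v.toValuationSubring S b) := by rw [hab]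
    rw [← IsScalarTower.algebraMap_apply, ← IsScalarTower.algebraMap_apply] at h1
    have h2 : algebraMap F F' (a : F) = algebraMap F F' (b : F) := h1
    exact Subtype.ext ((algebraMap F F').injective h2)
  haveI : Finite (HeightOneSpectrum S) :=
    Fermat.Agent.S37.LocalNorm.finite_heightOneSpectrum v.toValuationSubring S
  letI : Fintype (HeightOneSpectrum S) := Fintype.ofFinite _
  letI : Algebra K S :=
    ((algebraMap v.toValuationSubring S).comp (algebraMap K v.toValuationSubring)).toAlgebra
  haveI : IsScalarTower K S F' := IsScalarTower.of_algebraMap_eq fun a => by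
    show algebraMap K F' a = algebraMap F F' (algebraMap K F a)
    rw [← IsScalarTower.algebraMap_apply]
  -- the dictionary
  let g : HeightOneSpectrum S → Place K F' := fun P => Place.ofHeightOneSpectrum (K := K) P
  have hg_inj : Function.Injective g :=
    Fermat.Agent.S24.PlacesOver.ofHeightOneSpectrum_injective
  have hg_ord : ∀ (P : HeightOneSpectrum S) (y : F'),
      (g P).ord y = -(WithZero.log (P.valuation F' y)) := fun P y =>
    Fermat.Agent.S24.PlacesOver.ord_ofHeightOneSpectrum (K := K) P y
  have hg_restrict : ∀ P : HeightOneSpectrum S, (g P).restrict F = v := by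
    intro P
    apply Place.ext
    symm
    refine ValuationSubring.eq_of_le_of_ne_top _ ?_ ((g P).restrict F).ne_top'
    intro a ha
    rw [Place.mem_restrict_iff]
    show algebraMap F F' a ∈ (P.valuation F').valuationSubring
    rw [Valuation.mem_valuationSubring_iff]
    have h1 : algebraMap F F' a
        = algebraMap S F' (algebraMap v.toValuationSubring S ⟨a, ha⟩) := by
      rw [← IsScalarTower.algebraMap_apply]
      rfl
    rw [h1]
    exact P.valuation_le_one _
  have hg_surj : ∀ w : Place K F', w.restrict F = v → ∃ P, g P = w := by
    intro w hw
    refine Fermat.Agent.S24.PlacesOver.exists_eq_ofHeightOneSpectrum (K := K) (R := S) w ?_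
    intro b
    have hb : IsIntegral v.toValuationSubring (algebraMap S F' b) := b.2
    obtain ⟨p, hmonic, hp⟩ := hb
    have hle : ∀ a : v.toValuationSubring, algebraMap F F' (a : F) ∈ w.toValuationSubring := by
      intro a
      have : (a : F) ∈ (w.restrict F).toValuationSubring := by rw [hw]; exact a.2
      exact (Place.mem_restrict_iff w).mp this
    let φ : v.toValuationSubring →+* w.toValuationSubring :=
      ((algebraMap F F').comp (algebraMap v.toValuationSubring F)).codRestrict
        w.toValuationSubring.toSubring hle
    have hint : IsIntegral w.toValuationSubring (algebraMap S F' b) := by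
      refine ⟨p.map φ, hmonic.map φ, ?_⟩
      rw [Polynomial.eval₂_map]
      exact hp
    obtain ⟨y, hy⟩ := IsIntegrallyClosed.isIntegral_iff.mp hint
    rw [← hy]
    exact y.2
  have hfib : v.fiber F' = Finset.univ.image g := by
    ext w
    rw [Place.mem_fiber, Finset.mem_image]
    constructor
    · intro hw
      obtain ⟨P, hP⟩ := hg_surj w hw
      exact ⟨P, Finset.mem_univ P, hP⟩
    · rintro ⟨P, -, rfl⟩
      exact hg_restrict P
  -- a uniformiser
  obtain ⟨π, hπ⟩ := IsDiscreteValuationRing.exists_irreducible v.toValuationSubring
  have hFI : ∑ P : HeightOneSpectrum S,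
      -WithZero.log (P.valuation F' (algebraMap v.toValuationSubring F' π))
      = (Module.finrank F F' : ℤ) := by
    rw [← hsum, hfib, Finset.sum_image (fun P _ Q _ h => hg_inj h)]
    refine Finset.sum_congr rfl fun P _ => ?_
    rw [← hg_ord P]
    have h1 : algebraMap v.toValuationSubring F' π = algebraMap F F' (π : F) := rfl
    rw [h1, Place.ord_restrict, hg_restrict P, v.ord_coe_irreducible hπ, mul_one]
  have main := Fermat.Agent.S37.LocalNorm.log_valuation_norm_of_sum v.toValuationSubring S F F'
    hπ hFI hf
  rw [hfib, Finset.sum_image (fun P _ Q _ h => hg_inj h)]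
  have hv : v.ord (Algebra.norm F f)
      = -WithZero.log ((IsDiscreteValuationRing.maximalIdeal v.toValuationSubring).valuation F
          (Algebra.norm F f)) := rfl
  rw [hv, main, ← Finset.sum_neg_distrib]
  exact Finset.sum_congr rfl fun P _ => hg_ord P f

/-- **The norm formula** (`PA2`): for a finite separable extension of function fields in which
all places have degree one and the fundamental identity holds. -/
theorem pushforwardNormFormula [FundamentalIdentity K F F']
    (hdeg : ∀ v : Place K F, v.deg = 1) (hdeg' : ∀ w : Place K F', w.deg = 1) :
    Divisor.PushforwardNormFormula K F F' := by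
  classical
  intro f hf D hD v
  have hsum : ∑ w ∈ v.fiber F', (w.ramificationIndex F : ℤ) = (Module.finrank F F' : ℤ) := by
    have h := FundamentalIdentity.sum_ramificationIndex_mul_deg (K := K) (F := F) (F' := F') v
    simp only [hdeg, hdeg', Nat.cast_one, mul_one] at h
    exact h
  have hin : ∀ w : Place K F', (w.inertiaDeg F : ℤ) = 1 := by
    intro w
    have h := w.deg_restrict_mul_inertiaDeg (F := F)
    rw [hdeg, hdeg' w, one_mul] at h
    exact_mod_cast h
  rw [← sum_fiber_ord_eq v hsum hf, Divisor.pushforward_apply, ← Finset.sum_filter]
  have hsub : (D.support.filter fun w => w.restrict F = v) ⊆ v.fiber F' := by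
    intro w hw
    rw [Finset.mem_filter] at hw
    exact Place.mem_fiber.mpr hw.2
  have e1 : ∑ w ∈ D.support.filter (fun w => w.restrict F = v), D w * (w.inertiaDeg F : ℤ)
      = ∑ w ∈ v.fiber F', D w * (w.inertiaDeg F : ℤ) := by
    refine Finset.sum_subset hsub fun w hw hnot => ?_
    rw [Finset.mem_filter, not_and] at hnot
    have hw' := Place.mem_fiber.mp hw
    have hns : w ∉ D.support := fun h => hnot h hw'
    rw [Finsupp.notMem_support_iff] at hns
    rw [hns, zero_mul]
  rw [e1]
  exact Finset.sum_congr rfl fun w _ => by rw [hin, mul_one, hD]

end Fermat.Agent.S37.NormPlaces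

namespace Fermat.Agent.S37.NormPlaces

open AlgebraicCurve

/-- The norm formula in characteristic zero (no separability hypothesis). -/
theorem pushforwardNormFormula_of_charZero {K F F' : Type*} [Field K] [Field F] [Field F']
    [Algebra K F] [Algebra K F'] [Algebra F F'] [IsScalarTower K F F'] [CharZero K]
    [Module.Finite F F'] [Algebra.IsIntegral F F'] [HasPrincipalDivisors K F']
    [FundamentalIdentity K F F']
    (hdeg : ∀ v : Place K F, v.deg = 1) (hdeg' : ∀ w : Place K F', w.deg = 1) :
    Divisor.PushforwardNormFormula K F F' := by
  haveI : CharZero F := charZero_of_injective_algebraMap (algebraMap K F).injective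
  haveI : Algebra.IsSeparable F F' := inferInstance
  exact pushforwardNormFormula hdeg hdeg'

/-- The norm formula along an algebra homomorphism, characteristic zero. -/
theorem normFormulaAlong_of_charZero {K F F' : Type*} [Field K] [Field F] [Field F']
    [Algebra K F] [Algebra K F'] [CharZero K] [HasPrincipalDivisors K F']
    (φ : F →ₐ[K] F') (hφ : φ.toRingHom.IsIntegral) (hfin : FiniteAlong K φ)
    (hFI : FundamentalIdentityAlong K φ hφ)
    (hdeg : ∀ v : Place K F, v.deg = 1) (hdeg' : ∀ w : Place K F', w.deg = 1) :
    NormFormulaAlong K φ hfin := by
  letI := algebraAlong φ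
  haveI := isScalarTower_along φ
  haveI := isIntegral_along φ hφ
  haveI : Module.Finite F F' := hfin
  haveI : FundamentalIdentity K F F' := hFI
  exact pushforwardNormFormula_of_charZero hdeg hdeg'

end Fermat.Agent.S37.NormPlaces

end
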