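import Mathlib
import Fermat.Prelude.Def_AlgebraicCurve_Correspondence
import Fermat.Prelude.Def_ModularCurve_HeckeOperator
import Fermat.Prelude.Thm_ModularCurve_coeffMap_qExpand

/-!
# S37 / PullGal: pull-back of divisors commutes with semilinear automorphisms

Generic part (`K ⊆ F ⊆ F'`, `F'/F` integral): if semilinear automorphisms `g` of `F/K` and `g'` of
`F'/K` are compatible with the inclusion (`Intertwines g g'`), then

* `restrict_smul` : `(g' • w).restrict F = g • w.restrict F`;
* `ramificationIndex_smul` : `(g' • w).ramificationIndex F = w.ramificationIndex F`;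
* `pullback_smul` : `Divisor.pullback F' (g • D) = g' • Divisor.pullback F' D`;

and the same statements in the `…Along φ` form of the Prelude.

Modular instance: the arithmetic Galois action (`coeffMap σ`) on the function fields
`laurentBaseChange L F₀` is compatible with inclusions (`arithmeticGalois_intertwines`), with
`heckeAlphaBar` and with `heckeBetaBar`.
-/

set_option autoImplicit false
set_option linter.style.haveILetI false

noncomputable section

namespace Fermat.Agent.S37.PullGal

open AlgebraicCurve
open scoped Pointwise

section Generic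

variable {K F F' : Type*} [Field K] [Field F] [Field F'] [Algebra K F] [Algebra K F']
  [Algebra F F'] [IsScalarTower K F F'] [Algebra.IsIntegral F F']

/-- Compatibility of two semilinear automorphisms with the structure map `F → F'`. -/
def Intertwines (g : SemilinearAut K F) (g' : SemilinearAut K F') : Prop :=
  ∀ x : F, g' • (algebraMap F F' x) = algebraMap F F' (g • x)

omit [IsScalarTower K F F'] [Algebra.IsIntegral F F'] in
theorem intertwines_iff (g : SemilinearAut K F) (g' : SemilinearAut K F') :
    Intertwines g g' ↔ SemilinearAut.IntertwinesAlong (algebraMap F F') g g' :=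
  Iff.rfl

omit [IsScalarTower K F F'] [Algebra.IsIntegral F F'] in
theorem Intertwines.inv {g : SemilinearAut K F} {g' : SemilinearAut K F'}
    (h : Intertwines g g') : Intertwines g⁻¹ g'⁻¹ := fun x => by
  have hx := h (g⁻¹ • x)
  rw [smul_inv_smul] at hx
  rw [← hx, inv_smul_smul]

variable (g : SemilinearAut K F) (g' : SemilinearAut K F')

/-- Restriction of places commutes with compatible semilinear automorphisms. -/
theorem restrict_smul (h : Intertwines g g') (w : Place K F') :
    (g' • w).restrict F = g • (w.restrict F) := by
  apply Place.ext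
  ext f
  rw [Place.restrict_toValuationSubring, ValuationSubring.mem_comap,
    SemilinearAut.smul_toValuationSubring, SemilinearAut.smul_toValuationSubring,
    ValuationSubring.mem_pointwise_smul_iff_inv_smul_mem,
    ValuationSubring.mem_pointwise_smul_iff_inv_smul_mem, Place.restrict_toValuationSubring,
    ValuationSubring.mem_comap, h.inv f]

omit [IsScalarTower K F F'] [Algebra.IsIntegral F F'] in
theorem ord_smul_algebraMap (h : Intertwines g g') (w : Place K F') (f : F) :
    (g' • w).ord (algebraMap F F' f) = w.ord (algebraMap F F' (g⁻¹ • f)) := by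
  have h1 := SemilinearAut.ord_smul g' w (algebraMap F F' (g⁻¹ • f))
  rw [h (g⁻¹ • f), smul_inv_smul] at h1
  exact h1

omit [IsScalarTower K F F'] [Algebra.IsIntegral F F'] in
/-- The ramification index is invariant under compatible semilinear automorphisms. -/
theorem ramificationIndex_smul (h : Intertwines g g') (w : Place K F') :
    (g' • w).ramificationIndex F = w.ramificationIndex F := by
  unfold Place.ramificationIndex
  congr 1
  ext n
  constructor
  · rintro ⟨hn, f, hf, hford⟩
    refine ⟨hn, g⁻¹ • f, ?_, ?_⟩
    · exact fun h0 => hf ((smul_eq_zero_iff_eq g⁻¹).mp h0)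
    · rw [← ord_smul_algebraMap g g' h]; exact hford
  · rintro ⟨hn, f, hf, hford⟩
    refine ⟨hn, g • f, ?_, ?_⟩
    · exact fun h0 => hf ((smul_eq_zero_iff_eq g).mp h0)
    · rw [ord_smul_algebraMap g g' h, inv_smul_smul]; exact hford

/-- Pull-back of divisors commutes with compatible semilinear automorphisms. -/
theorem pullback_smul [HasPrincipalDivisors K F'] (h : Intertwines g g') (D : Divisor K F) :
    Divisor.pullback F' (g • D) = g' • Divisor.pullback F' D := by
  ext w
  rw [Divisor.pullback_apply, SemilinearAut.divisor_smul_apply,
    SemilinearAut.divisor_smul_apply, Divisor.pullback_apply, restrict_smul g⁻¹ g'⁻¹ h.inv,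
    ramificationIndex_smul g⁻¹ g'⁻¹ h.inv]

/-- The fibre of `g • v` is the image of the fibre of `v`. -/
theorem mem_fiber_smul_iff [HasPrincipalDivisors K F'] (h : Intertwines g g') (v : Place K F)
    (w : Place K F') : g' • w ∈ (g • v).fiber F' ↔ w ∈ v.fiber F' := by
  rw [Place.mem_fiber, Place.mem_fiber, restrict_smul g g' h]
  exact (MulAction.injective g).eq_iff

end Generic

section Along

variable {K F F' : Type*} [Field K] [Field F] [Field F'] [Algebra K F] [Algebra K F']

theorem restrictAlong_smul (φ : F →ₐ[K] F') (hφ : φ.toRingHom.IsIntegral)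
    (g : SemilinearAut K F) (g' : SemilinearAut K F')
    (h : SemilinearAut.IntertwinesAlong (φ : F →+* F') g g') (w : Place K F') :
    (g' • w).restrictAlong φ hφ = g • (w.restrictAlong φ hφ) := by
  letI := algebraAlong φ
  haveI := isScalarTower_along φ
  haveI := isIntegral_along φ hφ
  exact restrict_smul g g' h w

theorem ramificationIndexAlong_smul (φ : F →ₐ[K] F')
    (g : SemilinearAut K F) (g' : SemilinearAut K F')
    (h : SemilinearAut.IntertwinesAlong (φ : F →+* F') g g') (w : Place K F') :
    Place.ramificationIndexAlong φ (g' • w) = Place.ramificationIndexAlong φ w := by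
  letI := algebraAlong φ
  exact ramificationIndex_smul g g' h w

theorem pullbackAlong_smul [HasPrincipalDivisors K F'] (φ : F →ₐ[K] F')
    (hφ : φ.toRingHom.IsIntegral) (g : SemilinearAut K F) (g' : SemilinearAut K F')
    (h : SemilinearAut.IntertwinesAlong (φ : F →+* F') g g') (D : Divisor K F) :
    Divisor.pullbackAlong φ hφ (g • D) = g' • Divisor.pullbackAlong φ hφ D := by
  letI := algebraAlong φ
  haveI := isScalarTower_along φ
  haveI := isIntegral_along φ hφ
  exact pullback_smul g g' h D

end Along

section Modular

open ModularCurve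

variable {L : Type*} [Field L] [Algebra ℚ L]

/-- The arithmetic Galois actions on two function fields `laurentBaseChange L F₀ ≤
laurentBaseChange L F₁` are compatible with the inclusion. -/
theorem arithmeticGalois_intertwines {F₀ F₁ : IntermediateField ℚ (LaurentSeries ℚ)}
    (h : laurentBaseChange L F₀ ≤ laurentBaseChange L F₁) (σ : L ≃ₐ[ℚ] L) :
    SemilinearAut.IntertwinesAlong
      ((IntermediateField.inclusion h : laurentBaseChange L F₀ →ₐ[L] laurentBaseChange L F₁) :
        laurentBaseChange L F₀ →+* laurentBaseChange L F₁)
      (arithmeticGalois F₀ σ) (arithmeticGalois F₁ σ) := fun x => Subtype.ext <| by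
  show ((arithmeticGalois F₁ σ • (IntermediateField.inclusion h x) : laurentBaseChange L F₁) :
      LaurentSeries L)
    = ((IntermediateField.inclusion h (arithmeticGalois F₀ σ • x) : laurentBaseChange L F₁) :
      LaurentSeries L)
  rw [coe_arithmeticGalois_smul, IntermediateField.coe_inclusion,
    IntermediateField.coe_inclusion, coe_arithmeticGalois_smul]

/-- The arithmetic Galois action is compatible with `heckeAlphaBar`. -/
theorem arithmeticGalois_intertwines_alpha (N ℓ : ℕ) [NeZero N] [NeZero ℓ] (σ : L ≃ₐ[ℚ] L) :
    SemilinearAut.IntertwinesAlong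
      ((heckeAlphaBar L N ℓ : _ →ₐ[L] _) :
        laurentBaseChange L (modularFunctionFieldFull N) →+*
          laurentBaseChange L (modularFunctionFieldFull (N * ℓ)))
      (arithmeticGalois (modularFunctionFieldFull N) σ)
      (arithmeticGalois (modularFunctionFieldFull (N * ℓ)) σ) := fun x => Subtype.ext <| by
  show ((arithmeticGalois (modularFunctionFieldFull (N * ℓ)) σ • (heckeAlphaBar L N ℓ x) :
      laurentBaseChange L (modularFunctionFieldFull (N * ℓ))) : LaurentSeries L)
    = ((heckeAlphaBar L N ℓ (arithmeticGalois (modularFunctionFieldFull N) σ • x) :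
      laurentBaseChange L (modularFunctionFieldFull (N * ℓ))) : LaurentSeries L)
  rw [coe_arithmeticGalois_smul, coe_heckeAlphaBar, coe_heckeAlphaBar,
    coe_arithmeticGalois_smul]

/-- The arithmetic Galois action is compatible with `heckeBetaBar` (`q ↦ q ^ ℓ`). -/
theorem arithmeticGalois_intertwines_beta (N ℓ : ℕ) [NeZero N] [NeZero ℓ] (σ : L ≃ₐ[ℚ] L) :
    SemilinearAut.IntertwinesAlong
      ((heckeBetaBar L N ℓ : _ →ₐ[L] _) :
        laurentBaseChange L (modularFunctionFieldFull N) →+*
          laurentBaseChange L (modularFunctionFieldFull (N * ℓ)))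
      (arithmeticGalois (modularFunctionFieldFull N) σ)
      (arithmeticGalois (modularFunctionFieldFull (N * ℓ)) σ) := fun x => Subtype.ext <| by
  show ((arithmeticGalois (modularFunctionFieldFull (N * ℓ)) σ • (heckeBetaBar L N ℓ x) :
      laurentBaseChange L (modularFunctionFieldFull (N * ℓ))) : LaurentSeries L)
    = ((heckeBetaBar L N ℓ (arithmeticGalois (modularFunctionFieldFull N) σ • x) :
      laurentBaseChange L (modularFunctionFieldFull (N * ℓ))) : LaurentSeries L)
  rw [coe_arithmeticGalois_smul, coe_heckeBetaBar, coe_heckeBetaBar,
    coe_arithmeticGalois_smul]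
  exact coeffMap_qExpand _ ℓ _

end Modular

end Fermat.Agent.S37.PullGal

end
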