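import Mathlib
import Fermat.Prelude.Def_AlgebraicCurve_Correspondence

/-!
# S37 / RhoDef : the specialisation map on divisors `ρ = r_* ∘ π^*`

Abstract setting: function fields `E → F` over `K` (an integral `K`-algebra hom `ι`), a function
field `κ / k`, and a map of places `r : Place K F → Place k κ`.

* `rho ι hι r : Divisor K E →+ Divisor k κ` is `D ↦ r_*(π^* D)`;
* `IsRAxiom Red r` : the "r-axiom" for `r` and a reduction relation `Red : F → κ → Prop`:
  `r_*(div f) = div x` whenever `Red f x`, `x ≠ 0`;
* `rho_principal` : `ρ(div_E f) = div_κ x` whenever `Red (ι f) x`, `x ≠ 0`;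
* `degree_rho` : `deg ρ(D) = [F : E] · deg D`.
-/

set_option autoImplicit false

noncomputable section

namespace Fermat.Agent.S37.RhoDef

open AlgebraicCurve

variable {K E F : Type*} [Field K] [Field E] [Field F] [Algebra K E] [Algebra K F]
  [HasPrincipalDivisors K F]
variable {k κ : Type*} [Field k] [Field κ] [Algebra k κ]

/-- The specialisation map on divisors: pull back along `ι : E → F`, then push the places
forward along `r`. -/
def rho (ι : E →ₐ[K] F) (hι : ι.toRingHom.IsIntegral) (r : Place K F → Place k κ) :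
    Divisor K E →+ Divisor k κ :=
  (Finsupp.mapDomain.addMonoidHom r).comp (Divisor.pullbackAlong ι hι)

variable (ι : E →ₐ[K] F) (hι : ι.toRingHom.IsIntegral) (r : Place K F → Place k κ)

theorem rho_apply (D : Divisor K E) :
    rho ι hι r D = Finsupp.mapDomain r (Divisor.pullbackAlong ι hι D) := rfl

theorem rho_single (P : Place K E) (n : ℤ) :
    rho ι hι r (Finsupp.single P n)
      = ∑ W ∈ Place.fiberAlong ι hι P, Finsupp.single (r W) (n * W.ramificationIndexAlong ι) := by
  rw [rho_apply, Divisor.pullbackAlong_single, Finsupp.mapDomain_finsetSum]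
  exact Finset.sum_congr rfl fun W _ => Finsupp.mapDomain_single

/-- `Finsupp.mapDomain` preserves effectivity. -/
theorem mapDomain_nonneg {α β : Type*} (g : α → β) {D : α →₀ ℤ} (hD : 0 ≤ D) :
    0 ≤ Finsupp.mapDomain g D := by
  classical
  intro b
  rw [Finsupp.mapDomain, Finsupp.sum, Finsupp.coe_zero, Pi.zero_apply, Finsupp.finsetSum_apply]
  refine Finset.sum_nonneg fun a _ => ?_
  rw [Finsupp.single_apply]
  split_ifs
  · exact hD a
  · exact le_rfl

theorem pullbackAlong_nonneg {D : Divisor K E} (hD : 0 ≤ D) :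
    0 ≤ Divisor.pullbackAlong ι hι D := by
  intro w
  rw [Divisor.pullbackAlong_apply]
  exact mul_nonneg (Int.natCast_nonneg _) (hD _)

/-- `ρ` maps effective divisors to effective divisors. -/
theorem rho_nonneg {D : Divisor K E} (hD : 0 ≤ D) : 0 ≤ rho ι hι r D :=
  mapDomain_nonneg r (pullbackAlong_nonneg ι hι hD)

/-- The support of `ρ(n P)` consists of images of places above `P`. -/
theorem mem_support_rho_single {P : Place K E} {n : ℤ} {Q : Place k κ}
    (hQ : Q ∈ (rho ι hι r (Finsupp.single P n)).support) :
    ∃ W : Place K F, W.restrictAlong ι hι = P ∧ r W = Q := by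
  classical
  rw [rho_single] at hQ
  have h1 := Finsupp.support_finsetSum hQ
  rw [Finset.mem_biUnion] at h1
  obtain ⟨W, hW, hWQ⟩ := h1
  have h2 := Finsupp.support_single_subset hWQ
  rw [Finset.mem_singleton] at h2
  exact ⟨W, Place.mem_fiberAlong.mp hW, h2.symm⟩

/-- The pullback of the divisor of `f` is the divisor of `ι f`. -/
theorem pullbackAlong_apply_eq_ord {f : E} {D : Divisor K E}
    (hD : ∀ v : Place K E, D v = v.ord f) (w : Place K F) :
    Divisor.pullbackAlong ι hι D w = w.ord (ι f) := by
  rw [Divisor.pullbackAlong_apply, hD, ← Place.ord_restrictAlong]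

/-- **The r-axiom** for a map of places `r` and a reduction relation `Red`: the divisor of a
function with nonzero reduction is mapped by `r_*` to the divisor of its reduction. -/
def IsRAxiom (Red : F → κ → Prop) (r : Place K F → Place k κ) : Prop :=
  ∀ (f : F) (x : κ), Red f x → x ≠ 0 → ∀ D : Divisor K F, (∀ P : Place K F, D P = P.ord f) →
    ∀ Q : Place k κ, Finsupp.mapDomain r D Q = Q.ord x

/-- **(rho1)** `ρ(div_E f) = div_κ x` whenever `Red (ι f) x`, `x ≠ 0`. -/
theorem rho_principal {Red : F → κ → Prop} (hr : IsRAxiom Red r) {f : E} {x : κ}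
    (hred : Red (ι f) x) (hx : x ≠ 0) (D : Divisor K E) (hD : ∀ v : Place K E, D v = v.ord f) :
    ∀ Q : Place k κ, rho ι hι r D Q = Q.ord x := by
  intro Q
  rw [rho_apply]
  exact hr (ι f) x hred hx _ (pullbackAlong_apply_eq_ord ι hι hD) Q

omit [HasPrincipalDivisors K F] in
/-- The degree of `r_* D` when all places have degree one. -/
theorem degree_mapDomain (hdeg : ∀ w : Place K F, w.deg = 1) (hdegb : ∀ Q : Place k κ, Q.deg = 1)
    (D : Divisor K F) : Divisor.degree (Finsupp.mapDomain r D) = Divisor.degree D := by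
  induction D using Finsupp.induction with
  | zero => simp
  | single_add w n D _ _ ih =>
    rw [Finsupp.mapDomain_add, map_add, map_add, ih, Finsupp.mapDomain_single,
      Divisor.degree_single, Divisor.degree_single, hdeg, hdegb]

/-- **Degree of `ρ`.** -/
theorem degree_rho (hFI : FundamentalIdentityAlong K ι hι) (hdeg : ∀ w : Place K F, w.deg = 1)
    (hdegb : ∀ Q : Place k κ, Q.deg = 1) (D : Divisor K E) :
    Divisor.degree (rho ι hι r D) = (finrankAlong K ι : ℤ) * Divisor.degree D := by
  rw [rho_apply, degree_mapDomain r hdeg hdegb, Divisor.degree_pullbackAlong ι hι hFI]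

/-- `ρ` of a divisor of degree zero has degree zero. -/
theorem rho_mem_degZero (hFI : FundamentalIdentityAlong K ι hι)
    (hdeg : ∀ w : Place K F, w.deg = 1) (hdegb : ∀ Q : Place k κ, Q.deg = 1) {D : Divisor K E}
    (hD : D ∈ Divisor.degZero (K := K) (F := E)) :
    rho ι hι r D ∈ Divisor.degZero (K := k) (F := κ) := by
  rw [Divisor.mem_degZero] at hD ⊢
  rw [degree_rho ι hι r hFI hdeg hdegb, hD, mul_zero]

omit [HasPrincipalDivisors K F] in
/-- Compatibility of `r_*` with semilinear automorphisms: if `r (θ • P) = θb • r P` for all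
places, then `r_* (θ • D) = θb • r_* D`. -/
theorem mapDomain_smul (θ : SemilinearAut K F) (θb : SemilinearAut k κ)
    (h : ∀ P : Place K F, r (θ • P) = θb • r P) (D : Divisor K F) :
    Finsupp.mapDomain r (θ • D) = θb • Finsupp.mapDomain r D := by
  rw [SemilinearAut.divisor_smul_def, SemilinearAut.divisor_smul_def,
    ← Finsupp.mapDomain_comp, ← Finsupp.mapDomain_comp]
  congr 1
  funext P
  exact h P

end Fermat.Agent.S37.RhoDef

end
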