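import Mathlib
import Fermat.Agent.S18.CoreRed
import Fermat.Agent.RR.Defs

/-!
# S37 / LamDeg : the degree inequality (package PB, step B3)

Abstract setting: `K` a field with valuation subring `A`, `k := IsLocalRing.ResidueField A`,
`F / K` and `κ / k` fields, `Red : F → κ → Prop` with `S18.RedFacts A Red`, `Red` surjective.

* `transcendental_of_red` : `Red f x`, `x` transcendental over `k` ⟹ `f` transcendental over `K`.
* `finrank_adjoin_le` : `[κ : k(x)] ≤ [F : K(f)]` when `F / K(f)` is finite.
* `finrank_le` (B3, the shape used by `LamKey.exists_Z_of`).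
* `hB3` : the same, universally quantified (the hypothesis `hB3` of `LamKey.exists_Z_of`).

Proof: a `k(x)`-independent family `y i` gives the `k`-independent family `x ^ n * y i`; lift it
(`CoreRed.linearIndependent_of_red`) to the `K`-independent family `f ^ n * g i`; hence `g` is
independent over `K[f]` and so over its fraction field `K(f)`.
-/

set_option autoImplicit false

noncomputable section

namespace Fermat.Agent.S37.LamDeg

open Fermat.Agent.S18 Fermat.Agent.RR IntermediateField Polynomial

variable {K F κ : Type*} [Field K] [Field F] [Algebra K F] {A : ValuationSubring K}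
  [Field κ] [Algebra (IsLocalRing.ResidueField A) κ] {Red : F → κ → Prop}

local notation "kk" => IsLocalRing.ResidueField A

/-! ### B3: the degree inequality -/


/-- Powers of a transcendental element are linearly independent. -/
theorem linearIndependent_pow_of_transcendental {R S : Type*} [Field R] [Field S] [Algebra R S]
    {x : S} (hx : Transcendental R x) (d : ℕ) :
    LinearIndependent R (fun j : Fin d => x ^ (j : ℕ)) := by
  rw [Fintype.linearIndependent_iff]
  intro c hc j
  have h0 : aeval x (∑ i : Fin d, C (c i) * X ^ (i : ℕ)) = 0 := by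
    rw [map_sum]
    rw [← hc]
    refine Finset.sum_congr rfl fun i _ => ?_
    rw [map_mul, aeval_C, map_pow, aeval_X, Algebra.smul_def]
  have h1 := (transcendental_iff.mp hx) _ h0
  have h2 := congrArg (fun p : R[X] => p.coeff (j : ℕ)) h1
  simp only [finsetSum_coeff, coeff_C_mul, coeff_X_pow, coeff_zero] at h2
  rw [Finset.sum_eq_single j] at h2
  · simpa using h2
  · intro b _ hb
    rw [if_neg, mul_zero]
    exact fun h => hb (Fin.ext h.symm)
  · intro hj
    exact absurd (Finset.mem_univ j) hj

/-- `κ`-side: a family independent over `k(fb)`, multiplied by the powers of `fb`, is independent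
over `k`. -/
theorem linearIndependent_pow_mul {R S : Type*} [Field R] [Field S] [Algebra R S] {y : S}
    (hy : Transcendental R y) {ι : Type*} (x : ι → S) (hx : LinearIndependent R⟮y⟯ x) (d : ℕ) :
    LinearIndependent R (fun p : Fin d × ι => y ^ (p.1 : ℕ) * x p.2) := by
  have hgen : Transcendental R (AdjoinSimple.gen R y) := by
    intro halg
    apply hy
    have := halg.algebraMap (A := S)
    simpa using this
  have h1 := linearIndependent_pow_of_transcendental hgen d
  have h2 := linearIndependent_smul h1 hx
  convert h2 using 2 with p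
  rw [Algebra.smul_def]
  simp

open scoped IntermediateField.algebraAdjoinAdjoin in
/-- `F`-side: if all the families `f ^ j * g i` are `K`-independent, then `g` is independent
over `K(f)`. -/
theorem linearIndependent_adjoin_of_pow_mul {R S : Type*} [Field R] [Field S] [Algebra R S]
    {y : S} {ι : Type*} (g : ι → S)
    (hg : ∀ d : ℕ, LinearIndependent R (fun p : Fin d × ι => y ^ (p.1 : ℕ) * g p.2)) :
    LinearIndependent R⟮y⟯ g := by
  classical
  rw [← LinearIndependent.iff_fractionRing (Algebra.adjoin R {y}) R⟮y⟯]
  rw [linearIndependent_iff']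
  intro s c hc i hi
  have hrep : ∀ i, ∃ P : R[X], aeval y P = ((c i : Algebra.adjoin R {y}) : S) := by
    intro i
    have hmem : ((c i : Algebra.adjoin R {y}) : S) ∈ (aeval y : R[X] →ₐ[R] S).range := by
      rw [← Algebra.adjoin_singleton_eq_range_aeval]
      exact (c i).2
    exact hmem
  choose P hP using hrep
  set d : ℕ := (s.sup fun i => (P i).natDegree) + 1 with hd
  have hdeg : ∀ i ∈ s, (P i).natDegree < d := fun i hi =>
    Nat.lt_succ_of_le (Finset.le_sup (f := fun i => (P i).natDegree) hi)
  have hli := hg d
  rw [linearIndependent_iff'] at hli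
  have hsum : ∑ p ∈ (Finset.univ : Finset (Fin d)) ×ˢ s,
      (P p.2).coeff (p.1 : ℕ) • (y ^ (p.1 : ℕ) * g p.2) = 0 := by
    rw [Finset.sum_product_right]
    rw [← hc]
    refine Finset.sum_congr rfl fun i hi => ?_
    have h1 : ((c i : Algebra.adjoin R {y}) : S) = ∑ j : Fin d, (P i).coeff (j : ℕ) • y ^ (j : ℕ) := by
      rw [← hP i, aeval_eq_sum_range' (hdeg i hi), Finset.sum_range]
    rw [Subalgebra.smul_def, smul_eq_mul, h1, Finset.sum_mul]
    refine Finset.sum_congr rfl fun j _ => ?_
    rw [smul_mul_assoc]
  have hzero := hli ((Finset.univ : Finset (Fin d)) ×ˢ s) (fun p => (P p.2).coeff (p.1 : ℕ)) hsum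
  have hPi : P i = 0 := by
    ext n
    rw [coeff_zero]
    by_cases hn : n < d
    · exact hzero (⟨n, hn⟩, i) (Finset.mem_product.mpr ⟨Finset.mem_univ _, hi⟩)
    · exact coeff_eq_zero_of_natDegree_lt (lt_of_lt_of_le (hdeg i hi) (not_lt.mp hn))
  apply Subtype.ext
  rw [← hP i, hPi, map_zero]
  rfl

/-- `f` is transcendental when its reduction is. -/
theorem transcendental_of_red (h : RedFacts A Red) {f : F} {fb : κ} (hf : Red f fb)
    (hfb : Transcendental kk fb) : Transcendental K f := by
  intro halg
  have h1 : ¬ LinearIndependent K (fun j : ℕ => f ^ j) := by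
    intro hli
    obtain ⟨p, hp0, hp⟩ := halg
    apply hp0
    have h2 := (linearIndependent_iff'.mp hli) (Finset.range (p.natDegree + 1))
      (fun j => p.coeff j) (by
        rw [← hp, aeval_eq_sum_range]) 
    ext n
    rw [coeff_zero]
    by_cases hn : n < p.natDegree + 1
    · exact h2 n (Finset.mem_range.mpr hn)
    · exact coeff_eq_zero_of_natDegree_lt (by omega)
  apply h1
  rw [linearIndependent_iff_finset_linearIndependent]
  intro s
  have hli : LinearIndependent kk (fun j : s => fb ^ (j : ℕ)) := by
    have h3 : LinearIndependent kk (fun j : ℕ => fb ^ j) := by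
      rw [linearIndependent_iff']
      intro t c hc j hj
      have h0 : aeval fb (∑ i ∈ t, C (c i) * X ^ i) = 0 := by
        rw [map_sum, ← hc]
        refine Finset.sum_congr rfl fun i _ => ?_
        rw [map_mul, aeval_C, map_pow, aeval_X, Algebra.smul_def]
      have h1 := (transcendental_iff.mp hfb) _ h0
      have h2 := congrArg (fun p : (kk)[X] => p.coeff j) h1
      simp only [finsetSum_coeff, coeff_C_mul, coeff_X_pow, coeff_zero] at h2
      rw [Finset.sum_eq_single j] at h2
      · simpa using h2
      · intro b _ hb
        rw [if_neg (fun h => hb h.symm), mul_zero]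
      · intro hj'
        exact absurd hj hj'
    exact h3.comp _ Subtype.val_injective
  exact CoreRed.linearIndependent_of_red h (fun j : s => f ^ (j : ℕ)) (fun j : s => fb ^ (j : ℕ))
    (fun j => CoreRed.red_pow h hf _) hli

/-- **B3** (finite form): if `Red` is surjective, `Red f fb` and `fb` is transcendental over the
residue field, then `[κ : k(fb)] ≤ [F : K(f)]`. -/
theorem finrank_adjoin_le (h : RedFacts A Red) (hsurj : ∀ x : κ, ∃ f : F, Red f x) {f : F}
    {fb : κ} (hf : Red f fb) (hfb : Transcendental kk fb) [FiniteDimensional K⟮f⟯ F] :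
    FiniteDimensional (kk)⟮fb⟯ κ ∧ Module.finrank (kk)⟮fb⟯ κ ≤ Module.finrank K⟮f⟯ F := by
  have hle : Module.rank (kk)⟮fb⟯ κ ≤ (Module.finrank K⟮f⟯ F : ℕ) := by
    apply rank_le
    intro s hs
    choose g hg using hsurj
    have h1 : LinearIndependent K⟮f⟯ (fun i : s => g (i : κ)) := by
      apply linearIndependent_adjoin_of_pow_mul
      intro d
      have h2 := linearIndependent_pow_mul hfb (fun i : s => (i : κ)) hs d
      exact CoreRed.linearIndependent_of_red h _ _
        (fun p => h.mul _ _ _ _ (CoreRed.red_pow h hf _) (hg _)) h2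
    have h3 := h1.fintype_card_le_finrank
    simpa using h3
  have hfin : FiniteDimensional (kk)⟮fb⟯ κ := by
    rw [FiniteDimensional, ← Module.rank_lt_aleph0_iff]
    exact lt_of_le_of_lt hle (Cardinal.natCast_lt_aleph0)
  exact ⟨hfin, Module.finrank_le_of_rank_le hle⟩

/-- **B3**: if `Red` is surjective, `Red f x` and `x` is transcendental over the residue field,
then `f` is transcendental and `[κ : k(x)] ≤ [F : K(f)]`. -/
theorem finrank_le (h : RedFacts A Red) (hsurj : ∀ x : κ, ∃ f : F, Red f x)
    (hP : PlaceFacts K F) {f : F} {x : κ} (hf : Red f x) (hx : Transcendental kk x) :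
    Transcendental K f ∧ Module.finrank (kk)⟮x⟯ κ ≤ Module.finrank K⟮f⟯ F := by
  have hft := transcendental_of_red h hf hx
  have : FiniteDimensional K⟮f⟯ F := hP.hfd f hft
  exact ⟨hft, (finrank_adjoin_le h hsurj hf hx).2⟩

/-- The hypothesis `hB3` of `LamKey.exists_Z_of`, verbatim. -/
theorem hB3 (h : RedFacts A Red) (hsurj : ∀ x : κ, ∃ f : F, Red f x) (hP : PlaceFacts K F) :
    ∀ (f : F) (x : κ), Red f x → Transcendental (IsLocalRing.ResidueField A) x →
      Transcendental K f ∧
        Module.finrank (IsLocalRing.ResidueField A)⟮x⟯ κ ≤ Module.finrank K⟮f⟯ F :=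
  fun _ _ hf hx => finrank_le h hsurj hP hf hx

end Fermat.Agent.S37.LamDeg

end
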