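import Fermat.Agent.S37.Lam
import Fermat.Agent.S18.Charts
import Fermat.Agent.S18.GenusLe
import Fermat.Agent.S18.RHIneq

/-!
# S37 package PB, part 2 (B4): specialisation of complete linear systems

`F / K`, `κ / k` function fields with `PlaceFacts`, `Red` a Gauss reduction with `RedFacts`,
equal genera, `k` infinite.  For every effective divisor `H` of `F` of large degree the reduction
`Lam A Red (L(H))` of the Riemann–Roch space is a complete linear system `L(Z)` of `κ` with
`deg Z = deg H` (`exists_Z_of`; the degree inequality `[κ : k(x)] ≤ [F : K(f)]` for `Red f x`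
(B3) enters as the hypothesis `hB3`).

The first part of the file is pure function-field theory: the pole divisor of a finite-dimensional
space of functions is attained by a generic element (`exists_poleDiv_generic`).
-/

set_option autoImplicit false

noncomputable section

namespace Fermat.Agent.S37.LamKey

open AlgebraicCurve IntermediateField Fermat.Agent.RR Fermat.Agent.S18

section Generic

variable {k κ : Type*} [Field k] [Field κ] [Algebra k κ]

/-- The elements of `W` whose order at `Q` exceeds `m` (together with `0`). -/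
def ordGT (W : Submodule k κ) (Q : Place k κ) (m : ℤ) : Submodule k κ where
  carrier := {x | x ∈ W ∧ (x = 0 ∨ m < Q.ord x)}
  zero_mem' := ⟨W.zero_mem, Or.inl rfl⟩
  add_mem' := by
    rintro x y ⟨hxW, hx⟩ ⟨hyW, hy⟩
    refine ⟨W.add_mem hxW hyW, ?_⟩
    by_cases hx0 : x = 0
    · rw [hx0, zero_add]; exact hy
    by_cases hy0 : y = 0
    · rw [hy0, add_zero]; exact hx
    by_cases hxy : x + y = 0
    · exact Or.inl hxy
    · right
      exact lt_of_lt_of_le (lt_min (hx.resolve_left hx0) (hy.resolve_left hy0))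
        (Fermat.Agent.S24.ord_add_ge Q hxy)
  smul_mem' := by
    rintro c x ⟨hxW, hx⟩
    refine ⟨W.smul_mem c hxW, ?_⟩
    by_cases hc : c = 0
    · left; rw [hc, zero_smul]
    by_cases hx0 : x = 0
    · left; rw [hx0, smul_zero]
    · right
      have hc' : algebraMap k κ c ≠ 0 := fun h0 => hc ((map_eq_zero (algebraMap k κ)).mp h0)
      show m < Q.ord (c • x)
      rw [Algebra.smul_def, Q.ord_mul hc' hx0, Fermat.Agent.S24.ord_algebraMap, zero_add]
      exact hx.resolve_left hx0

theorem mem_ordGT {W : Submodule k κ} {Q : Place k κ} {m : ℤ} {x : κ} :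
    x ∈ ordGT W Q m ↔ x ∈ W ∧ (x = 0 ∨ m < Q.ord x) := Iff.rfl

/-- Over an infinite field, finitely many upper bounds for orders, each attained by some nonzero
element of `W`, are attained simultaneously by one nonzero element. -/
theorem exists_generic [Infinite k] (W : Submodule k κ) (T : Finset (Place k κ))
    (m : Place k κ → ℤ) (hW : ∃ y ∈ W, y ≠ 0)
    (hm : ∀ Q ∈ T, ∃ y ∈ W, y ≠ 0 ∧ Q.ord y ≤ m Q) :
    ∃ x ∈ W, x ≠ 0 ∧ ∀ Q ∈ T, Q.ord x ≤ m Q := by
  classical
  let s : Finset (Subspace k W) :=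
    insert ⊥ (T.image fun Q => (ordGT W Q (m Q)).comap W.subtype)
  have hs : (⊤ : Subspace k W) ∉ s := by
    intro htop
    rcases Finset.mem_insert.mp htop with h | h
    · obtain ⟨y, hy, hy0⟩ := hW
      have h1 : (⟨y, hy⟩ : W) ∈ (⊥ : Subspace k W) := by rw [← h]; trivial
      exact hy0 (congrArg Subtype.val ((Submodule.mem_bot k).mp h1))
    · obtain ⟨Q, hQ, hQtop⟩ := Finset.mem_image.mp h
      obtain ⟨y, hy, hy0, hyo⟩ := hm Q hQ
      have h1 : (⟨y, hy⟩ : W) ∈ (ordGT W Q (m Q)).comap W.subtype := by rw [hQtop]; trivial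
      have h2 : y ∈ ordGT W Q (m Q) := h1
      rcases (mem_ordGT.mp h2).2 with h0 | h0
      · exact hy0 h0
      · omega
  have hne := Subspace.biUnion_ne_univ_of_top_notMem hs
  obtain ⟨x, hx⟩ := (Set.ne_univ_iff_exists_notMem _).mp hne
  simp only [Set.mem_iUnion, not_exists] at hx
  refine ⟨x, x.2, ?_, ?_⟩
  · intro h0
    refine hx ⊥ (Finset.mem_insert_self _ _) ?_
    rw [SetLike.mem_coe, Submodule.mem_bot]
    exact Subtype.ext h0
  · intro Q hQ
    by_contra hcon
    refine hx _ (Finset.mem_insert_of_mem (Finset.mem_image_of_mem _ hQ)) ?_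
    show (x : κ) ∈ ordGT W Q (m Q)
    exact mem_ordGT.mpr ⟨x.2, Or.inr (not_le.mp hcon)⟩

/-- The orders at `Q` of the nonzero elements of a finite-dimensional space are bounded below. -/
theorem exists_ord_bound (W : Submodule k κ) [FiniteDimensional k W] (Q : Place k κ) :
    ∃ M : ℕ, ∀ y ∈ W, y ≠ 0 → -(M : ℤ) ≤ Q.ord y := by
  classical
  obtain ⟨S, hS⟩ := (Submodule.fg_iff_finiteDimensional W).mpr inferInstance
  obtain ⟨π, hπ⟩ := IsDiscreteValuationRing.exists_irreducible Q.toValuationSubring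
  have hπ0 : (π : κ) ≠ 0 := by
    simpa [ne_eq, ZeroMemClass.coe_eq_zero] using hπ.ne_zero
  obtain ⟨M, hM⟩ : ∃ M : ℕ, ∀ s ∈ S, (-(Q.ord s)).toNat ≤ M :=
    ⟨S.sup fun s => (-(Q.ord s)).toNat, fun s hs =>
      Finset.le_sup (f := fun s => (-(Q.ord s)).toNat) hs⟩
  have hd : Q.ord ((π : κ) ^ M) = M := by
    rw [Fermat.Agent.S24.ord_pow, Q.ord_coe_irreducible hπ, mul_one]
  have hd0 : (π : κ) ^ M ≠ 0 := pow_ne_zero _ hπ0
  refine ⟨M, fun y hy hy0 => ?_⟩
  have hle : W ≤ (placeSub Q).comap (LinearMap.mulLeft k ((π : κ) ^ M)) := by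
    rw [← hS, Submodule.span_le]
    intro s hs
    show (π : κ) ^ M * s ∈ placeSub Q
    rw [mem_placeSub]
    by_cases hs0 : s = 0
    · rw [hs0, mul_zero]; exact zero_mem _
    · apply Fermat.Agent.S24.mem_of_ord_nonneg
      rw [Q.ord_mul hd0 hs0, hd]
      have h1 := hM s hs
      have h2 := Int.self_le_toNat (-(Q.ord s))
      omega
  have h1 : (π : κ) ^ M * y ∈ Q.toValuationSubring := mem_placeSub.mp (hle hy)
  have h2 := Fermat.Agent.S24.ord_nonneg_of_mem Q h1
  rw [Q.ord_mul hd0 hy0, hd] at h2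
  omega

/-- The minimal order at `Q` of the nonzero elements of a finite-dimensional space. -/
theorem exists_min_ord (W : Submodule k κ) [FiniteDimensional k W] (hW : ∃ y ∈ W, y ≠ 0)
    (Q : Place k κ) :
    ∃ m : ℤ, (∃ y ∈ W, y ≠ 0 ∧ Q.ord y = m) ∧ ∀ y ∈ W, y ≠ 0 → m ≤ Q.ord y := by
  obtain ⟨M, hM⟩ := exists_ord_bound W Q
  obtain ⟨y₀, hy₀, hy₀0⟩ := hW
  obtain ⟨m, ⟨y, hy, hy0, hym⟩, hmin⟩ :=
    Int.exists_least_of_bdd (P := fun z => ∃ y ∈ W, y ≠ 0 ∧ Q.ord y = z)
      ⟨-(M : ℤ), fun z hz => by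
        obtain ⟨y, hy, hy0, hyz⟩ := hz
        rw [← hyz]; exact hM y hy hy0⟩
      ⟨Q.ord y₀, y₀, hy₀, hy₀0, rfl⟩
  exact ⟨m, ⟨y, hy, hy0, hym⟩, fun y' hy' hy'0 => hmin _ ⟨y', hy', hy'0, rfl⟩⟩

/-- Outside a finite set of places all elements of a finite-dimensional space are regular. -/
theorem exists_finset_regular (hPb : PlaceFacts k κ) (W : Submodule k κ)
    [FiniteDimensional k W] :
    ∃ T : Finset (Place k κ), ∀ Q : Place k κ, Q ∉ T → ∀ y ∈ W, 0 ≤ Q.ord y := by
  classical
  obtain ⟨S, hS⟩ := (Submodule.fg_iff_finiteDimensional W).mpr inferInstance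
  refine ⟨S.biUnion fun s =>
    (Fermat.Agent.S24.Principal.finite_ord_ne_zero hPb.hfin s).toFinset, fun Q hQ y hy => ?_⟩
  have hle : W ≤ placeSub Q := by
    rw [← hS, Submodule.span_le]
    intro s hs
    rw [SetLike.mem_coe, mem_placeSub]
    apply Fermat.Agent.S24.mem_of_ord_nonneg
    by_contra hneg
    apply hQ
    rw [Finset.mem_biUnion]
    refine ⟨s, hs, ?_⟩
    rw [Set.Finite.mem_toFinset]
    show Q.ord s ≠ 0
    omega
  exact Fermat.Agent.S24.ord_nonneg_of_mem Q (mem_placeSub.mp (hle hy))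

/-- Every nonzero function has a pole divisor. -/
theorem exists_isPoleDiv (hPb : PlaceFacts k κ) (x : κ) :
    ∃ Z : Divisor k κ, Charts.IsPoleDiv x Z := by
  classical
  have hfin := Fermat.Agent.S24.Principal.finite_ord_ne_zero hPb.hfin x
  have hf : ∀ v : Place k κ, max (-(v.ord x)) 0 ≠ 0 → v ∈ hfin.toFinset := by
    intro v hv
    rw [Set.Finite.mem_toFinset]
    show v.ord x ≠ 0
    intro h0
    apply hv
    rw [h0]
    simp
  exact ⟨Finsupp.onFinset hfin.toFinset (fun v => max (-(v.ord x)) 0) hf, fun v => rfl⟩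

/-- **Pole divisor of a finite-dimensional space of functions containing `1`**: it is the pole
divisor of a generic element (`k` infinite). -/
theorem exists_poleDiv_generic [Infinite k] (hPb : PlaceFacts k κ) (W : Submodule k κ)
    [FiniteDimensional k W] (h1 : (1 : κ) ∈ W) :
    ∃ (x : κ) (Z : Divisor k κ), x ∈ W ∧ x ≠ 0 ∧ Charts.IsPoleDiv x Z ∧
      W ≤ riemannRochSpace Z ∧ ∀ Q : Place k κ, ∃ y ∈ W, y ≠ 0 ∧ Q.ord y = -Z Q := by
  classical
  have hW : ∃ y ∈ W, y ≠ 0 := ⟨1, h1, one_ne_zero⟩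
  obtain ⟨T, hT⟩ := exists_finset_regular hPb W
  choose m hm hmin using fun Q : Place k κ => exists_min_ord W hW Q
  obtain ⟨x, hxW, hx0, hxT⟩ := exists_generic W T m hW (fun Q _ => by
    obtain ⟨y, hy, hy0, hym⟩ := hm Q
    exact ⟨y, hy, hy0, le_of_eq hym⟩)
  obtain ⟨Z, hZ⟩ := exists_isPoleDiv hPb x
  refine ⟨x, Z, hxW, hx0, hZ, ?_, ?_⟩
  · intro y hy
    rw [mem_riemannRochSpace_iff]
    intro v
    by_cases hy0 : y = 0
    · exact Or.inl hy0
    · right
      have hZv : -(v.ord x) ≤ Z v := by rw [hZ v]; exact le_max_left _ _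
      have hZ0 : 0 ≤ Z v := hZ.nonneg v
      by_cases hv : v ∈ T
      · have h2 := hmin v y hy hy0
        have h3 := hxT v hv
        omega
      · have h2 := hT v hv y hy
        omega
  · intro Q
    by_cases hQ : Q.ord x < 0
    · refine ⟨x, hxW, hx0, ?_⟩
      rw [hZ Q, max_eq_left (by omega)]
      ring
    · refine ⟨1, h1, one_ne_zero, ?_⟩
      rw [hZ Q, max_eq_right (by omega), Q.ord_one]
      ring

end Generic

section Key

variable {K F κ : Type*} [Field K] [Field F] [Algebra K F] {A : ValuationSubring K}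
  [Field κ] [Algebra (IsLocalRing.ResidueField A) κ] {Red : F → κ → Prop}

open Fermat.Agent.S37.Lam

/-- **(B4)** Specialisation of complete linear systems of large degree, with the degree
inequality (B3) as a hypothesis. -/
theorem exists_Z_of (h : RedFacts A Red) (hP : PlaceFacts K F)
    (hPb : PlaceFacts (IsLocalRing.ResidueField A) κ)
    (hg : Module.finrank K (H1 (0 : Divisor K F))
      = Module.finrank (IsLocalRing.ResidueField A)
          (H1 (0 : Divisor (IsLocalRing.ResidueField A) κ)))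
    [Infinite (IsLocalRing.ResidueField A)]
    (hB3 : ∀ (f : F) (x : κ), Red f x → Transcendental (IsLocalRing.ResidueField A) x →
      Transcendental K f ∧
        Module.finrank (IsLocalRing.ResidueField A)⟮x⟯ κ ≤ Module.finrank K⟮f⟯ F) :
    ∃ n₁ : ℤ, ∀ H : Divisor K F, 0 ≤ H → n₁ ≤ Divisor.degree H →
      ∃ Z : Divisor (IsLocalRing.ResidueField A) κ, 0 ≤ Z ∧
        Divisor.degree Z = Divisor.degree H ∧
        Lam A Red (riemannRochSpace H) = riemannRochSpace Z ∧
        ∀ Q : Place (IsLocalRing.ResidueField A) κ,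
          ∃ x ∈ Lam A Red (riemannRochSpace H), x ≠ 0 ∧ Q.ord x = -Z Q := by
  have hR : RiemannFacts K F := riemannFacts_of_placeFacts hP
  have hRb : RiemannFacts (IsLocalRing.ResidueField A) κ := riemannFacts_of_placeFacts hPb
  obtain ⟨c, hc⟩ := GenusLe.exists_H1_bound hPb hRb
  refine ⟨c + (Module.finrank K (H1 (0 : Divisor K F)) : ℤ), fun H hH hdegH => ?_⟩
  have hfinL : FiniteDimensional K (riemannRochSpace H) := hR.finite_L H
  have hfinΛ := finiteDimensional_Lam h (riemannRochSpace H)
  have h1H : (1 : F) ∈ riemannRochSpace H := by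
    rw [mem_riemannRochSpace_iff]
    intro v
    right
    rw [v.ord_one]
    have := hH v
    simpa using this
  have h1Λ := one_mem_Lam h h1H
  obtain ⟨x, Z, hxΛ, hx0, hZ, hle, hatt⟩ :=
    exists_poleDiv_generic hPb (Lam A Red (riemannRochSpace H)) h1Λ
  obtain ⟨f, hfH, hfx⟩ := (mem_Lam h).mp hxΛ
  have hZ0 : 0 ≤ Z := fun v => hZ.nonneg v
  -- `deg Z ≤ deg H`
  have hdegle : Divisor.degree Z ≤ Divisor.degree H := by
    by_cases hxt : Transcendental (IsLocalRing.ResidueField A) x
    · obtain ⟨hft, hfin⟩ := hB3 f x hfx hxt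
      obtain ⟨Zf, hZf, hZfdeg⟩ := Charts.exists_poleDiv hP f hft
      have hf0 : f ≠ 0 := by
        rintro rfl
        exact hft (isAlgebraic_zero)
      have h1 : Zf ≤ H := by
        intro v
        rw [hZf v]
        have h2 := (mem_riemannRochSpace_iff.mp hfH v).resolve_left hf0
        have h3 : (0 : ℤ) ≤ H v := hH v
        exact max_le (by omega) h3
      have h2 := Riemann.degree_mono hP.hdeg h1
      rw [hZ.degree_eq hPb hxt]
      rw [hZfdeg] at h2
      have h3 : (Module.finrank (IsLocalRing.ResidueField A)⟮x⟯ κ : ℤ)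
          ≤ (Module.finrank K⟮f⟯ F : ℤ) := by exact_mod_cast hfin
      omega
    · have hxa : IsAlgebraic (IsLocalRing.ResidueField A) x := not_not.mp hxt
      have hZz : Z = 0 := by
        ext v
        rw [hZ v, Fermat.Agent.S24.ord_eq_zero_of_isAlgebraic v hxa]
        simp
      rw [hZz, map_zero]
      exact Duality.degree_nonneg hH
  -- Riemann on both sides
  have hRiem := GenusLe.le_finrank_L hR H
  have hdim := finrank_Lam h (riemannRochSpace H)
  have hfinZ : FiniteDimensional (IsLocalRing.ResidueField A) (riemannRochSpace Z) :=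
    hRb.finite_L Z
  have hmono := Submodule.finrank_mono hle
  have hlZ : (Module.finrank (IsLocalRing.ResidueField A) (riemannRochSpace Z) : ℤ)
      ≤ Divisor.degree Z + 1 := by
    have hpd : HasPrincipalDivisors (IsLocalRing.ResidueField A) κ :=
      Fermat.Agent.S24.hasPrincipalDivisors_of hPb.hdeg hPb.hfin hPb.hsum
    have : Nonempty (Place (IsLocalRing.ResidueField A) κ) :=
      RHIneq.nonempty_place_of_placeFacts hPb
    have h1 := Riemann.finrank_sub_degree_le hPb.hdeg hPb.hres hpd hZ0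
    rw [hRb.finrank_L_zero, map_zero] at h1
    push_cast at h1
    omega
  have hmono' : (Module.finrank (IsLocalRing.ResidueField A)
      (Lam A Red (riemannRochSpace H)) : ℤ)
      ≤ (Module.finrank (IsLocalRing.ResidueField A) (riemannRochSpace Z) : ℤ) := by
    exact_mod_cast hmono
  have hdim' : (Module.finrank (IsLocalRing.ResidueField A)
      (Lam A Red (riemannRochSpace H)) : ℤ)
      = (Module.finrank K (riemannRochSpace H) : ℤ) := by exact_mod_cast hdim
  have hg' : (Module.finrank K (H1 (0 : Divisor K F)) : ℤ)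
      = (Module.finrank (IsLocalRing.ResidueField A)
          (H1 (0 : Divisor (IsLocalRing.ResidueField A) κ)) : ℤ) := by exact_mod_cast hg
  have hcZ : c ≤ Divisor.degree Z := by omega
  have hlZ' := GenusLe.finrank_L_of_large hRb hc Z hcZ
  have hdegeq : Divisor.degree Z = Divisor.degree H := by omega
  refine ⟨Z, hZ0, hdegeq, ?_, hatt⟩
  apply Submodule.eq_of_le_of_finrank_le hle
  have h4 : (Module.finrank (IsLocalRing.ResidueField A) (riemannRochSpace Z) : ℤ)
      ≤ (Module.finrank (IsLocalRing.ResidueField A)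
          (Lam A Red (riemannRochSpace H)) : ℤ) := by omega
  exact_mod_cast h4

end Key

end Fermat.Agent.S37.LamKey

end
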