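import Fermat.Agent.S37.SpecMap
import Fermat.Agent.S37.LamKey
import Fermat.Agent.S37.RhoDef
import Fermat.Agent.S37.LamDeg

/-!
# S37 / SpecGlue : the specialisation map with the r-axiom (B4 + B5 + B6 assembled)

From `RedFacts`, `PlaceFacts` on both sides, equality of genera, an infinite residue field and the
degree inequality (B3, hypothesis `hB3` in the shape of `LamKey.exists_Z_of`), there is a map of
places `r : Place K F → Place k κ` which satisfies the r-axiom `RhoDef.IsRAxiom Red r`
(`r_* (div f) = div x` whenever `Red f x`, `x ≠ 0`) and computes the specialisation of every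
effective divisor of large degree.
-/

set_option autoImplicit false
set_option synthInstance.maxHeartbeats 400000

noncomputable section

namespace Fermat.Agent.S37.SpecGlue

open AlgebraicCurve IntermediateField Fermat.Agent.RR Fermat.Agent.S18 Fermat.Agent.S37.SpecMap

variable {K F κ : Type*} [Field K] [Field F] [Algebra K F] {A : ValuationSubring K}
  [Field κ] [Algebra (IsLocalRing.ResidueField A) κ] {Red : F → κ → Prop}

/-- The key statement (B4) in the shape consumed by `SpecMap.exists_specMap`. -/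
theorem exists_key (h : RedFacts A Red) (hP : PlaceFacts K F)
    (hPb : PlaceFacts (IsLocalRing.ResidueField A) κ)
    (hg : Module.finrank K (H1 (0 : Divisor K F))
      = Module.finrank (IsLocalRing.ResidueField A)
          (H1 (0 : Divisor (IsLocalRing.ResidueField A) κ)))
    [Infinite (IsLocalRing.ResidueField A)]
    (hB3 : ∀ (f : F) (x : κ), Red f x → Transcendental (IsLocalRing.ResidueField A) x →
      Transcendental K f ∧
        Module.finrank (IsLocalRing.ResidueField A)⟮x⟯ κ ≤ Module.finrank K⟮f⟯ F) :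
    ∃ n₁ : ℤ, ∀ H : Divisor K F, 0 ≤ H → n₁ ≤ Divisor.degree H →
      ∃ Z : Divisor (IsLocalRing.ResidueField A) κ, IsSpecDiv Red H Z := by
  obtain ⟨n₁, hn₁⟩ := LamKey.exists_Z_of h hP hPb hg hB3
  refine ⟨n₁, fun H hH hn => ?_⟩
  obtain ⟨Z, hZ0, hZd, hLam, hatt⟩ := hn₁ H hH hn
  refine ⟨Z, ⟨hZ0, hZd, fun x => ?_, fun Q => ?_⟩⟩
  · rw [← hLam, Lam.mem_Lam h]
  · obtain ⟨x, hx, hx0, hord⟩ := hatt Q
    exact ⟨x, hLam ▸ hx, hx0, hord⟩

/-- **The specialisation map (B4 + B5 + B6).** -/
theorem exists_rAxiom (h : RedFacts A Red) (hP : PlaceFacts K F)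
    (hPb : PlaceFacts (IsLocalRing.ResidueField A) κ)
    (hg : Module.finrank K (H1 (0 : Divisor K F))
      = Module.finrank (IsLocalRing.ResidueField A)
          (H1 (0 : Divisor (IsLocalRing.ResidueField A) κ)))
    [Infinite (IsLocalRing.ResidueField A)]
    (hB3 : ∀ (f : F) (x : κ), Red f x → Transcendental (IsLocalRing.ResidueField A) x →
      Transcendental K f ∧
        Module.finrank (IsLocalRing.ResidueField A)⟮x⟯ κ ≤ Module.finrank K⟮f⟯ F) :
    ∃ r : Place K F → Place (IsLocalRing.ResidueField A) κ,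
      RhoDef.IsRAxiom Red r ∧ ∃ n₁ : ℤ, IsSpecMap Red n₁ r := by
  obtain ⟨n₁, hkey⟩ := exists_key h hP hPb hg hB3
  obtain ⟨r, hr⟩ := exists_specMap h hP hPb hkey
  exact ⟨r, fun f x hf hx D hD Q => hr.div h hP hf hx D hD Q, n₁, hr⟩

/-- **The specialisation map (B3 + B4 + B5 + B6)**, from surjectivity of the reduction. -/
theorem exists_rAxiom_of_surj (h : RedFacts A Red) (hsurj : ∀ x : κ, ∃ f : F, Red f x)
    (hP : PlaceFacts K F) (hPb : PlaceFacts (IsLocalRing.ResidueField A) κ)
    (hg : Module.finrank K (H1 (0 : Divisor K F))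
      = Module.finrank (IsLocalRing.ResidueField A)
          (H1 (0 : Divisor (IsLocalRing.ResidueField A) κ)))
    [Infinite (IsLocalRing.ResidueField A)] :
    ∃ r : Place K F → Place (IsLocalRing.ResidueField A) κ,
      RhoDef.IsRAxiom Red r ∧ ∃ n₁ : ℤ, IsSpecMap Red n₁ r :=
  exists_rAxiom h hP hPb hg (LamDeg.hB3 h hsurj hP)

end Fermat.Agent.S37.SpecGlue

end
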