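import Fermat.Agent.S18.Close
import Fermat.Agent.S18.GaussAMain
import Fermat.Agent.S37.SpecGlue

/-!
# S37 / SpecLvl : the specialisation map of places at level `M = levelM ℓ N` (closed form)

For `ℓ` prime, `ℓ ∤ N`, `A` a valuation subring of `AlgebraicClosure ℚ` over `ℓ`,
`M = LevelNum.levelM ℓ N`, `κ_M = GaussA.kappa k M`, `Red_M = GaussA.Red A M`:

* `genus_eq` : the genera of `F_M` and `κ_M` agree;
* `exists_r` : there is `r : Place K F_M → Place k κ_M` with the r-axiom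
  `RhoDef.IsRAxiom (GaussA.Red A M) r`, which computes the specialisation of every effective
  divisor of large degree.

Everything is discharged from main (copy of the preamble of `S18.Close.main`, with the Gauss
layers `GaussA.redFacts` / `GaussA.hint`).
-/

set_option autoImplicit false
set_option synthInstance.maxHeartbeats 400000

noncomputable section

namespace Fermat.Agent.S37.SpecLvl

open AlgebraicCurve ModularCurve Fermat.Agent.RR Fermat.Agent.S18

/-- The genus bundle at level `M`: surjectivity of the reduction and equality of the genera. -/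
theorem surj_and_genus_eq {ℓ N : ℕ} [NeZero N] (hℓ : ℓ.Prime) (hℓN : ¬ ℓ ∣ N)
    (A : ValuationSubring (AlgebraicClosure ℚ)) (hA : A.LiesOverPrime ℓ) :
    (∀ x : GaussA.kappa (IsLocalRing.ResidueField A) (LevelNum.levelM ℓ N),
      ∃ f : modularFunctionFieldBar (LevelNum.levelM ℓ N),
        GaussA.Red A (LevelNum.levelM ℓ N) f x) ∧
    Module.finrank (AlgebraicClosure ℚ)
        (H1 (0 : Divisor (AlgebraicClosure ℚ) (modularFunctionFieldBar (LevelNum.levelM ℓ N))))
      = Module.finrank (IsLocalRing.ResidueField A)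
        (H1 (0 : Divisor (IsLocalRing.ResidueField A)
          (GaussA.kappa (IsLocalRing.ResidueField A) (LevelNum.levelM ℓ N)))) := by
  have hk : IsAlgClosed (IsLocalRing.ResidueField A) := ResField.isAlgClosed A
  have hchar : CharP (IsLocalRing.ResidueField A) ℓ := ResField.charP A hℓ hA
  have hℓM0 : ¬ ℓ ∣ LevelNum.M0 ℓ := LevelNum.not_dvd_M0 hℓ
  have hℓM : ¬ ℓ ∣ LevelNum.levelM ℓ N := LevelNum.not_dvd_levelM hℓ hℓN
  have hR0 := GaussA.redFacts hℓ hℓM0 A hA
  have hint0 := GaussA.hint hℓ hℓM0 A hA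
  have hR := GaussA.redFacts hℓ hℓM A hA
  have hint := GaussA.hint hℓ hℓM A hA
  have hle := Close.tower (LevelNum.M0_dvd_levelM ℓ N) A
    ⟨GaussA.Red A (LevelNum.levelM ℓ N), hR, hint⟩
  have hfd0 := KappaDeg.finiteDimensional (k := IsLocalRing.ResidueField A) hℓ (LevelNum.M0 ℓ) hℓM0
    (GaussA.jbE (IsLocalRing.ResidueField A) (LevelNum.M0 ℓ)) rfl
  have hfr0 := KappaDeg.finrank_eq (k := IsLocalRing.ResidueField A) hℓ (LevelNum.M0 ℓ) hℓM0
    (GaussA.jbE (IsLocalRing.ResidueField A) (LevelNum.M0 ℓ)) rfl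
  have hfd := KappaDeg.finiteDimensional (k := IsLocalRing.ResidueField A) hℓ
    (LevelNum.levelM ℓ N) hℓM (GaussA.jbE (IsLocalRing.ResidueField A) (LevelNum.levelM ℓ N)) rfl
  have hfr := KappaDeg.finrank_eq (k := IsLocalRing.ResidueField A) hℓ
    (LevelNum.levelM ℓ N) hℓM (GaussA.jbE (IsLocalRing.ResidueField A) (LevelNum.levelM ℓ N)) rfl
  obtain ⟨hj0, hsurj0⟩ :=
    SemiLvl.hj_hsurj_of_hint A (LevelNum.M0 ℓ) (GaussA.Red A (LevelNum.M0 ℓ)) hR0 hint0
      (GenBar.uK_mem _)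
  obtain ⟨hj, hsurj⟩ :=
    SemiLvl.hj_hsurj_of_hint A (LevelNum.levelM ℓ N) (GaussA.Red A (LevelNum.levelM ℓ N)) hR hint
      (GenBar.uK_mem _)
  have hc0 := CuspsKappa.card_poles A hℓ (LevelNum.M0 ℓ) hℓM0 hA
    (SepPF.placeFacts_of_finite _ (GaussA.jbE (IsLocalRing.ResidueField A) (LevelNum.M0 ℓ)) rfl)
    hfr0
  have hc := CuspsKappa.card_poles A hℓ (LevelNum.levelM ℓ N) hℓM hA
    (SepPF.placeFacts_of_finite _
      (GaussA.jbE (IsLocalRing.ResidueField A) (LevelNum.levelM ℓ N)) rfl) hfr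
  have hg := GenusWire.genus_ge_of ℓ A (LevelNum.M0_dvd_levelM ℓ N) _ _ hle
    (GaussA.jbE (IsLocalRing.ResidueField A) (LevelNum.M0 ℓ)) rfl
    (GaussA.jbE (IsLocalRing.ResidueField A) (LevelNum.levelM ℓ N)) rfl
    hfd0 hfr0 hfd hfr (GaussA.Red A (LevelNum.M0 ℓ)) hR0 hj0 hsurj0 hc0 hc
  have hg' := SemiLvl.genus_le_of_hint A (LevelNum.levelM ℓ N)
    (GaussA.Red A (LevelNum.levelM ℓ N)) hR hint (GenBar.uK_mem _) hfd hfr
  refine ⟨hsurj, le_antisymm ?_ hg'⟩
  exact_mod_cast hg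

/-- **The specialisation map at level `M`** with the r-axiom. -/
theorem exists_r {ℓ N : ℕ} [NeZero N] (hℓ : ℓ.Prime) (hℓN : ¬ ℓ ∣ N)
    (A : ValuationSubring (AlgebraicClosure ℚ)) (hA : A.LiesOverPrime ℓ) :
    ∃ r : Place (AlgebraicClosure ℚ) (modularFunctionFieldBar (LevelNum.levelM ℓ N)) →
        Place (IsLocalRing.ResidueField A)
          (GaussA.kappa (IsLocalRing.ResidueField A) (LevelNum.levelM ℓ N)),
      RhoDef.IsRAxiom (GaussA.Red A (LevelNum.levelM ℓ N)) r ∧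
        ∃ n₁ : ℤ, SpecMap.IsSpecMap (GaussA.Red A (LevelNum.levelM ℓ N)) n₁ r := by
  have hk : IsAlgClosed (IsLocalRing.ResidueField A) := ResField.isAlgClosed A
  have hinf : Infinite (IsLocalRing.ResidueField A) := IsAlgClosed.instInfinite
  have hchar : CharP (IsLocalRing.ResidueField A) ℓ := ResField.charP A hℓ hA
  have hℓM : ¬ ℓ ∣ LevelNum.levelM ℓ N := LevelNum.not_dvd_levelM hℓ hℓN
  have hR := GaussA.redFacts hℓ hℓM A hA
  have hfd := KappaDeg.finiteDimensional (k := IsLocalRing.ResidueField A) hℓ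
    (LevelNum.levelM ℓ N) hℓM (GaussA.jbE (IsLocalRing.ResidueField A) (LevelNum.levelM ℓ N)) rfl
  obtain ⟨hsurj, hg⟩ := surj_and_genus_eq hℓ hℓN A hA
  exact SpecGlue.exists_rAxiom_of_surj hR hsurj (ConstPF.placeFacts_bar _)
    (SepPF.placeFacts_of_finite _
      (GaussA.jbE (IsLocalRing.ResidueField A) (LevelNum.levelM ℓ N)) rfl) hg

end Fermat.Agent.S37.SpecLvl

end
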