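import Fermat.Prelude.Def_AlgebraicCurve_Correspondence
import Fermat.Agent.S18.CoreDefs
import Fermat.Agent.S18.RootAbs
import Fermat.Agent.S18.Extract
import Fermat.Agent.S18.Close
import Fermat.Agent.S18.LayerQ
import Fermat.Agent.S37.RhoDef

/-!
# S37 / Torsion (package PG = R3): prime-to-`ℓ` torsion in the kernel of `ρ` is zero

`ρ = r_* ∘ π^* : Div(F_N) → Div(κ_M)`, `M = levelM ℓ N`, `r` a map of places satisfying the
reduction axiom (`RhoDef.IsRAxiom Red r`) for a Gauss layer `Red` at level `M`.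

* `principal_of_mapDomain_pullback_eq_zero` : the abstract statement.  If `m • D = div u` on `E`,
  `m` invertible in the residue field, and `r_* ι^* D = 0`, then `D` is principal.  Proof:
  normalise `ι u` (Gauss norm one); by the reduction axiom its reduction has divisor
  `m • r_* ι^* D = 0`, so it is a constant, and after rescaling `Red (ι u') 1`; the two-chart core
  (`CoreStmt`) makes `ι^* D` principal on `E'`, i.e. `ι u' = w ^ m` in `E'`; the descent of roots
  (`RootAbs.of_red`) puts `w` in `E`.  No reduction to prime order is needed.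
* `core_and_monic` : the hypotheses of the abstract statement at `F_N ⊆ F_M`, from the packages
  of S18 on main (as inside `Close.main` / `RootLvl.of_gauss`).
* `main`, `main_rho`, `main_exists` : the statement `R3` of the S37 assembly.
-/

set_option autoImplicit false
set_option synthInstance.maxHeartbeats 400000

noncomputable section

namespace Fermat.Agent.S37.Torsion

open AlgebraicCurve ModularCurve Fermat.Agent.RR Fermat.Agent.S18
open scoped IntermediateField

section Abstract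

variable {K : Type*} [Field K] [IsAlgClosed K] (A : ValuationSubring K)
  {E E' κ : Type*} [Field E] [Algebra K E] [Field E'] [Algebra K E']
  [HasPrincipalDivisors K E'] [Field κ] [Algebra (IsLocalRing.ResidueField A) κ]

/-- **Abstract torsion statement.**  `ι : E → E'` function fields over `K`, `Red` a Gauss
reduction relation on `E'` with the two-chart core and integrality over `E`, `r` a map of places
satisfying the reduction axiom for `Red`.  If `m • D = div u` on `E` with `m` invertible in the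
residue field and `r_* ι^* D = 0`, then `D` is principal. -/
theorem principal_of_mapDomain_pullback_eq_zero
    (ι : E →ₐ[K] E') (hι : ι.toRingHom.IsIntegral) (Red : E' → κ → Prop)
    (hR : RedFacts A Red) (hcore : CoreStmt A Red)
    (hmon : ∀ (x : E') (y : κ), Red x y → ∃ p : Polynomial E, p.Monic ∧
      (∀ n, ∃ c, Red (ι (p.coeff n)) c) ∧ p.eval₂ (ι : E →+* E') x = 0)
    (hconstκ : ∀ x : κ, x ≠ 0 → (∀ Q : Place (IsLocalRing.ResidueField A) κ, Q.ord x = 0) →
      ∃ c : IsLocalRing.ResidueField A, x = algebraMap (IsLocalRing.ResidueField A) κ c)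
    (hconstE' : ∀ f : E', f ≠ 0 → (∀ P : Place K E', P.ord f = 0) →
      ∃ c : K, f = algebraMap K E' c)
    (r : Place K E' → Place (IsLocalRing.ResidueField A) κ)
    (hr : ∀ (f : E') (x : κ), Red f x → x ≠ 0 → ∀ D : Divisor K E',
      (∀ P : Place K E', D P = P.ord f) →
      ∀ Q : Place (IsLocalRing.ResidueField A) κ, Finsupp.mapDomain r D Q = Q.ord x)
    (m : ℕ) (hm : ((m : ℕ) : IsLocalRing.ResidueField A) ≠ 0)
    (D : Divisor K E) (u : E) (hu : u ≠ 0)
    (hD : ∀ P : Place K E, (m : ℤ) * D P = P.ord u)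
    (hρ : Finsupp.mapDomain r (Divisor.pullbackAlong ι hι D) = 0) :
    ∃ x₀ : E, x₀ ≠ 0 ∧ ∀ P : Place K E, D P = P.ord x₀ := by
  have hm0 : m ≠ 0 := by
    rintro rfl
    exact hm (by simp)
  have hmZ : (m : ℤ) ≠ 0 := Nat.cast_ne_zero.mpr hm0
  have hιu : ι u ≠ 0 := (map_ne_zero_iff _ ι.toRingHom.injective).mpr hu
  set D' : Divisor K E' := Divisor.pullbackAlong ι hι D with hD'
  -- Step A
  have hA : ∀ w : Place K E', (m : ℤ) * D' w = w.ord (ι u) := by
    intro w
    rw [hD', Divisor.pullbackAlong_apply, Place.ord_restrictAlong ι hι w u, ← hD]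
    ring
  -- Step B
  obtain ⟨c, hc0, ub, hub0, hred⟩ := hR.normalize (ι u) hιu
  have hc0' : algebraMap K E' c ≠ 0 := (map_ne_zero_iff _ (algebraMap K E').injective).mpr hc0
  -- Step C
  have hC : ∀ Q : Place (IsLocalRing.ResidueField A) κ, Q.ord ub = 0 := by
    intro Q
    have h1 := hr _ _ hred hub0 (m • D') (fun w => by
      rw [Finsupp.smul_apply, nsmul_eq_mul, hA w, w.ord_mul hc0' hιu, Extract.ord_const,
        zero_add]) Q
    rw [← h1, Finsupp.mapDomain_smul, hρ, smul_zero]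
    rfl
  -- Step D
  obtain ⟨cb, hcb⟩ := hconstκ ub hub0 hC
  have hcb0 : cb ≠ 0 := by
    rintro rfl
    rw [map_zero] at hcb
    exact hub0 hcb
  obtain ⟨γ, hγ⟩ := IsLocalRing.residue_surjective (cb⁻¹)
  have hred1 : Red (algebraMap K E' ((γ : K) * c) * ι u) 1 := by
    have h := hR.mul _ _ _ _ (hR.const γ) hred
    rw [hγ, hcb, ← map_mul, inv_mul_cancel₀ hcb0, map_one, ← mul_assoc, ← map_mul] at h
    exact h
  set u' : E := algebraMap K E ((γ : K) * c) * u with hu'
  have hιu' : ι u' = algebraMap K E' ((γ : K) * c) * ι u := by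
    rw [hu', map_mul, AlgHom.commutes]
  rw [← hιu'] at hred1
  have hιu'0 : ι u' ≠ 0 := RootAbs.ne_zero_of_red hR hred1 one_ne_zero
  have hu'0 : u' ≠ 0 := fun h => hιu'0 (by rw [h, map_zero])
  have hγc0 : algebraMap K E' ((γ : K) * c) ≠ 0 := by
    intro h
    apply hιu'0
    rw [hιu', h, zero_mul]
  have hγc0E : algebraMap K E ((γ : K) * c) ≠ 0 := by
    intro h
    apply hu'0
    rw [hu', h, zero_mul]
  -- Step E
  have hE : D' ∈ Divisor.principal (K := K) (F := E') :=
    hcore m hm D' (ι u') hιu'0 (fun w => by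
      rw [hA w, hιu', w.ord_mul hγc0 hιu, Extract.ord_const, zero_add]) hred1
  obtain ⟨w0, hw0, hw0D⟩ := hE
  -- Step F
  have hg0 : w0 ^ m / ι u' ≠ 0 := div_ne_zero (pow_ne_zero m hw0) hιu'0
  have hF : ∀ P : Place K E', P.ord (w0 ^ m / ι u') = 0 := by
    intro P
    rw [Extract.ord_quot P (pow_ne_zero m hw0) hιu'0, Extract.ord_npow, ← hw0D P, hA P, hιu',
      P.ord_mul hγc0 hιu, Extract.ord_const, zero_add, sub_self]
  obtain ⟨a, ha⟩ := hconstE' _ hg0 hF
  have ha0 : a ≠ 0 := by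
    rintro rfl
    rw [map_zero] at ha
    exact hg0 ha
  obtain ⟨b, hb⟩ := IsAlgClosed.exists_pow_nat_eq a (Nat.pos_of_ne_zero hm0)
  have hb0 : b ≠ 0 := by
    rintro rfl
    rw [zero_pow hm0] at hb
    exact ha0 hb.symm
  have hb0' : algebraMap K E' b ≠ 0 := (map_ne_zero_iff _ (algebraMap K E').injective).mpr hb0
  set w1 : E' := w0 / algebraMap K E' b with hw1
  have hw1m : w1 ^ m = ι u' := by
    rw [hw1, div_pow, ← map_pow, hb, ← ha]
    field_simp
  -- Step G
  obtain ⟨x₀, hx₀⟩ := RootAbs.of_red A ι Red hR hmon m hm w1 u' hw1m hred1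
  have hx₀m : x₀ ^ m = u' := by
    apply ι.toRingHom.injective
    show ι (x₀ ^ m) = ι u'
    rw [map_pow, hx₀, hw1m]
  have hx₀0 : x₀ ≠ 0 := by
    rintro rfl
    rw [zero_pow hm0] at hx₀m
    exact hu'0 hx₀m.symm
  refine ⟨x₀, hx₀0, fun P => ?_⟩
  have h1 : (m : ℤ) * P.ord x₀ = (m : ℤ) * D P := by
    rw [← Extract.ord_npow, hx₀m, hu', P.ord_mul hγc0E hu, Extract.ord_const, zero_add, hD]
  exact (mul_left_cancel₀ hmZ h1).symm

end Abstract

set_option maxHeartbeats 1600000 in
/-- The two-chart core and the integrality over `F_N` at level `M = levelM ℓ N`, for any Gauss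
layer `(Red, hR, hint)` at level `M` on `κ_M = GaussA.kappa k M`. -/
theorem core_and_monic {ℓ N : ℕ} [NeZero N] (hℓ : ℓ.Prime) (hℓN : ¬ ℓ ∣ N)
    (A : ValuationSubring (AlgebraicClosure ℚ)) (hA : A.LiesOverPrime ℓ)
    (Red : modularFunctionFieldBar (LevelNum.levelM ℓ N) →
      GaussA.kappa (IsLocalRing.ResidueField A) (LevelNum.levelM ℓ N) → Prop)
    (hR : RedFacts A Red)
    (hint : ∀ (V : LaurentSeries A)
      (hV : genS A V ∈ modularFunctionFieldBar (LevelNum.levelM ℓ N)),
      ∃ hx : redS A V ∈ GaussA.kappa (IsLocalRing.ResidueField A) (LevelNum.levelM ℓ N),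
        Red ⟨genS A V, hV⟩ ⟨redS A V, hx⟩)
    (hle : modularFunctionFieldBar N ≤ modularFunctionFieldBar (LevelNum.levelM ℓ N)) :
    CoreStmt A Red ∧
    (∀ (y : modularFunctionFieldBar (LevelNum.levelM ℓ N))
      (z : GaussA.kappa (IsLocalRing.ResidueField A) (LevelNum.levelM ℓ N)), Red y z →
      ∃ p : Polynomial (modularFunctionFieldBar N), p.Monic ∧
        (∀ n, ∃ c, Red (IntermediateField.inclusion hle (p.coeff n)) c) ∧
        p.eval₂ ((IntermediateField.inclusion hle :
          modularFunctionFieldBar N →ₐ[AlgebraicClosure ℚ]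
            modularFunctionFieldBar (LevelNum.levelM ℓ N)) :
            modularFunctionFieldBar N →+* modularFunctionFieldBar (LevelNum.levelM ℓ N)) y = 0) ∧
    PlaceFacts (IsLocalRing.ResidueField A)
      (GaussA.kappa (IsLocalRing.ResidueField A) (LevelNum.levelM ℓ N)) := by
  have hk : IsAlgClosed (IsLocalRing.ResidueField A) := ResField.isAlgClosed A
  have hchar : CharP (IsLocalRing.ResidueField A) ℓ := ResField.charP A hℓ hA
  have hℓM0 : ¬ ℓ ∣ LevelNum.M0 ℓ := LevelNum.not_dvd_M0 hℓ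
  have hℓM : ¬ ℓ ∣ LevelNum.levelM ℓ N := LevelNum.not_dvd_levelM hℓ hℓN
  have hM : Close.Layer A (LevelNum.levelM ℓ N) := ⟨Red, hR, hint⟩
  have hle0 := Close.tower (LevelNum.M0_dvd_levelM ℓ N) A hM
  obtain ⟨Red0, hR0, hint0⟩ := LayerQ.layer hℓ hℓM0 A hA
  have hfd0 := KappaDeg.finiteDimensional (k := IsLocalRing.ResidueField A) hℓ (LevelNum.M0 ℓ) hℓM0
    (GaussA.jbE (IsLocalRing.ResidueField A) (LevelNum.M0 ℓ)) rfl
  have hfr0 := KappaDeg.finrank_eq (k := IsLocalRing.ResidueField A) hℓ (LevelNum.M0 ℓ) hℓM0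
    (GaussA.jbE (IsLocalRing.ResidueField A) (LevelNum.M0 ℓ)) rfl
  have hfd := KappaDeg.finiteDimensional (k := IsLocalRing.ResidueField A) hℓ
    (LevelNum.levelM ℓ N) hℓM (GaussA.jbE (IsLocalRing.ResidueField A) (LevelNum.levelM ℓ N)) rfl
  have hfr := KappaDeg.finrank_eq (k := IsLocalRing.ResidueField A) hℓ
    (LevelNum.levelM ℓ N) hℓM (GaussA.jbE (IsLocalRing.ResidueField A) (LevelNum.levelM ℓ N)) rfl
  obtain ⟨hj0, hsurj0⟩ :=
    SemiLvl.hj_hsurj_of_hint A (LevelNum.M0 ℓ) Red0 hR0 hint0 (GenBar.uK_mem _)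
  obtain ⟨hj, hsurj⟩ :=
    SemiLvl.hj_hsurj_of_hint A (LevelNum.levelM ℓ N) Red hR hint (GenBar.uK_mem _)
  have hc0 := CuspsKappa.card_poles A hℓ (LevelNum.M0 ℓ) hℓM0 hA
    (SepPF.placeFacts_of_finite _ (GaussA.jbE (IsLocalRing.ResidueField A) (LevelNum.M0 ℓ)) rfl)
    hfr0
  have hPb : PlaceFacts (IsLocalRing.ResidueField A)
      (GaussA.kappa (IsLocalRing.ResidueField A) (LevelNum.levelM ℓ N)) :=
    SepPF.placeFacts_of_finite _
      (GaussA.jbE (IsLocalRing.ResidueField A) (LevelNum.levelM ℓ N)) rfl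
  have hc := CuspsKappa.card_poles A hℓ (LevelNum.levelM ℓ N) hℓM hA hPb hfr
  have hg := GenusWire.genus_ge_of ℓ A (LevelNum.M0_dvd_levelM ℓ N) _ _ hle0
    (GaussA.jbE (IsLocalRing.ResidueField A) (LevelNum.M0 ℓ)) rfl
    (GaussA.jbE (IsLocalRing.ResidueField A) (LevelNum.levelM ℓ N)) rfl
    hfd0 hfr0 hfd hfr Red0 hR0 hj0 hsurj0 hc0 hc
  have hcore : CoreStmt A Red :=
    CoreLvl.of_gauss A (LevelNum.levelM ℓ N) _
      (GaussA.jbE (IsLocalRing.ResidueField A) (LevelNum.levelM ℓ N)) rfl hfd hfr Red hR hj hsurj hg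
  refine ⟨hcore, ?_, hPb⟩
  -- integrality over `F_N`, as in `RootLvl.of_gauss`
  have hP : PlaceFacts (AlgebraicClosure ℚ) (modularFunctionFieldBar (LevelNum.levelM ℓ N)) :=
    ConstPF.placeFacts_bar (LevelNum.levelM ℓ N)
  have hjt := GenusBar.transcendental_xgen_bar (LevelNum.levelM ℓ N)
  have hjbt : Transcendental (IsLocalRing.ResidueField A)
      (GaussA.jbE (IsLocalRing.ResidueField A) (LevelNum.levelM ℓ N)) :=
    SepPF.transcendental_of_coe_eq _ _ rfl
  have hfdK : FiniteDimensional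
      (AlgebraicClosure ℚ)⟮(Fermat.Agent.S24.xgen (AlgebraicClosure ℚ) (LevelNum.levelM ℓ N) :
        modularFunctionFieldBar (LevelNum.levelM ℓ N))⟯
      (modularFunctionFieldBar (LevelNum.levelM ℓ N)) := hP.hfd _ hjt
  obtain ⟨b, bb, hb, hbb⟩ :=
    ChartInt.exists_family_of_surj (A := A) (Red := Red)
      (jb := GaussA.jbE (IsLocalRing.ResidueField A) (LevelNum.levelM ℓ N)) hsurj
  have hn : Module.finrank
      (AlgebraicClosure ℚ)⟮(Fermat.Agent.S24.xgen (AlgebraicClosure ℚ) (LevelNum.levelM ℓ N) :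
        modularFunctionFieldBar (LevelNum.levelM ℓ N))⟯
      (modularFunctionFieldBar (LevelNum.levelM ℓ N))
      ≤ Module.finrank (IsLocalRing.ResidueField A)⟮GaussA.jbE (IsLocalRing.ResidueField A)
          (LevelNum.levelM ℓ N)⟯
        (GaussA.kappa (IsLocalRing.ResidueField A) (LevelNum.levelM ℓ N)) := by
    rw [hfr, GenusBar.finrank_xgen_bar (LevelNum.levelM ℓ N)]
  exact RootWire.lift_monic hle A _ Red
    (Fermat.Agent.S24.xgen (AlgebraicClosure ℚ) (LevelNum.levelM ℓ N))
    (RootLvl.coe_xgen_mem N (LevelNum.levelM ℓ N))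
    (fun _ _ h => IntMonic.exists_monic hR hj hjbt hb hbb hn h)

/-- **PG (R3) of S37.**  For any Gauss layer `(Red, hR, hint)` at level `M = levelM ℓ N` and any
map of places `r` satisfying the reduction axiom for `Red`: a class `[D] ∈ J₀(N)` killed by
`m` prime to `ℓ` with `r_* π^* D = 0` is zero. -/
theorem main {ℓ N : ℕ} [NeZero N] (hℓ : ℓ.Prime) (hℓN : ¬ ℓ ∣ N)
    (A : ValuationSubring (AlgebraicClosure ℚ)) (hA : A.LiesOverPrime ℓ)
    (Red : modularFunctionFieldBar (LevelNum.levelM ℓ N) →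
      GaussA.kappa (IsLocalRing.ResidueField A) (LevelNum.levelM ℓ N) → Prop)
    (hR : RedFacts A Red)
    (hint : ∀ (V : LaurentSeries A)
      (hV : genS A V ∈ modularFunctionFieldBar (LevelNum.levelM ℓ N)),
      ∃ hx : redS A V ∈ GaussA.kappa (IsLocalRing.ResidueField A) (LevelNum.levelM ℓ N),
        Red ⟨genS A V, hV⟩ ⟨redS A V, hx⟩)
    [HasPrincipalDivisors (AlgebraicClosure ℚ) (modularFunctionFieldBar (LevelNum.levelM ℓ N))]
    (hle : modularFunctionFieldBar N ≤ modularFunctionFieldBar (LevelNum.levelM ℓ N))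
    (hι : (IntermediateField.inclusion hle).toRingHom.IsIntegral)
    (r : Place (AlgebraicClosure ℚ) (modularFunctionFieldBar (LevelNum.levelM ℓ N)) →
      Place (IsLocalRing.ResidueField A)
        (GaussA.kappa (IsLocalRing.ResidueField A) (LevelNum.levelM ℓ N)))
    (hr : ∀ (f : modularFunctionFieldBar (LevelNum.levelM ℓ N))
      (x : GaussA.kappa (IsLocalRing.ResidueField A) (LevelNum.levelM ℓ N)), Red f x → x ≠ 0 →
      ∀ D : Divisor (AlgebraicClosure ℚ) (modularFunctionFieldBar (LevelNum.levelM ℓ N)),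
        (∀ P : Place (AlgebraicClosure ℚ) (modularFunctionFieldBar (LevelNum.levelM ℓ N)),
          D P = P.ord f) →
        ∀ Q : Place (IsLocalRing.ResidueField A)
          (GaussA.kappa (IsLocalRing.ResidueField A) (LevelNum.levelM ℓ N)),
          Finsupp.mapDomain r D Q = Q.ord x)
    (m : ℕ) (hm : ¬ ℓ ∣ m)
    (D : Divisor.degZero (K := AlgebraicClosure ℚ) (F := modularFunctionFieldBar N))
    (hmD : m • (Pic0.mk D : JZero N) = 0)
    (hρ : Finsupp.mapDomain r (Divisor.pullbackAlong (IntermediateField.inclusion hle) hι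
      (D : Divisor (AlgebraicClosure ℚ) (modularFunctionFieldBar N))) = 0) :
    (Pic0.mk D : JZero N) = 0 := by
  have hchar : CharP (IsLocalRing.ResidueField A) ℓ := ResField.charP A hℓ hA
  have hmk : ((m : ℕ) : IsLocalRing.ResidueField A) ≠ 0 := by
    intro h
    exact hm ((CharP.cast_eq_zero_iff (IsLocalRing.ResidueField A) ℓ m).mp h)
  obtain ⟨hcore, hmon, hPb⟩ := core_and_monic hℓ hℓN A hA Red hR hint hle
  -- `m • D` is principal
  have h1 : m • (D : Divisor (AlgebraicClosure ℚ) (modularFunctionFieldBar N)) ∈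
      Divisor.principal (K := AlgebraicClosure ℚ) (F := modularFunctionFieldBar N) := by
    have h2 : (Pic0.mk (m • D) : JZero N) = 0 := hmD
    have h3 := (QuotientAddGroup.eq_zero_iff _).mp h2
    rw [AddSubgroup.mem_addSubgroupOf] at h3
    exact h3
  obtain ⟨u, hu, huD⟩ := h1
  obtain ⟨x₀, hx₀, hx₀D⟩ := principal_of_mapDomain_pullback_eq_zero A
    (IntermediateField.inclusion hle) hι Red hR hcore hmon
    (fun x hx hQ => ConstPF.exists_const hPb x hx hQ)
    (fun f hf hP => ConstPF.exists_const_bar (LevelNum.levelM ℓ N) f hf hP)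
    r hr m hmk (D : Divisor (AlgebraicClosure ℚ) (modularFunctionFieldBar N)) u hu
    (fun P => by
      rw [← huD P, Finsupp.smul_apply, nsmul_eq_mul])
    hρ
  apply (QuotientAddGroup.eq_zero_iff _).mpr
  rw [AddSubgroup.mem_addSubgroupOf]
  exact ⟨x₀, hx₀, hx₀D⟩

/-- `main` in the `RhoDef` shapes. -/
theorem main_rho {ℓ N : ℕ} [NeZero N] (hℓ : ℓ.Prime) (hℓN : ¬ ℓ ∣ N)
    (A : ValuationSubring (AlgebraicClosure ℚ)) (hA : A.LiesOverPrime ℓ)
    (Red : modularFunctionFieldBar (LevelNum.levelM ℓ N) →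
      GaussA.kappa (IsLocalRing.ResidueField A) (LevelNum.levelM ℓ N) → Prop)
    (hR : RedFacts A Red)
    (hint : ∀ (V : LaurentSeries A)
      (hV : genS A V ∈ modularFunctionFieldBar (LevelNum.levelM ℓ N)),
      ∃ hx : redS A V ∈ GaussA.kappa (IsLocalRing.ResidueField A) (LevelNum.levelM ℓ N),
        Red ⟨genS A V, hV⟩ ⟨redS A V, hx⟩)
    [HasPrincipalDivisors (AlgebraicClosure ℚ) (modularFunctionFieldBar (LevelNum.levelM ℓ N))]
    (hle : modularFunctionFieldBar N ≤ modularFunctionFieldBar (LevelNum.levelM ℓ N))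
    (hι : (IntermediateField.inclusion hle).toRingHom.IsIntegral)
    (r : Place (AlgebraicClosure ℚ) (modularFunctionFieldBar (LevelNum.levelM ℓ N)) →
      Place (IsLocalRing.ResidueField A)
        (GaussA.kappa (IsLocalRing.ResidueField A) (LevelNum.levelM ℓ N)))
    (hr : RhoDef.IsRAxiom Red r)
    (m : ℕ) (hm : ¬ ℓ ∣ m)
    (D : Divisor.degZero (K := AlgebraicClosure ℚ) (F := modularFunctionFieldBar N))
    (hmD : m • (Pic0.mk D : JZero N) = 0)
    (hρ : RhoDef.rho (IntermediateField.inclusion hle) hι r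
      (D : Divisor (AlgebraicClosure ℚ) (modularFunctionFieldBar N)) = 0) :
    (Pic0.mk D : JZero N) = 0 :=
  main hℓ hℓN A hA Red hR hint hle hι r hr m hm D hmD hρ

/-- `R3` for the set `{[D] | ρ D = 0}`: a class killed by `m` prime to `ℓ` which has a
representative in the kernel of `ρ` is zero. -/
theorem main_exists {ℓ N : ℕ} [NeZero N] (hℓ : ℓ.Prime) (hℓN : ¬ ℓ ∣ N)
    (A : ValuationSubring (AlgebraicClosure ℚ)) (hA : A.LiesOverPrime ℓ)
    (Red : modularFunctionFieldBar (LevelNum.levelM ℓ N) →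
      GaussA.kappa (IsLocalRing.ResidueField A) (LevelNum.levelM ℓ N) → Prop)
    (hR : RedFacts A Red)
    (hint : ∀ (V : LaurentSeries A)
      (hV : genS A V ∈ modularFunctionFieldBar (LevelNum.levelM ℓ N)),
      ∃ hx : redS A V ∈ GaussA.kappa (IsLocalRing.ResidueField A) (LevelNum.levelM ℓ N),
        Red ⟨genS A V, hV⟩ ⟨redS A V, hx⟩)
    [HasPrincipalDivisors (AlgebraicClosure ℚ) (modularFunctionFieldBar (LevelNum.levelM ℓ N))]
    (hle : modularFunctionFieldBar N ≤ modularFunctionFieldBar (LevelNum.levelM ℓ N))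
    (hι : (IntermediateField.inclusion hle).toRingHom.IsIntegral)
    (r : Place (AlgebraicClosure ℚ) (modularFunctionFieldBar (LevelNum.levelM ℓ N)) →
      Place (IsLocalRing.ResidueField A)
        (GaussA.kappa (IsLocalRing.ResidueField A) (LevelNum.levelM ℓ N)))
    (hr : RhoDef.IsRAxiom Red r)
    (m : ℕ) (hm : ¬ ℓ ∣ m) (x : JZero N) (hmx : m • x = 0)
    (hx : ∃ D : Divisor.degZero (K := AlgebraicClosure ℚ) (F := modularFunctionFieldBar N),
      (Pic0.mk D : JZero N) = x ∧
      RhoDef.rho (IntermediateField.inclusion hle) hι r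
        (D : Divisor (AlgebraicClosure ℚ) (modularFunctionFieldBar N)) = 0) :
    x = 0 := by
  obtain ⟨D, rfl, hρ⟩ := hx
  exact main_rho hℓ hℓN A hA Red hR hint hle hι r hr m hm D hmx hρ

end Fermat.Agent.S37.Torsion

end
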