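import Fermat.Agent.S37.ES
import Fermat.Agent.S37.SpecLvl
import Fermat.Agent.S37.Torsion
import Fermat.Agent.S37.Frob
import Fermat.Agent.S37.PullGal
import Fermat.Agent.S37.HeckeFin
import Fermat.Agent.S37.FundId
import Fermat.Agent.S37.NormPlaces
import Fermat.Agent.S37.RhoDef
import Fermat.Agent.S37.KappaAut
import Fermat.Agent.S18.GaussAMain
import Fermat.Agent.S18.KappaPF

/-!
# S37 / ESLvl: the closed wiring at level `M = levelM ℓ N`

`ESLvl.main_of_hT`: `Top.ESStmtAt N ℓ hℓ A σ₀` for every prime `ℓ ∤ N`, every `A` over `ℓ` and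
every Frobenius `σ₀` at `A`, from the single remaining input `hT` (Kronecker's congruence for
`N_α (β f)` in the shape of `Rho4.main`).  Everything else is discharged from main:

* `r` : `SpecLvl.exists_r` (the specialisation map of places at level `M` with the r-axiom);
* `ρ = RhoDef.rho ι hι r`, `ι : F_N → F_M` the inclusion; `Red' f x := GaussA.Red A M (ι f) x`;
* Hecke inputs: `HeckeFin` (integrality, finiteness), `FundId` (fundamental identity),
  `NormPlaces` (norm formula);
* inertia / Frobenius: `Frob.red_inertia_iff`, `Frob.red_frobenius_iff`, `PullGal`;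
* torsion: `Torsion.main_rho`.
-/

set_option autoImplicit false
set_option synthInstance.maxHeartbeats 400000
set_option maxHeartbeats 1000000

noncomputable section

namespace Fermat.Agent.S37.ESLvl

open AlgebraicCurve ModularCurve Fermat.Agent.S18 Fermat.Agent.RR

/-- `F_N ≤ F_M` for `M = levelM ℓ N`. -/
theorem le_levelM' (ℓ N : ℕ) [NeZero N] :
    modularFunctionFieldBar N ≤ modularFunctionFieldBar (LevelNum.levelM ℓ N) :=
  Descent.bar_le (NeZero.ne N) (LevelNum.levelM_ne_zero ℓ N (NeZero.ne N))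
    (LevelNum.dvd_levelM ℓ N)

/-- The inclusion `F_N → F_M` is integral. -/
theorem incl_integral (ℓ N : ℕ) [NeZero N] :
    (IntermediateField.inclusion (le_levelM' ℓ N)).toRingHom.IsIntegral :=
  HeckeFin.isIntegral_of_finiteAlong _
    (HeckeFin.finiteAlong_of_placeFacts _ (HeckeFin.placeFacts (LevelNum.levelM ℓ N))
      (Fermat.Agent.S24.transcendental_xgen (AlgebraicClosure ℚ) N))

/-- The reduction relation on `F_N` through level `M`. -/
def RedN (ℓ N : ℕ) [NeZero N] (A : ValuationSubring (AlgebraicClosure ℚ))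
    (f : modularFunctionFieldBar N)
    (x : GaussA.kappa (IsLocalRing.ResidueField A) (LevelNum.levelM ℓ N)) : Prop :=
  GaussA.Red A (LevelNum.levelM ℓ N) (IntermediateField.inclusion (le_levelM' ℓ N) f) x

/-- The shape of the Kronecker input `hT` (= `hT` of `Rho4.main` at level `M`). -/
def HTStmt (ℓ N : ℕ) [NeZero N] [NeZero ℓ] (hℓ : ℓ.Prime)
    (A : ValuationSubring (AlgebraicClosure ℚ)) (hA : A.LiesOverPrime ℓ) : Prop :=
  haveI := HeckeFin.hasPrincipalDivisors (N * ℓ)
  ∀ (f : modularFunctionFieldBar N)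
    (x : GaussA.kappa (IsLocalRing.ResidueField A) (LevelNum.levelM ℓ N)),
    RedN ℓ N A f x → x ≠ 0 →
    ∃ g : modularFunctionFieldBar N, g ≠ 0 ∧
      (∀ W : Divisor (AlgebraicClosure ℚ) (modularFunctionFieldBar N),
        (∀ v : Place (AlgebraicClosure ℚ) (modularFunctionFieldBar N), W v = v.ord f) →
        ∀ v : Place (AlgebraicClosure ℚ) (modularFunctionFieldBar N),
          Divisor.correspondence (heckeBetaBar (AlgebraicClosure ℚ) N ℓ)
            (heckeAlphaBar (AlgebraicClosure ℚ) N ℓ) (HeckeFin.betaIntegral N ℓ)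
            (HeckeFin.alphaIntegral N ℓ) W v = v.ord g) ∧
      ∃ c : AlgebraicClosure ℚ, c ≠ 0 ∧
        RedN ℓ N A (algebraMap (AlgebraicClosure ℚ) (modularFunctionFieldBar N) c * g)
          (KappaAut.frobA hℓ A hA (LevelNum.levelM ℓ N) • x *
            ((KappaAut.frobA hℓ A hA (LevelNum.levelM ℓ N))⁻¹ • x) ^ ℓ)

/-- **The closed wiring**: `Top.ESStmtAt` from the Kronecker input `hT`. -/
theorem main_of_hT {ℓ N : ℕ} [NeZero N] [NeZero ℓ] (hℓ : ℓ.Prime) (hℓN : ¬ ℓ ∣ N)
    (A : ValuationSubring (AlgebraicClosure ℚ)) (hA : A.LiesOverPrime ℓ)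
    (σ₀ : AlgebraicClosure ℚ ≃ₐ[ℚ] AlgebraicClosure ℚ) (hσ₀ : A.IsFrobeniusAt σ₀ ℓ)
    (hT : HTStmt ℓ N hℓ A hA) :
    Top.ESStmtAt N ℓ hℓ A σ₀ := by
  have hℓM : ¬ ℓ ∣ LevelNum.levelM ℓ N := LevelNum.not_dvd_levelM hℓ hℓN
  -- place facts
  have hPN := HeckeFin.placeFacts N
  have hPM := HeckeFin.placeFacts (LevelNum.levelM ℓ N)
  have hPNℓ := HeckeFin.placeFacts (N * ℓ)
  have hPκ := KappaPF.placeFacts_res (A := A) hℓ hA (LevelNum.levelM ℓ N) hℓM
  haveI := HeckeFin.hasPrincipalDivisors (LevelNum.levelM ℓ N)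
  haveI := HeckeFin.hasPrincipalDivisors (N * ℓ)
  -- Hecke inputs
  have hα := HeckeFin.alphaIntegral N ℓ
  have hβ := HeckeFin.betaIntegral N ℓ
  have hfin := HeckeFin.finiteAlong_alpha N ℓ
  have hFIβ := FundId.fundamentalIdentityAlong (heckeBetaBar (AlgebraicClosure ℚ) N ℓ) hβ hPN hPNℓ
  have hFIα := FundId.fundamentalIdentityAlong (heckeAlphaBar (AlgebraicClosure ℚ) N ℓ) hα hPN hPNℓ
  have hNα := NormPlaces.normFormulaAlong_of_charZero (heckeAlphaBar (AlgebraicClosure ℚ) N ℓ)
    hα hfin hFIα hPN.hdeg hPNℓ.hdeg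
  -- the Gauss layer and the specialisation map at level `M`
  have hR := GaussA.redFacts hℓ hℓM A hA
  have hint := GaussA.hint hℓ hℓM A hA
  obtain ⟨r, hr, -⟩ := SpecLvl.exists_r hℓ hℓN A hA
  have hι := incl_integral ℓ N
  have hFIι := FundId.fundamentalIdentityAlong
    (IntermediateField.inclusion (le_levelM' ℓ N)) hι hPN hPM
  refine ES.of_facts hℓ A σ₀ hα hβ hFIβ hfin hNα hPN hPκ.hdeg
    (RhoDef.rho (IntermediateField.inclusion (le_levelM' ℓ N)) hι r)
    (KappaAut.frobA hℓ A hA (LevelNum.levelM ℓ N))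
    (finrankAlong (AlgebraicClosure ℚ) (IntermediateField.inclusion (le_levelM' ℓ N)))
    (RedN ℓ N A) ?_ ?_ ?_ ?_ ?_ ?_ hT ?_
  · -- normalisation
    intro f hf
    have hf' : IntermediateField.inclusion (le_levelM' ℓ N) f ≠ 0 :=
      (map_ne_zero _).mpr hf
    obtain ⟨c, hc, x, hx, hred⟩ := hR.normalize _ hf'
    refine ⟨c, hc, x, hx, ?_⟩
    show GaussA.Red A (LevelNum.levelM ℓ N) (IntermediateField.inclusion (le_levelM' ℓ N) _) x
    rw [map_mul, AlgHom.commutes]
    exact hred
  · -- rho1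
    intro f x hfx hx D hD
    exact RhoDef.rho_principal _ hι r hr hfx hx D hD
  · -- positivity
    intro D hD
    exact RhoDef.rho_nonneg _ hι r hD
  · -- degree
    intro D
    exact RhoDef.degree_rho _ hι r hFIι hPM.hdeg hPκ.hdeg D
  · -- inertia
    intro τ hτ f x hfx
    show GaussA.Red A (LevelNum.levelM ℓ N) (IntermediateField.inclusion (le_levelM' ℓ N) _) x
    have h1 := PullGal.arithmeticGalois_intertwines (L := AlgebraicClosure ℚ)
      (F₀ := modularFunctionFieldFull N) (F₁ := modularFunctionFieldFull (LevelNum.levelM ℓ N))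
      (le_levelM' ℓ N) τ f
    have h2 : (IntermediateField.inclusion (le_levelM' ℓ N))
        (arithmeticGalois (modularFunctionFieldFull N) τ • f)
        = arithmeticGalois (modularFunctionFieldFull (LevelNum.levelM ℓ N)) τ •
          (IntermediateField.inclusion (le_levelM' ℓ N) f) := h1.symm
    rw [h2]
    exact (Frob.red_inertia_iff A (LevelNum.levelM ℓ N) hτ _ x).mpr hfx
  · -- Frobenius
    intro f x hfx
    show GaussA.Red A (LevelNum.levelM ℓ N) (IntermediateField.inclusion (le_levelM' ℓ N) _) _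
    have h1 := PullGal.arithmeticGalois_intertwines (L := AlgebraicClosure ℚ)
      (F₀ := modularFunctionFieldFull N) (F₁ := modularFunctionFieldFull (LevelNum.levelM ℓ N))
      (le_levelM' ℓ N) σ₀ f
    have h2 : (IntermediateField.inclusion (le_levelM' ℓ N))
        (arithmeticGalois (modularFunctionFieldFull N) σ₀ • f)
        = arithmeticGalois (modularFunctionFieldFull (LevelNum.levelM ℓ N)) σ₀ •
          (IntermediateField.inclusion (le_levelM' ℓ N) f) := h1.symm
    rw [h2]
    exact (Frob.red_frobenius_iff A (LevelNum.levelM ℓ N) hℓ hA hσ₀ _ x).mpr hfx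
  · -- torsion
    intro m hm D hmD hρ
    exact Torsion.main_rho hℓ hℓN A hA (GaussA.Red A (LevelNum.levelM ℓ N)) hR hint
      (le_levelM' ℓ N) hι r hr m hm D hmD hρ

end Fermat.Agent.S37.ESLvl

end
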