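import Mathlib
import Fermat.Prelude.Def_ModularCurve_X0
import Fermat.Prelude.Def_ModularCurve_X0ModL
import Fermat.Prelude.Thm_ModularCurve_coeffMap_qExpand
import Fermat.Agent.S18.Defs
import Fermat.Agent.S18.ResField
import Fermat.Agent.S24.LsTwist

/-!
# S37 / KronSeries : the Kronecker congruence for `q`-series (pure series algebra)

`K = AlgebraicClosure ℚ`, `A` a valuation subring over the prime `ℓ`, `k` its residue field.

* `qExpand_frob` : in characteristic `ℓ`, `Y(q) ^ ℓ = (Frob Y)(q ^ ℓ)`, where `Frob` is the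
  coefficientwise Frobenius `coeffMap (frobenius k ℓ)`.
* `unitTwist u` : the coefficientwise twist `q ↦ u q` of Laurent series over any commutative ring,
  for a unit `u`; `genS_unitTwist` identifies it with `S24.lsTwist` over `K`.
* `kron` : if `ζ ^ ℓ = 1` and `G(q ^ ℓ) = ∏_{i < ℓ} V(ζ ^ i q)` for an integral series `V`, then
  `G` is integral and its reduction is `Frob (V mod 𝔪)`.
* `kron_norm` : hence `V(q ^ ℓ) * G` is integral with reduction `V̄(q ^ ℓ) * Frob V̄`
  (the shape of the norm of `β f` from level `N ℓ` to level `N`).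
* `kron_poly` : the same for polynomials over Laurent series (characteristic polynomials).
-/

set_option autoImplicit false
set_option synthInstance.maxHeartbeats 400000

noncomputable section

namespace Fermat.Agent.S37.KronSeries

open ModularCurve Fermat.Agent.S18 Fermat.Agent.S24

/-! ### `qExpand` on power series and the Frobenius -/

section General

variable {R : Type*} [CommRing R]

theorem qExpand_ofPowerSeries (n : ℕ) [NeZero n] (p : PowerSeries R) :
    qExpand R n (HahnSeries.ofPowerSeries ℤ R p)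
      = HahnSeries.ofPowerSeries ℤ R (PowerSeries.expand n (NeZero.ne n) p) := by
  ext m
  by_cases hm : (n : ℤ) ∣ m
  · obtain ⟨j, rfl⟩ := hm
    rw [qExpand_coeff_mul]
    rcases le_or_gt 0 j with hj | hj
    · lift j to ℕ using hj
      rw [HahnSeries.ofPowerSeries_apply_coeff, ← Nat.cast_mul,
        HahnSeries.ofPowerSeries_apply_coeff, PowerSeries.coeff_expand_mul]
    · rw [ofPowerSeries_coeff_of_neg _ hj, ofPowerSeries_coeff_of_neg]
      exact mul_neg_of_pos_of_neg (by exact_mod_cast Nat.pos_of_ne_zero (NeZero.ne n)) hj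
  · rw [qExpand_coeff_of_not_dvd n _ hm]
    rcases le_or_gt 0 m with hm0 | hm0
    · lift m to ℕ using hm0
      rw [HahnSeries.ofPowerSeries_apply_coeff, PowerSeries.coeff_expand_of_not_dvd]
      intro h
      exact hm (Int.natCast_dvd_natCast.mpr h)
    · rw [ofPowerSeries_coeff_of_neg _ hm0]

/-- In characteristic `ℓ`: `Y ^ ℓ = (Frob Y)(q ^ ℓ)`. -/
theorem qExpand_frob (ℓ : ℕ) [NeZero ℓ] [ExpChar R ℓ] (Y : LaurentSeries R) :
    qExpand R ℓ (coeffMap (frobenius R ℓ) Y) = Y ^ ℓ := by
  have hY := LaurentSeries.single_order_mul_powerSeriesPart Y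
  have h1 : qExpand R ℓ (coeffMap (frobenius R ℓ)
      (HahnSeries.ofPowerSeries ℤ R Y.powerSeriesPart))
      = (HahnSeries.ofPowerSeries ℤ R Y.powerSeriesPart) ^ ℓ := by
    rw [coeffMap_ofPowerSeries, qExpand_ofPowerSeries, ← map_pow]
    congr 1
    rw [← PowerSeries.map_expand]
    exact MvPowerSeries.map_frobenius_expand ℓ (NeZero.ne ℓ)
  have h2 : qExpand R ℓ (coeffMap (frobenius R ℓ) (HahnSeries.single Y.order (1 : R)))
      = (HahnSeries.single Y.order (1 : R)) ^ ℓ := by
    rw [coeffMap_single, qExpand_single, HahnSeries.single_pow, map_one, one_pow, nsmul_eq_mul]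
  calc qExpand R ℓ (coeffMap (frobenius R ℓ) Y)
      = qExpand R ℓ (coeffMap (frobenius R ℓ)
          (HahnSeries.single Y.order (1 : R) *
            HahnSeries.ofPowerSeries ℤ R Y.powerSeriesPart)) := by
        conv_lhs => rw [← hY]
    _ = (HahnSeries.single Y.order (1 : R) *
            HahnSeries.ofPowerSeries ℤ R Y.powerSeriesPart) ^ ℓ := by
        rw [map_mul, map_mul, h1, h2, mul_pow]
    _ = Y ^ ℓ := by
        congr 1

/-! ### The twist `q ↦ u q` by a unit, over any commutative ring -/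

/-- The underlying function of `unitTwist`. -/
def unitTwistFun (u : Rˣ) (f : LaurentSeries R) : LaurentSeries R where
  coeff m := ((u ^ m : Rˣ) : R) * f.coeff m
  isPWO_support' := f.isPWO_support.mono fun m hm => by
    simp only [Function.mem_support, ne_eq, HahnSeries.mem_support] at hm ⊢
    exact right_ne_zero_of_mul hm

theorem coeff_unitTwistFun (u : Rˣ) (f : LaurentSeries R) (m : ℤ) :
    (unitTwistFun u f).coeff m = ((u ^ m : Rˣ) : R) * f.coeff m := rfl

theorem support_unitTwistFun (u : Rˣ) (f : LaurentSeries R) :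
    (unitTwistFun u f).support = f.support := by
  ext m
  simp only [HahnSeries.mem_support, coeff_unitTwistFun, ne_eq, Units.mul_right_eq_zero]

/-- The coefficientwise twist `q ↦ u q` by a unit `u`, a ring endomorphism of the Laurent
series. -/
def unitTwist (u : Rˣ) : LaurentSeries R →+* LaurentSeries R where
  toFun := unitTwistFun u
  map_one' := by
    ext m
    rw [coeff_unitTwistFun, HahnSeries.coeff_one]
    split_ifs with h
    · subst h
      simp
    · simp
  map_mul' f g := by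
    ext m
    rw [coeff_unitTwistFun, HahnSeries.coeff_mul, HahnSeries.coeff_mul, Finset.mul_sum]
    have hA : Finset.antidiagonal (unitTwistFun u f).isPWO_support
        (unitTwistFun u g).isPWO_support m
        = Finset.antidiagonal f.isPWO_support g.isPWO_support m := by
      ext ij
      simp only [Finset.mem_antidiagonal, support_unitTwistFun]
    rw [hA]
    refine Finset.sum_congr rfl fun ij hij => ?_
    rw [Finset.mem_antidiagonal] at hij
    rw [coeff_unitTwistFun, coeff_unitTwistFun, ← hij.2.2, zpow_add, Units.val_mul]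
    ring
  map_zero' := by
    ext m
    simp [coeff_unitTwistFun]
  map_add' f g := by
    ext m
    simp [coeff_unitTwistFun, mul_add]

theorem coeff_unitTwist (u : Rˣ) (f : LaurentSeries R) (m : ℤ) :
    (unitTwist u f).coeff m = ((u ^ m : Rˣ) : R) * f.coeff m := rfl

theorem unitTwist_one_apply (f : LaurentSeries R) : unitTwist (1 : Rˣ) f = f := by
  ext m
  rw [coeff_unitTwist, one_zpow, Units.val_one, one_mul]

theorem coeffMap_unitTwist {S : Type*} [CommRing S] (φ : R →+* S) (u : Rˣ)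
    (f : LaurentSeries R) :
    coeffMap φ (unitTwist u f) = unitTwist (Units.map (φ : R →* S) u) (coeffMap φ f) := by
  ext m
  rw [coeffMap_coeff, coeff_unitTwist, coeff_unitTwist, coeffMap_coeff, map_mul, ← map_zpow]
  rfl

theorem unitTwist_eq_lsTwist {C : Type*} [Field C] (u : Cˣ) (f : LaurentSeries C) :
    unitTwist u f = lsTwist (u : C) u.ne_zero f := by
  ext m
  rw [coeff_unitTwist, coeff_lsTwist, Units.val_zpow_eq_zpow_val]

theorem coeffMap_injective {S : Type*} [CommRing S] (φ : R →+* S)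
    (hφ : Function.Injective φ) : Function.Injective (coeffMap φ) := by
  intro x y h
  ext m
  apply hφ
  rw [← coeffMap_coeff, ← coeffMap_coeff, h]

end General

/-! ### Integral series -/

section Integral

open IsLocalRing

variable (A : ValuationSubring (AlgebraicClosure ℚ))

theorem genS_injective : Function.Injective (genS A) :=
  coeffMap_injective _ A.subtype_injective

/-- A series over `K` all of whose coefficients lie in `A` is integral. -/
theorem exists_genS_of_coeff_mem (x : LaurentSeries (AlgebraicClosure ℚ))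
    (h : ∀ m, x.coeff m ∈ A) : ∃ W : LaurentSeries A, genS A W = x :=
  ⟨{ coeff := fun m => ⟨x.coeff m, h m⟩
     isPWO_support' := x.isPWO_support.mono fun m hm => by
        simp only [Function.mem_support, ne_eq, HahnSeries.mem_support] at hm ⊢
        intro h0
        exact hm (Subtype.ext h0) }, by
    ext m
    rfl⟩

/-- If `G(q ^ n)` is integral then so is `G`. -/
theorem exists_of_qExpand (n : ℕ) [NeZero n] (G : LaurentSeries (AlgebraicClosure ℚ))
    (y : LaurentSeries A) (h : qExpand (AlgebraicClosure ℚ) n G = genS A y) :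
    ∃ W : LaurentSeries A, genS A W = G ∧ qExpand A n W = y := by
  obtain ⟨W, hW⟩ := exists_genS_of_coeff_mem A G (fun m => by
    rw [← qExpand_coeff_mul n G m, h, coeffMap_coeff]
    exact (y.coeff _).2)
  refine ⟨W, hW, genS_injective A ?_⟩
  rw [coeffMap_qExpand, hW, h]

theorem genS_unitTwist (u : Aˣ) (V : LaurentSeries A) :
    genS A (unitTwist u V)
      = lsTwist (((u : A) : AlgebraicClosure ℚ))
          (fun h => u.ne_zero (Subtype.ext h)) (genS A V) := by
  rw [coeffMap_unitTwist, unitTwist_eq_lsTwist]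
  rfl

theorem redS_unitTwist (u : Aˣ) (hu : residue A (u : A) = 1) (V : LaurentSeries A) :
    redS A (unitTwist u V) = redS A V := by
  rw [coeffMap_unitTwist]
  have h1 : Units.map ((residue A : A →+* ResidueField A) : A →* ResidueField A) u = 1 :=
    Units.ext hu
  rw [h1, unitTwist_one_apply]

/-- An `n`-th root of unity of `K` is a unit of `A`. -/
theorem exists_unit_of_pow_eq_one {n : ℕ} (hn : n ≠ 0) (ζ : AlgebraicClosure ℚ)
    (hζ : ζ ^ n = 1) : ∃ u : Aˣ, ((u : A) : AlgebraicClosure ℚ) = ζ ∧ u ^ n = 1 := by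
  obtain ⟨m, rfl⟩ := Nat.exists_eq_succ_of_ne_zero hn
  have hinv : ζ ^ m = ζ⁻¹ := eq_inv_of_mul_eq_one_right (by rw [← pow_succ', hζ])
  have hmem : ζ ∈ A := by
    rcases A.mem_or_inv_mem ζ with h | h
    · exact h
    · have h2 : ζ = ζ⁻¹ ^ m := by rw [inv_pow, hinv, inv_inv]
      rw [h2]
      exact pow_mem h m
  have hu : IsUnit (⟨ζ, hmem⟩ : A) :=
    IsUnit.of_mul_eq_one (⟨ζ, hmem⟩ ^ m) (Subtype.ext (by
      show ζ * ζ ^ m = 1
      rw [← pow_succ', hζ]))
  refine ⟨hu.unit, rfl, Units.ext (Subtype.ext ?_)⟩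
  show ζ ^ (m + 1) = 1
  exact hζ

/-- In characteristic `ℓ` (prime), an `ℓ`-th root of unity of `A` reduces to `1`. -/
theorem residue_eq_one_of_pow {ℓ : ℕ} [ExpChar (ResidueField A) ℓ] (u : Aˣ)
    (hu : u ^ ℓ = 1) : residue A (u : A) = 1 := by
  apply frobenius_inj (ResidueField A) ℓ
  rw [frobenius_def, frobenius_def, one_pow, ← map_pow, ← Units.val_pow_eq_pow_val, hu,
    Units.val_one, map_one]

/-- **Twists by roots of unity.** For `ζ ^ ℓ = 1` the twist `V(ζ q)` of an integral series is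
integral and has the same reduction as `V`. -/
theorem exists_twist {ℓ : ℕ} [NeZero ℓ] [ExpChar (ResidueField A) ℓ] (ζ : AlgebraicClosure ℚ)
    (hζ0 : ζ ≠ 0) (hζ : ζ ^ ℓ = 1) (V : LaurentSeries A) :
    ∃ T : LaurentSeries A, genS A T = lsTwist ζ hζ0 (genS A V) ∧ redS A T = redS A V := by
  obtain ⟨u, hu, hul⟩ := exists_unit_of_pow_eq_one A (NeZero.ne ℓ) ζ hζ
  refine ⟨unitTwist u V, ?_, redS_unitTwist A u (residue_eq_one_of_pow A u hul) V⟩
  rw [genS_unitTwist]
  subst hu
  rfl

/-- Products of integral series with a common reduction. -/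
theorem exists_prod {ι : Type*} (s : Finset ι) (x : ι → LaurentSeries (AlgebraicClosure ℚ))
    (r : LaurentSeries (ResidueField A))
    (h : ∀ i ∈ s, ∃ T : LaurentSeries A, genS A T = x i ∧ redS A T = r) :
    ∃ P : LaurentSeries A, genS A P = ∏ i ∈ s, x i ∧ redS A P = r ^ s.card := by
  classical
  induction s using Finset.induction_on with
  | empty => exact ⟨1, by simp, by simp⟩
  | insert a s ha ih =>
    obtain ⟨P, hP1, hP2⟩ := ih (fun i hi => h i (Finset.mem_insert_of_mem hi))
    obtain ⟨T, hT1, hT2⟩ := h a (Finset.mem_insert_self a s)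
    refine ⟨T * P, ?_, ?_⟩
    · rw [map_mul, hT1, hP1, Finset.prod_insert ha]
    · rw [map_mul, hT2, hP2, Finset.card_insert_of_notMem ha, pow_succ']

/-- **Kronecker congruence for series, general family.**  If `G(q ^ ℓ) = ∏_{i ∈ s} V(c_i q)` for
`ℓ` many `ℓ`-th roots of unity `c_i` and an integral series `V`, then `G` is integral and its
reduction is the coefficientwise Frobenius of the reduction of `V`. -/
theorem kron_family {ℓ : ℕ} [NeZero ℓ] [ExpChar (ResidueField A) ℓ] {ι : Type*} (s : Finset ι)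
    (hs : s.card = ℓ) (c : ι → AlgebraicClosure ℚ) (hc0 : ∀ i, c i ≠ 0)
    (hc : ∀ i ∈ s, c i ^ ℓ = 1) (V : LaurentSeries A) (G : LaurentSeries (AlgebraicClosure ℚ))
    (hG : qExpand (AlgebraicClosure ℚ) ℓ G = ∏ i ∈ s, lsTwist (c i) (hc0 i) (genS A V)) :
    ∃ W : LaurentSeries A, genS A W = G ∧
      redS A W = coeffMap (frobenius (ResidueField A) ℓ) (redS A V) := by
  obtain ⟨P, hP1, hP2⟩ := exists_prod A s (fun i => lsTwist (c i) (hc0 i) (genS A V)) (redS A V)
    (fun i hi => exists_twist A (c i) (hc0 i) (hc i hi) V)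
  obtain ⟨W, hW1, hW2⟩ := exists_of_qExpand A ℓ G P (by rw [hG, hP1])
  refine ⟨W, hW1, qExpand_injective ℓ ?_⟩
  rw [← coeffMap_qExpand, hW2, hP2, hs, qExpand_frob]

/-- **Kronecker congruence for series.**  If `ζ ^ ℓ = 1` and `G(q ^ ℓ) = ∏_{i < ℓ} V(ζ ^ i q)` for
an integral series `V`, then `G` is integral and its reduction is the coefficientwise Frobenius
of the reduction of `V`. -/
theorem kron {ℓ : ℕ} [NeZero ℓ] [ExpChar (ResidueField A) ℓ] (ζ : AlgebraicClosure ℚ)
    (hζ0 : ζ ≠ 0) (hζ : ζ ^ ℓ = 1) (V : LaurentSeries A) (G : LaurentSeries (AlgebraicClosure ℚ))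
    (hG : qExpand (AlgebraicClosure ℚ) ℓ G
      = ∏ i ∈ Finset.range ℓ, lsTwist (ζ ^ i) (pow_ne_zero i hζ0) (genS A V)) :
    ∃ W : LaurentSeries A, genS A W = G ∧
      redS A W = coeffMap (frobenius (ResidueField A) ℓ) (redS A V) :=
  kron_family A (Finset.range ℓ) (Finset.card_range ℓ) (fun i => ζ ^ i)
    (fun i => pow_ne_zero i hζ0) (fun i _ => by rw [← pow_mul, mul_comm, pow_mul, hζ, one_pow])
    V G hG

/-- **Kronecker congruence, norm shape.**  With `G` as in `kron`, the series
`X = V(q ^ ℓ) * G` is integral and its reduction is `V̄(q ^ ℓ) * Frob V̄`. -/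
theorem kron_norm {ℓ : ℕ} [NeZero ℓ] [ExpChar (ResidueField A) ℓ] (ζ : AlgebraicClosure ℚ)
    (hζ0 : ζ ≠ 0) (hζ : ζ ^ ℓ = 1) (V : LaurentSeries A)
    (G X : LaurentSeries (AlgebraicClosure ℚ))
    (hG : qExpand (AlgebraicClosure ℚ) ℓ G
      = ∏ i ∈ Finset.range ℓ, lsTwist (ζ ^ i) (pow_ne_zero i hζ0) (genS A V))
    (hX : X = qExpand (AlgebraicClosure ℚ) ℓ (genS A V) * G) :
    ∃ W : LaurentSeries A, genS A W = X ∧
      redS A W = qExpand (ResidueField A) ℓ (redS A V)
        * coeffMap (frobenius (ResidueField A) ℓ) (redS A V) := by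
  obtain ⟨W, hW1, hW2⟩ := kron A ζ hζ0 hζ V G hG
  refine ⟨qExpand A ℓ V * W, ?_, ?_⟩
  · rw [map_mul, coeffMap_qExpand, hW1, hX]
  · rw [map_mul, coeffMap_qExpand, hW2]

/-! ### The polynomial version (characteristic polynomials) -/

open Polynomial in
/-- Twists of polynomials with integral coefficients. -/
theorem exists_twist_poly {ℓ : ℕ} [NeZero ℓ] [ExpChar (ResidueField A) ℓ]
    (ζ : AlgebraicClosure ℚ) (hζ0 : ζ ≠ 0) (hζ : ζ ^ ℓ = 1) (P : (LaurentSeries A)[X]) :
    ∃ T : (LaurentSeries A)[X],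
      T.map (genS A) = (P.map (genS A)).map (lsTwist ζ hζ0) ∧ T.map (redS A) = P.map (redS A) := by
  obtain ⟨u, hu, hul⟩ := exists_unit_of_pow_eq_one A (NeZero.ne ℓ) ζ hζ
  refine ⟨P.map (unitTwist u), ?_, ?_⟩
  · rw [Polynomial.map_map, Polynomial.map_map]
    congr 1
    ext1 V
    subst hu
    exact genS_unitTwist A u V
  · rw [Polynomial.map_map]
    congr 1
    ext1 V
    exact redS_unitTwist A u (residue_eq_one_of_pow A u hul) V

open Polynomial in
/-- Products of polynomials with integral coefficients and a common reduction. -/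
theorem exists_prod_poly {ι : Type*} (s : Finset ι)
    (x : ι → (LaurentSeries (AlgebraicClosure ℚ))[X]) (r : (LaurentSeries (ResidueField A))[X])
    (h : ∀ i ∈ s, ∃ T : (LaurentSeries A)[X], T.map (genS A) = x i ∧ T.map (redS A) = r) :
    ∃ P : (LaurentSeries A)[X], P.map (genS A) = ∏ i ∈ s, x i ∧
      P.map (redS A) = r ^ s.card := by
  classical
  induction s using Finset.induction_on with
  | empty => exact ⟨1, by simp, by simp⟩
  | insert a s ha ih =>
    obtain ⟨P, hP1, hP2⟩ := ih (fun i hi => h i (Finset.mem_insert_of_mem hi))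
    obtain ⟨T, hT1, hT2⟩ := h a (Finset.mem_insert_self a s)
    refine ⟨T * P, ?_, ?_⟩
    · rw [Polynomial.map_mul, hT1, hP1, Finset.prod_insert ha]
    · rw [Polynomial.map_mul, hT2, hP2, Finset.card_insert_of_notMem ha, pow_succ']

open Polynomial in
/-- If `Q(q ^ n)` has integral coefficients then so has `Q`. -/
theorem exists_of_qExpand_poly (n : ℕ) [NeZero n] (Q : (LaurentSeries (AlgebraicClosure ℚ))[X])
    (Y : (LaurentSeries A)[X])
    (h : Q.map (qExpand (AlgebraicClosure ℚ) n) = Y.map (genS A)) :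
    ∃ Q' : (LaurentSeries A)[X], Q'.map (genS A) = Q ∧ Q'.map (qExpand A n) = Y := by
  have hmem : Q ∈ Polynomial.lifts (genS A) := by
    rw [Polynomial.lifts_iff_coeff_lifts]
    intro j
    have hj : qExpand (AlgebraicClosure ℚ) n (Q.coeff j) = genS A (Y.coeff j) := by
      rw [← Polynomial.coeff_map, h, Polynomial.coeff_map]
    obtain ⟨W, hW, -⟩ := exists_of_qExpand A n (Q.coeff j) (Y.coeff j) hj
    exact ⟨W, hW⟩
  obtain ⟨Q', hQ'⟩ := (Polynomial.mem_lifts Q).mp hmem
  refine ⟨Q', hQ', Polynomial.map_injective (genS A) (genS_injective A) ?_⟩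
  rw [← h, ← hQ', Polynomial.map_map, Polynomial.map_map]
  congr 1
  ext1 V
  exact coeffMap_qExpand _ n V

open Polynomial in
/-- In characteristic `ℓ`: `P ^ ℓ` for a polynomial over `k((q))`. -/
theorem pow_char_poly (k : Type*) [Field k] (ℓ : ℕ) [NeZero ℓ] [ExpChar k ℓ]
    (P : (LaurentSeries k)[X]) :
    (Polynomial.expand (LaurentSeries k) ℓ (P.map (coeffMap (frobenius k ℓ)))).map
      (qExpand k ℓ) = P ^ ℓ := by
  have : ExpChar (LaurentSeries k) ℓ :=
    expChar_of_injective_ringHom (f := (HahnSeries.C : k →+* LaurentSeries k))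
      HahnSeries.C_injective ℓ
  rw [← Polynomial.map_frobenius_expand, Polynomial.map_expand, Polynomial.map_expand,
    Polynomial.map_map]
  congr 2
  ext1 Y
  rw [RingHom.comp_apply, qExpand_frob, frobenius_def]

open Polynomial in
/-- **Kronecker congruence for polynomials, general family.** -/
theorem kron_poly_family {ℓ : ℕ} [NeZero ℓ] [ExpChar (ResidueField A) ℓ] {ι : Type*}
    (s : Finset ι) (hs : s.card = ℓ) (c : ι → AlgebraicClosure ℚ) (hc0 : ∀ i, c i ≠ 0)
    (hc : ∀ i ∈ s, c i ^ ℓ = 1) (P : (LaurentSeries A)[X])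
    (Q : (LaurentSeries (AlgebraicClosure ℚ))[X])
    (hQ : Q.map (qExpand (AlgebraicClosure ℚ) ℓ)
      = ∏ i ∈ s, (P.map (genS A)).map (lsTwist (c i) (hc0 i))) :
    ∃ Q' : (LaurentSeries A)[X], Q'.map (genS A) = Q ∧
      Q'.map (redS A) = Polynomial.expand (LaurentSeries (ResidueField A)) ℓ
        ((P.map (redS A)).map (coeffMap (frobenius (ResidueField A) ℓ))) := by
  obtain ⟨Y, hY1, hY2⟩ := exists_prod_poly A s
    (fun i => (P.map (genS A)).map (lsTwist (c i) (hc0 i))) (P.map (redS A))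
    (fun i hi => exists_twist_poly A (c i) (hc0 i) (hc i hi) P)
  obtain ⟨Q', hQ1, hQ2⟩ := exists_of_qExpand_poly A ℓ Q Y (by rw [hQ, hY1])
  rw [hs] at hY2
  refine ⟨Q', hQ1, Polynomial.map_injective (qExpand (ResidueField A) ℓ) (qExpand_injective ℓ) ?_⟩
  rw [pow_char_poly, ← hY2, ← hQ2, Polynomial.map_map, Polynomial.map_map]
  congr 1
  ext1 V
  exact (coeffMap_qExpand _ ℓ V).symm

open Polynomial in
/-- **Kronecker congruence for polynomials.**  If `ζ ^ ℓ = 1` and
`Q(q ^ ℓ) = ∏_{i < ℓ} P(ζ ^ i q)` (coefficientwise) for a polynomial `P` with integral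
coefficients, then `Q` has integral coefficients and its reduction is `(Frob P̄)(X ^ ℓ)`. -/
theorem kron_poly {ℓ : ℕ} [NeZero ℓ] [ExpChar (ResidueField A) ℓ] (ζ : AlgebraicClosure ℚ)
    (hζ0 : ζ ≠ 0) (hζ : ζ ^ ℓ = 1) (P : (LaurentSeries A)[X])
    (Q : (LaurentSeries (AlgebraicClosure ℚ))[X])
    (hQ : Q.map (qExpand (AlgebraicClosure ℚ) ℓ)
      = ∏ i ∈ Finset.range ℓ, (P.map (genS A)).map (lsTwist (ζ ^ i) (pow_ne_zero i hζ0))) :
    ∃ Q' : (LaurentSeries A)[X], Q'.map (genS A) = Q ∧
      Q'.map (redS A) = Polynomial.expand (LaurentSeries (ResidueField A)) ℓ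
        ((P.map (redS A)).map (coeffMap (frobenius (ResidueField A) ℓ))) :=
  kron_poly_family A (Finset.range ℓ) (Finset.card_range ℓ) (fun i => ζ ^ i)
    (fun i => pow_ne_zero i hζ0) (fun i _ => by rw [← pow_mul, mul_comm, pow_mul, hζ, one_pow])
    P Q hQ

open Polynomial in
/-- **Kronecker congruence for the conjugates of `V(q ^ ℓ)`.**  If
`Q(q ^ ℓ) = ∏_{i < ℓ} (X - V(ζ ^ i q))`, then `Q` has integral coefficients and reduces to
`X ^ ℓ - Frob V̄`. -/
theorem kron_linear {ℓ : ℕ} [NeZero ℓ] [ExpChar (ResidueField A) ℓ] (ζ : AlgebraicClosure ℚ)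
    (hζ0 : ζ ≠ 0) (hζ : ζ ^ ℓ = 1) (V : LaurentSeries A)
    (Q : (LaurentSeries (AlgebraicClosure ℚ))[X])
    (hQ : Q.map (qExpand (AlgebraicClosure ℚ) ℓ)
      = ∏ i ∈ Finset.range ℓ, (X - C (lsTwist (ζ ^ i) (pow_ne_zero i hζ0) (genS A V)))) :
    ∃ Q' : (LaurentSeries A)[X], Q'.map (genS A) = Q ∧
      Q'.map (redS A) = X ^ ℓ - C (coeffMap (frobenius (ResidueField A) ℓ) (redS A V)) := by
  obtain ⟨Q', hQ1, hQ2⟩ := kron_poly A ζ hζ0 hζ (X - C V) Q (by
    rw [hQ]
    refine Finset.prod_congr rfl fun i _ => ?_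
    rw [Polynomial.map_sub, Polynomial.map_sub, Polynomial.map_X, Polynomial.map_X,
      Polynomial.map_C, Polynomial.map_C])
  refine ⟨Q', hQ1, ?_⟩
  rw [hQ2, Polynomial.map_sub, Polynomial.map_sub, Polynomial.map_X, Polynomial.map_X,
    Polynomial.map_C, Polynomial.map_C, map_sub, Polynomial.expand_X, Polynomial.expand_C]

open Polynomial in
/-- **Kronecker congruence, characteristic polynomial shape.**  With `Q` as in `kron_linear`, the
polynomial `Φ = (X - V(q ^ ℓ)) * Q` has integral coefficients and reduces to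
`(X - V̄(q ^ ℓ)) * (X ^ ℓ - Frob V̄)`. -/
theorem kron_charpoly {ℓ : ℕ} [NeZero ℓ] [ExpChar (ResidueField A) ℓ] (ζ : AlgebraicClosure ℚ)
    (hζ0 : ζ ≠ 0) (hζ : ζ ^ ℓ = 1) (V : LaurentSeries A)
    (Q Φ : (LaurentSeries (AlgebraicClosure ℚ))[X])
    (hQ : Q.map (qExpand (AlgebraicClosure ℚ) ℓ)
      = ∏ i ∈ Finset.range ℓ, (X - C (lsTwist (ζ ^ i) (pow_ne_zero i hζ0) (genS A V))))
    (hΦ : Φ = (X - C (qExpand (AlgebraicClosure ℚ) ℓ (genS A V))) * Q) :
    ∃ Φ' : (LaurentSeries A)[X], Φ'.map (genS A) = Φ ∧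
      Φ'.map (redS A) = (X - C (qExpand (ResidueField A) ℓ (redS A V)))
        * (X ^ ℓ - C (coeffMap (frobenius (ResidueField A) ℓ) (redS A V))) := by
  obtain ⟨Q', hQ1, hQ2⟩ := kron_linear A ζ hζ0 hζ V Q hQ
  refine ⟨(X - C (qExpand A ℓ V)) * Q', ?_, ?_⟩
  · rw [Polynomial.map_mul, hQ1, hΦ, Polynomial.map_sub, Polynomial.map_X, Polynomial.map_C,
      coeffMap_qExpand]
  · rw [Polynomial.map_mul, hQ2, Polynomial.map_sub, Polynomial.map_X, Polynomial.map_C,
      coeffMap_qExpand]

/-- The reduction in `kron_norm` is nonzero when that of `V` is. -/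
theorem kron_norm_ne_zero {ℓ : ℕ} [NeZero ℓ] [ExpChar (ResidueField A) ℓ] (V : LaurentSeries A)
    (hV : redS A V ≠ 0) :
    qExpand (ResidueField A) ℓ (redS A V)
      * coeffMap (frobenius (ResidueField A) ℓ) (redS A V) ≠ 0 := by
  refine mul_ne_zero ?_ ?_
  · exact (map_ne_zero_iff _ (qExpand_injective ℓ)).mpr hV
  · exact (map_ne_zero_iff _
      (coeffMap_injective _ (frobenius_inj (ResidueField A) ℓ))).mpr hV

end Integral

end Fermat.Agent.S37.KronSeries

end
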