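/-
S37 / ConjEmb (helper21, PD-C3): the `ℓ + 1` conjugate embeddings of the function field of
`X₀(N ℓ)` over (the `α`-image of) the function field of `X₀(N)`, `ℓ ∤ N`.

* `exists_gamma0` : a matrix `γ₀ ∈ Γ₀(N)` with `j(d ℓ · γ₀ (ℓ z)) = j(d z)` for all `d ∣ N`;
* `qLaurent_comp_dmul_self` : the expansion in `exp (2 π i z / M)` of an `M`-periodic weakly
  holomorphic `G` is the `q`-expansion of `z ↦ G (M z)`;
* `qLaurent_jT_twist` : the expansion in `t = exp (2 π i z / (N ℓ))` of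
  `z ↦ j(d ℓ · γ₀ (z + i))` is `j_d (ζ_ℓ^i t^N)`;
* `exists_conj` : ring homomorphisms `ψ c : FK K (N ℓ) →+* ℂ((t))`, `c : Option (Fin ℓ)`, pairwise
  distinct, with `ψ c (α g) = g (t^(N ℓ))`, `ψ none (β g) = g (t^(N ℓ ℓ))` and
  `ψ (some i) (β g) = g (ζ_ℓ^i t^N)` (coefficients mapped to `ℂ` by `φ`).
-/
import Mathlib
import Fermat.Prelude.Def_ModularCurve_HeckeOperator
import Fermat.Prelude.Thm_ModularCurve_coeffMap_qExpand
import Fermat.Agent.S24.EmbFinite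
import Fermat.Agent.S24.TranslatesJ
import Fermat.Agent.S24.CuspExp
import Fermat.Agent.S24.LsTwist
import Fermat.Agent.S24.Bridge
import Fermat.Agent.S24.Degree
import Fermat.Agent.S28.Integral

set_option autoImplicit false

open UpperHalfPlane ModularCurve Function Filter Complex
open scoped MatrixGroups Real Manifold

namespace Fermat.Agent.S37.ConjEmb

open Fermat.Agent.S23 Fermat.Agent.S24

/-! ### The dilation `z ↦ M z` turns period `M` into period `1` -/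

section Dil

theorem dmul_dmul {a b : ℕ} (ha : 0 < a) (hb : 0 < b) (z : ℍ) :
    dmul a (dmul b z) = dmul (a * b) z := by
  apply UpperHalfPlane.ext
  rw [coe_dmul ha, coe_dmul hb, coe_dmul (Nat.mul_pos ha hb)]
  push_cast
  ring

theorem qParam_dmul_self (M : ℕ) [NeZero M] (z : ℍ) :
    Function.Periodic.qParam (M : ℝ) (dmul M z : ℂ) = Function.Periodic.qParam 1 (z : ℂ) := by
  have hM : 0 < M := Nat.pos_of_ne_zero (NeZero.ne M)
  have hMC : (M : ℂ) ≠ 0 := Nat.cast_ne_zero.mpr (NeZero.ne M)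
  rw [coe_dmul hM]
  simp only [Function.Periodic.qParam, ofReal_one, div_one, ofReal_natCast]
  congr 1
  field_simp

theorem qFun_dmul_self (M : ℕ) [NeZero M] (z : ℍ) : qFun (M : ℝ) (dmul M z) = qFun 1 z :=
  qParam_dmul_self M z

variable {F : ℍ → ℂ}

theorem periodic_comp_dmul_self (M : ℕ) [NeZero M] (hF : Periodic (F ∘ ofComplex) (M : ℝ)) :
    Periodic ((F ∘ dmul M) ∘ ofComplex) (1 : ℝ) := by
  have hM : 0 < M := Nat.pos_of_ne_zero (NeZero.ne M)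
  apply periodic_of_forall_vadd
  intro τ
  simp only [Function.comp_apply]
  rw [Bridge.dmul_vadd hM]
  exact forall_vadd_of_periodic hF _

theorem qExpansion_comp_dmul_self (M : ℕ) [NeZero M] (hol : MDiff F)
    (per : Periodic (F ∘ ofComplex) (M : ℝ)) (bdd : IsBoundedAtImInfty F) :
    qExpansion 1 (F ∘ dmul M) = qExpansion (M : ℝ) F := by
  have hM : 0 < M := Nat.pos_of_ne_zero (NeZero.ne M)
  have han := analyticAt_cusp one_pos (Bridge.mdiff_comp_dmul hM hol)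
    (periodic_comp_dmul_self M per) (Bridge.bdd_comp_dmul hM bdd)
  ext k
  refine (qExpansion_coeff_unique' (h := 1) (f := F ∘ dmul M)
    (c := fun k => (qExpansion (M : ℝ) F).coeff k) one_pos han (fun τ => ?_) k).symm
  have h1 := hasSum_qExpansion (natCast_pos_real M) per hol bdd (dmul M τ)
  rw [qParam_dmul_self] at h1
  exact h1

theorem comp_dmul_self_mul_qpow (M : ℕ) [NeZero M] (G : ℍ → ℂ) (m : ℕ) :
    (G ∘ dmul M) * qFun 1 ^ m = (G * qFun (M : ℝ) ^ m) ∘ dmul M := by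
  funext τ
  simp only [Pi.mul_apply, Function.comp_apply, Pi.pow_apply]
  rw [qFun_dmul_self]

theorem isWH_comp_dmul_self (M : ℕ) [NeZero M] {G : ℍ → ℂ} (hG : IsWH (M : ℝ) G) :
    IsWH 1 (G ∘ dmul M) := by
  have hM : 0 < M := Nat.pos_of_ne_zero (NeZero.ne M)
  obtain ⟨m, hm⟩ := hG.bdd
  refine ⟨Bridge.mdiff_comp_dmul hM hG.holo, periodic_comp_dmul_self M hG.per, m, ?_⟩
  rw [comp_dmul_self_mul_qpow]
  exact Bridge.bdd_comp_dmul hM hm

/-- The expansion in `exp (2 π i z / M)` of an `M`-periodic weakly holomorphic function `G` is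
the `q`-expansion of `z ↦ G (M z)`. -/
theorem qLaurent_comp_dmul_self (M : ℕ) [NeZero M] {G : ℍ → ℂ} (hG : IsWH (M : ℝ) G) :
    qLaurent 1 (G ∘ dmul M) = qLaurent (M : ℝ) G := by
  have hM : 0 < M := Nat.pos_of_ne_zero (NeZero.ne M)
  have hh := natCast_pos_real M
  obtain ⟨m, hm⟩ := hG.bdd
  have hb : IsBoundedAtImInfty ((G ∘ dmul M) * qFun 1 ^ m) := by
    rw [comp_dmul_self_mul_qpow]
    exact Bridge.bdd_comp_dmul hM hm
  rw [qLaurent_eq one_pos (isWH_comp_dmul_self M hG) hb, qLaurent_eq hh hG hm]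
  unfold qLaurentAt
  rw [comp_dmul_self_mul_qpow,
    qExpansion_comp_dmul_self M (mdiff_mul_qpow hG.holo m) (periodic_mul_qpow hh.ne' hG.per m) hm]

end Dil

/-! ### The coset representative -/

section Coset

/-- A matrix `γ₀ ∈ Γ₀(N)` with `d ℓ · γ₀ (ℓ z) ∼ d z` for all `d ∣ N`, when `ℓ` is prime to `N`. -/
theorem exists_gamma0 {N ℓ : ℕ} (hℓ : 0 < ℓ) (hℓN : Nat.Coprime ℓ N) :
    ∃ γ₀ : SL(2, ℤ), γ₀ ∈ CongruenceSubgroup.Gamma0 N ∧
      ∀ d, d ∣ N → ∀ z : ℍ, jT (d * ℓ) γ₀ (dmul ℓ z) = jd d z := by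
  obtain ⟨a, b, hab⟩ : ∃ a b : ℤ, a * ℓ + b * N = 1 := by
    have h : IsCoprime (ℓ : ℤ) (N : ℤ) := by
      rw [Int.isCoprime_iff_gcd_eq_one]
      exact_mod_cast hℓN
    exact h
  obtain ⟨γ₀, h00, h01, h10, h11⟩ : ∃ γ₀ : SL(2, ℤ), γ₀ 0 0 = 1 ∧ γ₀ 0 1 = -b ∧
      γ₀ 1 0 = N ∧ γ₀ 1 1 = ℓ * a := by
    refine ⟨⟨!![1, -b; (N : ℤ), ℓ * a], ?_⟩, rfl, rfl, rfl, rfl⟩
    rw [Matrix.det_fin_two_of]
    linear_combination hab
  obtain ⟨γ', k00, k01, k10, k11⟩ : ∃ γ' : SL(2, ℤ), γ' 0 0 = ℓ ∧ γ' 0 1 = -b ∧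
      γ' 1 0 = N ∧ γ' 1 1 = a := by
    refine ⟨⟨!![(ℓ : ℤ), -b; (N : ℤ), a], ?_⟩, rfl, rfl, rfl, rfl⟩
    rw [Matrix.det_fin_two_of]
    linear_combination hab
  have hγ₀ : γ₀ ∈ CongruenceSubgroup.Gamma0 N := by
    rw [CongruenceSubgroup.Gamma0_mem, h10]
    simp
  have hγ' : γ' ∈ CongruenceSubgroup.Gamma0 N := by
    rw [CongruenceSubgroup.Gamma0_mem, k10]
    simp
  have key : ∀ z : ℍ, dmul ℓ (γ₀ • dmul ℓ z) = γ' • z := by
    intro z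
    apply UpperHalfPlane.ext
    have hd0 := Translates.SL2Z_denom_ne_zero γ₀ (dmul ℓ z)
    have hd' := Translates.SL2Z_denom_ne_zero γ' z
    rw [coe_dmul hℓ, Translates.coe_SL2Z_smul, Translates.coe_SL2Z_smul]
    rw [coe_dmul hℓ, h10, h11] at hd0
    rw [k10, k11] at hd'
    rw [coe_dmul hℓ, h00, h01, h10, h11, k00, k01, k10, k11]
    have hℓC : (ℓ : ℂ) ≠ 0 := Nat.cast_ne_zero.mpr hℓ.ne'
    push_cast at hd0 hd' ⊢
    have e : (N : ℂ) * ((ℓ : ℂ) * (z : ℂ)) + (ℓ : ℂ) * (a : ℂ)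
        = (ℓ : ℂ) * ((N : ℂ) * (z : ℂ) + (a : ℂ)) := by ring
    rw [e] at hd0 ⊢
    field_simp
  refine ⟨γ₀, hγ₀, fun d hd z => ?_⟩
  rcases Nat.eq_zero_or_pos d with rfl | hdpos
  · have hz : (0 : ℕ) * ℓ = 0 := zero_mul ℓ
    rw [hz, jT_zero_apply]
    show jFun (ofComplex 0) = jFun (dmul 0 z)
    congr 1
    simp [dmul]
  · show jFun (dmul (d * ℓ) (γ₀ • dmul ℓ z)) = jd d z
    rw [← dmul_dmul hdpos hℓ, key]
    exact jd_Gamma0_smul hd hγ' z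

end Coset

/-! ### Expansions of the translates -/

section Expansions

theorem shiftOne_jT' (d : ℕ) (γ : SL(2, ℤ)) :
    shiftOne (jT d γ) = jT d (γ * ModularGroup.T) := by
  rw [shiftOne_eq_T]
  funext z
  rw [jT_mul]

theorem jT_mul_T_pow (d : ℕ) (γ : SL(2, ℤ)) (i : ℕ) :
    jT d (γ * ModularGroup.T ^ i) = shiftOne^[i] (jT d γ) := by
  induction i with
  | zero => simp
  | succ i ih =>
    rw [pow_succ, ← mul_assoc, ← shiftOne_jT', ih, Function.iterate_succ_apply']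

theorem isWH_iterate_shiftOne (M : ℕ) [NeZero M] {F : ℍ → ℂ} (hF : IsWH (M : ℝ) F) (i : ℕ) :
    IsWH (M : ℝ) (shiftOne^[i] F) := by
  induction i with
  | zero => simpa using hF
  | succ i ih =>
    rw [Function.iterate_succ_apply']
    exact isWH_shiftOne M ih

theorem coeff_qLaurent_iterate_shiftOne (M : ℕ) [NeZero M] {F : ℍ → ℂ} (hF : IsWH (M : ℝ) F)
    (i : ℕ) (k : ℤ) :
    (qLaurent (M : ℝ) (shiftOne^[i] F)).coeff k
      = (cuspZeta M ^ i) ^ k * (qLaurent (M : ℝ) F).coeff k := by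
  induction i with
  | zero => simp
  | succ i ih =>
    rw [Function.iterate_succ_apply', coeff_qLaurent_shiftOne M (isWH_iterate_shiftOne M hF i),
      ih, pow_succ, mul_zpow]
    ring

theorem cuspZeta_mul_pow (N ℓ : ℕ) [NeZero N] [NeZero ℓ] :
    cuspZeta (N * ℓ) ^ N = cuspZeta ℓ := by
  have hN : (N : ℂ) ≠ 0 := Nat.cast_ne_zero.mpr (NeZero.ne N)
  have hℓ : (ℓ : ℂ) ≠ 0 := Nat.cast_ne_zero.mpr (NeZero.ne ℓ)
  unfold cuspZeta
  rw [← Complex.exp_nat_mul]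
  congr 1
  push_cast
  field_simp

/-- The expansion of `z ↦ j(d ℓ · γ₀ z)` in `t = exp (2 π i z / (N ℓ))` is `j_d (t^N)`. -/
theorem qLaurent_jT_mul (N ℓ : ℕ) [NeZero N] [NeZero ℓ] {γ₀ : SL(2, ℤ)} {d : ℕ} (hd : d ∣ N)
    (h : ∀ z : ℍ, jT (d * ℓ) γ₀ (dmul ℓ z) = jd d z) :
    qLaurent ((N * ℓ : ℕ) : ℝ) (jT (d * ℓ) γ₀) = qExpand ℂ N (Jser ℂ d) := by
  have hN : 0 < N := Nat.pos_of_ne_zero (NeZero.ne N)
  have hℓ : 0 < ℓ := Nat.pos_of_ne_zero (NeZero.ne ℓ)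
  have hdpos : 0 < d := Nat.pos_of_dvd_of_pos hd hN
  have hWH : IsWH ((N * ℓ : ℕ) : ℝ) (jT (d * ℓ) γ₀) :=
    isWH_jT (Nat.mul_pos hN hℓ) (Nat.mul_dvd_mul_right hd ℓ) γ₀
  rw [← qLaurent_comp_dmul_self (N * ℓ) hWH]
  have h2 : jT (d * ℓ) γ₀ ∘ dmul (N * ℓ) = jd d ∘ dmul N := by
    funext z
    simp only [Function.comp_apply]
    rw [mul_comm N ℓ, ← dmul_dmul hℓ hN, h]
  rw [h2, Bridge.qLaurent_comp_dmul N (isWH_jd hdpos), qLaurent_jd hdpos]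

/-- The expansion of `z ↦ j(d ℓ · γ₀ (z + i))` in `t = exp (2 π i z / (N ℓ))` is
`j_d (ζ_ℓ^i t^N)`. -/
theorem qLaurent_jT_twist (N ℓ : ℕ) [NeZero N] [NeZero ℓ] {γ₀ : SL(2, ℤ)} {d : ℕ} (hd : d ∣ N)
    (h : ∀ z : ℍ, jT (d * ℓ) γ₀ (dmul ℓ z) = jd d z) (i : ℕ) :
    qLaurent ((N * ℓ : ℕ) : ℝ) (jT (d * ℓ) (γ₀ * ModularGroup.T ^ i))
      = qExpand ℂ N (lsTwist (cuspZeta ℓ ^ i) (pow_ne_zero i (cuspZeta_ne_zero ℓ))
          (Jser ℂ d)) := by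
  have hN : 0 < N := Nat.pos_of_ne_zero (NeZero.ne N)
  have hℓ : 0 < ℓ := Nat.pos_of_ne_zero (NeZero.ne ℓ)
  have hWH : IsWH ((N * ℓ : ℕ) : ℝ) (jT (d * ℓ) γ₀) :=
    isWH_jT (Nat.mul_pos hN hℓ) (Nat.mul_dvd_mul_right hd ℓ) γ₀
  rw [jT_mul_T_pow]
  ext k
  rw [coeff_qLaurent_iterate_shiftOne (N * ℓ) hWH i k, qLaurent_jT_mul N ℓ hd h]
  by_cases hk : (N : ℤ) ∣ k
  · obtain ⟨m, rfl⟩ := hk
    rw [qExpand_coeff_mul, qExpand_coeff_mul, coeff_lsTwist]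
    congr 1
    rw [zpow_mul, zpow_natCast, ← pow_mul, mul_comm i N, pow_mul, cuspZeta_mul_pow]
  · rw [qExpand_coeff_of_not_dvd N _ hk, qExpand_coeff_of_not_dvd N _ hk, mul_zero]

end Expansions

/-! ### The conjugate embeddings -/

section Conj

variable {K : Type*} [Field K] [Algebra ℚ K]

theorem Jser_mul (d ℓ : ℕ) [NeZero d] [NeZero ℓ] :
    Jser K (d * ℓ) = qExpand K ℓ (Jser K d) := by
  rw [Jser_eq, Jser_eq, coeffEmb, ← coeffMap_qExpand, qExpand_qExpand]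
  congr 1
  exact qExpand_congr (mul_comm d ℓ) _

theorem coe_algebraMap_FK (N : ℕ) (a : K) :
    ((algebraMap K (FK K N) a : FK K N) : LaurentSeries K) = HahnSeries.C a := by
  rw [← Degree.algebraMap_eq_C]
  rfl

omit [Algebra ℚ K] in
theorem coeffMap_C (φ : K →+* ℂ) (a : K) :
    coeffMap φ (HahnSeries.C a) = HahnSeries.C (φ a) := by
  rw [← Degree.algebraMap_eq_C, Degree.coeffMap_algebraMap_eq, Degree.algebraMap_eq_C]

theorem mul_T_pow_mem {N : ℕ} {γ₀ : SL(2, ℤ)} (hγ₀ : γ₀ ∈ CongruenceSubgroup.Gamma0 N) (i : ℕ) :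
    γ₀ * ModularGroup.T ^ i ∈ CongruenceSubgroup.Gamma0 N := by
  refine mul_mem hγ₀ (pow_mem ?_ i)
  rw [CongruenceSubgroup.Gamma0_mem]
  simp [ModularGroup.T]

/-- **The conjugate embeddings.**  For `ℓ` prime not dividing `N` there are `ℓ + 1` pairwise
distinct ring homomorphisms `ψ c : FK K (N ℓ) →+* ℂ((t))` (`t = q^(1/(N ℓ))`) which all restrict
to `g ↦ g(t^(N ℓ))` on `α (FK K N)`, and which send `β g = g(q^ℓ)` to `g(t^(N ℓ ℓ))`
(`c = none`), resp. to `g(ζ_ℓ^i t^N)` (`c = some i`). -/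
theorem exists_conj (φ : K →+* ℂ) {N ℓ : ℕ} [NeZero N] [NeZero ℓ] (hℓ : ℓ.Prime)
    (hℓN : ¬ ℓ ∣ N) :
    ∃ ψ : Option (Fin ℓ) → (FK K (N * ℓ) →+* LaurentSeries ℂ),
      Function.Injective ψ ∧
      (∀ (c : Option (Fin ℓ)) (g : FK K N), ψ c (heckeAlphaBar K N ℓ g)
        = qExpand ℂ (N * ℓ) (coeffMap φ (g : LaurentSeries K))) ∧
      (∀ g : FK K N, ψ none (heckeBetaBar K N ℓ g)
        = qExpand ℂ (N * ℓ) (qExpand ℂ ℓ (coeffMap φ (g : LaurentSeries K)))) ∧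
      (∀ (i : Fin ℓ) (g : FK K N), ψ (some i) (heckeBetaBar K N ℓ g)
        = qExpand ℂ N (lsTwist (cuspZeta ℓ ^ (i : ℕ))
            (pow_ne_zero (i : ℕ) (cuspZeta_ne_zero ℓ)) (coeffMap φ (g : LaurentSeries K)))) := by
  classical
  have hN : 0 < N := Nat.pos_of_ne_zero (NeZero.ne N)
  have hℓpos : 0 < ℓ := hℓ.pos
  have hNℓ : 0 < N * ℓ := Nat.mul_pos hN hℓpos
  have hcop : Nat.Coprime ℓ N := (Nat.Prime.coprime_iff_not_dvd hℓ).mpr hℓN
  obtain ⟨γ₀, hγ₀, hγ₀j⟩ := exists_gamma0 hℓpos hcop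
  have hpos : (0 : ℝ) < ((N * ℓ : ℕ) : ℝ) := Nat.cast_pos.mpr hNℓ
  -- the embeddings attached to `γ₀ T^i`
  have hex : ∀ i : ℕ, ∃ ι : FK K (N * ℓ) →+* LaurentSeries ℂ,
      (∀ a : K, ι (algebraMap K (FK K (N * ℓ)) a) = HahnSeries.C (φ a)) ∧
      ∀ d, d ∣ N * ℓ → ι (Jgen K (N * ℓ) d)
        = qLaurent ((N * ℓ : ℕ) : ℝ) (jT d (γ₀ * ModularGroup.T ^ i)) := by
    intro i
    obtain ⟨ι, h1, h2⟩ := exists_embedding φ (N * ℓ) (WH ((N * ℓ : ℕ) : ℝ) hpos)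
      (qL ((N * ℓ : ℕ) : ℝ) hpos) (qL_injective _ hpos) (γ₀ * ModularGroup.T ^ i)
      (fun d hd => jT_mem_WH hNℓ hd _)
    exact ⟨ι, h1, fun d hd => by rw [h2 d hd]; rfl⟩
  choose ι hιK hιJ using hex
  -- the common restriction to `FK K N`
  let ρ₀ : FK K N →+* LaurentSeries ℂ :=
    ((qExpand ℂ (N * ℓ)).comp (coeffMap φ)).comp (FK K N).val.toRingHom
  have hρ₀ : ∀ g : FK K N, ρ₀ g = qExpand ℂ (N * ℓ) (coeffMap φ (g : LaurentSeries K)) :=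
    fun g => rfl
  have hα : ∀ (i : ℕ) (g : FK K N), ι i (heckeAlphaBar K N ℓ g) = ρ₀ g := by
    intro i
    have h : (ι i).comp (heckeAlphaBar K N ℓ).toRingHom = ρ₀ := by
      refine FK_ringHom_ext _ _ (fun a => ?_) (fun d hd => ?_)
      · show ι i (heckeAlphaBar K N ℓ (algebraMap K (FK K N) a)) = ρ₀ (algebraMap K (FK K N) a)
        rw [AlgHom.commutes, hιK, hρ₀, coe_algebraMap_FK, coeffMap_C, qExpand_C]
      · have hd' : d ∣ N * ℓ := Dvd.dvd.mul_right hd ℓ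
        have hdpos : 0 < d := Nat.pos_of_dvd_of_pos hd hN
        have e : heckeAlphaBar K N ℓ (Jgen K N d) = Jgen K (N * ℓ) d := by
          apply Subtype.ext
          rw [coe_heckeAlphaBar, coe_Jgen K N hd, coe_Jgen K (N * ℓ) hd']
        show ι i (heckeAlphaBar K N ℓ (Jgen K N d)) = ρ₀ (Jgen K N d)
        rw [e, hιJ i d hd', hρ₀, coe_Jgen K N hd, coeffMap_Jser,
          jT_of_mem_Gamma0 hd (mul_T_pow_mem hγ₀ i),
          Fermat.Agent.S28.Integral.qLaurent_natCast (N * ℓ) (isWH_jd hdpos), qLaurent_jd hdpos]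
    intro g
    exact DFunLike.congr_fun h g
  have hβ : ∀ (i : ℕ) (g : FK K N), ι i (heckeBetaBar K N ℓ g)
      = qExpand ℂ N (lsTwist (cuspZeta ℓ ^ i) (pow_ne_zero i (cuspZeta_ne_zero ℓ))
          (coeffMap φ (g : LaurentSeries K))) := by
    intro i
    let ρ₁ : FK K N →+* LaurentSeries ℂ :=
      (((qExpand ℂ N).comp (lsTwist (cuspZeta ℓ ^ i) (pow_ne_zero i (cuspZeta_ne_zero ℓ)))).comp
        (coeffMap φ)).comp (FK K N).val.toRingHom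
    have hρ₁ : ∀ g : FK K N, ρ₁ g = qExpand ℂ N (lsTwist (cuspZeta ℓ ^ i)
        (pow_ne_zero i (cuspZeta_ne_zero ℓ)) (coeffMap φ (g : LaurentSeries K))) := fun g => rfl
    have h : (ι i).comp (heckeBetaBar K N ℓ).toRingHom = ρ₁ := by
      refine FK_ringHom_ext _ _ (fun a => ?_) (fun d hd => ?_)
      · show ι i (heckeBetaBar K N ℓ (algebraMap K (FK K N) a)) = ρ₁ (algebraMap K (FK K N) a)
        rw [AlgHom.commutes, hιK, hρ₁, coe_algebraMap_FK, coeffMap_C, lsTwist_C, qExpand_C]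
      · have hd' : d * ℓ ∣ N * ℓ := Nat.mul_dvd_mul_right hd ℓ
        have hdpos : 0 < d := Nat.pos_of_dvd_of_pos hd hN
        have : NeZero d := ⟨hdpos.ne'⟩
        have e : heckeBetaBar K N ℓ (Jgen K N d) = Jgen K (N * ℓ) (d * ℓ) := by
          apply Subtype.ext
          rw [coe_heckeBetaBar, coe_Jgen K N hd, coe_Jgen K (N * ℓ) hd', Jser_mul]
        show ι i (heckeBetaBar K N ℓ (Jgen K N d)) = ρ₁ (Jgen K N d)
        rw [e, hιJ i (d * ℓ) hd', hρ₁, coe_Jgen K N hd, coeffMap_Jser,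
          qLaurent_jT_twist N ℓ hd (hγ₀j d hd) i]
    intro g
    exact DFunLike.congr_fun h g
  -- the embedding `none`
  let ψ₀ : FK K (N * ℓ) →+* LaurentSeries ℂ :=
    ((qExpand ℂ (N * ℓ)).comp (coeffMap φ)).comp (FK K (N * ℓ)).val.toRingHom
  have hψ₀ : ∀ x : FK K (N * ℓ), ψ₀ x = qExpand ℂ (N * ℓ) (coeffMap φ (x : LaurentSeries K)) :=
    fun x => rfl
  let ψ : Option (Fin ℓ) → (FK K (N * ℓ) →+* LaurentSeries ℂ) := fun c =>
    match c with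
    | none => ψ₀
    | some i => ι (i : ℕ)
  have hψβ₀ : ∀ g : FK K N, ψ₀ (heckeBetaBar K N ℓ g)
      = qExpand ℂ (N * ℓ) (qExpand ℂ ℓ (coeffMap φ (g : LaurentSeries K))) := by
    intro g
    rw [hψ₀, coe_heckeBetaBar, coeffMap_qExpand]
  -- the coefficient of `t^(-N)` of `ψ c (β j)`
  have hJ1 : (coeffMap φ ((xgen K N : FK K N) : LaurentSeries K)).coeff (-1) = 1 := by
    rw [coe_xgen, coeffMap_Jser, Degree.Jser_one, coeffEmb_coeff, coeff_jq_neg_one, map_one]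
  have hcoeff_none : (ψ₀ (heckeBetaBar K N ℓ (xgen K N))).coeff (-(N : ℤ)) = 0 := by
    rw [hψβ₀]
    refine qExpand_coeff_of_not_dvd (N * ℓ) _ ?_
    rintro ⟨m, hm⟩
    have hNZ : (N : ℤ) ≠ 0 := Int.natCast_ne_zero.mpr (NeZero.ne N)
    have h1 : (N : ℤ) * (-1) = (N : ℤ) * ((ℓ : ℤ) * m) := by
      rw [mul_neg_one, hm]
      push_cast
      ring
    have h2 : (-1 : ℤ) = (ℓ : ℤ) * m := mul_left_cancel₀ hNZ h1
    have h3 : (ℓ : ℤ) ∣ 1 := ⟨-m, by linarith⟩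
    have h4 : ℓ ∣ 1 := by exact_mod_cast h3
    exact hℓ.one_lt.ne' (Nat.dvd_one.mp h4)
  have hcoeff_some : ∀ i : ℕ, (ι i (heckeBetaBar K N ℓ (xgen K N))).coeff (-(N : ℤ))
      = (cuspZeta ℓ ^ i)⁻¹ := by
    intro i
    have e : (-(N : ℤ)) = (N : ℤ) * (-1) := by ring
    rw [hβ i, e, qExpand_coeff_mul, coeff_lsTwist, hJ1, mul_one, zpow_neg_one]
  refine ⟨ψ, ?_, ?_, hψβ₀, fun i g => hβ (i : ℕ) g⟩
  · intro c c' hcc
    have hv := congrArg (fun f : FK K (N * ℓ) →+* LaurentSeries ℂ =>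
      (f (heckeBetaBar K N ℓ (xgen K N))).coeff (-(N : ℤ))) hcc
    have hz : ∀ i : ℕ, (cuspZeta ℓ ^ i)⁻¹ ≠ 0 := fun i =>
      inv_ne_zero (pow_ne_zero i (cuspZeta_ne_zero ℓ))
    rcases c with _ | i <;> rcases c' with _ | i'
    · rfl
    · exfalso
      have hv' : (ψ₀ (heckeBetaBar K N ℓ (xgen K N))).coeff (-(N : ℤ))
          = (ι (i' : ℕ) (heckeBetaBar K N ℓ (xgen K N))).coeff (-(N : ℤ)) := hv
      rw [hcoeff_none, hcoeff_some] at hv'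
      exact hz _ hv'.symm
    · exfalso
      have hv' : (ι (i : ℕ) (heckeBetaBar K N ℓ (xgen K N))).coeff (-(N : ℤ))
          = (ψ₀ (heckeBetaBar K N ℓ (xgen K N))).coeff (-(N : ℤ)) := hv
      rw [hcoeff_none, hcoeff_some] at hv'
      exact hz _ hv'
    · have hv' : (ι (i : ℕ) (heckeBetaBar K N ℓ (xgen K N))).coeff (-(N : ℤ))
          = (ι (i' : ℕ) (heckeBetaBar K N ℓ (xgen K N))).coeff (-(N : ℤ)) := hv
      rw [hcoeff_some, hcoeff_some, inv_inj] at hv'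
      have h5 := (isPrimitiveRoot_cuspZeta ℓ).pow_inj i.2 i'.2 hv'
      exact congrArg some (Fin.ext h5)
  · intro c g
    rcases c with _ | i
    · show ψ₀ (heckeAlphaBar K N ℓ g) = _
      rw [hψ₀, coe_heckeAlphaBar]
    · show ι (i : ℕ) (heckeAlphaBar K N ℓ g) = _
      rw [hα (i : ℕ) g, hρ₀]

end Conj

end Fermat.Agent.S37.ConjEmb
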