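import Mathlib
import Fermat.Prelude.Def_ModularCurve_HeckeOperator
import Fermat.Agent.S24.Degree
import Fermat.Agent.S24.CardX0

/-!
# S37 (PD-B): the degree of `F_{Nℓ}` over `α F_N`

For a prime `ℓ ∤ N`, the function field `F_{Nℓ}` of `X₀(Nℓ)` has degree `ℓ + 1` over the image
of `F_N` under the degeneracy map `α = heckeAlphaBar` (the inclusion); the extension is finite
and (characteristic zero) separable.  From `S24.finrank_FK` at the levels `N`, `Nℓ`, the tower law
and `ψ(Nℓ) = (ℓ + 1) ψ(N)`.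
-/

set_option autoImplicit false
set_option synthInstance.maxHeartbeats 400000
set_option maxHeartbeats 1600000

noncomputable section

namespace Fermat.Agent.S37.DegAlpha

open IntermediateField AlgebraicCurve ModularCurve Fermat.Agent.S24

variable (K : Type*) [Field K] [Algebra ℚ K] (N ℓ : ℕ) [NeZero N] [NeZero ℓ]

/-- `ψ(Nℓ) = (ℓ + 1) ψ(N)` for a prime `ℓ ∤ N`. -/
theorem dedekindPsi_mul_prime {N ℓ : ℕ} (hℓ : ℓ.Prime) (hℓN : ¬ ℓ ∣ N) :
    dedekindPsi (N * ℓ) = (ℓ + 1) * dedekindPsi N := by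
  have hcop : Nat.Coprime N ℓ := ((Nat.Prime.coprime_iff_not_dvd hℓ).mpr hℓN).symm
  have h1 := CardX0.dedekindPsi_prime_pow hℓ (k := 1) one_pos
  rw [pow_one, Nat.sub_self, pow_zero] at h1
  rw [CardX0.dedekindPsi_mul hcop, h1, mul_comm]

/-- `α` maps `j` to `j`. -/
theorem alpha_xgen : heckeAlphaBar K N ℓ (xgen K N) = xgen K (N * ℓ) := by
  apply Subtype.ext
  rw [coe_heckeAlphaBar, coe_xgen, coe_xgen]

/-- The `K`-isomorphism `K(j) ≃ K(j)` between the rational subfields of `F_N` and `F_{Nℓ}`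
induced by `α`. -/
def ratEquiv : (K⟮xgen K N⟯ : IntermediateField K (FK K N)) ≃ₐ[K]
    (K⟮xgen K (N * ℓ)⟯ : IntermediateField K (FK K (N * ℓ))) :=
  (IntermediateField.equivMap K⟮xgen K N⟯ (heckeAlphaBar K N ℓ)).trans
    (IntermediateField.equivOfEq (by
      rw [IntermediateField.adjoin_map, Set.image_singleton, alpha_xgen]))

theorem coe_ratEquiv (a : (K⟮xgen K N⟯ : IntermediateField K (FK K N))) :
    ((ratEquiv K N ℓ a : (K⟮xgen K (N * ℓ)⟯ : IntermediateField K (FK K (N * ℓ)))) :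
      FK K (N * ℓ)) = heckeAlphaBar K N ℓ (a : FK K N) :=
  rfl

/-- **Degree of `α`.**  `F_{Nℓ}` is finite of degree `ℓ + 1` over `F_N` (through `α`). -/
theorem finrank_alpha (φ : K →+* ℂ) (hℓ : ℓ.Prime) (hℓN : ¬ ℓ ∣ N) :
    letI := algebraAlong (heckeAlphaBar K N ℓ)
    FiniteDimensional (FK K N) (FK K (N * ℓ)) ∧
      Module.finrank (FK K N) (FK K (N * ℓ)) = ℓ + 1 := by
  letI := algebraAlong (heckeAlphaBar K N ℓ)
  letI : Algebra (K⟮xgen K N⟯ : IntermediateField K (FK K N)) (FK K (N * ℓ)) :=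
    ((algebraMap (FK K N) (FK K (N * ℓ))).comp
      (algebraMap (K⟮xgen K N⟯ : IntermediateField K (FK K N)) (FK K N))).toAlgebra
  haveI : IsScalarTower (K⟮xgen K N⟯ : IntermediateField K (FK K N)) (FK K N) (FK K (N * ℓ)) :=
    IsScalarTower.of_algebraMap_eq (fun x => rfl)
  have h12 : Module.finrank (K⟮xgen K N⟯ : IntermediateField K (FK K N)) (FK K (N * ℓ))
      = Module.finrank (K⟮xgen K (N * ℓ)⟯ : IntermediateField K (FK K (N * ℓ)))
          (FK K (N * ℓ)) := by
    refine Algebra.finrank_eq_of_equiv_equiv (ratEquiv K N ℓ).toRingEquiv (RingEquiv.refl _) ?_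
    refine RingHom.ext fun a => ?_
    exact coe_ratEquiv K N ℓ a
  have hN : Module.finrank (K⟮xgen K N⟯ : IntermediateField K (FK K N)) (FK K N)
      = Nat.card (X0 N) := finrank_FK K φ N
  have hNl : Module.finrank (K⟮xgen K (N * ℓ)⟯ : IntermediateField K (FK K (N * ℓ)))
      (FK K (N * ℓ)) = Nat.card (X0 (N * ℓ)) := finrank_FK K φ (N * ℓ)
  have hfdN : FiniteDimensional (K⟮xgen K N⟯ : IntermediateField K (FK K N)) (FK K N) :=
    finiteDimensional_FK K φ N
  have htower := Module.finrank_mul_finrank (K⟮xgen K N⟯ : IntermediateField K (FK K N))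
    (FK K N) (FK K (N * ℓ))
  rw [h12, hN, hNl, card_X0, card_X0, dedekindPsi_mul_prime hℓ hℓN] at htower
  have hpsi : 0 < dedekindPsi N := by
    rw [← card_X0 N, ← hN]
    exact Module.finrank_pos
  have hfin : Module.finrank (FK K N) (FK K (N * ℓ)) = ℓ + 1 := by
    have h := htower
    rw [mul_comm] at h
    exact Nat.eq_of_mul_eq_mul_right hpsi h
  refine ⟨?_, hfin⟩
  exact Module.finite_of_finrank_pos (by rw [hfin]; omega)

/-- Finite-dimensionality of `α`. -/
theorem finiteDimensional_alpha (φ : K →+* ℂ) (hℓ : ℓ.Prime) (hℓN : ¬ ℓ ∣ N) :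
    letI := algebraAlong (heckeAlphaBar K N ℓ)
    FiniteDimensional (FK K N) (FK K (N * ℓ)) :=
  (finrank_alpha K N ℓ φ hℓ hℓN).1

/-- `FiniteAlong` for `α` (the Prelude's name). -/
theorem finiteAlong_alpha (φ : K →+* ℂ) (hℓ : ℓ.Prime) (hℓN : ¬ ℓ ∣ N) :
    FiniteAlong K (heckeAlphaBar K N ℓ) :=
  (finrank_alpha K N ℓ φ hℓ hℓN).1

/-- Separability of `α` (characteristic zero). -/
theorem isSeparable_alpha (φ : K →+* ℂ) (hℓ : ℓ.Prime) (hℓN : ¬ ℓ ∣ N) :
    letI := algebraAlong (heckeAlphaBar K N ℓ)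
    Algebra.IsSeparable (FK K N) (FK K (N * ℓ)) := by
  letI := algebraAlong (heckeAlphaBar K N ℓ)
  haveI := (finrank_alpha K N ℓ φ hℓ hℓN).1
  haveI : CharZero K := algebraRat.charZero K
  haveI : CharZero (FK K N) := charZero_of_injective_algebraMap (algebraMap K (FK K N)).injective
  haveI : Algebra.IsAlgebraic (FK K N) (FK K (N * ℓ)) := Algebra.IsAlgebraic.of_finite _ _
  infer_instance

end Fermat.Agent.S37.DegAlpha

end
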