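import Mathlib

/-!
# S37 (PD-A): norm and characteristic polynomial from a full set of embeddings

Let `E' / E0` be a finite separable field extension, `ι : E0 →+* Ω` a ring homomorphism into a
field, and `ψ c : E' →+* Ω`, `c : X`, pairwise distinct ring homomorphisms extending `ι`, with
`#X = [E' : E0]`.  Then for every `x : E'`

* `ι (N_{E'/E0} x) = ∏ c, ψ c x`                                  (`norm_eq_prod`),
* `ι (Tr_{E'/E0} x) = ∑ c, ψ c x`                                 (`trace_eq_sum`),
* `(charpoly of multiplication by x).map ι = ∏ c, (X - C (ψ c x))`   (`charpoly_map_eq_prod`,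
  for infinite `E0`).

`Ω` is *not* assumed algebraically closed (in the application it is a field of Laurent series).
-/

set_option autoImplicit false

noncomputable section

namespace Fermat.Agent.S37.NormEmb

open Polynomial

variable {E0 E' Ω : Type*} [Field E0] [Field E'] [Algebra E0 E'] [Field Ω]

section Core

variable [FiniteDimensional E0 E'] [Algebra.IsSeparable E0 E']
variable (ι : E0 →+* Ω) {X : Type*} [Fintype X] (ψ : X → (E' →+* Ω))

/-- The given embeddings, as `E0`-algebra homomorphisms into the algebraic closure of `Ω`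
(`Ω` being an `E0`-algebra through `ι`), exhaust all of them. -/
theorem exists_equiv_algHom (hψ : ∀ c (a : E0), ψ c (algebraMap E0 E' a) = ι a)
    (hinj : Function.Injective ψ) (hcard : Fintype.card X = Module.finrank E0 E') :
    letI : Algebra E0 Ω := ι.toAlgebra
    ∃ e : X ≃ (E' →ₐ[E0] AlgebraicClosure Ω),
      ∀ c (x : E'), e c x = algebraMap Ω (AlgebraicClosure Ω) (ψ c x) := by
  let _ : Algebra E0 Ω := ι.toAlgebra
  let Ψ : X → (E' →ₐ[E0] AlgebraicClosure Ω) := fun c =>
    { ((algebraMap Ω (AlgebraicClosure Ω)).comp (ψ c)) with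
      commutes' := fun a => by
        show algebraMap Ω (AlgebraicClosure Ω) (ψ c (algebraMap E0 E' a)) = _
        rw [hψ c a, IsScalarTower.algebraMap_apply E0 Ω (AlgebraicClosure Ω)]
        rfl }
  have hΨ : ∀ c (x : E'), Ψ c x = algebraMap Ω (AlgebraicClosure Ω) (ψ c x) := fun c x => rfl
  have hΨinj : Function.Injective Ψ := by
    intro c c' h
    apply hinj
    ext x
    have h1 := DFunLike.congr_fun h x
    rw [hΨ, hΨ] at h1
    exact (algebraMap Ω (AlgebraicClosure Ω)).injective h1
  have hcard' : Fintype.card X = Fintype.card (E' →ₐ[E0] AlgebraicClosure Ω) := by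
    rw [hcard, AlgHom.card]
  have hbij : Function.Bijective Ψ :=
    (Fintype.bijective_iff_injective_and_card Ψ).mpr ⟨hΨinj, hcard'⟩
  exact ⟨Equiv.ofBijective Ψ hbij, fun c x => rfl⟩

/-- **Norm = product over a full set of embeddings.** -/
theorem norm_eq_prod (hψ : ∀ c (a : E0), ψ c (algebraMap E0 E' a) = ι a)
    (hinj : Function.Injective ψ) (hcard : Fintype.card X = Module.finrank E0 E') (x : E') :
    ι (Algebra.norm E0 x) = ∏ c, ψ c x := by
  let _ : Algebra E0 Ω := ι.toAlgebra
  obtain ⟨e, he⟩ := exists_equiv_algHom ι ψ hψ hinj hcard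
  have h := Algebra.norm_eq_prod_embeddings E0 (AlgebraicClosure Ω) x
  rw [← Equiv.prod_comp e] at h
  simp only [he] at h
  rw [← map_prod, IsScalarTower.algebraMap_apply E0 Ω (AlgebraicClosure Ω)] at h
  exact (algebraMap Ω (AlgebraicClosure Ω)).injective h

/-- **Trace = sum over a full set of embeddings.** -/
theorem trace_eq_sum (hψ : ∀ c (a : E0), ψ c (algebraMap E0 E' a) = ι a)
    (hinj : Function.Injective ψ) (hcard : Fintype.card X = Module.finrank E0 E') (x : E') :
    ι (Algebra.trace E0 E' x) = ∑ c, ψ c x := by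
  let _ : Algebra E0 Ω := ι.toAlgebra
  obtain ⟨e, he⟩ := exists_equiv_algHom ι ψ hψ hinj hcard
  have h := trace_eq_sum_embeddings (K := E0) (L := E') (AlgebraicClosure Ω) (x := x)
  rw [← Equiv.sum_comp e] at h
  simp only [he] at h
  rw [← map_sum, IsScalarTower.algebraMap_apply E0 Ω (AlgebraicClosure Ω)] at h
  exact (algebraMap Ω (AlgebraicClosure Ω)).injective h

end Core

section Charpoly

variable [FiniteDimensional E0 E']

/-- The characteristic polynomial of multiplication by `x`, evaluated at `t : E0`, is the norm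
of `t - x`. -/
theorem eval_charpoly_lmul (x : E') (t : E0) :
    (Algebra.lmul E0 E' x).charpoly.eval t = Algebra.norm E0 (algebraMap E0 E' t - x) := by
  have h : Algebra.lmul E0 E' (algebraMap E0 E' t - x)
      = algebraMap E0 (E' →ₗ[E0] E') t - Algebra.lmul E0 E' x := by
    rw [map_sub, AlgHom.commutes]
  rw [LinearMap.eval_charpoly, Algebra.norm_apply, h]

/-- The characteristic polynomial of multiplication by `x` kills `x` (Cayley–Hamilton). -/
theorem aeval_charpoly_lmul (x : E') :
    aeval x (Algebra.lmul E0 E' x).charpoly = 0 := by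
  have h := LinearMap.aeval_self_charpoly (Algebra.lmul E0 E' x)
  have h2 : aeval (Algebra.lmul E0 E' x) (Algebra.lmul E0 E' x).charpoly
      = Algebra.lmul E0 E' (aeval x (Algebra.lmul E0 E' x).charpoly) :=
    (Polynomial.aeval_algHom_apply (Algebra.lmul E0 E') x _)
  rw [h2] at h
  have h3 := LinearMap.congr_fun h 1
  simpa using h3

theorem monic_charpoly_lmul (x : E') : (Algebra.lmul E0 E' x).charpoly.Monic :=
  LinearMap.charpoly_monic _

theorem natDegree_charpoly_lmul (x : E') :
    (Algebra.lmul E0 E' x).charpoly.natDegree = Module.finrank E0 E' :=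
  LinearMap.charpoly_natDegree _

variable [Algebra.IsSeparable E0 E'] [Infinite E0]
variable (ι : E0 →+* Ω) {I : Type*} [Fintype I] (ψ : I → (E' →+* Ω))

/-- **Characteristic polynomial = product over a full set of embeddings.** -/
theorem charpoly_map_eq_prod (hψ : ∀ c (a : E0), ψ c (algebraMap E0 E' a) = ι a)
    (hinj : Function.Injective ψ) (hcard : Fintype.card I = Module.finrank E0 E') (x : E') :
    (Algebra.lmul E0 E' x).charpoly.map ι = ∏ c, (Polynomial.X - Polynomial.C (ψ c x)) := by
  apply Polynomial.eq_of_infinite_eval_eq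
  refine Set.infinite_of_injective_forall_mem (f := ι) ι.injective fun t => ?_
  show eval (ι t) ((Algebra.lmul E0 E' x).charpoly.map ι)
    = eval (ι t) (∏ c, (Polynomial.X - Polynomial.C (ψ c x)))
  rw [eval_map, eval₂_at_apply, eval_charpoly_lmul, norm_eq_prod ι ψ hψ hinj hcard, eval_prod]
  refine Finset.prod_congr rfl fun c _ => ?_
  rw [map_sub, hψ, eval_sub, eval_X, eval_C]

end Charpoly

end Fermat.Agent.S37.NormEmb

end
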