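import Mathlib
import Fermat.Prelude.Def_ModularCurve_HeckeOperator
import Fermat.Prelude.Thm_ModularCurve_coeffMap_qExpand
import Fermat.Agent.S24.BDefs
import Fermat.Agent.S24.LsTwist
import Fermat.Agent.S24.CuspExp
import Fermat.Agent.S37.NormEmb

/-!
# S37, package PD (D, core): the norm of `β f` as the product of its conjugates

Let `ℓ ∤ N` be a prime, `α, β : F_N → F_{Nℓ}` the two degeneracy maps (`α` the inclusion,
`β f = f(q^ℓ)`).  Given the `ℓ + 1` embeddings `ψ c : F_{Nℓ} → ℂ((t))` over `F_N` (package PD-C3)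
and the degree `[F_{Nℓ} : α F_N] = ℓ + 1` (package PD-B), we get, for every primitive `ℓ`-th
root of unity `ζ` of the coefficient field `K` and every `f ∈ F_N`, in `K((s))`, `s = q^{1/ℓ}`:

  `N_{F_{Nℓ}/αF_N}(β f)(s^ℓ) = f(s^{ℓ²}) · ∏_{i<ℓ} f(ζ^i s)`.

* `prod_lsTwist_eq`: the product `∏_{i<ℓ} f(ζ^i s)` does not depend on the primitive root `ζ`;
* `coeffMap_lsTwist`: coefficientwise maps commute with twists;
* `norm_eq_of`: the norm formula, from the embeddings and the degree.
-/

set_option autoImplicit false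

open Polynomial

namespace Fermat.Agent.S37.NormConjCore

open ModularCurve AlgebraicCurve
open Fermat.Agent.S24

section Twist

variable {C : Type*} [Field C]

theorem lsTwist_congr {ω ω' : C} (h : ω = ω') (hω : ω ≠ 0) (hω' : ω' ≠ 0) (g : LaurentSeries C) :
    lsTwist ω hω g = lsTwist ω' hω' g := by
  subst h
  rfl

/-- The product of the twists by all powers of a primitive `ℓ`-th root of unity does not depend
on the root. -/
theorem prod_lsTwist_eq {l : ℕ} [NeZero l] {ζ ζ' : C} (hζ : IsPrimitiveRoot ζ l)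
    (hζ' : IsPrimitiveRoot ζ' l) (hζ0 : ∀ i : ℕ, ζ ^ i ≠ 0) (hζ0' : ∀ i : ℕ, ζ' ^ i ≠ 0)
    (g : LaurentSeries C) :
    ∏ i ∈ Finset.range l, lsTwist (ζ' ^ i) (hζ0' i) g
      = ∏ i ∈ Finset.range l, lsTwist (ζ ^ i) (hζ0 i) g := by
  obtain ⟨a, -, ha⟩ := hζ.eq_pow_of_pow_eq_one hζ'.pow_eq_one
  have hcop : a.Coprime l := (hζ.pow_iff_coprime (NeZero.pos l) a).mp (ha ▸ hζ')
  have key : ∀ i : ℕ, lsTwist (ζ' ^ i) (hζ0' i) g
      = lsTwist (ζ ^ ((a * i) % l)) (hζ0 _) g := fun i =>
    lsTwist_congr (by rw [← ha, ← pow_mul, pow_eq_pow_mod (a * i) hζ.pow_eq_one]) _ _ g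
  have hinjOn : Set.InjOn (fun i : ℕ => (a * i) % l) (Finset.range l : Set ℕ) := by
    intro i hi j hj hij
    have hi' : i < l := Finset.mem_range.mp hi
    have hj' : j < l := Finset.mem_range.mp hj
    have h1 : a * i ≡ a * j [MOD l] := hij
    have h2 : i ≡ j [MOD l] :=
      Nat.ModEq.cancel_left_of_coprime (by rw [Nat.gcd_comm]; exact hcop) h1
    exact Nat.ModEq.eq_of_lt_of_lt h2 hi' hj'
  have himg : (Finset.range l).image (fun i : ℕ => (a * i) % l) = Finset.range l := by
    refine Finset.eq_of_subset_of_card_le ?_ ?_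
    · intro x hx
      obtain ⟨i, -, rfl⟩ := Finset.mem_image.mp hx
      exact Finset.mem_range.mpr (Nat.mod_lt _ (NeZero.pos l))
    · rw [Finset.card_image_of_injOn hinjOn]
  calc ∏ i ∈ Finset.range l, lsTwist (ζ' ^ i) (hζ0' i) g
      = ∏ i ∈ Finset.range l, lsTwist (ζ ^ ((a * i) % l)) (hζ0 _) g :=
        Finset.prod_congr rfl fun i _ => key i
    _ = ∏ j ∈ (Finset.range l).image (fun i : ℕ => (a * i) % l), lsTwist (ζ ^ j) (hζ0 j) g :=
        (Finset.prod_image (f := fun j => lsTwist (ζ ^ j) (hζ0 j) g) hinjOn).symm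
    _ = ∏ i ∈ Finset.range l, lsTwist (ζ ^ i) (hζ0 i) g := by rw [himg]

/-- Coefficientwise maps commute with twists. -/
theorem coeffMap_lsTwist {C' : Type*} [Field C'] (φ : C →+* C') (ω : C) (hω : ω ≠ 0)
    (hω' : φ ω ≠ 0) (g : LaurentSeries C) :
    coeffMap φ (lsTwist ω hω g) = lsTwist (φ ω) hω' (coeffMap φ g) := by
  ext m
  rw [coeffMap_coeff, coeff_lsTwist, coeff_lsTwist, coeffMap_coeff, map_mul, map_zpow₀]

end Twist

section Norm

variable {K : Type*} [Field K] [Algebra ℚ K]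

/-- **The norm of `β f` is the product of the conjugates** (from the embeddings and the
degree). -/
theorem norm_eq_of (φ : K →+* ℂ) {N l : ℕ} [NeZero N] [NeZero l]
    (hfd : letI := algebraAlong (heckeAlphaBar K N l);
      FiniteDimensional (FK K N) (FK K (N * l)))
    (hsep : letI := algebraAlong (heckeAlphaBar K N l);
      Algebra.IsSeparable (FK K N) (FK K (N * l)))
    (hrank : letI := algebraAlong (heckeAlphaBar K N l);
      Module.finrank (FK K N) (FK K (N * l)) = l + 1)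
    (ψ : Option (Fin l) → (FK K (N * l) →+* LaurentSeries ℂ)) (hinj : Function.Injective ψ)
    (hα : ∀ c (g : FK K N), ψ c (heckeAlphaBar K N l g)
      = qExpand ℂ (N * l) (coeffMap φ (g : LaurentSeries K)))
    (hβ0 : ∀ g : FK K N, ψ none (heckeBetaBar K N l g)
      = qExpand ℂ (N * l) (qExpand ℂ l (coeffMap φ (g : LaurentSeries K))))
    (hβ : ∀ (i : Fin l) (g : FK K N), ψ (some i) (heckeBetaBar K N l g)
      = qExpand ℂ N (lsTwist (cuspZeta l ^ (i : ℕ)) (pow_ne_zero _ (cuspZeta_ne_zero l))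
          (coeffMap φ (g : LaurentSeries K))))
    (ζ : K) (hζ : IsPrimitiveRoot ζ l) (hζ0 : ∀ i : ℕ, ζ ^ i ≠ 0) (f : FK K N) :
    letI := algebraAlong (heckeAlphaBar K N l)
    qExpand K l ((Algebra.norm (FK K N) (heckeBetaBar K N l f) : FK K N) : LaurentSeries K)
      = qExpand K l (qExpand K l (f : LaurentSeries K))
        * ∏ i ∈ Finset.range l, lsTwist (ζ ^ i) (hζ0 i) (f : LaurentSeries K) := by
  let _ := algebraAlong (heckeAlphaBar K N l)
  have := hfd
  have := hsep
  set nrm : FK K N := Algebra.norm (FK K N) (heckeBetaBar K N l f) with hnrm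
  -- the base embedding
  let ι : FK K N →+* LaurentSeries ℂ :=
    (qExpand ℂ (N * l)).comp ((coeffMap φ).comp (FK K N).val.toRingHom)
  have hι : ∀ g : FK K N, ι g = qExpand ℂ (N * l) (coeffMap φ (g : LaurentSeries K)) :=
    fun g => rfl
  have hcard : Fintype.card (Option (Fin l)) = Module.finrank (FK K N) (FK K (N * l)) := by
    rw [hrank, Fintype.card_option, Fintype.card_fin]
  have h := NormEmb.norm_eq_prod ι ψ (fun c a => (hα c a).trans (hι a).symm) hinj hcard
    (heckeBetaBar K N l f)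
  rw [Fintype.prod_option, hβ0, hι] at h
  simp only [hβ] at h
  -- cancel `qExpand ℂ N`
  have h2 : qExpand ℂ l (coeffMap φ (nrm : LaurentSeries K))
      = qExpand ℂ l (qExpand ℂ l (coeffMap φ (f : LaurentSeries K)))
        * ∏ i : Fin l, lsTwist (cuspZeta l ^ (i : ℕ)) (pow_ne_zero _ (cuspZeta_ne_zero l))
            (coeffMap φ (f : LaurentSeries K)) := by
    apply qExpand_injective (R := ℂ) (N := N)
    rw [map_mul, map_prod, qExpand_qExpand, qExpand_qExpand]
    exact h
  -- descend to `K`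
  apply RingHom.injective (coeffMap φ)
  have hφζ : IsPrimitiveRoot (φ ζ) l := hζ.map_of_injective φ.injective
  have hφζ0 : ∀ i : ℕ, φ ζ ^ i ≠ 0 := fun i => by
    rw [← map_pow]
    exact (map_ne_zero φ).mpr (hζ0 i)
  rw [coeffMap_qExpand, h2, map_mul, map_prod, coeffMap_qExpand, coeffMap_qExpand]
  congr 1
  rw [← Finset.prod_range (fun i => lsTwist (cuspZeta l ^ i) (pow_ne_zero _ (cuspZeta_ne_zero l))
    (coeffMap φ (f : LaurentSeries K)))]
  rw [← prod_lsTwist_eq (isPrimitiveRoot_cuspZeta l) hφζ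
    (fun i => pow_ne_zero _ (cuspZeta_ne_zero l)) hφζ0]
  refine Finset.prod_congr rfl fun i _ => ?_
  rw [coeffMap_lsTwist φ (ζ ^ i) (hζ0 i) (by rw [map_pow]; exact hφζ0 i)]
  exact lsTwist_congr (map_pow φ ζ i).symm _ _ _

end Norm

end Fermat.Agent.S37.NormConjCore
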