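import Mathlib
import Fermat.Agent.S37.NormConjCore
import Fermat.Agent.S37.DegAlpha
import Fermat.Agent.S37.ConjEmb

/-!
# S37, package PD (D, closed): the norm of `β f` as the product of its conjugates

Let `ℓ ∤ N` be a prime, `α, β : F_N → F_{Nℓ}` the two degeneracy maps (`α` the inclusion,
`β f = f(q^ℓ)`), and view `F_{Nℓ}` as an `F_N`-algebra through `α`.  For every primitive `ℓ`-th
root of unity `ζ` of the coefficient field `K` (any field with an embedding into `ℂ`) and every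
`f ∈ F_N`, in `K((s))`, `s = q^{1/ℓ}`:

  `N_{F_{Nℓ}/αF_N}(β f)(s^ℓ) = f(s^{ℓ²}) · ∏_{i<ℓ} f(ζ^i s)`.

This closes `NormConjCore.norm_eq_of` with the degree `[F_{Nℓ} : αF_N] = ℓ + 1`
(`DegAlpha.finrank_alpha`) and the `ℓ + 1` conjugate embeddings (`ConjEmb.exists_conj`).

* `norm_eq`: the closed formula over any `K` with `φ : K →+* ℂ`;
* `norm_eq'`: the same with an arbitrary proof of `ζ ^ i ≠ 0` in the twists;
* `norm_eq_bar`: the case `K = ℚ̄` (function fields `modularFunctionFieldBar`);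
* `finiteDimensional_bar`, `finrank_bar`, `isSeparable_bar`, `finiteAlong_bar`: the degree facts
  for `K = ℚ̄` without the auxiliary embedding.
-/

set_option autoImplicit false
set_option synthInstance.maxHeartbeats 400000
set_option maxHeartbeats 1600000

namespace Fermat.Agent.S37.NormConj

open ModularCurve AlgebraicCurve
open Fermat.Agent.S24

section General

variable {K : Type*} [Field K] [Algebra ℚ K]

/-- **The norm of `β f` is the product of the conjugates** (arbitrary proofs of `ζ ^ i ≠ 0`). -/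
theorem norm_eq' (φ : K →+* ℂ) {N l : ℕ} [NeZero N] [NeZero l] (hl : l.Prime) (hlN : ¬ l ∣ N)
    (ζ : K) (hζ : IsPrimitiveRoot ζ l) (hζ0 : ∀ i : ℕ, ζ ^ i ≠ 0) (f : FK K N) :
    letI := algebraAlong (heckeAlphaBar K N l)
    qExpand K l ((Algebra.norm (FK K N) (heckeBetaBar K N l f) : FK K N) : LaurentSeries K)
      = qExpand K l (qExpand K l (f : LaurentSeries K))
        * ∏ i ∈ Finset.range l, lsTwist (ζ ^ i) (hζ0 i) (f : LaurentSeries K) := by
  obtain ⟨ψ, hinj, hα, hβ0, hβ⟩ := ConjEmb.exists_conj φ hl hlN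
  exact NormConjCore.norm_eq_of φ (DegAlpha.finiteDimensional_alpha K N l φ hl hlN)
    (DegAlpha.isSeparable_alpha K N l φ hl hlN) (DegAlpha.finrank_alpha K N l φ hl hlN).2
    ψ hinj hα hβ0 hβ ζ hζ hζ0 f

/-- **The norm of `β f` is the product of the conjugates.** -/
theorem norm_eq (φ : K →+* ℂ) {N l : ℕ} [NeZero N] [NeZero l] (hl : l.Prime) (hlN : ¬ l ∣ N)
    (ζ : K) (hζ : IsPrimitiveRoot ζ l) (f : FK K N) :
    letI := algebraAlong (heckeAlphaBar K N l)
    qExpand K l ((Algebra.norm (FK K N) (heckeBetaBar K N l f) : FK K N) : LaurentSeries K)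
      = qExpand K l (qExpand K l (f : LaurentSeries K))
        * ∏ i ∈ Finset.range l,
            lsTwist (ζ ^ i) (pow_ne_zero i (hζ.ne_zero hl.ne_zero)) (f : LaurentSeries K) :=
  norm_eq' φ hl hlN ζ hζ (fun i => pow_ne_zero i (hζ.ne_zero hl.ne_zero)) f

end General

section Bar

/-- Finiteness of `F_{Nℓ}` over `α F_N` for `K = ℚ̄`. -/
theorem finiteDimensional_bar {N l : ℕ} [NeZero N] [NeZero l] (hl : l.Prime) (hlN : ¬ l ∣ N) :
    letI := algebraAlong (heckeAlphaBar (AlgebraicClosure ℚ) N l)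
    FiniteDimensional (modularFunctionFieldBar N) (modularFunctionFieldBar (N * l)) :=
  DegAlpha.finiteDimensional_alpha (AlgebraicClosure ℚ) N l kEmb hl hlN

/-- `[F_{Nℓ} : α F_N] = ℓ + 1` for `K = ℚ̄`. -/
theorem finrank_bar {N l : ℕ} [NeZero N] [NeZero l] (hl : l.Prime) (hlN : ¬ l ∣ N) :
    letI := algebraAlong (heckeAlphaBar (AlgebraicClosure ℚ) N l)
    Module.finrank (modularFunctionFieldBar N) (modularFunctionFieldBar (N * l)) = l + 1 :=
  (DegAlpha.finrank_alpha (AlgebraicClosure ℚ) N l kEmb hl hlN).2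

/-- Separability of `F_{Nℓ}` over `α F_N` for `K = ℚ̄`. -/
theorem isSeparable_bar {N l : ℕ} [NeZero N] [NeZero l] (hl : l.Prime) (hlN : ¬ l ∣ N) :
    letI := algebraAlong (heckeAlphaBar (AlgebraicClosure ℚ) N l)
    Algebra.IsSeparable (modularFunctionFieldBar N) (modularFunctionFieldBar (N * l)) :=
  DegAlpha.isSeparable_alpha (AlgebraicClosure ℚ) N l kEmb hl hlN

/-- `FiniteAlong` for `α`, `K = ℚ̄`. -/
theorem finiteAlong_bar {N l : ℕ} [NeZero N] [NeZero l] (hl : l.Prime) (hlN : ¬ l ∣ N) :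
    FiniteAlong (AlgebraicClosure ℚ) (heckeAlphaBar (AlgebraicClosure ℚ) N l) :=
  DegAlpha.finiteAlong_alpha (AlgebraicClosure ℚ) N l kEmb hl hlN

/-- **The norm formula for `K = ℚ̄`** (arbitrary proofs of `ζ ^ i ≠ 0`). -/
theorem norm_eq_bar' {N l : ℕ} [NeZero N] [NeZero l] (hl : l.Prime) (hlN : ¬ l ∣ N)
    (ζ : AlgebraicClosure ℚ) (hζ : IsPrimitiveRoot ζ l) (hζ0 : ∀ i : ℕ, ζ ^ i ≠ 0)
    (f : modularFunctionFieldBar N) :
    letI := algebraAlong (heckeAlphaBar (AlgebraicClosure ℚ) N l)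
    qExpand (AlgebraicClosure ℚ) l
        ((Algebra.norm (modularFunctionFieldBar N) (heckeBetaBar (AlgebraicClosure ℚ) N l f) :
          modularFunctionFieldBar N) : LaurentSeries (AlgebraicClosure ℚ))
      = qExpand (AlgebraicClosure ℚ) l
          (qExpand (AlgebraicClosure ℚ) l (f : LaurentSeries (AlgebraicClosure ℚ)))
        * ∏ i ∈ Finset.range l,
            lsTwist (ζ ^ i) (hζ0 i) (f : LaurentSeries (AlgebraicClosure ℚ)) :=
  norm_eq' kEmb hl hlN ζ hζ hζ0 f

/-- **The norm formula for `K = ℚ̄`.** -/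
theorem norm_eq_bar {N l : ℕ} [NeZero N] [NeZero l] (hl : l.Prime) (hlN : ¬ l ∣ N)
    (ζ : AlgebraicClosure ℚ) (hζ : IsPrimitiveRoot ζ l) (f : modularFunctionFieldBar N) :
    letI := algebraAlong (heckeAlphaBar (AlgebraicClosure ℚ) N l)
    qExpand (AlgebraicClosure ℚ) l
        ((Algebra.norm (modularFunctionFieldBar N) (heckeBetaBar (AlgebraicClosure ℚ) N l f) :
          modularFunctionFieldBar N) : LaurentSeries (AlgebraicClosure ℚ))
      = qExpand (AlgebraicClosure ℚ) l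
          (qExpand (AlgebraicClosure ℚ) l (f : LaurentSeries (AlgebraicClosure ℚ)))
        * ∏ i ∈ Finset.range l,
            lsTwist (ζ ^ i) (pow_ne_zero i (hζ.ne_zero hl.ne_zero))
              (f : LaurentSeries (AlgebraicClosure ℚ)) :=
  norm_eq kEmb hl hlN ζ hζ f

/-- A primitive `ℓ`-th root of unity exists in `ℚ̄`. -/
theorem exists_primitiveRoot_bar (l : ℕ) [NeZero l] :
    ∃ ζ : AlgebraicClosure ℚ, IsPrimitiveRoot ζ l :=
  HasEnoughRootsOfUnity.exists_primitiveRoot (AlgebraicClosure ℚ) l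

end Bar

end Fermat.Agent.S37.NormConj
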