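import Mathlib
import Fermat.Prelude.Def_ModularCurve_HeckeModule

/-!
# S37 / PA4: unfolding lemmas for the Hecke operator `T_ℓ` on `J₀(N)`

* `Unfold.correspondence_single` : the correspondence `ψ_* φ^*` on a point.
* `Unfold.correspondence_apply_of_div` : the correspondence of a principal divisor is the divisor
  of a norm.
* `Unfold.heckeGen_smul_mk` : `T_ℓ • [D] = [β^* then α_* of D]`, given the Hecke inputs at `ℓ`.
-/

set_option autoImplicit false
set_option linter.style.haveILetI false
set_option linter.unusedSectionVars false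

noncomputable section

namespace Fermat.Agent.S37.Unfold

open AlgebraicCurve ModularCurve

section Generic

variable {K F F' : Type*} [Field K] [Field F] [Field F'] [Algebra K F] [Algebra K F']
variable [HasPrincipalDivisors K F']
variable (φ ψ : F →ₐ[K] F') (hφ : φ.toRingHom.IsIntegral) (hψ : ψ.toRingHom.IsIntegral)

/-- The correspondence `ψ_* ∘ φ^*` on a multiple of a point. -/
theorem correspondence_single (P : Place K F) (n : ℤ) :
    Divisor.correspondence φ ψ hφ hψ (Finsupp.single P n)
      = ∑ Q ∈ Place.fiberAlong φ hφ P,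
          Finsupp.single (Q.restrictAlong ψ hψ)
            (n * Q.ramificationIndexAlong φ * Q.inertiaDegAlong ψ hψ) := by
  rw [Divisor.correspondence_apply, Divisor.pullbackAlong_single, map_sum]
  refine Finset.sum_congr rfl fun Q _ => ?_
  rw [Divisor.pushforwardAlong_single]

/-- The inertia degree is `1` when all places have degree `1`. -/
theorem inertiaDegAlong_eq_one (hdeg : ∀ v : Place K F, v.deg = 1)
    (hdeg' : ∀ w : Place K F', w.deg = 1) (Q : Place K F') :
    Q.inertiaDegAlong ψ hψ = 1 := by
  letI := algebraAlong ψ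
  haveI := isScalarTower_along ψ
  haveI := isIntegral_along ψ hψ
  have h := Q.deg_restrict_mul_inertiaDeg (F := F)
  rw [hdeg, hdeg' Q, one_mul] at h
  exact h

/-- The correspondence on a point when all places have degree `1`. -/
theorem correspondence_single_of_deg (hdeg : ∀ v : Place K F, v.deg = 1)
    (hdeg' : ∀ w : Place K F', w.deg = 1) (P : Place K F) (n : ℤ) :
    Divisor.correspondence φ ψ hφ hψ (Finsupp.single P n)
      = ∑ Q ∈ Place.fiberAlong φ hφ P,
          Finsupp.single (Q.restrictAlong ψ hψ) (n * Q.ramificationIndexAlong φ) := by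
  rw [correspondence_single]
  refine Finset.sum_congr rfl fun Q _ => ?_
  rw [inertiaDegAlong_eq_one ψ hψ hdeg hdeg' Q, Nat.cast_one, mul_one]

/-- The correspondence of an effective divisor is effective. -/
theorem correspondence_nonneg (D : Divisor K F) (hD : ∀ v, 0 ≤ D v) (v : Place K F) :
    0 ≤ Divisor.correspondence φ ψ hφ hψ D v := by
  classical
  induction D using Finsupp.induction with
  | zero => simp
  | single_add P n D hP hn ih =>
    have hn0 : 0 ≤ n := by
      have := hD P
      rw [Finsupp.add_apply, Finsupp.single_eq_same, Finsupp.notMem_support_iff.mp hP,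
        add_zero] at this
      exact this
    have hD' : ∀ v, 0 ≤ D v := by
      intro v
      by_cases hv : v = P
      · rw [hv, Finsupp.notMem_support_iff.mp hP]
      · have := hD v
        rwa [Finsupp.add_apply, Finsupp.single_eq_of_ne hv, zero_add] at this
    rw [map_add, Finsupp.add_apply]
    refine add_nonneg ?_ (ih hD')
    rw [correspondence_single, Finsupp.finsetSum_apply]
    refine Finset.sum_nonneg fun Q _ => ?_
    rw [Finsupp.single_apply]
    split_ifs
    · positivity
    · exact le_rfl

/-- The correspondence of the divisor of `f` is the divisor of the norm (along `ψ`) of `φ f`. -/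
theorem correspondence_apply_of_div (hfin : FiniteAlong K ψ) (hN : NormFormulaAlong K ψ hfin)
    {f : F} (hf : f ≠ 0) {D : Divisor K F} (hD : ∀ v, D v = v.ord f) (v : Place K F) :
    Divisor.correspondence φ ψ hφ hψ D v
      = v.ord ((letI := algebraAlong ψ; Algebra.norm F (φ f))) := by
  have hφf : φ f ≠ 0 := (map_ne_zero φ).mpr hf
  have hpull : ∀ w : Place K F', Divisor.pullbackAlong φ hφ D w = w.ord (φ f) := by
    intro w
    rw [Divisor.pullbackAlong_apply, hD, Place.ord_restrictAlong φ hφ]
  letI := algebraAlong ψ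
  haveI := isScalarTower_along ψ
  haveI := isIntegral_along ψ hψ
  haveI : Module.Finite F F' := hfin
  exact hN (φ f) hφf _ hpull v

end Generic

section Hecke

variable (N : ℕ) [NeZero N]

/-- `T_ℓ • [D] = [α_* β^* D]` on `J₀(N)`, given the Hecke inputs at the prime `ℓ`. -/
theorem heckeGen_smul_mk (hcomm : HeckeOperatorsCommuteBar N) (ℓ : Nat.Primes)
    [NeZero (ℓ : ℕ)]
    (hα : HeckeAlphaBarIntegral (AlgebraicClosure ℚ) N (ℓ : ℕ))
    (hβ : HeckeBetaBarIntegral (AlgebraicClosure ℚ) N (ℓ : ℕ))
    [HasPrincipalDivisors (AlgebraicClosure ℚ) (modularFunctionFieldBar (N * (ℓ : ℕ)))]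
    (hFI : FundamentalIdentityAlong (AlgebraicClosure ℚ)
      (heckeBetaBar (AlgebraicClosure ℚ) N (ℓ : ℕ)) hβ)
    (hfin : FiniteAlong (AlgebraicClosure ℚ) (heckeAlphaBar (AlgebraicClosure ℚ) N (ℓ : ℕ)))
    (hN : NormFormulaAlong (AlgebraicClosure ℚ)
      (heckeAlphaBar (AlgebraicClosure ℚ) N (ℓ : ℕ)) hfin)
    (D : Divisor.degZero (K := AlgebraicClosure ℚ) (F := modularFunctionFieldBar N)) :
    (letI := heckeModuleBar N; heckeGen ℓ • (Pic0.mk D : JZero N))
      = Pic0.mk ⟨Divisor.correspondence (heckeBetaBar (AlgebraicClosure ℚ) N (ℓ : ℕ))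
          (heckeAlphaBar (AlgebraicClosure ℚ) N (ℓ : ℕ)) hβ hα
          (D : Divisor (AlgebraicClosure ℚ) (modularFunctionFieldBar N)),
        Divisor.correspondence_mem_degZero _ _ hβ hα hFI D.2⟩ := by
  rw [heckeModuleBar_heckeGen_smul hcomm, heckeOperatorBar_apply]
  have h := heckeOperatorAlong_eq (L := AlgebraicClosure ℚ) (N := N) (ℓ := (ℓ : ℕ)) hα hβ hFI hfin hN
  rw [h]
  rfl

end Hecke

end Fermat.Agent.S37.Unfold

end
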