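import Fermat.Agent.S37.RhoTower
import Fermat.Agent.S37.KappaAut
import Fermat.Agent.S37.KronSeries
import Fermat.Agent.S37.Unfold
import Fermat.Agent.S37.NormConj
import Fermat.Agent.S37.NormPlaces
import Fermat.Agent.S37.FundId
import Fermat.Agent.S37.HeckeFin

/-!
# S37 / HTClosed : the function-level Kronecker congruence in the shape of `Rho4.main`'s `hT`

`ℓ ∤ N` prime, `A` a valuation subring of `ℚ̄` over `ℓ`, `k` its residue field, `M` a level with
`F_N ≤ F_M`, `φ = KappaAut.frobA hℓ A hA M` the coefficientwise Frobenius of `κ_M`,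
`α, β : F_N → F_{N ℓ}` the two degeneracy maps.

* `coe_frobA_smul`, `coe_frobA_inv_smul_pow` : as series, `φ • x` is the coefficientwise Frobenius
  of `x`, and `(φ⁻¹ • x) ^ ℓ = x(q ^ ℓ)`.
* `normFormula_alpha` : the norm formula along `α` (closed).
* `norm_integral` : for an integral series `V` of `F_N`, the norm `N_α (β V)` is an integral
  series with reduction `V̄(q ^ ℓ) * Frob V̄` (closed: conjugates `NormConj` + Kronecker
  `KronSeries`).
* `main_of` : for any reduction relation `Red` at level `M` (`RedFacts` + the coefficientwise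
  `hint`): for `f ∈ F_N`, `x ∈ κ_M` with `Red f x`, `x ≠ 0`, the norm `g = N_α (β f) ∈ F_N` is
  nonzero, the Hecke correspondence of the divisor of `f` is the divisor of `g`, and
  `Red g (φ • x * (φ⁻¹ • x) ^ ℓ)`; the norm formula and `norm_integral` enter as hypotheses.
* `main` : the same with both inputs discharged (closed, abstract `Red`).
* `main_gauss` : the closed statement for `Red = GaussA.Red A M`.
-/

set_option autoImplicit false
set_option synthInstance.maxHeartbeats 400000
set_option linter.style.haveILetI false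
set_option linter.unusedSectionVars false

noncomputable section

namespace Fermat.Agent.S37.HTClosed

open AlgebraicCurve ModularCurve Fermat.Agent.S18

section Frob

variable {ℓ : ℕ} (hℓ : ℓ.Prime) (A : ValuationSubring (AlgebraicClosure ℚ))
  (hA : A.LiesOverPrime ℓ)

/-- As a series, `φ • x` is the coefficientwise Frobenius of `x`. -/
theorem coe_frobA_smul [ExpChar (IsLocalRing.ResidueField A) ℓ] (L : ℕ)
    (x : GaussA.kappa (IsLocalRing.ResidueField A) L) :
    ((KappaAut.frobA hℓ A hA L • x : GaussA.kappa (IsLocalRing.ResidueField A) L) :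
        LaurentSeries (IsLocalRing.ResidueField A))
      = coeffMap (frobenius (IsLocalRing.ResidueField A) ℓ)
          (x : LaurentSeries (IsLocalRing.ResidueField A)) :=
  rfl

/-- As a series, `(φ⁻¹ • x) ^ ℓ = x(q ^ ℓ)`. -/
theorem coe_frobA_inv_smul_pow [NeZero ℓ] [ExpChar (IsLocalRing.ResidueField A) ℓ] (L : ℕ)
    (x : GaussA.kappa (IsLocalRing.ResidueField A) L) :
    ((((KappaAut.frobA hℓ A hA L)⁻¹ • x) ^ ℓ : GaussA.kappa (IsLocalRing.ResidueField A) L) :
        LaurentSeries (IsLocalRing.ResidueField A))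
      = qExpand (IsLocalRing.ResidueField A) ℓ
          (x : LaurentSeries (IsLocalRing.ResidueField A)) := by
  have h1 := coe_frobA_smul hℓ A hA L ((KappaAut.frobA hℓ A hA L)⁻¹ • x)
  rw [smul_inv_smul] at h1
  have h2 := KronSeries.qExpand_frob ℓ
    (((KappaAut.frobA hℓ A hA L)⁻¹ • x : GaussA.kappa (IsLocalRing.ResidueField A) L) :
      LaurentSeries (IsLocalRing.ResidueField A))
  rw [← h1] at h2
  rw [h2]
  rfl

end Frob

section Main

variable {ℓ N M : ℕ} [NeZero N] [NeZero ℓ]

/-- The hypothesis `hT` of `Rho4.main` at the levels `N ≤ M`, with the norm formula along `α`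
and the integral Kronecker congruence as hypotheses. -/
theorem main_of (hℓ : ℓ.Prime) (hℓN : ¬ ℓ ∣ N)
    (A : ValuationSubring (AlgebraicClosure ℚ)) (hA : A.LiesOverPrime ℓ)
    [ExpChar (IsLocalRing.ResidueField A) ℓ]
    (hle : modularFunctionFieldBar N ≤ modularFunctionFieldBar M)
    (Red : modularFunctionFieldBar M → GaussA.kappa (IsLocalRing.ResidueField A) M → Prop)
    (hR : RedFacts A Red)
    (hint : ∀ (V : LaurentSeries A) (hV : genS A V ∈ modularFunctionFieldBar M),
      ∃ hx : redS A V ∈ GaussA.kappa (IsLocalRing.ResidueField A) M,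
        Red ⟨genS A V, hV⟩ ⟨redS A V, hx⟩)
    (hα : HeckeAlphaBarIntegral (AlgebraicClosure ℚ) N ℓ)
    (hβ : HeckeBetaBarIntegral (AlgebraicClosure ℚ) N ℓ)
    [HasPrincipalDivisors (AlgebraicClosure ℚ) (modularFunctionFieldBar (N * ℓ))]
    (hfin : FiniteAlong (AlgebraicClosure ℚ) (heckeAlphaBar (AlgebraicClosure ℚ) N ℓ))
    (hN : NormFormulaAlong (AlgebraicClosure ℚ) (heckeAlphaBar (AlgebraicClosure ℚ) N ℓ) hfin)
    (hNI : ∀ (V : LaurentSeries A) (hV : genS A V ∈ modularFunctionFieldBar N),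
      ∃ W : LaurentSeries A,
        (((letI := algebraAlong (heckeAlphaBar (AlgebraicClosure ℚ) N ℓ);
            Algebra.norm (modularFunctionFieldBar N)
              (heckeBetaBar (AlgebraicClosure ℚ) N ℓ ⟨genS A V, hV⟩)) :
              modularFunctionFieldBar N) : LaurentSeries (AlgebraicClosure ℚ)) = genS A W ∧
          redS A W = qExpand (IsLocalRing.ResidueField A) ℓ (redS A V)
            * coeffMap (frobenius (IsLocalRing.ResidueField A) ℓ) (redS A V))
    (f : modularFunctionFieldBar N) (x : GaussA.kappa (IsLocalRing.ResidueField A) M)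
    (hfx : Red (IntermediateField.inclusion hle f) x) (hx : x ≠ 0) :
    ∃ g : modularFunctionFieldBar N, g ≠ 0 ∧
      (∀ W : Divisor (AlgebraicClosure ℚ) (modularFunctionFieldBar N),
        (∀ v : Place (AlgebraicClosure ℚ) (modularFunctionFieldBar N), W v = v.ord f) →
        ∀ v : Place (AlgebraicClosure ℚ) (modularFunctionFieldBar N),
          Divisor.correspondence (heckeBetaBar (AlgebraicClosure ℚ) N ℓ)
            (heckeAlphaBar (AlgebraicClosure ℚ) N ℓ) hβ hα W v = v.ord g) ∧
      ∃ c : AlgebraicClosure ℚ, c ≠ 0 ∧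
        Red (IntermediateField.inclusion hle
            (algebraMap (AlgebraicClosure ℚ) (modularFunctionFieldBar N) c * g))
          (KappaAut.frobA hℓ A hA M • x * ((KappaAut.frobA hℓ A hA M)⁻¹ • x) ^ ℓ) := by
  -- integral representation of `f` at level `N`
  obtain ⟨V₁, V₂, h₁, h₂, h20, hrep, hred⟩ :=
    RhoTower.exists_integral_rep hℓ hℓN A hA hle _ Red hR hint f.2 (hle f.2) hfx
  have hx' : (x : LaurentSeries (IsLocalRing.ResidueField A)) ≠ 0 := fun h => hx (Subtype.ext h)
  have h10 : redS A V₁ ≠ 0 := by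
    rw [← hred]
    exact mul_ne_zero hx' h20
  have hf0 : f ≠ 0 := by
    rintro rfl
    apply h10
    have h0 : genS A V₁ = 0 := by
      rw [← hrep]
      simp
    have hV0 : V₁ = 0 := KronSeries.genS_injective A (by rw [h0, map_zero])
    rw [hV0, map_zero]
  -- the norms of numerator and denominator
  obtain ⟨W₁, hW₁, hr₁⟩ := hNI V₁ h₁
  obtain ⟨W₂, hW₂, hr₂⟩ := hNI V₂ h₂
  have hmul : f * (⟨genS A V₂, h₂⟩ : modularFunctionFieldBar N) = ⟨genS A V₁, h₁⟩ :=
    Subtype.ext hrep
  obtain ⟨g, hg⟩ : ∃ g : modularFunctionFieldBar N,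
      g = (letI := algebraAlong (heckeAlphaBar (AlgebraicClosure ℚ) N ℓ);
        Algebra.norm (modularFunctionFieldBar N) (heckeBetaBar (AlgebraicClosure ℚ) N ℓ f)) :=
    ⟨_, rfl⟩
  have hgmul : (g : LaurentSeries (AlgebraicClosure ℚ)) * genS A W₂ = genS A W₁ := by
    rw [← hW₁, ← hW₂, hg, ← MulMemClass.coe_mul, ← map_mul, ← map_mul, hmul]
  have hW20 : redS A W₂ ≠ 0 := by
    rw [hr₂]
    exact KronSeries.kron_norm_ne_zero A V₂ h20
  have hW10 : redS A W₁ ≠ 0 := by
    rw [hr₁]
    exact KronSeries.kron_norm_ne_zero A V₁ h10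
  have hg0 : g ≠ 0 := by
    rintro rfl
    apply hW10
    have h0 : genS A W₁ = 0 := by
      rw [← hgmul]
      simp
    have hV0 : W₁ = 0 := KronSeries.genS_injective A (by rw [h0, map_zero])
    rw [hV0, map_zero]
  -- membership of the two norm series in `F_N`, hence in `F_M`
  have hW₁N : genS A W₁ ∈ modularFunctionFieldBar N := by
    rw [← hW₁]
    exact Subtype.property _
  have hW₂N : genS A W₂ ∈ modularFunctionFieldBar N := by
    rw [← hW₂]
    exact Subtype.property _
  obtain ⟨hx₁, hR₁⟩ := hint W₁ (hle hW₁N)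
  obtain ⟨hx₂, hR₂⟩ := hint W₂ (hle hW₂N)
  have hprod : (⟨genS A W₂, hle hW₂N⟩ : modularFunctionFieldBar M)
      * IntermediateField.inclusion hle g = ⟨genS A W₁, hle hW₁N⟩ :=
    Subtype.ext (by
      show genS A W₂ * (g : LaurentSeries (AlgebraicClosure ℚ)) = genS A W₁
      rw [mul_comm, hgmul])
  have hR₁' : Red ((⟨genS A W₂, hle hW₂N⟩ : modularFunctionFieldBar M)
      * IntermediateField.inclusion hle g) ⟨redS A W₁, hx₁⟩ := by
    rw [hprod]
    exact hR₁
  obtain ⟨y, hy, hyeq⟩ := (LatticeBridge.redBase_of_redFacts hR).red_of_mul hR₂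
    (fun h => hW20 (congrArg Subtype.val h)) hR₁' (fun h => hW10 (congrArg Subtype.val h))
  -- identify `y`
  have hyx : y = KappaAut.frobA hℓ A hA M • x * ((KappaAut.frobA hℓ A hA M)⁻¹ • x) ^ ℓ := by
    apply Subtype.ext
    have h1 : redS A W₂ * (y : LaurentSeries (IsLocalRing.ResidueField A)) = redS A W₁ :=
      congrArg Subtype.val hyeq
    have h2 : redS A W₂ * (coeffMap (frobenius (IsLocalRing.ResidueField A) ℓ)
          (x : LaurentSeries (IsLocalRing.ResidueField A))
        * qExpand (IsLocalRing.ResidueField A) ℓ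
          (x : LaurentSeries (IsLocalRing.ResidueField A))) = redS A W₁ := by
      rw [hr₁, hr₂, ← hred, map_mul, map_mul]
      ring
    have h3 := mul_left_cancel₀ hW20 (h1.trans h2.symm)
    rw [h3, MulMemClass.coe_mul, coe_frobA_smul, coe_frobA_inv_smul_pow]
  refine ⟨g, hg0, ?_, 1, one_ne_zero, ?_⟩
  · intro W hW v
    rw [hg]
    exact Unfold.correspondence_apply_of_div (heckeBetaBar (AlgebraicClosure ℚ) N ℓ)
      (heckeAlphaBar (AlgebraicClosure ℚ) N ℓ) hβ hα hfin hN hf0 hW v
  · rw [map_one, one_mul, ← hyx]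
    exact hy

/-- **The norm formula along `α`** (closed). -/
theorem normFormula_alpha
    [HasPrincipalDivisors (AlgebraicClosure ℚ) (modularFunctionFieldBar (N * ℓ))]
    (hα : HeckeAlphaBarIntegral (AlgebraicClosure ℚ) N ℓ)
    (hfin : FiniteAlong (AlgebraicClosure ℚ) (heckeAlphaBar (AlgebraicClosure ℚ) N ℓ)) :
    NormFormulaAlong (AlgebraicClosure ℚ) (heckeAlphaBar (AlgebraicClosure ℚ) N ℓ) hfin :=
  NormPlaces.normFormulaAlong_of_charZero _ hα hfin
    (FundId.fundamentalIdentityAlong _ hα (HeckeFin.placeFacts N) (HeckeFin.placeFacts (N * ℓ)))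
    (HeckeFin.placeFacts N).hdeg (HeckeFin.placeFacts (N * ℓ)).hdeg

/-- **Kronecker congruence for norms of integral series** (closed): for an integral series `V` of
`F_N`, the norm `N_α (β V)` is an integral series with reduction `V̄(q ^ ℓ) * Frob V̄`. -/
theorem norm_integral (hℓ : ℓ.Prime) (hℓN : ¬ ℓ ∣ N)
    (A : ValuationSubring (AlgebraicClosure ℚ))
    [ExpChar (IsLocalRing.ResidueField A) ℓ]
    (V : LaurentSeries A) (hV : genS A V ∈ modularFunctionFieldBar N) :
    ∃ W : LaurentSeries A,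
      (((letI := algebraAlong (heckeAlphaBar (AlgebraicClosure ℚ) N ℓ);
          Algebra.norm (modularFunctionFieldBar N)
            (heckeBetaBar (AlgebraicClosure ℚ) N ℓ ⟨genS A V, hV⟩)) :
            modularFunctionFieldBar N) : LaurentSeries (AlgebraicClosure ℚ)) = genS A W ∧
        redS A W = qExpand (IsLocalRing.ResidueField A) ℓ (redS A V)
          * coeffMap (frobenius (IsLocalRing.ResidueField A) ℓ) (redS A V) := by
  obtain ⟨ζ, hζ⟩ := NormConj.exists_primitiveRoot_bar ℓ
  have hζ0 : ζ ≠ 0 := hζ.ne_zero hℓ.ne_zero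
  have hζℓ : ζ ^ ℓ = 1 := hζ.pow_eq_one
  have hPD := NormConj.norm_eq_bar hℓ hℓN ζ hζ ⟨genS A V, hV⟩
  obtain ⟨X, hX⟩ : ∃ X : LaurentSeries (AlgebraicClosure ℚ),
      X = (((letI := algebraAlong (heckeAlphaBar (AlgebraicClosure ℚ) N ℓ);
          Algebra.norm (modularFunctionFieldBar N)
            (heckeBetaBar (AlgebraicClosure ℚ) N ℓ ⟨genS A V, hV⟩)) :
            modularFunctionFieldBar N) : LaurentSeries (AlgebraicClosure ℚ)) := ⟨_, rfl⟩
  rw [← hX] at hPD ⊢
  have hPD' : qExpand (AlgebraicClosure ℚ) ℓ X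
      = qExpand (AlgebraicClosure ℚ) ℓ (qExpand (AlgebraicClosure ℚ) ℓ (genS A V))
        * ∏ i ∈ Finset.range ℓ, Fermat.Agent.S24.lsTwist (ζ ^ i) (pow_ne_zero i hζ0) (genS A V) :=
    hPD
  by_cases h0 : genS A V = 0
  · have hX0 : X = 0 := by
      apply qExpand_injective ℓ
      rw [hPD', h0, map_zero, map_zero, zero_mul]
    have hV0 : V = 0 := KronSeries.genS_injective A (by rw [h0, map_zero])
    refine ⟨0, ?_, ?_⟩
    · rw [hX0, map_zero]
    · rw [hV0, map_zero, map_zero, map_zero, zero_mul]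
  · have hq0 : qExpand (AlgebraicClosure ℚ) ℓ (genS A V) ≠ 0 :=
      (map_ne_zero_iff _ (qExpand_injective ℓ)).mpr h0
    have hqq0 : qExpand (AlgebraicClosure ℚ) ℓ (qExpand (AlgebraicClosure ℚ) ℓ (genS A V)) ≠ 0 :=
      (map_ne_zero_iff _ (qExpand_injective ℓ)).mpr hq0
    obtain ⟨W, hW1, hW2⟩ := KronSeries.kron_norm A ζ hζ0 hζℓ V
      (X / qExpand (AlgebraicClosure ℚ) ℓ (genS A V)) X
      (by rw [map_div₀, hPD', mul_div_cancel_left₀ _ hqq0])
      (by rw [mul_div_cancel₀ _ hq0])
    exact ⟨W, hW1.symm, hW2⟩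

/-- **The closed form of the hypothesis `hT` of `Rho4.main`** at the levels `N ≤ M`, for any
reduction relation at level `M` with `RedFacts` and the coefficientwise `hint`. -/
theorem main (hℓ : ℓ.Prime) (hℓN : ¬ ℓ ∣ N)
    (A : ValuationSubring (AlgebraicClosure ℚ)) (hA : A.LiesOverPrime ℓ)
    (hle : modularFunctionFieldBar N ≤ modularFunctionFieldBar M)
    (Red : modularFunctionFieldBar M → GaussA.kappa (IsLocalRing.ResidueField A) M → Prop)
    (hR : RedFacts A Red)
    (hint : ∀ (V : LaurentSeries A) (hV : genS A V ∈ modularFunctionFieldBar M),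
      ∃ hx : redS A V ∈ GaussA.kappa (IsLocalRing.ResidueField A) M,
        Red ⟨genS A V, hV⟩ ⟨redS A V, hx⟩)
    (hα : HeckeAlphaBarIntegral (AlgebraicClosure ℚ) N ℓ)
    (hβ : HeckeBetaBarIntegral (AlgebraicClosure ℚ) N ℓ)
    [HasPrincipalDivisors (AlgebraicClosure ℚ) (modularFunctionFieldBar (N * ℓ))]
    (f : modularFunctionFieldBar N) (x : GaussA.kappa (IsLocalRing.ResidueField A) M)
    (hfx : Red (IntermediateField.inclusion hle f) x) (hx : x ≠ 0) :
    ∃ g : modularFunctionFieldBar N, g ≠ 0 ∧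
      (∀ W : Divisor (AlgebraicClosure ℚ) (modularFunctionFieldBar N),
        (∀ v : Place (AlgebraicClosure ℚ) (modularFunctionFieldBar N), W v = v.ord f) →
        ∀ v : Place (AlgebraicClosure ℚ) (modularFunctionFieldBar N),
          Divisor.correspondence (heckeBetaBar (AlgebraicClosure ℚ) N ℓ)
            (heckeAlphaBar (AlgebraicClosure ℚ) N ℓ) hβ hα W v = v.ord g) ∧
      ∃ c : AlgebraicClosure ℚ, c ≠ 0 ∧
        Red (IntermediateField.inclusion hle
            (algebraMap (AlgebraicClosure ℚ) (modularFunctionFieldBar N) c * g))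
          (KappaAut.frobA hℓ A hA M • x * ((KappaAut.frobA hℓ A hA M)⁻¹ • x) ^ ℓ) := by
  haveI : ExpChar (IsLocalRing.ResidueField A) ℓ := KappaAut.expChar_res hℓ A hA
  exact main_of hℓ hℓN A hA hle Red hR hint hα hβ (HeckeFin.finiteAlong_alpha N ℓ)
    (normFormula_alpha hα _) (norm_integral hℓ hℓN A) f x hfx hx

/-- **The closed `hT` for the Gauss reduction relation** `GaussA.Red A M` (`ℓ ∤ M`, `F_N ≤ F_M`):
with `Red' f x := GaussA.Red A M (inclusion f) x`, `T := Divisor.correspondence β α`,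
`φ := KappaAut.frobA hℓ A hA M` this is the hypothesis `hT` of `Rho4.main` verbatim. -/
theorem main_gauss [NeZero M] (hℓ : ℓ.Prime) (hℓN : ¬ ℓ ∣ N) (hℓM : ¬ ℓ ∣ M)
    (A : ValuationSubring (AlgebraicClosure ℚ)) (hA : A.LiesOverPrime ℓ)
    (hle : modularFunctionFieldBar N ≤ modularFunctionFieldBar M)
    (hα : HeckeAlphaBarIntegral (AlgebraicClosure ℚ) N ℓ)
    (hβ : HeckeBetaBarIntegral (AlgebraicClosure ℚ) N ℓ)
    [HasPrincipalDivisors (AlgebraicClosure ℚ) (modularFunctionFieldBar (N * ℓ))]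
    (f : modularFunctionFieldBar N) (x : GaussA.kappa (IsLocalRing.ResidueField A) M)
    (hfx : GaussA.Red A M (IntermediateField.inclusion hle f) x) (hx : x ≠ 0) :
    ∃ g : modularFunctionFieldBar N, g ≠ 0 ∧
      (∀ W : Divisor (AlgebraicClosure ℚ) (modularFunctionFieldBar N),
        (∀ v : Place (AlgebraicClosure ℚ) (modularFunctionFieldBar N), W v = v.ord f) →
        ∀ v : Place (AlgebraicClosure ℚ) (modularFunctionFieldBar N),
          Divisor.correspondence (heckeBetaBar (AlgebraicClosure ℚ) N ℓ)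
            (heckeAlphaBar (AlgebraicClosure ℚ) N ℓ) hβ hα W v = v.ord g) ∧
      ∃ c : AlgebraicClosure ℚ, c ≠ 0 ∧
        GaussA.Red A M (IntermediateField.inclusion hle
            (algebraMap (AlgebraicClosure ℚ) (modularFunctionFieldBar N) c * g))
          (KappaAut.frobA hℓ A hA M • x * ((KappaAut.frobA hℓ A hA M)⁻¹ • x) ^ ℓ) :=
  main hℓ hℓN A hA hle (GaussA.Red A M) (GaussA.redFacts hℓ hℓM A hA) (GaussA.hint hℓ hℓM A hA)
    hα hβ f x hfx hx

end Main

end Fermat.Agent.S37.HTClosed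

end
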