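import Fermat.Prelude.Def_ModularCurve_HeckeModule
import Fermat.Agent.S54_Frob

/-!
# S37, top level: `SpecializationExists` from a reduction homomorphism

`SpecializationExists N p J` asks, for every prime `ℓ ∤ N p` and every valuation subring `A` over
`ℓ`, for a Hecke module `J'`, a Hecke-equivariant `sp : J →+ J'` killing inertia, intertwining
Frobenius with some `F : J' →+ J'` satisfying `F² - T_ℓ F + ℓ = 0`, and injective on `p`-power
torsion.  Since `J'` is free, we take `J' := J ⧸ W` with `W` the Hecke submodule generated by the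
relations; all axioms except `injective_torsion` then hold by construction, and
`injective_torsion` follows from any additive `φ : J →+ X` that kills the relations and is
injective on prime-to-`ℓ` torsion (`ESHom`).
-/

set_option autoImplicit false

noncomputable section

namespace Fermat.Agent.S37.Top

open ModularCurve

section Abstract

variable {K L : Type*} [Field K] [Field L] [Algebra K L]
variable (J : Type) [AddCommGroup J] [Module HeckeAlg J]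
  [DistribMulAction (L ≃ₐ[K] L) J] [SMulCommClass (L ≃ₐ[K] L) HeckeAlg J]

/-- The data of a "reduction homomorphism" at `(ℓ, A)` for one Frobenius element `σ₀`: an
additive map that kills inertia differences, kills `σ₀² - T_ℓ σ₀ + ℓ`, and is injective on
prime-to-`ℓ` torsion. -/
def ESHomAt (ℓ : ℕ) (hℓ : ℓ.Prime) (A : ValuationSubring L) (σ₀ : L ≃ₐ[K] L) : Prop :=
  ∃ (X : Type) (_ : AddCommGroup X) (φ : J →+ X),
    (∀ τ ∈ A.inertiaSubgroupIn K, ∀ x : J, φ (τ • x) = φ x) ∧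
    (∀ x : J, φ (σ₀ • σ₀ • x - heckeGen ⟨ℓ, hℓ⟩ • (σ₀ • x) + ℓ • x) = 0) ∧
    (∀ m : ℕ, ¬ ℓ ∣ m → ∀ x : J, m • x = 0 → φ x = 0 → x = 0)

/-- The same with the relation for every Frobenius element. -/
def ESHom (ℓ : ℕ) (hℓ : ℓ.Prime) (A : ValuationSubring L) : Prop :=
  ∃ (X : Type) (_ : AddCommGroup X) (φ : J →+ X),
    (∀ τ ∈ A.inertiaSubgroupIn K, ∀ x : J, φ (τ • x) = φ x) ∧
    (∀ σ : L ≃ₐ[K] L, A.IsFrobeniusAt σ ℓ → ∀ x : J,
      φ (σ • σ • x - heckeGen ⟨ℓ, hℓ⟩ • (σ • x) + ℓ • x) = 0) ∧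
    (∀ m : ℕ, ¬ ℓ ∣ m → ∀ x : J, m • x = 0 → φ x = 0 → x = 0)

variable {J}

/-- The relation set: inertia differences and the Frobenius quadratic relation for `σ₀`. -/
def relSet (ℓ : ℕ) (hℓ : ℓ.Prime) (A : ValuationSubring L) (σ₀ : L ≃ₐ[K] L) : Set J :=
  {y | ∃ τ ∈ A.inertiaSubgroupIn K, ∃ x : J, y = τ • x - x} ∪
    {y | ∃ x : J, y = σ₀ • σ₀ • x - heckeGen ⟨ℓ, hℓ⟩ • (σ₀ • x) + ℓ • x}

/-- The relation set is stable under Hecke operators. -/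
theorem smul_mem_relSet (ℓ : ℕ) (hℓ : ℓ.Prime) (A : ValuationSubring L) (σ₀ : L ≃ₐ[K] L)
    (T : HeckeAlg) {y : J} (hy : y ∈ relSet (J := J) ℓ hℓ A σ₀) :
    T • y ∈ relSet (J := J) ℓ hℓ A σ₀ := by
  rcases hy with ⟨τ, hτ, x, rfl⟩ | ⟨x, rfl⟩
  · left
    refine ⟨τ, hτ, T • x, ?_⟩
    rw [smul_sub, smul_comm τ T x]
  · right
    refine ⟨T • x, ?_⟩
    have h1 : T • σ₀ • σ₀ • x = σ₀ • σ₀ • T • x := by
      rw [smul_comm σ₀ T x, smul_comm σ₀ T (σ₀ • x)]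
    have h2 : T • heckeGen ⟨ℓ, hℓ⟩ • σ₀ • x = heckeGen ⟨ℓ, hℓ⟩ • σ₀ • T • x := by
      rw [smul_comm σ₀ T x, smul_smul, smul_smul, mul_comm]
    have h3 : T • (ℓ • x) = ℓ • T • x := smul_comm T ℓ x
    rw [smul_add, smul_sub, h1, h2, h3]

/-- The Hecke submodule generated by the relations. -/
def relSub (ℓ : ℕ) (hℓ : ℓ.Prime) (A : ValuationSubring L) (σ₀ : L ≃ₐ[K] L) :
    Submodule HeckeAlg J :=
  Submodule.span HeckeAlg (relSet (J := J) ℓ hℓ A σ₀)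

/-- An additive map killing the relation set kills the submodule generated by it. -/
theorem map_eq_zero_of_mem_relSub (ℓ : ℕ) (hℓ : ℓ.Prime) (A : ValuationSubring L)
    (σ₀ : L ≃ₐ[K] L) {X : Type} [AddCommGroup X] (φ : J →+ X)
    (hφ : ∀ y ∈ relSet (J := J) ℓ hℓ A σ₀, φ y = 0) {y : J}
    (hy : y ∈ relSub (J := J) ℓ hℓ A σ₀) : φ y = 0 := by
  have key : ∀ T : HeckeAlg, φ (T • y) = 0 := by
    induction hy using Submodule.span_induction with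
    | mem s hs => exact fun T => hφ _ (smul_mem_relSet ℓ hℓ A σ₀ T hs)
    | zero => intro T; rw [smul_zero, map_zero]
    | add a b _ _ ha hb => intro T; rw [smul_add, map_add, ha T, hb T, add_zero]
    | smul c a _ ha => intro T; rw [smul_smul]; exact ha _
  simpa using key 1


/-! ### Inertia and Frobenius -/

/-- Conjugating an inertia element by an element of the decomposition group stays in inertia. -/
theorem conj_mem_inertia (A : ValuationSubring L) {σ τ : L ≃ₐ[K] L}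
    (hσ : σ ∈ A.decompositionSubgroup K) (hτ : τ ∈ A.inertiaSubgroupIn K) :
    σ * τ * σ⁻¹ ∈ A.inertiaSubgroupIn K := by
  obtain ⟨t, ht, rfl⟩ := hτ
  have hn : (A.inertiaSubgroup K).Normal := by
    unfold ValuationSubring.inertiaSubgroup
    infer_instance
  refine ⟨(⟨σ, hσ⟩ : A.decompositionSubgroup K) * t * (⟨σ, hσ⟩ : A.decompositionSubgroup K)⁻¹,
    hn.conj_mem t ht _, rfl⟩

/-- Two Frobenius elements at `A` differ by an element of inertia. -/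
theorem frob_mul_inv_mem_inertia (A : ValuationSubring L) {ℓ : ℕ} {σ σ₀ : L ≃ₐ[K] L}
    (hσ : A.IsFrobeniusAt σ ℓ) (hσ₀ : A.IsFrobeniusAt σ₀ ℓ) :
    σ * σ₀⁻¹ ∈ A.inertiaSubgroupIn K := by
  obtain ⟨h1, h1'⟩ := hσ
  obtain ⟨h0, h0'⟩ := hσ₀
  refine ⟨(⟨σ, h1⟩ : A.decompositionSubgroup K) * (⟨σ₀, h0⟩ : A.decompositionSubgroup K)⁻¹,
    ?_, rfl⟩
  unfold ValuationSubring.inertiaSubgroup
  rw [SetLike.mem_coe, MonoidHom.mem_ker]
  ext x
  show ((⟨σ, h1⟩ : A.decompositionSubgroup K) * (⟨σ₀, h0⟩ : A.decompositionSubgroup K)⁻¹) • x = x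
  rw [mul_smul, h1']
  have h := h0' ((⟨σ₀, h0⟩ : A.decompositionSubgroup K)⁻¹ • x)
  rw [smul_inv_smul] at h
  exact h.symm


/-! ### The construction -/

/-- `σ₀` (in the decomposition group) preserves the relation submodule. -/
theorem smul_mem_relSub (ℓ : ℕ) (hℓ : ℓ.Prime) (A : ValuationSubring L) {σ₀ : L ≃ₐ[K] L}
    (hσ₀ : σ₀ ∈ A.decompositionSubgroup K) {y : J} (hy : y ∈ relSub (J := J) ℓ hℓ A σ₀) :
    σ₀ • y ∈ relSub (J := J) ℓ hℓ A σ₀ := by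
  induction hy using Submodule.span_induction with
  | mem s hs =>
    apply Submodule.subset_span
    rcases hs with ⟨τ, hτ, x, rfl⟩ | ⟨x, rfl⟩
    · left
      refine ⟨σ₀ * τ * σ₀⁻¹, conj_mem_inertia A hσ₀ hτ, σ₀ • x, ?_⟩
      rw [smul_sub, mul_smul, mul_smul, inv_smul_smul]
    · right
      refine ⟨σ₀ • x, ?_⟩
      rw [smul_add, smul_sub, smul_comm σ₀ (heckeGen ⟨ℓ, hℓ⟩) (σ₀ • x), smul_comm σ₀ ℓ x]
  | zero => rw [smul_zero]; exact Submodule.zero_mem _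
  | add a b _ _ ha hb => rw [smul_add]; exact Submodule.add_mem _ ha hb
  | smul c a _ ha => rw [smul_comm σ₀ c a]; exact Submodule.smul_mem _ c ha

/-- **Top-level reduction.**  If every `(ℓ, A)` with `ℓ ∤ N p` admits a Frobenius element `σ₀`
and a reduction homomorphism for it, then `SpecializationExists N p J`. -/
theorem specializationExists_of_esHomAt (N p : ℕ)
    (hES : ∀ (ℓ : ℕ) (hℓ : ℓ.Prime), ¬ ℓ ∣ N * p → ∀ A : ValuationSubring L, A.LiesOverPrime ℓ →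
      ∃ σ₀ : L ≃ₐ[K] L, A.IsFrobeniusAt σ₀ ℓ ∧ ESHomAt (K := K) J ℓ hℓ A σ₀) :
    SpecializationExists (K := K) (L := L) N p J := by
  intro ℓ hℓ hℓNp A hA
  obtain ⟨σ₀, hσ₀, X, _, φ, h1, h2, h3⟩ := hES ℓ hℓ hℓNp A hA
  have hσ₀D : σ₀ ∈ A.decompositionSubgroup K := hσ₀.mem_decompositionSubgroup
  let s : J →ₗ[HeckeAlg] J :=
    { toFun := fun x => σ₀ • x
      map_add' := smul_add σ₀
      map_smul' := fun T x => smul_comm σ₀ T x }
  have hsW : relSub (J := J) ℓ hℓ A σ₀ ≤ (relSub (J := J) ℓ hℓ A σ₀).comap s :=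
    fun y hy => smul_mem_relSub ℓ hℓ A hσ₀D hy
  have hφrel : ∀ y ∈ relSet (J := J) ℓ hℓ A σ₀, φ y = 0 := by
    rintro y (⟨τ, hτ, x, rfl⟩ | ⟨x, rfl⟩)
    · rw [map_sub, h1 τ hτ x, sub_self]
    · exact h2 x
  refine ⟨J ⧸ relSub (J := J) ℓ hℓ A σ₀, inferInstance, inferInstance,
    (relSub (J := J) ℓ hℓ A σ₀).mkQ.toAddMonoidHom,
    ((relSub (J := J) ℓ hℓ A σ₀).mapQ (relSub (J := J) ℓ hℓ A σ₀) s hsW).toAddMonoidHom,
    ⟨?_, ?_, ?_, ?_⟩, ?_⟩
  · -- hecke_comm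
    intro T x
    rfl
  · -- inertia_comm
    intro τ hτ x
    refine (Submodule.Quotient.eq _).mpr ?_
    exact Submodule.subset_span (Or.inl ⟨τ, hτ, x, rfl⟩)
  · -- frobenius_comm
    intro σ hσ x
    show Submodule.Quotient.mk (σ • x) = Submodule.Quotient.mk (σ₀ • x)
    refine (Submodule.Quotient.eq _).mpr ?_
    refine Submodule.subset_span (Or.inl ⟨σ * σ₀⁻¹, frob_mul_inv_mem_inertia A hσ hσ₀, σ₀ • x, ?_⟩)
    rw [mul_smul, inv_smul_smul]
  · -- injective_torsion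
    rintro x ⟨n, hn⟩ hx
    have hxW : x ∈ relSub (J := J) ℓ hℓ A σ₀ := (Submodule.Quotient.mk_eq_zero _).mp hx
    have hφx : φ x = 0 := map_eq_zero_of_mem_relSub ℓ hℓ A σ₀ φ hφrel hxW
    have hℓp : ¬ ℓ ∣ p ^ n := fun h =>
      hℓNp (Dvd.dvd.mul_left (hℓ.dvd_of_dvd_pow h) N)
    exact h3 (p ^ n) hℓp x hn hφx
  · -- the special fibre relation
    intro y
    induction y using Submodule.Quotient.induction_on with
    | _ x =>
      show Submodule.Quotient.mk (σ₀ • σ₀ • x) - heckeGen ⟨ℓ, hℓ⟩ • Submodule.Quotient.mk (σ₀ • x)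
        + ℓ • Submodule.Quotient.mk x = (0 : J ⧸ relSub (J := J) ℓ hℓ A σ₀)
      rw [← Submodule.Quotient.mk_smul, ← Submodule.Quotient.mk_sub]
      have : (ℓ • Submodule.Quotient.mk x : J ⧸ relSub (J := J) ℓ hℓ A σ₀)
          = Submodule.Quotient.mk (ℓ • x) := rfl
      rw [this, ← Submodule.Quotient.mk_add, Submodule.Quotient.mk_eq_zero]
      exact Submodule.subset_span (Or.inr ⟨x, rfl⟩)

/-- Variant: Frobenius elements exist and the relation holds for all of them. -/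
theorem specializationExists_of_esHom (N p : ℕ)
    (hfrob : ∀ ℓ : ℕ, ℓ.Prime → ∀ A : ValuationSubring L, A.LiesOverPrime ℓ →
      ∃ σ : L ≃ₐ[K] L, A.IsFrobeniusAt σ ℓ)
    (hES : ∀ (ℓ : ℕ) (hℓ : ℓ.Prime), ¬ ℓ ∣ N * p → ∀ A : ValuationSubring L, A.LiesOverPrime ℓ →
      ESHom (K := K) J ℓ hℓ A) :
    SpecializationExists (K := K) (L := L) N p J := by
  refine specializationExists_of_esHomAt N p fun ℓ hℓ hℓNp A hA => ?_
  obtain ⟨σ₀, hσ₀⟩ := hfrob ℓ hℓ A hA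
  obtain ⟨X, _, φ, h1, h2, h3⟩ := hES ℓ hℓ hℓNp A hA
  exact ⟨σ₀, hσ₀, X, inferInstance, φ, h1, h2 σ₀ hσ₀, h3⟩

end Abstract

/-! ### The concrete statement for `J₀(N)` -/

/-- **(ES) at `(ℓ, A)` for one Frobenius element `σ₀`.** -/
def ESStmtAt (N : ℕ) [NeZero N] (ℓ : ℕ) (hℓ : ℓ.Prime)
    (A : ValuationSubring (AlgebraicClosure ℚ))
    (σ₀ : AlgebraicClosure ℚ ≃ₐ[ℚ] AlgebraicClosure ℚ) : Prop :=
  ∃ (X : Type) (_ : AddCommGroup X) (φ : JZero N →+ X),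
    (∀ τ ∈ A.inertiaSubgroupIn ℚ, ∀ x : JZero N, φ (τ • x) = φ x) ∧
    (∀ x : JZero N, φ (σ₀ • σ₀ • x - heckeOperatorBar N ⟨ℓ, hℓ⟩ (σ₀ • x) + ℓ • x) = 0) ∧
    (∀ m : ℕ, ¬ ℓ ∣ m → ∀ x : JZero N, m • x = 0 → φ x = 0 → x = 0)

/-- (ES) from a subgroup `R ≤ J₀(N)` containing the inertia differences and the Frobenius
relation for `σ₀`, and meeting the prime-to-`ℓ` torsion trivially. -/
theorem ESStmtAt.of_subgroup {N : ℕ} [NeZero N] {ℓ : ℕ} {hℓ : ℓ.Prime}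
    {A : ValuationSubring (AlgebraicClosure ℚ)}
    {σ₀ : AlgebraicClosure ℚ ≃ₐ[ℚ] AlgebraicClosure ℚ} (R : AddSubgroup (JZero N))
    (hR1 : ∀ τ ∈ A.inertiaSubgroupIn ℚ, ∀ x : JZero N, τ • x - x ∈ R)
    (hR4 : ∀ x : JZero N, σ₀ • σ₀ • x - heckeOperatorBar N ⟨ℓ, hℓ⟩ (σ₀ • x) + ℓ • x ∈ R)
    (hR3 : ∀ m : ℕ, ¬ ℓ ∣ m → ∀ x : JZero N, m • x = 0 → x ∈ R → x = 0) :
    ESStmtAt N ℓ hℓ A σ₀ := by
  refine ⟨JZero N ⧸ R, inferInstance, QuotientAddGroup.mk' R, ?_, ?_, ?_⟩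
  · intro τ hτ x
    exact (QuotientAddGroup.eq_iff_sub_mem.mpr (hR1 τ hτ x))
  · intro x
    exact (QuotientAddGroup.eq_zero_iff _).mpr (hR4 x)
  · intro m hm x hmx hx
    exact hR3 m hm x hmx ((QuotientAddGroup.eq_zero_iff _).mp hx)

/-- **S37 from (ES) for one Frobenius element at each `(ℓ, A)`.** -/
theorem main' (N p : ℕ) [NeZero N] (hcomm : ModularCurve.HeckeOperatorsCommuteBar N)
    (hES : ∀ (ℓ : ℕ) (hℓ : ℓ.Prime), ¬ ℓ ∣ N → ∀ A : ValuationSubring (AlgebraicClosure ℚ),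
      A.LiesOverPrime ℓ → ∃ σ₀ : AlgebraicClosure ℚ ≃ₐ[ℚ] AlgebraicClosure ℚ,
        A.IsFrobeniusAt σ₀ ℓ ∧ ESStmtAt N ℓ hℓ A σ₀) :
    letI := ModularCurve.heckeModuleBar N
    ∀ (_ : SMulCommClass (AlgebraicClosure ℚ ≃ₐ[ℚ] AlgebraicClosure ℚ) ModularCurve.HeckeAlg
      (ModularCurve.JZero N)),
      ModularCurve.SpecializationExists (K := ℚ) (L := AlgebraicClosure ℚ) N p
        (ModularCurve.JZero N) := by
  letI := ModularCurve.heckeModuleBar N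
  intro _
  refine specializationExists_of_esHomAt (K := ℚ) (L := AlgebraicClosure ℚ) (J := JZero N) N p ?_
  intro ℓ hℓ hℓNp A hA
  have hℓN : ¬ ℓ ∣ N := fun h => hℓNp (Dvd.dvd.mul_right h p)
  obtain ⟨σ₀, hσ₀, X, _, φ, h1, h2, h3⟩ := hES ℓ hℓ hℓN A hA
  refine ⟨σ₀, hσ₀, X, inferInstance, φ, h1, ?_, h3⟩
  intro x
  rw [heckeModuleBar_heckeGen_smul hcomm]
  exact h2 x

/-- **S37 from (ES) for one (arbitrary) Frobenius element**: Frobenius elements exist at every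
valuation subring of `AlgebraicClosure ℚ` over a prime (`S54.exists_isFrobeniusAt`). -/
theorem main (N p : ℕ) [NeZero N] (hcomm : ModularCurve.HeckeOperatorsCommuteBar N)
    (hES : ∀ (ℓ : ℕ) (hℓ : ℓ.Prime), ¬ ℓ ∣ N → ∀ A : ValuationSubring (AlgebraicClosure ℚ),
      A.LiesOverPrime ℓ → ∀ σ₀ : AlgebraicClosure ℚ ≃ₐ[ℚ] AlgebraicClosure ℚ,
        A.IsFrobeniusAt σ₀ ℓ → ESStmtAt N ℓ hℓ A σ₀) :
    letI := ModularCurve.heckeModuleBar N
    ∀ (_ : SMulCommClass (AlgebraicClosure ℚ ≃ₐ[ℚ] AlgebraicClosure ℚ) ModularCurve.HeckeAlg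
      (ModularCurve.JZero N)),
      ModularCurve.SpecializationExists (K := ℚ) (L := AlgebraicClosure ℚ) N p
        (ModularCurve.JZero N) :=
  main' N p hcomm fun ℓ hℓ hℓN A hA => by
    obtain ⟨σ₀, hσ₀⟩ := Fermat.Agent.S54.exists_isFrobeniusAt A hℓ hA
    exact ⟨σ₀, hσ₀, hES ℓ hℓ hℓN A hA σ₀ hσ₀⟩

end Fermat.Agent.S37.Top

end
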