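import Mathlib
import Fermat.Agent.RR.Defs
import Fermat.Agent.S24.Principal

/-!
# S37: the boundedness lemma

Let `F / K` be a function field with `PlaceFacts` and `RiemannFacts` (genus `g`).
An additive map `δ : Div(F) → (β →₀ ℤ)` which

* kills principal divisors, and
* has uniformly bounded coefficients on single places,

vanishes on divisors of degree `0`.

Proof: for `D` of degree `0`, a place `P₀` and `m ≥ 1`, the divisor `m D + g P₀` has degree `g`,
hence is linearly equivalent to an effective divisor `E` of degree `g` (Riemann's inequality);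
so `m δ(D) = δ(E) - g δ(P₀)` has coefficients bounded by `2 g C`, for every `m`.
-/

set_option autoImplicit false

noncomputable section

namespace Fermat.Agent.S37.BddZero

open AlgebraicCurve

variable {K F : Type*} [Field K] [Field F] [Algebra K F]

/-- An integer-valued additive function on divisors, bounded by `C` on single places, is bounded
by `C * degree E` on effective divisors (all places of degree one). -/
theorem abs_le_of_nonneg (hdeg : ∀ v : Place K F, v.deg = 1) (φ : Divisor K F →+ ℤ) (C : ℤ)
    (hφ : ∀ P : Place K F, |φ (Finsupp.single P 1)| ≤ C) (E : Divisor K F)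
    (hE : ∀ v, 0 ≤ E v) : |φ E| ≤ C * Divisor.degree E := by
  classical
  induction E using Finsupp.induction with
  | zero => simp
  | single_add P n E hP hn ih =>
    have hnn : 0 ≤ n := by
      have := hE P
      rw [Finsupp.add_apply, Finsupp.single_eq_same, Finsupp.notMem_support_iff.mp hP,
        add_zero] at this
      exact this
    have hE' : ∀ v, 0 ≤ E v := by
      intro v
      by_cases hv : v = P
      · subst hv; rw [Finsupp.notMem_support_iff.mp hP]
      · have := hE v
        rw [Finsupp.add_apply, Finsupp.single_eq_of_ne hv, zero_add] at this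
        exact this
    have h1 : φ (Finsupp.single P n) = n * φ (Finsupp.single P 1) := by
      have : (Finsupp.single P n : Divisor K F) = n • Finsupp.single P 1 := by
        rw [Finsupp.smul_single, smul_eq_mul, mul_one]
      rw [this, map_zsmul, smul_eq_mul]
    rw [map_add, map_add, Divisor.degree_single, hdeg P, h1]
    have h2 : |n * φ (Finsupp.single P 1)| ≤ C * n := by
      rw [abs_mul, abs_of_nonneg hnn, mul_comm]
      exact mul_le_mul_of_nonneg_right (hφ P) hnn
    have h3 := ih hE'
    calc |n * φ (Finsupp.single P 1) + φ E|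
        ≤ |n * φ (Finsupp.single P 1)| + |φ E| := abs_add_le _ _
      _ ≤ C * n + C * Divisor.degree E := add_le_add h2 h3
      _ = C * (n * ((1 : ℕ) : ℤ) + Divisor.degree E) := by push_cast; ring

/-- Integer-valued version of the boundedness lemma. -/
theorem eq_zero_int (hP : Fermat.Agent.RR.PlaceFacts K F) (hR : Fermat.Agent.RR.RiemannFacts K F)
    (φ : Divisor K F →+ ℤ) (C : ℤ)
    (hprin : ∀ f : F, f ≠ 0 → ∀ W : Divisor K F, (∀ v, W v = v.ord f) → φ W = 0)
    (hbdd : ∀ P : Place K F, |φ (Finsupp.single P 1)| ≤ C)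
    (D : Divisor K F) (hD : Divisor.degree D = 0) : φ D = 0 := by
  classical
  have hprincipal : HasPrincipalDivisors K F :=
    Fermat.Agent.S24.hasPrincipalDivisors_of hP.hdeg hP.hfin hP.hsum
  by_cases hne : Nonempty (Place K F)
  swap
  · haveI : IsEmpty (Place K F) := not_nonempty_iff.mp hne
    have : D = 0 := Subsingleton.elim _ _
    rw [this, map_zero]
  obtain ⟨P₀⟩ := hne
  have hC0 : 0 ≤ C := le_trans (abs_nonneg _) (hbdd P₀)
  set g : ℕ := Module.finrank K (H1 (0 : Divisor K F)) with hg
  -- the key estimate, for every `m`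
  have key : ∀ m : ℕ, (m : ℤ) * |φ D| ≤ 2 * g * C := by
    intro m
    set H : Divisor K F := m • D + g • Finsupp.single P₀ 1 with hH
    have hdegH : Divisor.degree H = g := by
      rw [hH, map_add, map_nsmul, map_nsmul, hD, Divisor.degree_single, hP.hdeg P₀]
      simp
    -- `L(H) ≠ 0`
    have hriem := hR.riemann H
    rw [hdegH] at hriem
    haveI := hR.finite_L H
    have hpos : 0 < Module.finrank K (riemannRochSpace H) := by
      have h0 : (0 : ℤ) ≤ Module.finrank K (H1 H) := Int.natCast_nonneg _
      have : (0 : ℤ) < Module.finrank K (riemannRochSpace H) := by linarith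
      exact_mod_cast this
    obtain ⟨⟨f, hfL⟩, hf0⟩ := Module.finrank_pos_iff_exists_ne_zero.mp hpos
    have hf : f ≠ 0 := fun h => hf0 (Subtype.ext h)
    obtain ⟨W, hW, hW0⟩ := hprincipal.exists_divisor f hf
    set E : Divisor K F := H + W with hEdef
    have hEnn : ∀ v, 0 ≤ E v := by
      intro v
      have := (mem_riemannRochSpace_iff.mp hfL v).resolve_left hf
      rw [hEdef, Finsupp.add_apply, hW v]
      linarith
    have hdegE : Divisor.degree E = g := by
      rw [hEdef, map_add, hdegH, hW0, add_zero]
    have hφE : |φ E| ≤ C * g := by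
      have := abs_le_of_nonneg hP.hdeg φ C hbdd E hEnn
      rwa [hdegE] at this
    have hφW : φ W = 0 := hprin f hf W hW
    have hexp : φ E = m * φ D + g * φ (Finsupp.single P₀ 1) := by
      rw [hEdef, map_add, hφW, add_zero, hH, map_add, map_nsmul, map_nsmul, nsmul_eq_mul,
        nsmul_eq_mul]
    have h1 : (m : ℤ) * φ D = φ E - g * φ (Finsupp.single P₀ 1) := by rw [hexp]; ring
    have h2 : |(g : ℤ) * φ (Finsupp.single P₀ 1)| ≤ g * C := by
      rw [abs_mul, abs_of_nonneg (Int.natCast_nonneg g)]
      exact mul_le_mul_of_nonneg_left (hbdd P₀) (Int.natCast_nonneg g)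
    calc (m : ℤ) * |φ D| = |(m : ℤ) * φ D| := by
          rw [abs_mul, abs_of_nonneg (Int.natCast_nonneg m)]
      _ = |φ E - g * φ (Finsupp.single P₀ 1)| := by rw [h1]
      _ ≤ |φ E| + |(g : ℤ) * φ (Finsupp.single P₀ 1)| := abs_sub _ _
      _ ≤ C * g + g * C := add_le_add hφE h2
      _ = 2 * g * C := by ring
  -- conclude
  by_contra hne0
  have hpos : 1 ≤ |φ D| := Int.one_le_abs hne0
  have hB : 0 ≤ 2 * (g : ℤ) * C := by positivity
  have := key ((2 * (g : ℤ) * C).toNat + 1)
  have hcast : (((2 * (g : ℤ) * C).toNat + 1 : ℕ) : ℤ) = 2 * g * C + 1 := by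
    push_cast
    rw [Int.toNat_of_nonneg hB]
  rw [hcast] at this
  nlinarith

/-- **Boundedness lemma.**  An additive map from divisors of `F` to a free abelian group which
kills principal divisors and has coefficients bounded by `C` on single places vanishes on
divisors of degree `0`. -/
theorem eq_zero {β : Type*} (hP : Fermat.Agent.RR.PlaceFacts K F)
    (hR : Fermat.Agent.RR.RiemannFacts K F)
    (δ : Divisor K F →+ (β →₀ ℤ)) (C : ℤ)
    (hprin : ∀ f : F, f ≠ 0 → ∀ W : Divisor K F, (∀ v, W v = v.ord f) → δ W = 0)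
    (hbdd : ∀ (P : Place K F) (b : β), |δ (Finsupp.single P 1) b| ≤ C)
    (D : Divisor K F) (hD : Divisor.degree D = 0) : δ D = 0 := by
  ext b
  rw [Finsupp.zero_apply]
  have := eq_zero_int hP hR ((Finsupp.applyAddHom b).comp δ) C
    (fun f hf W hW => by
      rw [AddMonoidHom.comp_apply, hprin f hf W hW]; rfl)
    (fun P => by
      rw [AddMonoidHom.comp_apply]; exact hbdd P b) D hD
  rwa [AddMonoidHom.comp_apply] at this

/-- A coefficient of a nonnegative finitely supported function is at most its total sum. -/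
theorem apply_le_sum {β : Type*} (E : β →₀ ℤ) (hE : ∀ b, 0 ≤ E b) (b : β) :
    E b ≤ E.sum fun _ a => a := by
  classical
  by_cases hb : b ∈ E.support
  · rw [Finsupp.sum]
    exact Finset.single_le_sum (f := fun b => E b) (fun i _ => hE i) hb
  · rw [Finsupp.notMem_support_iff.mp hb, Finsupp.sum]
    exact Finset.sum_nonneg fun i _ => hE i

/-- Variant of `eq_zero`: the bound is given as "`δ P` is a difference of two effective
elements of total mass at most `C`". -/
theorem eq_zero_of_sub {β : Type*} (hP : Fermat.Agent.RR.PlaceFacts K F)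
    (hR : Fermat.Agent.RR.RiemannFacts K F)
    (δ : Divisor K F →+ (β →₀ ℤ)) (C : ℤ)
    (hprin : ∀ f : F, f ≠ 0 → ∀ W : Divisor K F, (∀ v, W v = v.ord f) → δ W = 0)
    (hbdd : ∀ P : Place K F, ∃ E₁ E₂ : β →₀ ℤ, δ (Finsupp.single P 1) = E₁ - E₂ ∧
      (∀ b, 0 ≤ E₁ b) ∧ (∀ b, 0 ≤ E₂ b) ∧ (E₁.sum fun _ a => a) ≤ C ∧ (E₂.sum fun _ a => a) ≤ C)
    (D : Divisor K F) (hD : Divisor.degree D = 0) : δ D = 0 := by
  refine eq_zero hP hR δ C hprin (fun P b => ?_) D hD
  obtain ⟨E₁, E₂, hE, h1, h2, hs1, hs2⟩ := hbdd P
  rw [hE, Finsupp.sub_apply, abs_le]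
  have a1 := apply_le_sum E₁ h1 b
  have a2 := apply_le_sum E₂ h2 b
  have b1 := h1 b
  have b2 := h2 b
  constructor <;> linarith

end Fermat.Agent.S37.BddZero

end
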