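import Fermat.Agent.S24.BDefs
import Fermat.Agent.S24.Translates
import Fermat.Agent.S24.TranslatesJ

/-!
# S37, package PD-C1: the coset representative `γ₀` of `Γ₀(N ℓ) \ Γ₀(N)`

For coprime `N`, `ℓ` there is `γ₀ ∈ Γ₀(N)` with `j(d ℓ · γ₀(ℓ z)) = j(d z)` for all `d ∣ N`,
i.e. the translate `z ↦ j(d ℓ γ₀ z)` is `z ↦ j(d z / ℓ)` (division-free form).

Explicitly `γ₀ = !![1, b; N, e]` with `e = ℓ e'`, `ℓ e' - b N = 1`; then
`d ℓ · γ₀(ℓ z) = γ''(d z)` with `γ'' = !![ℓ, d b; N / d, e'] ∈ SL(2, ℤ)`.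
-/

set_option autoImplicit false

namespace Fermat.Agent.S37.CosetReps

open UpperHalfPlane Matrix Matrix.SpecialLinearGroup
open scoped MatrixGroups

open Fermat.Agent.S24

/-- Bezout data: `ℓ e' - b N = 1` for coprime `ℓ`, `N`. -/
theorem exists_bezout {N l : ℕ} (hlN : Nat.Coprime l N) :
    ∃ e' b : ℤ, (l : ℤ) * e' - b * (N : ℤ) = 1 := by
  have h : IsCoprime (l : ℤ) (N : ℤ) := Nat.isCoprime_iff_coprime.mpr hlN
  obtain ⟨u, v, huv⟩ := h
  exact ⟨u, -v, by linear_combination huv⟩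

/-- The matrix `!![1, b; N, ℓ e']` of determinant `ℓ e' - b N = 1`. -/
def gammaZero (N l : ℕ) (e' b : ℤ) (h : (l : ℤ) * e' - b * (N : ℤ) = 1) : SL(2, ℤ) :=
  ⟨!![1, b; (N : ℤ), (l : ℤ) * e'], by rw [Matrix.det_fin_two_of]; linear_combination h⟩

theorem gammaZero_mem_Gamma0 (N l : ℕ) (e' b : ℤ) (h : (l : ℤ) * e' - b * (N : ℤ) = 1) :
    gammaZero N l e' b h ∈ CongruenceSubgroup.Gamma0 N := by
  rw [CongruenceSubgroup.Gamma0_mem]
  show (((N : ℤ) : ℤ) : ZMod N) = 0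
  simp

/-- The key identity for one divisor `d ∣ N`. -/
theorem jT_gammaZero {N l : ℕ} (hN : 0 < N) (hl : 0 < l) (e' b : ℤ)
    (h : (l : ℤ) * e' - b * (N : ℤ) = 1) {d : ℕ} (hd : d ∣ N) (z : ℍ) :
    jT (d * l) (gammaZero N l e' b h) (dmul l z) = jd d z := by
  have hdpos : 0 < d := Nat.pos_of_dvd_of_pos hd hN
  obtain ⟨c', hc'⟩ := hd
  -- the matrix `γ'' = !![ℓ, d b; N / d, e']`
  have hdet : (l : ℤ) * e' - (d : ℤ) * b * (c' : ℤ) = 1 := by
    rw [hc'] at h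
    push_cast at h
    linear_combination h
  let g2 : SL(2, ℤ) := ⟨!![(l : ℤ), (d : ℤ) * b; (c' : ℤ), e'], by
    rw [Matrix.det_fin_two_of]; linear_combination hdet⟩
  have key : dmul (d * l) (gammaZero N l e' b h • dmul l z) = g2 • dmul d z := by
    apply UpperHalfPlane.ext
    rw [coe_dmul (Nat.mul_pos hdpos hl), Translates.coe_SL2Z_smul, Translates.coe_SL2Z_smul,
      coe_dmul hl, coe_dmul hdpos]
    have hden1 := Translates.SL2Z_denom_ne_zero (gammaZero N l e' b h) (dmul l z)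
    have hden2 := Translates.SL2Z_denom_ne_zero g2 (dmul d z)
    rw [coe_dmul hl] at hden1
    rw [coe_dmul hdpos] at hden2
    have e00 : (gammaZero N l e' b h) 0 0 = 1 := rfl
    have e01 : (gammaZero N l e' b h) 0 1 = b := rfl
    have e10 : (gammaZero N l e' b h) 1 0 = (N : ℤ) := rfl
    have e11 : (gammaZero N l e' b h) 1 1 = (l : ℤ) * e' := rfl
    have f00 : g2 0 0 = (l : ℤ) := rfl
    have f01 : g2 0 1 = (d : ℤ) * b := rfl
    have f10 : g2 1 0 = (c' : ℤ) := rfl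
    have f11 : g2 1 1 = e' := rfl
    rw [e10, e11] at hden1
    rw [f10, f11] at hden2
    rw [e00, e01, e10, e11, f00, f01, f10, f11]
    have hNC : (N : ℂ) = (d : ℂ) * (c' : ℂ) := by exact_mod_cast congrArg (Nat.cast : ℕ → ℂ) hc'
    push_cast at hden1 hden2 ⊢
    rw [hNC] at hden1 ⊢
    have hlC : (l : ℂ) ≠ 0 := by exact_mod_cast hl.ne'
    have hden3 : (c' : ℂ) * ((d : ℂ) * (z : ℂ)) + (e' : ℂ) ≠ 0 := hden2
    have hden4 : (d : ℂ) * (c' : ℂ) * ((l : ℂ) * (z : ℂ)) + (l : ℂ) * (e' : ℂ)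
        = (l : ℂ) * ((c' : ℂ) * ((d : ℂ) * (z : ℂ)) + (e' : ℂ)) := by ring
    rw [hden4]
    field_simp
  show jFun (dmul (d * l) (gammaZero N l e' b h • dmul l z)) = jFun (dmul d z)
  rw [key, jFun_smul]

/-- **PD-C1.** For coprime `N`, `ℓ` there is `γ₀ ∈ Γ₀(N)` such that, for every `d ∣ N`, the
translate `jT (d ℓ) γ₀` composed with `z ↦ ℓ z` is `z ↦ j(d z)`. -/
theorem exists_gamma0 {N l : ℕ} (hN : 0 < N) (hl : 0 < l) (hlN : Nat.Coprime l N) :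
    ∃ g0 : SL(2, ℤ), g0 ∈ CongruenceSubgroup.Gamma0 N ∧
      ∀ d, d ∣ N → ∀ z : ℍ, jT (d * l) g0 (dmul l z) = jd d z := by
  obtain ⟨e', b, h⟩ := exists_bezout hlN
  exact ⟨gammaZero N l e' b h, gammaZero_mem_Gamma0 N l e' b h,
    fun d hd z => jT_gammaZero hN hl e' b h hd z⟩

end Fermat.Agent.S37.CosetReps
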