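import Mathlib

/-!
# S37 / DefectCount : the counting step of the bounded-defect argument

`δ : (α →₀ ℤ) →+ (β →₀ ℤ)` an additive map between divisor groups, `P : α`, `S` the support of
`δ (single P 1)`.  Suppose

* points `P'` which are not `Bad` have `δ (single P' 1) = 0` on `S`;
* the mass of every `δ (single P' 1)` on `S` is at most `m`;
* for arbitrarily large `r` there is an effective `E` with `δ E = r • δ (single P 1)` having at
  most `g` bad points (counted with multiplicity).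

Then `r * |δ (single P 1)| ≤ g * m` for arbitrarily large `r`, so `δ (single P 1) = 0`.
-/

set_option autoImplicit false

namespace Fermat.Agent.S37.DefectCount

open Finsupp

variable {α β : Type*}

/-- Expansion of an additive map on divisors along the points of a divisor. -/
theorem apply_eq_sum (δ : (α →₀ ℤ) →+ (β →₀ ℤ)) (E : α →₀ ℤ) (Q : β) :
    δ E Q = ∑ P' ∈ E.support, E P' * δ (single P' 1) Q := by
  have h1 : E = ∑ P' ∈ E.support, E P' • (single P' 1 : α →₀ ℤ) := by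
    conv_lhs => rw [← Finsupp.sum_single E]
    rw [Finsupp.sum]
    refine Finset.sum_congr rfl fun P' _ => ?_
    rw [Finsupp.smul_single, smul_eq_mul, mul_one]
  conv_lhs => rw [h1]
  rw [map_sum, Finsupp.finsetSum_apply]
  refine Finset.sum_congr rfl fun P' _ => ?_
  rw [map_zsmul, Finsupp.smul_apply, smul_eq_mul]

/-- **The counting step.** -/
theorem eq_zero (δ : (α →₀ ℤ) →+ (β →₀ ℤ)) (P : α) (Bad : α → Prop) (m g : ℕ)
    (hbad : ∀ P', ¬ Bad P' → ∀ Q ∈ (δ (single P 1)).support, δ (single P' 1) Q = 0)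
    (hm : ∀ P', ∑ Q ∈ (δ (single P 1)).support, |δ (single P' 1) Q| ≤ (m : ℤ))
    (hE : ∀ r₀ : ℕ, ∃ r : ℕ, r₀ ≤ r ∧ ∃ (E : α →₀ ℤ) (s : Finset α), (∀ P', 0 ≤ E P') ∧
      δ E = (r : ℤ) • δ (single P 1) ∧ (∀ P' ∈ E.support, Bad P' → P' ∈ s) ∧
      ∑ P' ∈ s, E P' ≤ (g : ℤ)) :
    δ (single P 1) = 0 := by
  classical
  by_contra hne
  set S := (δ (single P 1)).support with hS
  obtain ⟨Q₀, hQ₀⟩ : S.Nonempty := by
    rw [hS]
    exact Finsupp.support_nonempty_iff.mpr hne
  -- the mass of `δ P` is at least one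
  have hN : (1 : ℤ) ≤ ∑ Q ∈ S, |δ (single P 1) Q| := by
    have h1 : |δ (single P 1) Q₀| ≤ ∑ Q ∈ S, |δ (single P 1) Q| :=
      Finset.single_le_sum (f := fun Q => |δ (single P 1) Q|) (fun Q _ => abs_nonneg _) hQ₀
    have h2 : (1 : ℤ) ≤ |δ (single P 1) Q₀| :=
      Int.one_le_abs (Finsupp.mem_support_iff.mp hQ₀)
    exact h2.trans h1
  obtain ⟨r, hr, E, s, hE0, hδE, hs, hsg⟩ := hE (g * m + 1)
  -- pointwise bound
  have hpt : ∀ Q ∈ S, (r : ℤ) * |δ (single P 1) Q| ≤ ∑ P' ∈ s, E P' * |δ (single P' 1) Q| := by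
    intro Q hQ
    have h1 : (r : ℤ) * δ (single P 1) Q = ∑ P' ∈ E.support, E P' * δ (single P' 1) Q := by
      rw [← apply_eq_sum, hδE, Finsupp.smul_apply, smul_eq_mul]
    have h2 : (r : ℤ) * |δ (single P 1) Q| = |∑ P' ∈ E.support, E P' * δ (single P' 1) Q| := by
      rw [← h1, abs_mul, abs_of_nonneg (Int.natCast_nonneg r)]
    rw [h2]
    calc |∑ P' ∈ E.support, E P' * δ (single P' 1) Q|
        ≤ ∑ P' ∈ E.support, |E P' * δ (single P' 1) Q| := Finset.abs_sum_le_sum_abs _ _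
      _ ≤ ∑ P' ∈ E.support, (if P' ∈ s then E P' * |δ (single P' 1) Q| else 0) := by
          refine Finset.sum_le_sum fun P' hP' => ?_
          rw [abs_mul, abs_of_nonneg (hE0 P')]
          by_cases hB : Bad P'
          · rw [if_pos (hs P' hP' hB)]
          · rw [hbad P' hB Q hQ, abs_zero, mul_zero]
            split_ifs <;> exact le_refl _
      _ = ∑ P' ∈ E.support ∩ s, E P' * |δ (single P' 1) Q| := by
          rw [← Finset.sum_filter, Finset.filter_mem_eq_inter]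
      _ ≤ ∑ P' ∈ s, E P' * |δ (single P' 1) Q| :=
          Finset.sum_le_sum_of_subset_of_nonneg Finset.inter_subset_right
            (fun P' _ _ => mul_nonneg (hE0 P') (abs_nonneg _))
  -- summing over `S`
  have hsum : (r : ℤ) * ∑ Q ∈ S, |δ (single P 1) Q| ≤ (g : ℤ) * m := by
    calc (r : ℤ) * ∑ Q ∈ S, |δ (single P 1) Q|
        = ∑ Q ∈ S, (r : ℤ) * |δ (single P 1) Q| := Finset.mul_sum _ _ _
      _ ≤ ∑ Q ∈ S, ∑ P' ∈ s, E P' * |δ (single P' 1) Q| := Finset.sum_le_sum hpt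
      _ = ∑ P' ∈ s, E P' * ∑ Q ∈ S, |δ (single P' 1) Q| := by
          rw [Finset.sum_comm]
          refine Finset.sum_congr rfl fun P' _ => ?_
          rw [Finset.mul_sum]
      _ ≤ ∑ P' ∈ s, E P' * (m : ℤ) :=
          Finset.sum_le_sum fun P' _ => mul_le_mul_of_nonneg_left (hm P') (hE0 P')
      _ = (∑ P' ∈ s, E P') * (m : ℤ) := by rw [Finset.sum_mul]
      _ ≤ (g : ℤ) * m := mul_le_mul_of_nonneg_right hsg (Int.natCast_nonneg m)
  have hr' : ((g * m + 1 : ℕ) : ℤ) ≤ (r : ℤ) := by exact_mod_cast hr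
  have h3 : (r : ℤ) ≤ (r : ℤ) * ∑ Q ∈ S, |δ (single P 1) Q| :=
    le_mul_of_one_le_right (Int.natCast_nonneg r) hN
  push_cast at hr'
  linarith

end Fermat.Agent.S37.DefectCount
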