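import Mathlib
import Fermat.Prelude.Def_ModularCurve_HeckeModule
import Fermat.Agent.S18.Defs
import Fermat.Agent.S18.CoreDefs
import Fermat.Agent.S18.GaussADefs
import Fermat.Agent.S18.GaussQ
import Fermat.Agent.S18.LevelNum
import Fermat.Agent.S18.Descent

/-!
# S37: top-level definitions (Prop interfaces), route Lambda

Notation (as in `Fermat/Agent/S18/`):
* `K = AlgebraicClosure ℚ`, `A` a valuation subring of `K` over the prime `ℓ`,
  `k = IsLocalRing.ResidueField A`;
* `F_L = modularFunctionFieldBar L ⊆ K((q))`, `κ_L = GaussA.kappa k L = k(j̄, ū_L) ⊆ k((q))`;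
* `M = LevelNum.levelM ℓ N`;
* `RedL A L : F_L → κ_L → Prop` the Gauss reduction relation (`f = a / b`, `x = ā / b̄`
  for integral series `a, b` of `F_L`, `b̄ ≠ 0`); `RedFacts` etc. are on main (`S18/GaussQ`).

Packages prove the `Prop`s below; `S37/Assembly.lean` puts them together.
-/

set_option autoImplicit false
set_option synthInstance.maxHeartbeats 400000

noncomputable section

namespace Fermat.Agent.S37

open AlgebraicCurve ModularCurve Fermat.Agent.S18

/-! ### Abstract specialisation of places (package PB) -/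

/-- `r` is a specialisation map of places for the reduction relation `Red`:
the `r`-axiom (B6) and equivariance (B7). -/
structure SpecFacts {K F κ : Type*} [Field K] [Field F] [Algebra K F] (A : ValuationSubring K)
    [Field κ] [Algebra (IsLocalRing.ResidueField A) κ] (Red : F → κ → Prop)
    (r : Place K F → Place (IsLocalRing.ResidueField A) κ) : Prop where
  /-- (B6) `Red f x`, `x ≠ 0` ⟹ `r_* (div f) = div x`. -/
  princ : ∀ (f : F) (x : κ), Red f x → x ≠ 0 →
    ∀ D : Divisor K F, (∀ P, D P = P.ord f) → ∀ Q, Finsupp.mapDomain r D Q = Q.ord x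
  /-- (B7) equivariance under pairs of semilinear automorphisms compatible with `Red`. -/
  equiv : ∀ (θ : SemilinearAut K F) (θb : SemilinearAut (IsLocalRing.ResidueField A) κ),
    (∀ f x, Red f x → Red (θ • f) (θb • x)) → ∀ P, r (θ • P) = θb • r P

/-! ### The Gauss layer at level `L` -/

/-- The Gauss reduction relation at level `L` (the one used in `S18.lean`). -/
abbrev RedL (A : ValuationSubring (AlgebraicClosure ℚ)) (L : ℕ) :
    modularFunctionFieldBar L → GaussA.kappa (IsLocalRing.ResidueField A) L → Prop :=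
  GaussQ.RedQ A L (GaussA.kappa (IsLocalRing.ResidueField A) L)

/-- **PB at level `L`**: a specialisation map of places `F_L → κ_L`. -/
def SpecStmt (A : ValuationSubring (AlgebraicClosure ℚ)) (L : ℕ) : Prop :=
  ∃ r : Place (AlgebraicClosure ℚ) (modularFunctionFieldBar L) →
      Place (IsLocalRing.ResidueField A) (GaussA.kappa (IsLocalRing.ResidueField A) L),
    SpecFacts A (RedL A L) r

/-- `φ` is the coefficientwise Frobenius `∑ aₙ qⁿ ↦ ∑ aₙ^ℓ qⁿ` of `κ_L`. -/
def IsCoeffFrob (A : ValuationSubring (AlgebraicClosure ℚ)) (ℓ L : ℕ)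
    (φ : SemilinearAut (IsLocalRing.ResidueField A)
      (GaussA.kappa (IsLocalRing.ResidueField A) L)) : Prop :=
  ∀ (x : GaussA.kappa (IsLocalRing.ResidueField A) L) (n : ℤ),
    ((φ • x : GaussA.kappa (IsLocalRing.ResidueField A) L) :
        LaurentSeries (IsLocalRing.ResidueField A)).coeff n
      = ((x : LaurentSeries (IsLocalRing.ResidueField A)).coeff n) ^ ℓ

/-- **PH (existence)**: the coefficientwise Frobenius of `κ_L` exists. -/
def CoeffFrobStmt (A : ValuationSubring (AlgebraicClosure ℚ)) (ℓ L : ℕ) : Prop :=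
  ∃ φ, IsCoeffFrob A ℓ L φ

/-- **PH (inertia)**: `Red_L f x → Red_L (τ f) x` for `τ` in the inertia group of `A`. -/
def RedInertiaStmt (A : ValuationSubring (AlgebraicClosure ℚ)) (L : ℕ) : Prop :=
  ∀ τ ∈ A.inertiaSubgroupIn ℚ, ∀ (f : modularFunctionFieldBar L)
    (x : GaussA.kappa (IsLocalRing.ResidueField A) L),
    RedL A L f x → RedL A L (arithmeticGalois (modularFunctionFieldFull L) τ • f) x

/-- **PH (Frobenius)**: `Red_L f x → Red_L (σ f) (φ x)` for `σ` a Frobenius at `A`. -/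
def RedFrobStmt (A : ValuationSubring (AlgebraicClosure ℚ)) (ℓ L : ℕ) : Prop :=
  ∀ σ : AlgebraicClosure ℚ ≃ₐ[ℚ] AlgebraicClosure ℚ, A.IsFrobeniusAt σ ℓ →
    ∀ φ, IsCoeffFrob A ℓ L φ →
      ∀ (f : modularFunctionFieldBar L) (x : GaussA.kappa (IsLocalRing.ResidueField A) L),
        RedL A L f x → RedL A L (arithmeticGalois (modularFunctionFieldFull L) σ • f) (φ • x)

/-! ### The map `ρ : Div(F_N) → Div(κ_M)` -/

section Rho

variable (ℓ N : ℕ) [NeZero N]

theorem le_levelM :
    modularFunctionFieldBar N ≤ modularFunctionFieldBar (LevelNum.levelM ℓ N) :=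
  Descent.bar_le (NeZero.ne N) (LevelNum.levelM_ne_zero ℓ N (NeZero.ne N))
    (LevelNum.dvd_levelM ℓ N)

/-- The inclusion `F_N → F_M`, `M = levelM ℓ N`. -/
def inclM : modularFunctionFieldBar N →ₐ[AlgebraicClosure ℚ]
    modularFunctionFieldBar (LevelNum.levelM ℓ N) :=
  IntermediateField.inclusion (le_levelM ℓ N)

theorem coe_inclM (f : modularFunctionFieldBar N) :
    (inclM ℓ N f : LaurentSeries (AlgebraicClosure ℚ)) = (f : LaurentSeries (AlgebraicClosure ℚ)) :=
  IntermediateField.coe_inclusion (le_levelM ℓ N) f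

/-- **PA/PC**: `F_M / F_N` is integral. -/
def InclIntegral : Prop := (inclM ℓ N).toRingHom.IsIntegral

variable {ℓ N}
variable {A : ValuationSubring (AlgebraicClosure ℚ)}

/-- `ρ = r_* ∘ π^*` : `Div(F_N) → Div(κ_M)`. -/
def rho (hint : InclIntegral ℓ N)
    [HasPrincipalDivisors (AlgebraicClosure ℚ) (modularFunctionFieldBar (LevelNum.levelM ℓ N))]
    (r : Place (AlgebraicClosure ℚ) (modularFunctionFieldBar (LevelNum.levelM ℓ N)) →
      Place (IsLocalRing.ResidueField A)
        (GaussA.kappa (IsLocalRing.ResidueField A) (LevelNum.levelM ℓ N))) :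
    Divisor (AlgebraicClosure ℚ) (modularFunctionFieldBar N) →+
      Divisor (IsLocalRing.ResidueField A)
        (GaussA.kappa (IsLocalRing.ResidueField A) (LevelNum.levelM ℓ N)) :=
  (Finsupp.mapDomain.addMonoidHom r).comp (Divisor.pullbackAlong (inclM ℓ N) hint)

theorem rho_apply (hint : InclIntegral ℓ N)
    [HasPrincipalDivisors (AlgebraicClosure ℚ) (modularFunctionFieldBar (LevelNum.levelM ℓ N))]
    (r : Place (AlgebraicClosure ℚ) (modularFunctionFieldBar (LevelNum.levelM ℓ N)) →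
      Place (IsLocalRing.ResidueField A)
        (GaussA.kappa (IsLocalRing.ResidueField A) (LevelNum.levelM ℓ N)))
    (D : Divisor (AlgebraicClosure ℚ) (modularFunctionFieldBar N)) :
    rho hint r D = Finsupp.mapDomain r (Divisor.pullbackAlong (inclM ℓ N) hint D) :=
  rfl

variable (ℓ N A)

/-- **(ρ1)** `ρ (div_N f) = div_{κ_M} x` whenever `f ∈ F_N`, `Red_M f x`, `x ≠ 0`. -/
def Rho1Stmt : Prop :=
  ∀ (hint : InclIntegral ℓ N)
    [HasPrincipalDivisors (AlgebraicClosure ℚ) (modularFunctionFieldBar (LevelNum.levelM ℓ N))]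
    (r : Place (AlgebraicClosure ℚ) (modularFunctionFieldBar (LevelNum.levelM ℓ N)) →
      Place (IsLocalRing.ResidueField A)
        (GaussA.kappa (IsLocalRing.ResidueField A) (LevelNum.levelM ℓ N))),
    SpecFacts A (RedL A (LevelNum.levelM ℓ N)) r →
    ∀ (f : modularFunctionFieldBar N)
      (x : GaussA.kappa (IsLocalRing.ResidueField A) (LevelNum.levelM ℓ N)),
      RedL A (LevelNum.levelM ℓ N) (inclM ℓ N f) x → x ≠ 0 →
      ∀ D : Divisor (AlgebraicClosure ℚ) (modularFunctionFieldBar N), (∀ P, D P = P.ord f) →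
        ∀ Q, rho hint r D Q = Q.ord x

/-- **(ρ2)** `ρ (τ D) = ρ D` for `τ` in the inertia group of `A`. -/
def Rho2Stmt : Prop :=
  ∀ (hint : InclIntegral ℓ N)
    [HasPrincipalDivisors (AlgebraicClosure ℚ) (modularFunctionFieldBar (LevelNum.levelM ℓ N))]
    (r : Place (AlgebraicClosure ℚ) (modularFunctionFieldBar (LevelNum.levelM ℓ N)) →
      Place (IsLocalRing.ResidueField A)
        (GaussA.kappa (IsLocalRing.ResidueField A) (LevelNum.levelM ℓ N))),
    SpecFacts A (RedL A (LevelNum.levelM ℓ N)) r →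
    ∀ τ ∈ A.inertiaSubgroupIn ℚ,
      ∀ D : Divisor (AlgebraicClosure ℚ) (modularFunctionFieldBar N),
        rho hint r (arithmeticGalois (modularFunctionFieldFull N) τ • D) = rho hint r D

/-- **(ρ3)** `ρ (σ D) = φ_* (ρ D)` for `σ` a Frobenius at `A`, `φ` the coefficient Frobenius. -/
def Rho3Stmt : Prop :=
  ∀ (hint : InclIntegral ℓ N)
    [HasPrincipalDivisors (AlgebraicClosure ℚ) (modularFunctionFieldBar (LevelNum.levelM ℓ N))]
    (r : Place (AlgebraicClosure ℚ) (modularFunctionFieldBar (LevelNum.levelM ℓ N)) →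
      Place (IsLocalRing.ResidueField A)
        (GaussA.kappa (IsLocalRing.ResidueField A) (LevelNum.levelM ℓ N))),
    SpecFacts A (RedL A (LevelNum.levelM ℓ N)) r →
    ∀ σ : AlgebraicClosure ℚ ≃ₐ[ℚ] AlgebraicClosure ℚ, A.IsFrobeniusAt σ ℓ →
    ∀ φ, IsCoeffFrob A ℓ (LevelNum.levelM ℓ N) φ →
      ∀ D : Divisor (AlgebraicClosure ℚ) (modularFunctionFieldBar N),
        rho hint r (arithmeticGalois (modularFunctionFieldFull N) σ • D) = φ • rho hint r D

/-- **(ρ4)** divisor-level Eichler–Shimura: `ρ (T_ℓ D) = φ_* (ρ D) + ℓ φ_*⁻¹ (ρ D)`,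
`T_ℓ = heckeDivBar = α_* ∘ β^*`. -/
def Rho4Stmt [NeZero ℓ] : Prop :=
  ∀ (hint : InclIntegral ℓ N)
    [HasPrincipalDivisors (AlgebraicClosure ℚ) (modularFunctionFieldBar (LevelNum.levelM ℓ N))]
    (r : Place (AlgebraicClosure ℚ) (modularFunctionFieldBar (LevelNum.levelM ℓ N)) →
      Place (IsLocalRing.ResidueField A)
        (GaussA.kappa (IsLocalRing.ResidueField A) (LevelNum.levelM ℓ N))),
    SpecFacts A (RedL A (LevelNum.levelM ℓ N)) r →
    ∀ φ, IsCoeffFrob A ℓ (LevelNum.levelM ℓ N) φ →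
    ∀ (hα : HeckeAlphaBarIntegral (AlgebraicClosure ℚ) N ℓ)
      (hβ : HeckeBetaBarIntegral (AlgebraicClosure ℚ) N ℓ)
      [HasPrincipalDivisors (AlgebraicClosure ℚ) (modularFunctionFieldBar (N * ℓ))]
      (D : Divisor (AlgebraicClosure ℚ) (modularFunctionFieldBar N)),
      rho hint r (heckeDivBar hα hβ D) = φ • rho hint r D + ℓ • (φ⁻¹ • rho hint r D)

/-- **(R3)** a degree-zero divisor `D` of `F_N` with `ρ D = 0` and `m D` principal, `ℓ ∤ m`,
is principal. -/
def TorsStmt : Prop :=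
  ∀ (hint : InclIntegral ℓ N)
    [HasPrincipalDivisors (AlgebraicClosure ℚ) (modularFunctionFieldBar (LevelNum.levelM ℓ N))]
    (r : Place (AlgebraicClosure ℚ) (modularFunctionFieldBar (LevelNum.levelM ℓ N)) →
      Place (IsLocalRing.ResidueField A)
        (GaussA.kappa (IsLocalRing.ResidueField A) (LevelNum.levelM ℓ N))),
    SpecFacts A (RedL A (LevelNum.levelM ℓ N)) r →
    ∀ m : ℕ, ¬ ℓ ∣ m →
      ∀ D : Divisor (AlgebraicClosure ℚ) (modularFunctionFieldBar N),
        D ∈ Divisor.degZero (K := AlgebraicClosure ℚ) (F := modularFunctionFieldBar N) →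
        rho hint r D = 0 →
        m • D ∈ Divisor.principal (K := AlgebraicClosure ℚ) (F := modularFunctionFieldBar N) →
        D ∈ Divisor.principal (K := AlgebraicClosure ℚ) (F := modularFunctionFieldBar N)

end Rho

/-! ### Hecke side (packages PA, PD, PE1) -/

section Hecke

variable (ℓ N : ℕ) [NeZero N] [NeZero ℓ]

/-- `f ↦ N_{F_{Nℓ} / α F_N} (β f)` : `F_N → F_N`. -/
def heckeNorm (f : modularFunctionFieldBar N) : modularFunctionFieldBar N :=
  letI := algebraAlong (heckeAlphaBar (AlgebraicClosure ℚ) N ℓ)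
  Algebra.norm (modularFunctionFieldBar N) (heckeBetaBar (AlgebraicClosure ℚ) N ℓ f)

/-- **PA (unfolding)**: `T_ℓ (div f) = div (heckeNorm f)`. -/
def HeckeDivNormStmt : Prop :=
  ∀ (hα : HeckeAlphaBarIntegral (AlgebraicClosure ℚ) N ℓ)
    (hβ : HeckeBetaBarIntegral (AlgebraicClosure ℚ) N ℓ)
    [HasPrincipalDivisors (AlgebraicClosure ℚ) (modularFunctionFieldBar (N * ℓ))]
    (f : modularFunctionFieldBar N), f ≠ 0 →
    ∀ D : Divisor (AlgebraicClosure ℚ) (modularFunctionFieldBar N), (∀ P, D P = P.ord f) →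
      ∀ P, heckeDivBar hα hβ D P = P.ord (heckeNorm ℓ N f)

/-- **PE1** Kronecker congruence for functions: for an integral series `V` of `F_N`,
`heckeNorm V` is an integral series `W` with `W̄ = φ(V̄) · (φ⁻¹ V̄)^ℓ`
(`φ` the coefficientwise Frobenius of `k((q))`). -/
def KronFnStmt (A : ValuationSubring (AlgebraicClosure ℚ)) : Prop :=
  ∀ (V : LaurentSeries A) (hV : genS A V ∈ modularFunctionFieldBar N),
    ∃ (W : LaurentSeries A) (Wa Wb : LaurentSeries (IsLocalRing.ResidueField A)),
      ((heckeNorm ℓ N ⟨genS A V, hV⟩ : modularFunctionFieldBar N) :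
          LaurentSeries (AlgebraicClosure ℚ)) = genS A W ∧
      redS A W = Wa * Wb ^ ℓ ∧
      (∀ n : ℤ, Wa.coeff n = ((redS A V).coeff n) ^ ℓ) ∧
      (∀ n : ℤ, (Wb.coeff n) ^ ℓ = (redS A V).coeff n)

end Hecke

end Fermat.Agent.S37

end
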