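import Mathlib
import Fermat.Agent.S24.Bridge
import Fermat.Agent.S28.Integral

/-!
# S37, package PD (C2): `q`-expansions and the dilation `τ ↦ d τ` at width `h`

The width-`h` version of `S24.Bridge.qLaurent_comp_dmul`: for a weakly holomorphic function `G`
of period `h`, the expansion of `τ ↦ G (d τ)` in `exp (2 π i τ / h)` is obtained from the
expansion of `G` by substituting `s ↦ s ^ d`.

Consequence (`qLaurent_eq_of_comp_dmul`): if `G` has period `N ℓ` and `G (ℓ τ) = j (d τ)`, then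
the expansion of `G` in `s = exp (2 π i τ / (N ℓ))` is `j (q ^ d)` with `q = s ^ N`
(informally `G (τ) = j (d τ / ℓ)`).
-/

set_option autoImplicit false

open Complex Filter Topology Function
open UpperHalfPlane hiding I
open ModularForm ModularCurve
open scoped Real Manifold MatrixGroups ModularForm

namespace Fermat.Agent.S37.DilExp

open Fermat.Agent.S23 Fermat.Agent.S24 Fermat.Agent.S24.Bridge

local notation "𝕢" => Function.Periodic.qParam

variable {F : ℍ → ℂ} {h : ℝ}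

theorem qParam_dmul_h (h : ℝ) {d : ℕ} (hd : 0 < d) (z : ℍ) :
    𝕢 h (dmul d z : ℂ) = 𝕢 h (z : ℂ) ^ d := by
  rw [coe_dmul hd]
  simp only [Function.Periodic.qParam]
  rw [← Complex.exp_nat_mul]
  congr 1
  ring

theorem qFun_dmul_h (h : ℝ) {d : ℕ} (hd : 0 < d) (z : ℍ) :
    qFun h (dmul d z) = qFun h z ^ d :=
  qParam_dmul_h h hd z

theorem dmul_vadd_h (h : ℝ) {d : ℕ} (hd : 0 < d) (z : ℍ) :
    dmul d (h +ᵥ z) = ((d : ℝ) * h) +ᵥ dmul d z := by
  ext
  rw [coe_dmul hd, UpperHalfPlane.coe_vadd, UpperHalfPlane.coe_vadd, coe_dmul hd]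
  push_cast
  ring

theorem natMul_vadd_of_periodic (hF : Periodic (F ∘ ofComplex) h) (n : ℕ) (z : ℍ) :
    F (((n : ℝ) * h) +ᵥ z) = F z := by
  induction n with
  | zero =>
    congr 1
    ext
    simp
  | succ n ih =>
    rw [← ih, ← forall_vadd_of_periodic hF (((n : ℝ) * h) +ᵥ z)]
    congr 1
    ext
    simp only [UpperHalfPlane.coe_vadd]
    push_cast
    ring

theorem periodic_comp_dmul_h {d : ℕ} (hd : 0 < d) (hF : Periodic (F ∘ ofComplex) h) :
    Periodic ((F ∘ dmul d) ∘ ofComplex) h := by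
  apply periodic_of_forall_vadd
  intro τ
  simp only [Function.comp_apply]
  rw [dmul_vadd_h h hd, natMul_vadd_of_periodic hF]

theorem qExpansion_comp_dmul_h (hh : 0 < h) {d : ℕ} (hd : 0 < d) (hol : MDiff F)
    (per : Periodic (F ∘ ofComplex) h) (bdd : IsBoundedAtImInfty F) :
    qExpansion h (F ∘ dmul d) = expandPS d (qExpansion h F) := by
  have han := analyticAt_cusp hh (mdiff_comp_dmul hd hol) (periodic_comp_dmul_h hd per)
    (bdd_comp_dmul hd bdd)
  ext k
  rw [expandPS, PowerSeries.coeff_mk]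
  refine (qExpansion_coeff_unique' (h := h) (f := F ∘ dmul d)
    (c := fun k => if d ∣ k then (qExpansion h F).coeff (k / d) else 0) hh han
    (fun τ => ?_) k).symm
  have h1 := hasSum_qExpansion hh per hol bdd (dmul d τ)
  have hinj : Function.Injective (fun m : ℕ => d * m) := fun a b hab =>
    Nat.eq_of_mul_eq_mul_left hd hab
  rw [← hinj.hasSum_iff]
  · have e : ((fun k : ℕ => (if d ∣ k then (qExpansion h F).coeff (k / d) else 0) • 𝕢 h (τ : ℂ) ^ k) ∘
        fun m : ℕ => d * m) =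
        fun m : ℕ => (qExpansion h F).coeff m • 𝕢 h (dmul d τ : ℂ) ^ m := by
      funext m
      simp only [Function.comp_apply]
      rw [if_pos (Dvd.intro m rfl), Nat.mul_div_cancel_left m hd, qParam_dmul_h h hd, pow_mul]
    rw [e]
    exact h1
  · intro k hk
    have : ¬ d ∣ k := fun ⟨m, hm⟩ => hk ⟨m, hm.symm⟩
    simp [this]

theorem comp_dmul_mul_qpow_h (h : ℝ) {d : ℕ} (hd : 0 < d) (F : ℍ → ℂ) (m : ℕ) :
    (F ∘ dmul d) * qFun h ^ (d * m) = (F * qFun h ^ m) ∘ dmul d := by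
  funext τ
  simp only [Pi.mul_apply, Function.comp_apply, Pi.pow_apply]
  rw [qFun_dmul_h h hd, pow_mul]

/-- `τ ↦ G (d τ)` is weakly holomorphic of period `h` if `G` is. -/
theorem isWH_comp_dmul_h {d : ℕ} (hd : 0 < d) (hF : IsWH h F) : IsWH h (F ∘ dmul d) := by
  obtain ⟨m, hm⟩ := hF.bdd
  refine ⟨mdiff_comp_dmul hd hF.holo, periodic_comp_dmul_h hd hF.per, d * m, ?_⟩
  rw [comp_dmul_mul_qpow_h h hd]
  exact bdd_comp_dmul hd hm

/-- **Width-`h` dilation**: the expansion of `τ ↦ G (d τ)` is `(qLaurent h G)(s ^ d)`. -/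
theorem qLaurent_comp_dmul_h (hh : 0 < h) (d : ℕ) [NeZero d] (hF : IsWH h F) :
    qLaurent h (F ∘ dmul d) = qExpand ℂ d (qLaurent h F) := by
  have hd : 0 < d := Nat.pos_of_ne_zero (NeZero.ne d)
  obtain ⟨m, hm⟩ := hF.bdd
  have hb : IsBoundedAtImInfty ((F ∘ dmul d) * qFun h ^ (d * m)) := by
    rw [comp_dmul_mul_qpow_h h hd]
    exact bdd_comp_dmul hd hm
  rw [qLaurent_eq hh (isWH_comp_dmul_h hd hF) hb, qLaurent_eq hh hF hm]
  unfold qLaurentAt
  rw [map_mul, qExpand_single, qExpand_ofPowerSeries, comp_dmul_mul_qpow_h h hd,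
    qExpansion_comp_dmul_h hh hd (mdiff_mul_qpow hF.holo m) (periodic_mul_qpow hh.ne' hF.per m) hm]
  have e : (-((d * m : ℕ) : ℤ)) = (d : ℤ) * -(m : ℤ) := by push_cast; ring
  rw [e]

/-- Both statements together, in the shape announced to the PD team. -/
theorem qLaurent_comp_dmul_of_isWH (hh : 0 < h) (l : ℕ) [NeZero l] {G : ℍ → ℂ} (hG : IsWH h G) :
    IsWH h (G ∘ dmul l) ∧ qLaurent h (G ∘ dmul l) = qExpand ℂ l (qLaurent h G) :=
  ⟨isWH_comp_dmul_h (Nat.pos_of_ne_zero (NeZero.ne l)) hG, qLaurent_comp_dmul_h hh l hG⟩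

/-- **Fractional dilation.** If `G` has period `N ℓ` and `G (ℓ τ) = j (d τ)` then the expansion of
`G` in `s = exp (2 π i τ / (N ℓ))` is `j (q ^ d)` with `q = s ^ N`. -/
theorem qLaurent_eq_of_comp_dmul {N l M d : ℕ} [NeZero N] [NeZero l] [NeZero M] (hM : M = N * l)
    (hd : 0 < d) {G : ℍ → ℂ} (hG : IsWH (M : ℝ) G) (hGd : G ∘ dmul l = jd d) :
    qLaurent (M : ℝ) G = qExpand ℂ N (Jser ℂ d) := by
  have hh := natCast_pos_real M
  apply qExpand_injective (R := ℂ) (N := l)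
  rw [← qLaurent_comp_dmul_h hh l hG, hGd, Fermat.Agent.S28.Integral.qLaurent_natCast M (isWH_jd hd),
    qLaurent_jd hd, qExpand_qExpand]
  exact qExpand_congr (by rw [hM, mul_comm]) _

end Fermat.Agent.S37.DilExp
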