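import Mathlib
import Fermat.Prelude.Def_AlgebraicCurve_BaseChangeGalois

/-!
# S37 / RLayer: the subgroup `R = {[D] | ρ D = 0}` of `Pic⁰` and the relations `R1`, `R4`

Abstract: `F / K` a function field, `ρ : Div(F) →+ X` an additive map.  `Rsub ρ` is the subgroup
of `Pic⁰(F)` of classes of degree-zero divisors `D` with `ρ D = 0`.

* `smul_sub_mem` : if `ρ (θ • D) = ρ D` on `Div⁰` then `θ • x - x ∈ Rsub ρ` (inertia, `R1`);
* `frob_rel_mem` : if `ρ (σ • D) = φ • ρ D` and `ρ (T D) = φ • ρ D + ℓ • φ⁻¹ • ρ D` on `Div⁰`, and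
  `Tp` is the map induced by `T` on `Pic⁰`, then `σ • σ • x - Tp (σ • x) + ℓ • x ∈ Rsub ρ`
  (the Eichler–Shimura relation, `R4`).
-/

set_option autoImplicit false

noncomputable section

namespace Fermat.Agent.S37.RLayer

open AlgebraicCurve

variable {K F : Type*} [Field K] [Field F] [Algebra K F]

/-- The subgroup of `Pic⁰` of classes of degree-zero divisors killed by `ρ`. -/
def Rsub {X : Type*} [AddCommGroup X] (ρ : Divisor K F →+ X) : AddSubgroup (Pic0 K F) where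
  carrier := {x | ∃ D : Divisor.degZero (K := K) (F := F),
    Pic0.mk D = x ∧ ρ (D : Divisor K F) = 0}
  zero_mem' := ⟨0, rfl, by simp⟩
  add_mem' := by
    rintro _ _ ⟨D, rfl, hD⟩ ⟨D', rfl, hD'⟩
    refine ⟨D + D', rfl, ?_⟩
    rw [AddSubgroup.coe_add, map_add, hD, hD', add_zero]
  neg_mem' := by
    rintro _ ⟨D, rfl, hD⟩
    refine ⟨-D, rfl, ?_⟩
    rw [AddSubgroup.coe_neg, map_neg, hD, neg_zero]

theorem mem_Rsub {X : Type*} [AddCommGroup X] (ρ : Divisor K F →+ X) (x : Pic0 K F) :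
    x ∈ Rsub ρ ↔ ∃ D : Divisor.degZero (K := K) (F := F),
      Pic0.mk D = x ∧ ρ (D : Divisor K F) = 0 := Iff.rfl

theorem mk_mem_Rsub {X : Type*} [AddCommGroup X] (ρ : Divisor K F →+ X)
    (D : Divisor.degZero (K := K) (F := F)) (hD : ρ (D : Divisor K F) = 0) :
    Pic0.mk D ∈ Rsub ρ := ⟨D, rfl, hD⟩

/-- **R1**: if `ρ` is `θ`-invariant on divisors of degree zero, then `θ • x - x ∈ R`. -/
theorem smul_sub_mem {X : Type*} [AddCommGroup X] (ρ : Divisor K F →+ X)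
    (θ : SemilinearAut K F)
    (hθ : ∀ D : Divisor K F, Divisor.degree D = 0 → ρ (θ • D) = ρ D) (x : Pic0 K F) :
    θ • x - x ∈ Rsub ρ := by
  obtain ⟨D, rfl⟩ := Pic0.mk_surjective x
  refine ⟨SemilinearAut.degZeroSMulHom θ D - D, ?_, ?_⟩
  · rw [SemilinearAut.pic0_smul_mk]
    rfl
  · rw [AddSubgroup.coe_sub, SemilinearAut.coe_degZeroSMulHom, map_sub, hθ _ D.2, sub_self]

variable {k κ : Type*} [Field k] [Field κ] [Algebra k κ]

/-- **R4**: the Eichler–Shimura relation `σ² - T σ + ℓ` maps `Pic⁰` into `R`. -/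
theorem frob_rel_mem (ρ : Divisor K F →+ Divisor k κ) (σ : SemilinearAut K F)
    (φ : SemilinearAut k κ) (ℓ : ℕ) (T : Divisor K F →+ Divisor K F)
    (Tp : Pic0 K F → Pic0 K F)
    (hTp : ∀ D : Divisor.degZero (K := K) (F := F), ∃ D' : Divisor.degZero (K := K) (F := F),
      Tp (Pic0.mk D) = Pic0.mk D' ∧ (D' : Divisor K F) = T (D : Divisor K F))
    (hσ : ∀ D : Divisor K F, Divisor.degree D = 0 → ρ (σ • D) = φ • ρ D)
    (h4 : ∀ D : Divisor K F, Divisor.degree D = 0 →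
      ρ (T D) = φ • ρ D + (ℓ : ℤ) • (φ⁻¹ • ρ D))
    (x : Pic0 K F) :
    σ • σ • x - Tp (σ • x) + ℓ • x ∈ Rsub ρ := by
  obtain ⟨D, rfl⟩ := Pic0.mk_surjective x
  obtain ⟨D', hD', hD'T⟩ := hTp (SemilinearAut.degZeroSMulHom σ D)
  refine ⟨SemilinearAut.degZeroSMulHom σ (SemilinearAut.degZeroSMulHom σ D) - D' + ℓ • D,
    ?_, ?_⟩
  · rw [SemilinearAut.pic0_smul_mk, SemilinearAut.pic0_smul_mk, hD']
    rfl
  · have hD1 : Divisor.degree (σ • (D : Divisor K F)) = 0 :=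
      (SemilinearAut.degZeroSMulHom σ D).2
    rw [AddSubgroup.coe_add, AddSubgroup.coe_sub, AddSubgroup.coe_nsmul, hD'T,
      SemilinearAut.coe_degZeroSMulHom, SemilinearAut.coe_degZeroSMulHom, map_add, map_sub,
      map_nsmul, hσ _ hD1, h4 _ hD1, hσ _ D.2, inv_smul_smul, natCast_zsmul]
    abel

end Fermat.Agent.S37.RLayer

end
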