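import Mathlib
import Fermat.Prelude.Def_AlgebraicCurve_BaseChangeGalois
import Fermat.Agent.RR.Defs
import Fermat.Agent.S24.Principal
import Fermat.Agent.S37.BddZero

/-!
# S37 / Rho4: the Eichler–Shimura relation on degree-zero divisors (abstract assembly)

`E / K` a function field (think `F_N` over `ℚ̄`), `κ / k` a function field (think `κ_M` over the
residue field), `ρ : Div(E) →+ Div(κ)` (reduction of divisors), `T : Div(E) →+ Div(E)` (the Hecke
correspondence `T_ℓ`), `φ` a semilinear automorphism of `κ / k` (coefficientwise Frobenius).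

`delta ρ T φ ℓ := ρ ∘ T - (φ • ρ + ℓ • φ⁻¹ • ρ)`.

* `delta_principal` : `delta` kills principal divisors, from the function-level Kronecker
  congruence (`hT`) and the compatibility of `ρ` with reduction of functions (`hρ1`).
* `delta_sub` : `delta (single P 1)` is a difference of two effective divisors of bounded degree.
* `main` : hence (boundedness lemma `BddZero.eq_zero_of_sub`)
  `ρ (T D) = φ • ρ D + ℓ • φ⁻¹ • ρ D` for every divisor `D` of degree zero.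
* `equivariant` : in the same way, if `Red' f x → Red' (θ • f) (θb • x)` for semilinear
  automorphisms `θ` of `E / K` and `θb` of `κ / k`, then `ρ (θ • D) = θb • ρ D` for every divisor
  `D` of degree zero (inertia: `θb = 1`; Frobenius: `θb = φ`).
-/

set_option autoImplicit false

noncomputable section

namespace Fermat.Agent.S37.Rho4

open AlgebraicCurve Fermat.Agent.RR

variable {K E k κ : Type*} [Field K] [Field E] [Algebra K E] [Field k] [Field κ] [Algebra k κ]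

/-- The defect of the Eichler–Shimura relation on divisors:
`delta D = ρ (T D) - (φ • ρ D + ℓ • φ⁻¹ • ρ D)`. -/
def delta (ρ : Divisor K E →+ Divisor k κ) (T : Divisor K E →+ Divisor K E)
    (φ : SemilinearAut k κ) (ℓ : ℕ) : Divisor K E →+ Divisor k κ :=
  ρ.comp T - ((DistribSMul.toAddMonoidHom (Divisor k κ) φ).comp ρ
    + (ℓ : ℤ) • (DistribSMul.toAddMonoidHom (Divisor k κ) φ⁻¹).comp ρ)

theorem delta_apply (ρ : Divisor K E →+ Divisor k κ) (T : Divisor K E →+ Divisor K E)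
    (φ : SemilinearAut k κ) (ℓ : ℕ) (D : Divisor K E) :
    delta ρ T φ ℓ D = ρ (T D) - (φ • ρ D + (ℓ : ℤ) • (φ⁻¹ • ρ D)) := by
  simp [delta]

/-- Nonzero constants have order zero at every place. -/
theorem ord_algebraMap (v : Place K E) (c : K) : v.ord (algebraMap K E c) = 0 :=
  Fermat.Agent.S24.Principal.ord_eq_zero_of_isAlgebraic v (isAlgebraic_algebraMap c)

/-- Order of a translate: `ord_Q (φ • x) = ord_{φ⁻¹ Q} x`. -/
theorem ord_smul_eq (φ : SemilinearAut k κ) (Q : Place k κ) (x : κ) :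
    Q.ord (φ • x) = (φ⁻¹ • Q).ord x := by
  have h := SemilinearAut.ord_smul φ (φ⁻¹ • Q) x
  rwa [smul_inv_smul] at h

/-- **(i)** `delta` vanishes on principal divisors. -/
theorem delta_principal (ρ : Divisor K E →+ Divisor k κ) (T : Divisor K E →+ Divisor K E)
    (φ : SemilinearAut k κ) (ℓ : ℕ) (Red' : E → κ → Prop)
    (hnorm : ∀ f : E, f ≠ 0 → ∃ c : K, c ≠ 0 ∧ ∃ x : κ, x ≠ 0 ∧ Red' (algebraMap K E c * f) x)
    (hρ1 : ∀ (f : E) (x : κ), Red' f x → x ≠ 0 → ∀ D : Divisor K E,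
      (∀ v : Place K E, D v = v.ord f) → ∀ Q : Place k κ, ρ D Q = Q.ord x)
    (hT : ∀ (f : E) (x : κ), Red' f x → x ≠ 0 → ∃ g : E, g ≠ 0 ∧
      (∀ W : Divisor K E, (∀ v : Place K E, W v = v.ord f) → ∀ v : Place K E, T W v = v.ord g) ∧
      ∃ c : K, c ≠ 0 ∧ Red' (algebraMap K E c * g) (φ • x * (φ⁻¹ • x) ^ ℓ))
    (f : E) (hf : f ≠ 0) (W : Divisor K E) (hW : ∀ v : Place K E, W v = v.ord f) :
    delta ρ T φ ℓ W = 0 := by
  obtain ⟨c, hc, x, hx, hred⟩ := hnorm f hf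
  have hc' : algebraMap K E c ≠ 0 := (map_ne_zero _).mpr hc
  have hW' : ∀ v : Place K E, W v = v.ord (algebraMap K E c * f) := by
    intro v
    rw [v.ord_mul hc' hf, ord_algebraMap, zero_add, hW v]
  obtain ⟨g, hg, hTg, c₂, hc₂, hredg⟩ := hT _ x hred hx
  have hc₂' : algebraMap K E c₂ ≠ 0 := (map_ne_zero _).mpr hc₂
  have h1 : ∀ Q : Place k κ, ρ W Q = Q.ord x := hρ1 _ x hred hx W hW'
  have hTW : ∀ v : Place K E, T W v = v.ord (algebraMap K E c₂ * g) := by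
    intro v
    rw [v.ord_mul hc₂' hg, ord_algebraMap, zero_add, hTg W hW' v]
  have hφx : φ • x ≠ 0 := by simpa using hx
  have hφix : φ⁻¹ • x ≠ 0 := by simpa using hx
  have hy : φ • x * (φ⁻¹ • x) ^ ℓ ≠ 0 := mul_ne_zero hφx (pow_ne_zero _ hφix)
  have h2 : ∀ Q : Place k κ, ρ (T W) Q = Q.ord (φ • x * (φ⁻¹ • x) ^ ℓ) :=
    hρ1 _ _ hredg hy (T W) hTW
  ext Q
  rw [delta_apply, Finsupp.sub_apply, Finsupp.add_apply, Finsupp.smul_apply,
    SemilinearAut.divisor_smul_apply, SemilinearAut.divisor_smul_apply, h2, h1, h1, inv_inv,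
    Q.ord_mul hφx (pow_ne_zero _ hφix), ← zpow_natCast, Place.ord_zpow, ord_smul_eq,
    ord_smul_eq, inv_inv]
  simp

/-! ### Boundedness -/

/-- When all places have degree one, the degree is the sum of the coefficients. -/
theorem degree_eq_sum (hdeg : ∀ Q : Place k κ, Q.deg = 1) (D : Divisor k κ) :
    Divisor.degree D = D.sum fun _ a => a := by
  unfold Divisor.degree
  rw [Finsupp.liftAddHom_apply]
  unfold Finsupp.sum
  refine Finset.sum_congr rfl fun v _ => ?_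
  simp [hdeg v]

theorem smul_nonneg_div {K' F' : Type*} [Field K'] [Field F'] [Algebra K' F']
    (φ : SemilinearAut K' F') {D : Divisor K' F'} (hD : 0 ≤ D) : 0 ≤ φ • D := by
  intro Q
  rw [SemilinearAut.divisor_smul_apply]
  exact hD _

theorem single_nonneg (P : Place K E) : (0 : Divisor K E) ≤ Finsupp.single P 1 := by
  intro v
  classical
  rw [Finsupp.single_apply]
  split_ifs <;> simp

/-- **(ii)** `delta (single P 1)` is a difference of two effective divisors of degree at most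
`n * d + (n + ℓ * n)`. -/
theorem delta_sub (hdegE : ∀ v : Place K E, v.deg = 1) (hdegκ : ∀ Q : Place k κ, Q.deg = 1)
    (ρ : Divisor K E →+ Divisor k κ) (T : Divisor K E →+ Divisor K E)
    (φ : SemilinearAut k κ) (ℓ n d : ℕ)
    (hρ_nonneg : ∀ D : Divisor K E, 0 ≤ D → 0 ≤ ρ D)
    (hρ_deg : ∀ D : Divisor K E, Divisor.degree (ρ D) = (n : ℤ) * Divisor.degree D)
    (hT_nonneg : ∀ D : Divisor K E, 0 ≤ D → 0 ≤ T D)
    (hT_deg : ∀ D : Divisor K E, Divisor.degree (T D) = (d : ℤ) * Divisor.degree D)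
    (P : Place K E) :
    ∃ E₁ E₂ : Divisor k κ, delta ρ T φ ℓ (Finsupp.single P 1) = E₁ - E₂ ∧
      (∀ Q, 0 ≤ E₁ Q) ∧ (∀ Q, 0 ≤ E₂ Q) ∧
      (E₁.sum fun _ a => a) ≤ ((n * d + (n + ℓ * n) : ℕ) : ℤ) ∧
      (E₂.sum fun _ a => a) ≤ ((n * d + (n + ℓ * n) : ℕ) : ℤ) := by
  have hP0 := single_nonneg (K := K) P
  have hdP : Divisor.degree (Finsupp.single P (1 : ℤ)) = 1 := by
    rw [Divisor.degree_single, hdegE P]; simp
  have hE1 : 0 ≤ ρ (T (Finsupp.single P 1)) := hρ_nonneg _ (hT_nonneg _ hP0)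
  have hρP : 0 ≤ ρ (Finsupp.single P 1) := hρ_nonneg _ hP0
  have hE2 : 0 ≤ φ • ρ (Finsupp.single P 1) + (ℓ : ℤ) • (φ⁻¹ • ρ (Finsupp.single P 1)) :=
    add_nonneg (smul_nonneg_div φ hρP) (smul_nonneg (by positivity) (smul_nonneg_div φ⁻¹ hρP))
  have hd1 : Divisor.degree (ρ (T (Finsupp.single P 1))) = (n : ℤ) * d := by
    rw [hρ_deg, hT_deg, hdP, mul_one]
  have hd2 : Divisor.degree (φ • ρ (Finsupp.single P 1)
      + (ℓ : ℤ) • (φ⁻¹ • ρ (Finsupp.single P 1))) = (n : ℤ) + ℓ * n := by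
    rw [map_add, map_zsmul, SemilinearAut.degree_smul, SemilinearAut.degree_smul, hρ_deg, hdP,
      mul_one, smul_eq_mul]
  refine ⟨_, _, delta_apply ρ T φ ℓ _, fun Q => hE1 Q, fun Q => hE2 Q, ?_, ?_⟩
  · rw [← degree_eq_sum hdegκ, hd1]
    push_cast
    nlinarith [Nat.cast_nonneg (α := ℤ) n, Nat.cast_nonneg (α := ℤ) ℓ]
  · rw [← degree_eq_sum hdegκ, hd2]
    push_cast
    nlinarith [Nat.cast_nonneg (α := ℤ) n, Nat.cast_nonneg (α := ℤ) d]

/-- **The Eichler–Shimura relation on divisors of degree zero**: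
`ρ ∘ T = (φ + ℓ φ⁻¹) ∘ ρ` on `Div⁰(E)`. -/
theorem main (hP : PlaceFacts K E) (hR : RiemannFacts K E) (hdegκ : ∀ Q : Place k κ, Q.deg = 1)
    (ρ : Divisor K E →+ Divisor k κ) (T : Divisor K E →+ Divisor K E)
    (φ : SemilinearAut k κ) (ℓ n d : ℕ) (Red' : E → κ → Prop)
    (hnorm : ∀ f : E, f ≠ 0 → ∃ c : K, c ≠ 0 ∧ ∃ x : κ, x ≠ 0 ∧ Red' (algebraMap K E c * f) x)
    (hρ1 : ∀ (f : E) (x : κ), Red' f x → x ≠ 0 → ∀ D : Divisor K E,
      (∀ v : Place K E, D v = v.ord f) → ∀ Q : Place k κ, ρ D Q = Q.ord x)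
    (hT : ∀ (f : E) (x : κ), Red' f x → x ≠ 0 → ∃ g : E, g ≠ 0 ∧
      (∀ W : Divisor K E, (∀ v : Place K E, W v = v.ord f) → ∀ v : Place K E, T W v = v.ord g) ∧
      ∃ c : K, c ≠ 0 ∧ Red' (algebraMap K E c * g) (φ • x * (φ⁻¹ • x) ^ ℓ))
    (hρ_nonneg : ∀ D : Divisor K E, 0 ≤ D → 0 ≤ ρ D)
    (hρ_deg : ∀ D : Divisor K E, Divisor.degree (ρ D) = (n : ℤ) * Divisor.degree D)
    (hT_nonneg : ∀ D : Divisor K E, 0 ≤ D → 0 ≤ T D)
    (hT_deg : ∀ D : Divisor K E, Divisor.degree (T D) = (d : ℤ) * Divisor.degree D)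
    (D : Divisor K E) (hD : Divisor.degree D = 0) :
    ρ (T D) = φ • ρ D + (ℓ : ℤ) • (φ⁻¹ • ρ D) := by
  have h := Fermat.Agent.S37.BddZero.eq_zero_of_sub hP hR (delta ρ T φ ℓ)
    ((n * d + (n + ℓ * n) : ℕ) : ℤ)
    (delta_principal ρ T φ ℓ Red' hnorm hρ1 hT)
    (delta_sub hP.hdeg hdegκ ρ T φ ℓ n d hρ_nonneg hρ_deg hT_nonneg hT_deg) D hD
  rw [delta_apply] at h
  exact sub_eq_zero.mp h

/-! ### Equivariance (inertia and Frobenius) -/

/-- The defect of equivariance of `ρ` for a pair of semilinear automorphisms. -/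
def deltaEq (ρ : Divisor K E →+ Divisor k κ) (θ : SemilinearAut K E) (θb : SemilinearAut k κ) :
    Divisor K E →+ Divisor k κ :=
  ρ.comp (DistribSMul.toAddMonoidHom (Divisor K E) θ)
    - (DistribSMul.toAddMonoidHom (Divisor k κ) θb).comp ρ

theorem deltaEq_apply (ρ : Divisor K E →+ Divisor k κ) (θ : SemilinearAut K E)
    (θb : SemilinearAut k κ) (D : Divisor K E) :
    deltaEq ρ θ θb D = ρ (θ • D) - θb • ρ D := by
  simp [deltaEq]

/-- `deltaEq` vanishes on principal divisors. -/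
theorem deltaEq_principal (ρ : Divisor K E →+ Divisor k κ) (θ : SemilinearAut K E)
    (θb : SemilinearAut k κ) (Red' : E → κ → Prop)
    (hnorm : ∀ f : E, f ≠ 0 → ∃ c : K, c ≠ 0 ∧ ∃ x : κ, x ≠ 0 ∧ Red' (algebraMap K E c * f) x)
    (hρ1 : ∀ (f : E) (x : κ), Red' f x → x ≠ 0 → ∀ D : Divisor K E,
      (∀ v : Place K E, D v = v.ord f) → ∀ Q : Place k κ, ρ D Q = Q.ord x)
    (hθ : ∀ (f : E) (x : κ), Red' f x → Red' (θ • f) (θb • x))
    (f : E) (hf : f ≠ 0) (W : Divisor K E) (hW : ∀ v : Place K E, W v = v.ord f) :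
    deltaEq ρ θ θb W = 0 := by
  obtain ⟨c, hc, x, hx, hred⟩ := hnorm f hf
  have hc' : algebraMap K E c ≠ 0 := (map_ne_zero _).mpr hc
  have hW' : ∀ v : Place K E, W v = v.ord (algebraMap K E c * f) := by
    intro v
    rw [v.ord_mul hc' hf, ord_algebraMap, zero_add, hW v]
  have h1 : ∀ Q : Place k κ, ρ W Q = Q.ord x := hρ1 _ x hred hx W hW'
  have hθW : ∀ v : Place K E, (θ • W) v = v.ord (θ • (algebraMap K E c * f)) := by
    intro v
    have h := SemilinearAut.ord_smul θ (θ⁻¹ • v) (algebraMap K E c * f)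
    rw [smul_inv_smul] at h
    rw [SemilinearAut.divisor_smul_apply, hW', h]
  have hx' : θb • x ≠ 0 := by simpa using hx
  have h2 : ∀ Q : Place k κ, ρ (θ • W) Q = Q.ord (θb • x) :=
    hρ1 _ _ (hθ _ _ hred) hx' (θ • W) hθW
  ext Q
  rw [deltaEq_apply, Finsupp.sub_apply, SemilinearAut.divisor_smul_apply, h2, h1, ord_smul_eq,
    sub_self, Finsupp.zero_apply]

/-- **Equivariance of `ρ` on divisors of degree zero**: if reduction of functions intertwines
`θ` and `θb`, then `ρ (θ • D) = θb • ρ D` for `deg D = 0`. -/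
theorem equivariant (hP : PlaceFacts K E) (hR : RiemannFacts K E)
    (hdegκ : ∀ Q : Place k κ, Q.deg = 1)
    (ρ : Divisor K E →+ Divisor k κ) (θ : SemilinearAut K E) (θb : SemilinearAut k κ) (n : ℕ)
    (Red' : E → κ → Prop)
    (hnorm : ∀ f : E, f ≠ 0 → ∃ c : K, c ≠ 0 ∧ ∃ x : κ, x ≠ 0 ∧ Red' (algebraMap K E c * f) x)
    (hρ1 : ∀ (f : E) (x : κ), Red' f x → x ≠ 0 → ∀ D : Divisor K E,
      (∀ v : Place K E, D v = v.ord f) → ∀ Q : Place k κ, ρ D Q = Q.ord x)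
    (hθ : ∀ (f : E) (x : κ), Red' f x → Red' (θ • f) (θb • x))
    (hρ_nonneg : ∀ D : Divisor K E, 0 ≤ D → 0 ≤ ρ D)
    (hρ_deg : ∀ D : Divisor K E, Divisor.degree (ρ D) = (n : ℤ) * Divisor.degree D)
    (D : Divisor K E) (hD : Divisor.degree D = 0) :
    ρ (θ • D) = θb • ρ D := by
  have h := Fermat.Agent.S37.BddZero.eq_zero_of_sub hP hR (deltaEq ρ θ θb) (n : ℤ)
    (deltaEq_principal ρ θ θb Red' hnorm hρ1 hθ)
    (fun P => by
      have hP0 := single_nonneg (K := K) P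
      have hdP : Divisor.degree (Finsupp.single P (1 : ℤ)) = 1 := by
        rw [Divisor.degree_single, hP.hdeg P]; simp
      have hE1 : 0 ≤ ρ (θ • Finsupp.single P 1) := hρ_nonneg _ (smul_nonneg_div θ hP0)
      have hE2 : 0 ≤ θb • ρ (Finsupp.single P 1) := smul_nonneg_div θb (hρ_nonneg _ hP0)
      refine ⟨_, _, deltaEq_apply ρ θ θb _, fun Q => hE1 Q, fun Q => hE2 Q, ?_, ?_⟩
      · rw [← degree_eq_sum hdegκ, hρ_deg, SemilinearAut.degree_smul, hdP, mul_one]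
      · rw [← degree_eq_sum hdegκ, SemilinearAut.degree_smul, hρ_deg, hdP, mul_one]) D hD
  rw [deltaEq_apply] at h
  exact sub_eq_zero.mp h

end Fermat.Agent.S37.Rho4

end
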