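import Fermat.Agent.S37.Top
import Fermat.Agent.S37.RLayer
import Fermat.Agent.S37.Rho4
import Fermat.Agent.S37.Unfold
import Fermat.Agent.RR.RiemannFacts

/-!
# S37 / ES: the statement `Top.ESStmtAt` from the packages (abstract wiring)

`ES.of_facts`: for `E = F_N` (so `JZero N = Pic⁰(E)`), an additive map
`ρ : Div(E) →+ Div(κ)` to the divisor group of a function field `κ / k` and a reduction relation
`Red' : E → κ → Prop` such that

* `ρ (div f) = div x` whenever `Red' f x`, `x ≠ 0` (`hρ1`), `ρ` is positive of degree `n`,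
* reduction intertwines inertia with the identity and the Frobenius `σ₀` with `φ`
  (`hinert`, `hfrob`),
* the Hecke inputs hold and `N_α (β f)` reduces to `φ x · (φ⁻¹ x)^ℓ` (`hT`),
* a degree-zero divisor `D` with `ρ D = 0` and torsion class of order prime to `ℓ` is principal
  (`hR3`),

the subgroup `R = {[D] | ρ D = 0}` of `J₀(N)` satisfies the hypotheses of
`Top.ESStmtAt.of_subgroup`.
-/

set_option autoImplicit false
set_option synthInstance.maxHeartbeats 400000

noncomputable section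

namespace Fermat.Agent.S37.ES

open AlgebraicCurve ModularCurve Fermat.Agent.RR

variable {N : ℕ} [NeZero N] {ℓ : ℕ} [NeZero ℓ]
variable {k κ : Type*} [Field k] [Field κ] [Algebra k κ]

/-- The Hecke operator `T_ℓ` on `J₀(N)` is induced by the correspondence `α_* ∘ β^*`. -/
theorem heckeOperatorBar_mk (hℓ : ℓ.Prime)
    (hα : HeckeAlphaBarIntegral (AlgebraicClosure ℚ) N ℓ)
    (hβ : HeckeBetaBarIntegral (AlgebraicClosure ℚ) N ℓ)
    [HasPrincipalDivisors (AlgebraicClosure ℚ) (modularFunctionFieldBar (N * ℓ))]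
    (hFI : FundamentalIdentityAlong (AlgebraicClosure ℚ)
      (heckeBetaBar (AlgebraicClosure ℚ) N ℓ) hβ)
    (hfin : FiniteAlong (AlgebraicClosure ℚ) (heckeAlphaBar (AlgebraicClosure ℚ) N ℓ))
    (hN : NormFormulaAlong (AlgebraicClosure ℚ) (heckeAlphaBar (AlgebraicClosure ℚ) N ℓ) hfin)
    (D : Divisor.degZero (K := AlgebraicClosure ℚ) (F := modularFunctionFieldBar N)) :
    ∃ D' : Divisor.degZero (K := AlgebraicClosure ℚ) (F := modularFunctionFieldBar N),
      heckeOperatorBar N ⟨ℓ, hℓ⟩ (Pic0.mk D : JZero N) = Pic0.mk D' ∧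
      (D' : Divisor (AlgebraicClosure ℚ) (modularFunctionFieldBar N))
        = Divisor.correspondence (heckeBetaBar (AlgebraicClosure ℚ) N ℓ)
            (heckeAlphaBar (AlgebraicClosure ℚ) N ℓ) hβ hα
            (D : Divisor (AlgebraicClosure ℚ) (modularFunctionFieldBar N)) := by
  refine ⟨⟨Divisor.correspondence (heckeBetaBar (AlgebraicClosure ℚ) N ℓ)
      (heckeAlphaBar (AlgebraicClosure ℚ) N ℓ) hβ hα
      (D : Divisor (AlgebraicClosure ℚ) (modularFunctionFieldBar N)),
    Divisor.correspondence_mem_degZero _ _ hβ hα hFI D.2⟩, ?_, rfl⟩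
  rw [heckeOperatorBar_apply]
  have h := heckeOperatorAlong_eq (L := AlgebraicClosure ℚ) (N := N) (ℓ := ℓ) hα hβ hFI hfin hN
  show heckeOperatorAlong (AlgebraicClosure ℚ) N ℓ (Pic0.mk D) = _
  rw [h]
  rfl

/-- **The abstract wiring**: `Top.ESStmtAt` from the package facts. -/
theorem of_facts (hℓ : ℓ.Prime) (A : ValuationSubring (AlgebraicClosure ℚ))
    (σ₀ : AlgebraicClosure ℚ ≃ₐ[ℚ] AlgebraicClosure ℚ)
    -- Hecke inputs (PA)
    (hα : HeckeAlphaBarIntegral (AlgebraicClosure ℚ) N ℓ)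
    (hβ : HeckeBetaBarIntegral (AlgebraicClosure ℚ) N ℓ)
    [HasPrincipalDivisors (AlgebraicClosure ℚ) (modularFunctionFieldBar (N * ℓ))]
    (hFI : FundamentalIdentityAlong (AlgebraicClosure ℚ)
      (heckeBetaBar (AlgebraicClosure ℚ) N ℓ) hβ)
    (hfin : FiniteAlong (AlgebraicClosure ℚ) (heckeAlphaBar (AlgebraicClosure ℚ) N ℓ))
    (hN : NormFormulaAlong (AlgebraicClosure ℚ) (heckeAlphaBar (AlgebraicClosure ℚ) N ℓ) hfin)
    -- the function field `F_N`
    (hP : PlaceFacts (AlgebraicClosure ℚ) (modularFunctionFieldBar N))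
    (hdegκ : ∀ Q : Place k κ, Q.deg = 1)
    -- `ρ`, `φ`, the reduction relation
    (ρ : Divisor (AlgebraicClosure ℚ) (modularFunctionFieldBar N) →+ Divisor k κ)
    (φ : SemilinearAut k κ) (n : ℕ)
    (Red' : modularFunctionFieldBar N → κ → Prop)
    (hnorm : ∀ f : modularFunctionFieldBar N, f ≠ 0 → ∃ c : AlgebraicClosure ℚ, c ≠ 0 ∧
      ∃ x : κ, x ≠ 0 ∧ Red' (algebraMap (AlgebraicClosure ℚ) (modularFunctionFieldBar N) c * f) x)
    (hρ1 : ∀ (f : modularFunctionFieldBar N) (x : κ), Red' f x → x ≠ 0 →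
      ∀ D : Divisor (AlgebraicClosure ℚ) (modularFunctionFieldBar N),
        (∀ v : Place (AlgebraicClosure ℚ) (modularFunctionFieldBar N), D v = v.ord f) →
        ∀ Q : Place k κ, ρ D Q = Q.ord x)
    (hρ_nonneg : ∀ D : Divisor (AlgebraicClosure ℚ) (modularFunctionFieldBar N), 0 ≤ D → 0 ≤ ρ D)
    (hρ_deg : ∀ D : Divisor (AlgebraicClosure ℚ) (modularFunctionFieldBar N),
      Divisor.degree (ρ D) = (n : ℤ) * Divisor.degree D)
    -- inertia and Frobenius (PH)
    (hinert : ∀ τ ∈ A.inertiaSubgroupIn ℚ, ∀ (f : modularFunctionFieldBar N) (x : κ),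
      Red' f x → Red' (arithmeticGalois (modularFunctionFieldFull N) τ • f) x)
    (hfrob : ∀ (f : modularFunctionFieldBar N) (x : κ),
      Red' f x → Red' (arithmeticGalois (modularFunctionFieldFull N) σ₀ • f) (φ • x))
    -- Kronecker (PD + PE1)
    (hT : ∀ (f : modularFunctionFieldBar N) (x : κ), Red' f x → x ≠ 0 →
      ∃ g : modularFunctionFieldBar N, g ≠ 0 ∧
        (∀ W : Divisor (AlgebraicClosure ℚ) (modularFunctionFieldBar N),
          (∀ v : Place (AlgebraicClosure ℚ) (modularFunctionFieldBar N), W v = v.ord f) →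
          ∀ v : Place (AlgebraicClosure ℚ) (modularFunctionFieldBar N),
            Divisor.correspondence (heckeBetaBar (AlgebraicClosure ℚ) N ℓ)
              (heckeAlphaBar (AlgebraicClosure ℚ) N ℓ) hβ hα W v = v.ord g) ∧
        ∃ c : AlgebraicClosure ℚ, c ≠ 0 ∧
          Red' (algebraMap (AlgebraicClosure ℚ) (modularFunctionFieldBar N) c * g)
            (φ • x * (φ⁻¹ • x) ^ ℓ))
    -- torsion (PG)
    (hR3 : ∀ m : ℕ, ¬ ℓ ∣ m →
      ∀ D : Divisor.degZero (K := AlgebraicClosure ℚ) (F := modularFunctionFieldBar N),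
        m • (Pic0.mk D : JZero N) = 0 →
        ρ (D : Divisor (AlgebraicClosure ℚ) (modularFunctionFieldBar N)) = 0 →
        (Pic0.mk D : JZero N) = 0) :
    Top.ESStmtAt N ℓ hℓ A σ₀ := by
  have hR : RiemannFacts (AlgebraicClosure ℚ) (modularFunctionFieldBar N) :=
    riemannFacts_of_placeFacts hP
  -- `T` is positive and multiplies degrees by `d`
  have hT_nonneg : ∀ D : Divisor (AlgebraicClosure ℚ) (modularFunctionFieldBar N), 0 ≤ D →
      0 ≤ Divisor.correspondence (heckeBetaBar (AlgebraicClosure ℚ) N ℓ)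
        (heckeAlphaBar (AlgebraicClosure ℚ) N ℓ) hβ hα D :=
    fun D hD v => Unfold.correspondence_nonneg _ _ hβ hα D hD v
  have hT_deg : ∀ D : Divisor (AlgebraicClosure ℚ) (modularFunctionFieldBar N),
      Divisor.degree (Divisor.correspondence (heckeBetaBar (AlgebraicClosure ℚ) N ℓ)
        (heckeAlphaBar (AlgebraicClosure ℚ) N ℓ) hβ hα D)
        = ((finrankAlong (AlgebraicClosure ℚ) (heckeBetaBar (AlgebraicClosure ℚ) N ℓ) : ℕ) : ℤ)
          * Divisor.degree D :=
    fun D => Divisor.degree_correspondence _ _ hβ hα hFI D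
  refine Top.ESStmtAt.of_subgroup (RLayer.Rsub ρ) ?_ ?_ ?_
  · -- R1: inertia
    intro τ hτ x
    refine RLayer.smul_sub_mem ρ (arithmeticGalois (modularFunctionFieldFull N) τ) ?_ x
    intro D hD
    have h := Rho4.equivariant hP hR hdegκ ρ (arithmeticGalois (modularFunctionFieldFull N) τ)
      (1 : SemilinearAut k κ) n Red' hnorm hρ1
      (fun f x hfx => by rw [one_smul]; exact hinert τ hτ f x hfx) hρ_nonneg hρ_deg D hD
    rw [h, one_smul]
  · -- R4: the Eichler–Shimura relation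
    intro x
    refine RLayer.frob_rel_mem ρ (arithmeticGalois (modularFunctionFieldFull N) σ₀) φ ℓ
      (Divisor.correspondence (heckeBetaBar (AlgebraicClosure ℚ) N ℓ)
        (heckeAlphaBar (AlgebraicClosure ℚ) N ℓ) hβ hα)
      (fun y => heckeOperatorBar N ⟨ℓ, hℓ⟩ y)
      (fun D => heckeOperatorBar_mk hℓ hα hβ hFI hfin hN D) ?_ ?_ x
    · intro D hD
      exact Rho4.equivariant hP hR hdegκ ρ (arithmeticGalois (modularFunctionFieldFull N) σ₀)
        φ n Red' hnorm hρ1 hfrob hρ_nonneg hρ_deg D hD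
    · intro D hD
      exact Rho4.main hP hR hdegκ ρ _ φ ℓ n
        (finrankAlong (AlgebraicClosure ℚ) (heckeBetaBar (AlgebraicClosure ℚ) N ℓ)) Red'
        hnorm hρ1 hT hρ_nonneg hρ_deg hT_nonneg hT_deg D hD
  · -- R3: torsion
    rintro m hm x hmx ⟨D, rfl, hD⟩
    exact hR3 m hm D hmx hD

end Fermat.Agent.S37.ES

end
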