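import Mathlib
import Fermat.Agent.S37.Frob
import Fermat.Agent.S37.PullGal
import Fermat.Agent.S37.KappaAut

/-!
# S37 / EquivLvl : closed function-level equivariance at level `M`, restricted to `F_N`

For `F_N ≤ F_M` (`hle`), the relation `Red' f x := GaussA.Red A M (inclusion hle f) x` on
`F_N × κ_M` is

* invariant under inertia: `hequiv_inertia` (the `hequiv` of `RhoEquiv.main_one`,
  `g := arithmeticGalois (modularFunctionFieldFull N) τ`);
* equivariant for a Frobenius element `σ`, with the coefficientwise Frobenius `KappaAut.frobA` on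
  the `κ_M` side: `hequiv_frob` (the `hequiv` of `RhoEquiv.main`, `θb := KappaAut.frobA hℓ A hA M`).

Both are `Frob.red_inertia_iff` / `Frob.red_frobenius_iff` at level `M` transported along the
inclusion (`inclusion_smul`, from `PullGal.arithmeticGalois_intertwines`).
-/

set_option autoImplicit false
set_option synthInstance.maxHeartbeats 400000

noncomputable section

namespace Fermat.Agent.S37.EquivLvl

open AlgebraicCurve ModularCurve Fermat.Agent.S18

variable {N M : ℕ} (A : ValuationSubring (AlgebraicClosure ℚ))
  (hle : modularFunctionFieldBar N ≤ modularFunctionFieldBar M)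

/-- The inclusion `F_N → F_M` commutes with the arithmetic Galois action. -/
theorem inclusion_smul (σ : AlgebraicClosure ℚ ≃ₐ[ℚ] AlgebraicClosure ℚ)
    (f : modularFunctionFieldBar N) :
    IntermediateField.inclusion hle (arithmeticGalois (modularFunctionFieldFull N) σ • f)
      = arithmeticGalois (modularFunctionFieldFull M) σ • IntermediateField.inclusion hle f :=
  (PullGal.arithmeticGalois_intertwines hle σ f).symm

/-- **Inertia**: the level-`M` reduction relation restricted to `F_N` is invariant under the
inertia group of `A`. -/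
theorem hequiv_inertia {τ : AlgebraicClosure ℚ ≃ₐ[ℚ] AlgebraicClosure ℚ}
    (hτ : τ ∈ A.inertiaSubgroupIn ℚ) (f : modularFunctionFieldBar N)
    (x : GaussA.kappa (IsLocalRing.ResidueField A) M)
    (hfx : GaussA.Red A M (IntermediateField.inclusion hle f) x) :
    GaussA.Red A M
      (IntermediateField.inclusion hle (arithmeticGalois (modularFunctionFieldFull N) τ • f)) x := by
  rw [inclusion_smul]
  exact (Frob.red_inertia_iff A M hτ _ _).2 hfx

/-- **Frobenius**: the level-`M` reduction relation restricted to `F_N` intertwines a Frobenius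
element `σ` at `A` with the coefficientwise Frobenius `KappaAut.frobA` of `κ_M`. -/
theorem hequiv_frob {ℓ : ℕ} (hℓ : ℓ.Prime) (hA : A.LiesOverPrime ℓ)
    {σ : AlgebraicClosure ℚ ≃ₐ[ℚ] AlgebraicClosure ℚ} (hσ : A.IsFrobeniusAt σ ℓ)
    (f : modularFunctionFieldBar N) (x : GaussA.kappa (IsLocalRing.ResidueField A) M)
    (hfx : GaussA.Red A M (IntermediateField.inclusion hle f) x) :
    GaussA.Red A M
      (IntermediateField.inclusion hle (arithmeticGalois (modularFunctionFieldFull N) σ • f))
      (KappaAut.frobA hℓ A hA M • x) := by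
  rw [inclusion_smul]
  exact (Frob.red_frobenius_iff A M hℓ hA hσ _ _).2 hfx

/-- `hequiv_inertia` in the exact shape of the `hequiv` hypothesis of `RhoEquiv.main_one`. -/
theorem hequiv_inertia' {τ : AlgebraicClosure ℚ ≃ₐ[ℚ] AlgebraicClosure ℚ}
    (hτ : τ ∈ A.inertiaSubgroupIn ℚ) :
    ∀ (f : modularFunctionFieldBar N) (x : GaussA.kappa (IsLocalRing.ResidueField A) M),
      (fun f x => GaussA.Red A M (IntermediateField.inclusion hle f) x) f x → x ≠ 0 →
      (fun f x => GaussA.Red A M (IntermediateField.inclusion hle f) x)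
        (arithmeticGalois (modularFunctionFieldFull N) τ • f) x :=
  fun f x hfx _ => hequiv_inertia A hle hτ f x hfx

/-- `hequiv_frob` in the exact shape of the `hequiv` hypothesis of `RhoEquiv.main`. -/
theorem hequiv_frob' {ℓ : ℕ} (hℓ : ℓ.Prime) (hA : A.LiesOverPrime ℓ)
    {σ : AlgebraicClosure ℚ ≃ₐ[ℚ] AlgebraicClosure ℚ} (hσ : A.IsFrobeniusAt σ ℓ) :
    ∀ (f : modularFunctionFieldBar N) (x : GaussA.kappa (IsLocalRing.ResidueField A) M),
      (fun f x => GaussA.Red A M (IntermediateField.inclusion hle f) x) f x → x ≠ 0 →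
      (fun f x => GaussA.Red A M (IntermediateField.inclusion hle f) x)
        (arithmeticGalois (modularFunctionFieldFull N) σ • f) (KappaAut.frobA hℓ A hA M • x) :=
  fun f x hfx _ => hequiv_frob A hle hℓ hA hσ f x hfx

end Fermat.Agent.S37.EquivLvl

end
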