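import Mathlib
import Fermat.Agent.S37.Frob
import Fermat.Agent.S37.KappaAut

/-!
# S37 / PH, closed level instances (the `hinert` / `hfrob` hypotheses of `ES.of_facts`)

For `hle : F_N ≤ F_L` and `Red' f x := GaussA.Red A L (IntermediateField.inclusion hle f) x`:

* `FrobLvl.inclusion_smul` : the inclusion `F_N → F_L` commutes with the coefficientwise Galois
  action.
* `FrobLvl.red_incl_inertia` : `Red' f x → Red' (τ • f) x` for `τ` in the inertia group of `A`.
* `FrobLvl.red_incl_frobenius` : `Red' f x → Red' (σ • f) (frobA • x)` for a Frobenius `σ` at `A`.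
-/

set_option autoImplicit false
set_option synthInstance.maxHeartbeats 400000

noncomputable section

namespace Fermat.Agent.S37.FrobLvl

open ValuationSubring ModularCurve AlgebraicCurve Fermat.Agent.S18 Fermat.Agent.S37.Frob

variable {N L : ℕ}

/-- The inclusion `F_N → F_L` commutes with the coefficientwise Galois action. -/
theorem inclusion_smul (hle : modularFunctionFieldBar N ≤ modularFunctionFieldBar L)
    (σ : AlgebraicClosure ℚ ≃ₐ[ℚ] AlgebraicClosure ℚ) (f : modularFunctionFieldBar N) :
    IntermediateField.inclusion hle (arithmeticGalois (modularFunctionFieldFull N) σ • f)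
      = arithmeticGalois (modularFunctionFieldFull L) σ • IntermediateField.inclusion hle f := by
  apply Subtype.ext
  rw [IntermediateField.coe_inclusion, coe_arithmeticGalois_smul, coe_arithmeticGalois_smul,
    IntermediateField.coe_inclusion]

variable (A : ValuationSubring (AlgebraicClosure ℚ))

/-- **`hinert`**: inertia acts trivially through the level-`L` reduction restricted to `F_N`. -/
theorem red_incl_inertia (hle : modularFunctionFieldBar N ≤ modularFunctionFieldBar L) :
    ∀ τ ∈ A.inertiaSubgroupIn ℚ, ∀ (f : modularFunctionFieldBar N)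
      (x : GaussA.kappa (IsLocalRing.ResidueField A) L),
      GaussA.Red A L (IntermediateField.inclusion hle f) x →
        GaussA.Red A L
          (IntermediateField.inclusion hle (arithmeticGalois (modularFunctionFieldFull N) τ • f))
          x := by
  intro τ hτ f x h
  rw [inclusion_smul]
  exact (red_inertia_iff A L hτ _ x).2 h

/-- **`hfrob`**: a Frobenius element acts through the level-`L` reduction restricted to `F_N`
as the coefficientwise Frobenius `KappaAut.frobA`. -/
theorem red_incl_frobenius (hle : modularFunctionFieldBar N ≤ modularFunctionFieldBar L)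
    {ℓ : ℕ} (hℓ : ℓ.Prime) (hA : A.LiesOverPrime ℓ)
    {σ : AlgebraicClosure ℚ ≃ₐ[ℚ] AlgebraicClosure ℚ} (hσ : A.IsFrobeniusAt σ ℓ) :
    ∀ (f : modularFunctionFieldBar N) (x : GaussA.kappa (IsLocalRing.ResidueField A) L),
      GaussA.Red A L (IntermediateField.inclusion hle f) x →
        GaussA.Red A L
          (IntermediateField.inclusion hle (arithmeticGalois (modularFunctionFieldFull N) σ • f))
          (KappaAut.frobA hℓ A hA L • x) := by
  intro f x h
  rw [inclusion_smul]
  exact (red_frobenius_iff A L hℓ hA hσ _ x).2 h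

/-- Level-`L` versions without restriction (for completeness). -/
theorem red_inertia (τ : AlgebraicClosure ℚ ≃ₐ[ℚ] AlgebraicClosure ℚ)
    (hτ : τ ∈ A.inertiaSubgroupIn ℚ) (f : modularFunctionFieldBar L)
    (x : GaussA.kappa (IsLocalRing.ResidueField A) L) (h : GaussA.Red A L f x) :
    GaussA.Red A L (arithmeticGalois (modularFunctionFieldFull L) τ • f) x :=
  (red_inertia_iff A L hτ f x).2 h

theorem red_frobenius {ℓ : ℕ} (hℓ : ℓ.Prime) (hA : A.LiesOverPrime ℓ)
    {σ : AlgebraicClosure ℚ ≃ₐ[ℚ] AlgebraicClosure ℚ} (hσ : A.IsFrobeniusAt σ ℓ)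
    (f : modularFunctionFieldBar L) (x : GaussA.kappa (IsLocalRing.ResidueField A) L)
    (h : GaussA.Red A L f x) :
    GaussA.Red A L (arithmeticGalois (modularFunctionFieldFull L) σ • f)
      (KappaAut.frobA hℓ A hA L • x) :=
  (red_frobenius_iff A L hℓ hA hσ f x).2 h

end Fermat.Agent.S37.FrobLvl

end
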