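import Mathlib
import Fermat.Agent.S37.Defs
import Fermat.Agent.S37.Frob
import Fermat.Agent.S37.KappaAut

/-!
# S37 / PH: the three PH statements of `S37/Defs.lean`

* `FrobStmt.coeffFrobStmt` : `CoeffFrobStmt A ℓ L` (the coefficientwise Frobenius of `κ_L`
  exists: `KappaAut.frobA`).
* `FrobStmt.redInertiaStmt` : `RedInertiaStmt A L`.
* `FrobStmt.redFrobStmt` : `RedFrobStmt A ℓ L`.

The core is `FrobStmt.redQ_smul`: the relation `GaussQ.RedQ A L κ` is equivariant for the
decomposition group of `A` (coefficientwise action on `F_L`, induced automorphism of the residue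
field coefficientwise on `κ`).
-/

set_option autoImplicit false
set_option synthInstance.maxHeartbeats 400000

noncomputable section

namespace Fermat.Agent.S37.FrobStmt

open ValuationSubring ModularCurve AlgebraicCurve Fermat.Agent.S18 Fermat.Agent.S28.RedHyp
  Fermat.Agent.S37.Frob

variable (A : ValuationSubring (AlgebraicClosure ℚ)) (L : ℕ)

theorem genS_coeffMap_actA (g : A.decompositionSubgroup ℚ) (z : LaurentSeries A) :
    genS A (coeffMap (actA A g) z)
      = coeffMap (((g : AlgebraicClosure ℚ ≃ₐ[ℚ] AlgebraicClosure ℚ)) :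
          AlgebraicClosure ℚ →+* AlgebraicClosure ℚ) (genS A z) := by
  show coeffMap A.subtype (coeffMap (actA A g) z) = coeffMap _ (coeffMap A.subtype z)
  rw [coeffMap_coeffMap, coeffMap_coeffMap, subtype_comp_actA]

theorem redS_coeffMap_actA (g : A.decompositionSubgroup ℚ) (z : LaurentSeries A) :
    redS A (coeffMap (actA A g) z) = coeffMap (actRes A g) (redS A z) := by
  show coeffMap (IsLocalRing.residue A) (coeffMap (actA A g) z)
    = coeffMap _ (coeffMap (IsLocalRing.residue A) z)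
  rw [coeffMap_coeffMap, coeffMap_coeffMap, residue_comp_actA]

/-- **`RedQ` is equivariant for the decomposition group.** -/
theorem redQ_smul
    (κ : IntermediateField (IsLocalRing.ResidueField A)
      (LaurentSeries (IsLocalRing.ResidueField A)))
    (g : A.decompositionSubgroup ℚ) {f : modularFunctionFieldBar L} {x x' : κ}
    (hx' : (x' : LaurentSeries (IsLocalRing.ResidueField A))
      = coeffMap (actRes A g) (x : LaurentSeries (IsLocalRing.ResidueField A)))
    (h : GaussQ.RedQ A L κ f x) :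
    GaussQ.RedQ A L κ
      (arithmeticGalois (modularFunctionFieldFull L)
        ((g : AlgebraicClosure ℚ ≃ₐ[ℚ] AlgebraicClosure ℚ)) • f) x' := by
  obtain ⟨a, b, ha, hb, hb0, hf, hx⟩ := h
  refine ⟨coeffMap (actA A g) a, coeffMap (actA A g) b, ?_, ?_, ?_, ?_, ?_⟩
  · rw [genS_coeffMap_actA]
    exact coeffMap_mem_laurentBaseChange _ ha
  · rw [genS_coeffMap_actA]
    exact coeffMap_mem_laurentBaseChange _ hb
  · rw [redS_coeffMap_actA]
    intro h0
    apply hb0
    exact coeffMap_injective _ (actRes_injective A g) (by rw [h0, map_zero])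
  · rw [genS_coeffMap_actA, genS_coeffMap_actA, coe_arithmeticGalois_smul, ← map_mul, hf]
  · rw [redS_coeffMap_actA, redS_coeffMap_actA, hx', ← map_mul, hx]

/-- **PH (existence)**: the coefficientwise Frobenius of `κ_L` exists. -/
theorem coeffFrobStmt {ℓ : ℕ} (hℓ : ℓ.Prime) (hA : A.LiesOverPrime ℓ) :
    CoeffFrobStmt A ℓ L :=
  ⟨KappaAut.frobA hℓ A hA L, fun x n => KappaAut.coeff_frobA_smul hℓ A hA L x n⟩

/-- `KappaAut.frobA` is a coefficientwise Frobenius. -/
theorem isCoeffFrob_frobA {ℓ : ℕ} (hℓ : ℓ.Prime) (hA : A.LiesOverPrime ℓ) :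
    IsCoeffFrob A ℓ L (KappaAut.frobA hℓ A hA L) :=
  fun x n => KappaAut.coeff_frobA_smul hℓ A hA L x n

/-- **PH (inertia)**: `Red_L f x → Red_L (τ f) x` for `τ` in the inertia group of `A`. -/
theorem redInertiaStmt : RedInertiaStmt A L := by
  intro τ hτ f x h
  obtain ⟨hτD, hτx⟩ := (mem_inertiaSubgroupIn_iff A τ).1 hτ
  have h1 : actRes A ⟨τ, hτD⟩ = RingHom.id _ := RingHom.ext fun y => hτx y
  refine redQ_smul A L _ ⟨τ, hτD⟩ ?_ h
  rw [h1, coeffMap_id]

/-- **PH (Frobenius)**: `Red_L f x → Red_L (σ f) (φ x)` for `σ` a Frobenius at `A` and `φ` a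
coefficientwise Frobenius of `κ_L`. -/
theorem redFrobStmt (ℓ : ℕ) : RedFrobStmt A ℓ L := by
  intro σ hσ φ hφ f x h
  obtain ⟨hσD, hσx⟩ := hσ
  refine redQ_smul A L _ ⟨σ, hσD⟩ ?_ h
  ext n
  rw [hφ x n, coeffMap_coeff, actRes_apply, hσx]

end Fermat.Agent.S37.FrobStmt

end
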