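import Mathlib
import Fermat.Prelude.Def_AlgebraicCurve_Repartitions

/-!
# S37 / Generic : generic elements of a finite-dimensional space of functions

`k` an infinite field, `κ / k` a field, `Λ` a finite-dimensional `k`-subspace of `κ`, `T` a finite
set of places of `κ`.  A generic element `x` of `Λ` attains the minimal order of `Λ` at every place
of `T` simultaneously (`exists_attain`), and can moreover be chosen outside finitely many
subspaces not containing `Λ` (`exists_attain_avoid`).

The proof: for each place the elements of non-minimal order form a proper subspace, and a vector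
space over an infinite field is not a finite union of proper subspaces.
-/

set_option autoImplicit false

noncomputable section

namespace Fermat.Agent.S37.Generic

open AlgebraicCurve WithZero

variable {k κ : Type*} [Field k] [Field κ] [Algebra k κ]

/-- The `k`-subspace of functions `f` with `f = 0` or `-n ≤ ord_Q f`. -/
def ordGE (Q : Place k κ) (n : ℤ) : Submodule k κ where
  carrier := {f | Q.adicValuation f ≤ exp n}
  zero_mem' := by simp
  add_mem' := by
    intro f g hf hg
    show Q.adicValuation (f + g) ≤ exp n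
    exact (Valuation.map_add _ _ _).trans (max_le hf hg)
  smul_mem' := fun c f hf => by
    show Q.adicValuation (c • f) ≤ exp n
    rw [Algebra.smul_def, map_mul]
    exact (mul_le_of_le_one_left' (Q.adicValuation_algebraMap_le_one c)).trans hf

theorem mem_ordGE {Q : Place k κ} {n : ℤ} {f : κ} : f ∈ ordGE Q n ↔ f = 0 ∨ -n ≤ Q.ord f := by
  show Q.adicValuation f ≤ exp n ↔ _
  exact Q.adicValuation_le_exp_iff

theorem ordGE_mono (Q : Place k κ) {n n' : ℤ} (h : n ≤ n') : ordGE Q n ≤ ordGE Q n' := by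
  intro f hf
  rw [mem_ordGE] at hf ⊢
  rcases hf with hf | hf
  · exact Or.inl hf
  · exact Or.inr (by omega)

/-- A finite set of functions has bounded pole order at a place. -/
theorem exists_bound_finset (Q : Place k κ) (s : Finset κ) : ∃ n : ℤ, ∀ b ∈ s, b ∈ ordGE Q n := by
  classical
  induction s using Finset.induction_on with
  | empty => exact ⟨0, fun b hb => absurd hb (Finset.notMem_empty b)⟩
  | insert a s _ ih =>
    obtain ⟨n, hn⟩ := ih
    refine ⟨max n (-Q.ord a), fun b hb => ?_⟩
    rcases Finset.mem_insert.mp hb with rfl | hb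
    · rw [mem_ordGE]
      exact Or.inr (by rw [neg_le]; exact le_max_right _ _)
    · exact ordGE_mono Q (le_max_left _ _) (hn b hb)

/-- A finite-dimensional space of functions has bounded pole order at a place. -/
theorem exists_bound (Q : Place k κ) (Λ : Submodule k κ) [FiniteDimensional k Λ] :
    ∃ n : ℤ, Λ ≤ ordGE Q n := by
  obtain ⟨s, hs⟩ : Λ.FG := Module.Finite.iff_fg.mp inferInstance
  obtain ⟨n, hn⟩ := exists_bound_finset Q s
  refine ⟨n, ?_⟩
  rw [← hs]
  exact Submodule.span_le.mpr fun b hb => hn b hb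

/-- The minimal order of a nonzero finite-dimensional space of functions at a place. -/
theorem exists_min (Q : Place k κ) (Λ : Submodule k κ) [FiniteDimensional k Λ] (hΛ : Λ ≠ ⊥) :
    ∃ m : ℤ, (∃ y ∈ Λ, y ≠ 0 ∧ Q.ord y = m) ∧ ∀ y ∈ Λ, y ≠ 0 → m ≤ Q.ord y := by
  obtain ⟨n, hn⟩ := exists_bound Q Λ
  obtain ⟨y₀, hy₀, hy₀0⟩ := (Submodule.ne_bot_iff Λ).mp hΛ
  have hbdd : ∃ b : ℤ, ∀ z : ℤ, (∃ y ∈ Λ, y ≠ 0 ∧ Q.ord y = z) → b ≤ z := by
    refine ⟨-n, ?_⟩
    rintro z ⟨y, hy, hy0, rfl⟩
    exact (mem_ordGE.mp (hn hy)).resolve_left hy0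
  obtain ⟨m, hm, hmin⟩ := Int.exists_least_of_bdd hbdd ⟨Q.ord y₀, y₀, hy₀, hy₀0, rfl⟩
  exact ⟨m, hm, fun y hy hy0 => hmin _ ⟨y, hy, hy0, rfl⟩⟩

variable [Infinite k]

/-- **Generic elements.**  A generic element of a finite-dimensional space `Λ` of functions
attains the minimal order of `Λ` at each of finitely many places and avoids finitely many
subspaces not containing `Λ`. -/
theorem exists_attain_avoid (Λ : Submodule k κ) [FiniteDimensional k Λ]
    (T : Finset (Place k κ)) (W : Finset (Submodule k κ)) (hW : ∀ w ∈ W, ¬ Λ ≤ w) :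
    ∃ x ∈ Λ, (∀ w ∈ W, x ∉ w) ∧ ∀ Q ∈ T, ∀ y ∈ Λ, y ≠ 0 → Q.ord x ≤ Q.ord y := by
  classical
  by_cases hΛ : Λ = ⊥
  · refine ⟨0, Λ.zero_mem, fun w hw => ?_, fun Q _ y hy hy0 => ?_⟩
    · exact absurd (hΛ ▸ bot_le : Λ ≤ w) (hW w hw)
    · rw [hΛ, Submodule.mem_bot] at hy
      exact absurd hy hy0
  -- the minimal orders
  have hmin := fun Q : Place k κ => exists_min Q Λ hΛ
  choose m hm1 hm2 using hmin
  -- the proper subspaces to avoid
  set s : Finset (Subspace k Λ) :=
    T.image (fun Q => Submodule.comap Λ.subtype (ordGE Q (-(m Q + 1)))) ∪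
      W.image (fun w => Submodule.comap Λ.subtype w) with hs
  have htop : ⊤ ∉ s := by
    intro h
    rcases Finset.mem_union.mp h with h | h
    · obtain ⟨Q, -, hQ⟩ := Finset.mem_image.mp h
      obtain ⟨y, hy, hy0, hyo⟩ := hm1 Q
      have h1 : (⟨y, hy⟩ : Λ) ∈ Submodule.comap Λ.subtype (ordGE Q (-(m Q + 1))) := by
        rw [hQ]; exact Submodule.mem_top
      rw [Submodule.mem_comap, mem_ordGE] at h1
      rcases h1 with h1 | h1
      · exact hy0 h1
      · have h2 : m Q + 1 ≤ Q.ord y := by simpa using h1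
        omega
    · obtain ⟨w, hw, hwt⟩ := Finset.mem_image.mp h
      apply hW w hw
      intro y hy
      have h1 : (⟨y, hy⟩ : Λ) ∈ Submodule.comap Λ.subtype w := by
        rw [hwt]; exact Submodule.mem_top
      exact h1
  have hcov := Subspace.biUnion_ne_univ_of_top_notMem htop
  obtain ⟨x, hx⟩ : ∃ x : Λ, x ∉ ⋃ p ∈ s, (p : Set Λ) := by
    by_contra hall
    push Not at hall
    exact hcov (Set.eq_univ_of_forall hall)
  have hx' : ∀ p ∈ s, x ∉ p := by
    intro p hp hxp
    exact hx (Set.mem_biUnion hp hxp)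
  refine ⟨x, x.2, fun w hw hxw => ?_, fun Q hQ y hy hy0 => ?_⟩
  · exact hx' _ (Finset.mem_union_right _ (Finset.mem_image_of_mem _ hw)) hxw
  · have h1 := hx' _ (Finset.mem_union_left _ (Finset.mem_image_of_mem _ hQ))
    rw [Submodule.mem_comap, mem_ordGE] at h1
    push Not at h1
    have h2 : Q.ord (x : κ) < m Q + 1 := by simpa using h1.2
    have h3 := hm2 Q y hy hy0
    omega

/-- **Generic elements**: a nonzero element of `Λ ≠ ⊥` attaining the minimal order of `Λ` at
each of finitely many places. -/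
theorem exists_attain (Λ : Submodule k κ) [FiniteDimensional k Λ] (hΛ : Λ ≠ ⊥)
    (T : Finset (Place k κ)) :
    ∃ x ∈ Λ, x ≠ 0 ∧ ∀ Q ∈ T, ∀ y ∈ Λ, y ≠ 0 → Q.ord x ≤ Q.ord y := by
  classical
  obtain ⟨x, hx, hxW, hxT⟩ := exists_attain_avoid Λ T {⊥} (fun w hw => by
    rw [Finset.mem_singleton] at hw
    rw [hw, le_bot_iff]
    exact hΛ)
  refine ⟨x, hx, fun h0 => ?_, hxT⟩
  exact hxW ⊥ (Finset.mem_singleton_self _) (by rw [h0]; exact Submodule.zero_mem _)

end Fermat.Agent.S37.Generic

end
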