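import Mathlib
import Fermat.Prelude.Def_ModularCurve_HeckeModule
import Fermat.Agent.S37.HeckeFin
import Fermat.Agent.S37.FundId
import Fermat.Agent.S37.NormPlaces
import Fermat.Agent.S37.Unfold

/-!
# S37 / PA3 (second half): the Hecke inputs hold over `ℚ̄`

* `heckeInputsAlong N ℓ : HeckeInputsAlong ℚ̄ N ℓ` — hence the Prelude's `heckeOperatorAlong`
  (and `heckeOperatorBar`) is the genuine Hecke correspondence `α_* β^*`, not `0`.
* `fundamentalIdentityAlong_alpha/_beta`, `normFormulaAlong_alpha/_beta`.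
* `heckeDiv N ℓ : Div(F_N) →+ Div(F_N)` := `Divisor.correspondence β α` with the instances of
  `HeckeFin`; `heckeDiv_nonneg`, `degree_heckeDiv`, `heckeDiv_div` (`T_ℓ (div f) = div N_α(β f)`),
  `heckeDiv_mem_degZero`.
* `heckeOperatorAlong_mk`, `heckeOperatorBar_mk`, `heckeOperatorBar_mk'`:
  `T_ℓ [D] = [heckeDiv N ℓ D]` on `J₀(N)` in closed form.
-/

set_option autoImplicit false
set_option linter.style.haveILetI false

namespace Fermat.Agent.S37.HeckeInputs

open AlgebraicCurve IntermediateField ModularCurve Fermat.Agent.S37.HeckeFin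

local notation "Qb" => AlgebraicClosure ℚ

section Inputs

variable (N ℓ : ℕ) [NeZero N] [NeZero ℓ]

/-- The fundamental identity along `β`. -/
theorem fundamentalIdentityAlong_beta :
    haveI := hasPrincipalDivisors (N * ℓ)
    FundamentalIdentityAlong Qb (heckeBetaBar Qb N ℓ) (betaIntegral N ℓ) :=
  haveI := hasPrincipalDivisors (N * ℓ)
  Fermat.Agent.S37.FundId.fundamentalIdentityAlong _ (betaIntegral N ℓ) (placeFacts N)
    (placeFacts (N * ℓ))

/-- The fundamental identity along `α`. -/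
theorem fundamentalIdentityAlong_alpha :
    haveI := hasPrincipalDivisors (N * ℓ)
    FundamentalIdentityAlong Qb (heckeAlphaBar Qb N ℓ) (alphaIntegral N ℓ) :=
  haveI := hasPrincipalDivisors (N * ℓ)
  Fermat.Agent.S37.FundId.fundamentalIdentityAlong _ (alphaIntegral N ℓ) (placeFacts N)
    (placeFacts (N * ℓ))

/-- The norm formula along `α`. -/
theorem normFormulaAlong_alpha :
    NormFormulaAlong Qb (heckeAlphaBar Qb N ℓ) (finiteAlong_alpha N ℓ) :=
  haveI := hasPrincipalDivisors (N * ℓ)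
  Fermat.Agent.S37.NormPlaces.normFormulaAlong_of_charZero _ (alphaIntegral N ℓ)
    (finiteAlong_alpha N ℓ) (fundamentalIdentityAlong_alpha N ℓ) (placeFacts N).hdeg
    (placeFacts (N * ℓ)).hdeg

/-- The norm formula along `β`. -/
theorem normFormulaAlong_beta :
    NormFormulaAlong Qb (heckeBetaBar Qb N ℓ) (finiteAlong_beta N ℓ) :=
  haveI := hasPrincipalDivisors (N * ℓ)
  Fermat.Agent.S37.NormPlaces.normFormulaAlong_of_charZero _ (betaIntegral N ℓ)
    (finiteAlong_beta N ℓ) (fundamentalIdentityAlong_beta N ℓ) (placeFacts N).hdeg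
    (placeFacts (N * ℓ)).hdeg

/-- **PA**: the Hecke inputs at `ℓ` hold over `ℚ̄`, so that the Prelude's `heckeOperatorAlong`
is the genuine Hecke correspondence `α_* β^*` (and not `0`). -/
theorem heckeInputsAlong : HeckeInputsAlong Qb N ℓ :=
  haveI := hasPrincipalDivisors (N * ℓ)
  heckeInputsAlong_intro (alphaIntegral N ℓ) (betaIntegral N ℓ)
    (fundamentalIdentityAlong_beta N ℓ) (finiteAlong_alpha N ℓ) (normFormulaAlong_alpha N ℓ)

/-- `heckeOperatorAlong` is the correspondence `α_* β^*` on `Pic⁰`. -/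
theorem heckeOperatorAlong_eq' :
    haveI := hasPrincipalDivisors (N * ℓ)
    heckeOperatorAlong Qb N ℓ = heckePic0Bar (alphaIntegral N ℓ) (betaIntegral N ℓ)
      (fundamentalIdentityAlong_beta N ℓ) (finiteAlong_alpha N ℓ) (normFormulaAlong_alpha N ℓ) :=
  haveI := hasPrincipalDivisors (N * ℓ)
  heckeOperatorAlong_eq _ _ _ _ _

/-- `heckeOperatorAlong` on the class of a degree-zero divisor. -/
theorem heckeOperatorAlong_mk
    (D : Divisor.degZero (K := Qb) (F := modularFunctionFieldBar N)) :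
    haveI := hasPrincipalDivisors (N * ℓ)
    heckeOperatorAlong Qb N ℓ (Pic0.mk D)
      = Pic0.mk ⟨Divisor.correspondence (heckeBetaBar Qb N ℓ) (heckeAlphaBar Qb N ℓ)
          (betaIntegral N ℓ) (alphaIntegral N ℓ) (D : Divisor Qb (modularFunctionFieldBar N)),
        Divisor.correspondence_mem_degZero _ _ (betaIntegral N ℓ) (alphaIntegral N ℓ)
          (fundamentalIdentityAlong_beta N ℓ) D.2⟩ := by
  haveI := hasPrincipalDivisors (N * ℓ)
  rw [heckeOperatorAlong_eq' N ℓ]
  rfl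

/-- The Hecke correspondence `T_ℓ = α_* β^*` on divisors of `F_N` (closed form, with the
instances of `HeckeFin`). -/
noncomputable def heckeDiv :
    Divisor Qb (modularFunctionFieldBar N) →+ Divisor Qb (modularFunctionFieldBar N) :=
  haveI := hasPrincipalDivisors (N * ℓ)
  Divisor.correspondence (heckeBetaBar Qb N ℓ) (heckeAlphaBar Qb N ℓ)
    (betaIntegral N ℓ) (alphaIntegral N ℓ)

theorem heckeDiv_eq :
    haveI := hasPrincipalDivisors (N * ℓ)
    heckeDiv N ℓ = Divisor.correspondence (heckeBetaBar Qb N ℓ) (heckeAlphaBar Qb N ℓ)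
      (betaIntegral N ℓ) (alphaIntegral N ℓ) := rfl

/-- `heckeDiv` is the Prelude's `heckeDivBar` (for the instances of `HeckeFin`). -/
theorem heckeDiv_eq_heckeDivBar :
    haveI := hasPrincipalDivisors (N * ℓ)
    heckeDiv N ℓ = heckeDivBar (alphaIntegral N ℓ) (betaIntegral N ℓ) := rfl

/-- `T_ℓ` of an effective divisor is effective. -/
theorem heckeDiv_nonneg (D : Divisor Qb (modularFunctionFieldBar N)) (hD : ∀ v, 0 ≤ D v)
    (v : Place Qb (modularFunctionFieldBar N)) : 0 ≤ heckeDiv N ℓ D v :=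
  haveI := hasPrincipalDivisors (N * ℓ)
  Fermat.Agent.S37.Unfold.correspondence_nonneg _ _ (betaIntegral N ℓ) (alphaIntegral N ℓ) D hD v

/-- `deg (T_ℓ D) = [F_{Nℓ} : β F_N] · deg D`. -/
theorem degree_heckeDiv (D : Divisor Qb (modularFunctionFieldBar N)) :
    Divisor.degree (heckeDiv N ℓ D)
      = (finrankAlong Qb (heckeBetaBar Qb N ℓ) : ℤ) * Divisor.degree D :=
  haveI := hasPrincipalDivisors (N * ℓ)
  Divisor.degree_correspondence _ _ (betaIntegral N ℓ) (alphaIntegral N ℓ)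
    (fundamentalIdentityAlong_beta N ℓ) D

/-- `T_ℓ (div f) = div (N_α (β f))`. -/
theorem heckeDiv_div {f : modularFunctionFieldBar N} (hf : f ≠ 0)
    {D : Divisor Qb (modularFunctionFieldBar N)} (hD : ∀ v, D v = v.ord f)
    (v : Place Qb (modularFunctionFieldBar N)) :
    heckeDiv N ℓ D v
      = v.ord ((letI := algebraAlong (heckeAlphaBar Qb N ℓ);
          Algebra.norm (modularFunctionFieldBar N) (heckeBetaBar Qb N ℓ f))) :=
  haveI := hasPrincipalDivisors (N * ℓ)
  Fermat.Agent.S37.Unfold.correspondence_apply_of_div _ _ (betaIntegral N ℓ) (alphaIntegral N ℓ)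
    (finiteAlong_alpha N ℓ) (normFormulaAlong_alpha N ℓ) hf hD v

/-- `T_ℓ` preserves degree-zero divisors. -/
theorem heckeDiv_mem_degZero {D : Divisor Qb (modularFunctionFieldBar N)}
    (hD : D ∈ Divisor.degZero (K := Qb) (F := modularFunctionFieldBar N)) :
    heckeDiv N ℓ D ∈ Divisor.degZero (K := Qb) (F := modularFunctionFieldBar N) :=
  haveI := hasPrincipalDivisors (N * ℓ)
  Divisor.correspondence_mem_degZero _ _ (betaIntegral N ℓ) (alphaIntegral N ℓ)
    (fundamentalIdentityAlong_beta N ℓ) hD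

end Inputs

section Bar

variable (N : ℕ) [NeZero N]

/-- **`T_ℓ` on `J₀(N)`**: `heckeOperatorBar N ℓ [D] = [heckeDiv N ℓ D]`. -/
theorem heckeOperatorBar_mk' (ℓ : ℕ) (hℓ : ℓ.Prime)
    (D : Divisor.degZero (K := Qb) (F := modularFunctionFieldBar N)) :
    haveI : NeZero ℓ := ⟨hℓ.ne_zero⟩
    heckeOperatorBar N (⟨ℓ, hℓ⟩ : Nat.Primes) (Pic0.mk D : JZero N)
      = Pic0.mk ⟨heckeDiv N ℓ (D : Divisor Qb (modularFunctionFieldBar N)),
          heckeDiv_mem_degZero N ℓ D.2⟩ := by
  haveI : NeZero ℓ := ⟨hℓ.ne_zero⟩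
  exact heckeOperatorAlong_mk N ℓ D

/-- **`T_ℓ` on `J₀(N)` in closed form**: `heckeOperatorBar N ℓ [D] = [α_* β^* D]`. -/
theorem heckeOperatorBar_mk (ℓ : ℕ) (hℓ : ℓ.Prime)
    (D : Divisor.degZero (K := Qb) (F := modularFunctionFieldBar N)) :
    haveI : NeZero ℓ := ⟨hℓ.ne_zero⟩
    haveI := hasPrincipalDivisors (N * ℓ)
    heckeOperatorBar N (⟨ℓ, hℓ⟩ : Nat.Primes) (Pic0.mk D : JZero N)
      = Pic0.mk ⟨Divisor.correspondence (heckeBetaBar Qb N ℓ) (heckeAlphaBar Qb N ℓ)
          (betaIntegral N ℓ) (alphaIntegral N ℓ) (D : Divisor Qb (modularFunctionFieldBar N)),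
        Divisor.correspondence_mem_degZero _ _ (betaIntegral N ℓ) (alphaIntegral N ℓ)
          (fundamentalIdentityAlong_beta N ℓ) D.2⟩ := by
  haveI : NeZero ℓ := ⟨hℓ.ne_zero⟩
  exact heckeOperatorAlong_mk N ℓ D

/-- The shape `hTp` of `RLayer.frob_rel_mem`: `heckeOperatorBar N ℓ` is induced by
`heckeDiv N ℓ` on degree-zero divisors. -/
theorem heckeOperatorBar_exists (ℓ : ℕ) (hℓ : ℓ.Prime)
    (D : Divisor.degZero (K := Qb) (F := modularFunctionFieldBar N)) :
    haveI : NeZero ℓ := ⟨hℓ.ne_zero⟩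
    ∃ D' : Divisor.degZero (K := Qb) (F := modularFunctionFieldBar N),
      heckeOperatorBar N (⟨ℓ, hℓ⟩ : Nat.Primes) (Pic0.mk D : JZero N) = Pic0.mk D' ∧
        (D' : Divisor Qb (modularFunctionFieldBar N))
          = heckeDiv N ℓ (D : Divisor Qb (modularFunctionFieldBar N)) := by
  haveI : NeZero ℓ := ⟨hℓ.ne_zero⟩
  exact ⟨⟨heckeDiv N ℓ (D : Divisor Qb (modularFunctionFieldBar N)),
    heckeDiv_mem_degZero N ℓ D.2⟩, heckeOperatorBar_mk' N ℓ hℓ D, rfl⟩

end Bar

end Fermat.Agent.S37.HeckeInputs
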