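import Mathlib
import Fermat.Prelude.Def_ModularCurve_HeckeOperator
import Fermat.Agent.S18.Defs
import Fermat.Agent.S18.Descent
import Fermat.Agent.S24.LsTwist

/-!
# S37 / KronRed: the Kronecker congruence for norms of functions (wiring of PE1)

`K = ℚ̄`, `A` a valuation subring of `K`, `k` its residue field, `F_N = modularFunctionFieldBar N`,
`α, β : F_N → F_{Nℓ}` the two degeneracy maps (`α` the inclusion, `β f = f(q^ℓ)`), the norm taken
along `α`.

Inputs (hypotheses of the theorems of this file):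

* `NormShape N ℓ ζ` : the conjugates formula (package PD)
  `N_α(β f)(s^ℓ) = f(s^{ℓ²}) · ∏_{i<ℓ} f(ζ^i s)`;
* `KronShape A ℓ ζ Φ` : the formal Kronecker congruence for series (package `KronSeries`):
  if `G(s^ℓ) = ∏_{i<ℓ} V(ζ^i s)` with `V ∈ A((q))`, then `V(q^ℓ) · G` is an integral series with
  reduction `V̄(q^ℓ) · Φ(V̄)` (`Φ` = coefficientwise Frobenius).

Outputs: `norm_integral` (the norm of an integral series of `F_N` is an integral series with
reduction `V̄(q^ℓ) · Φ(V̄)`) and `main` (quotient form for every `f ∈ F_N`).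
-/

set_option autoImplicit false
set_option synthInstance.maxHeartbeats 400000

noncomputable section

namespace Fermat.Agent.S37.KronRed

open AlgebraicCurve ModularCurve Fermat.Agent.S18 Fermat.Agent.S24

local notation "Kb" => AlgebraicClosure ℚ

/-- The norm of `β f` along `α : F_N → F_{Nℓ}`, as an element of `F_N`. -/
def normBeta (N ℓ : ℕ) [NeZero N] [NeZero ℓ] (f : modularFunctionFieldBar N) :
    modularFunctionFieldBar N :=
  letI := algebraAlong (heckeAlphaBar Kb N ℓ)
  Algebra.norm (modularFunctionFieldBar N) (heckeBetaBar Kb N ℓ f)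

theorem normBeta_def (N ℓ : ℕ) [NeZero N] [NeZero ℓ] (f : modularFunctionFieldBar N) :
    normBeta N ℓ f =
      (letI := algebraAlong (heckeAlphaBar Kb N ℓ)
       Algebra.norm (modularFunctionFieldBar N) (heckeBetaBar Kb N ℓ f)) := rfl

theorem normBeta_mul (N ℓ : ℕ) [NeZero N] [NeZero ℓ] (f g : modularFunctionFieldBar N) :
    normBeta N ℓ (f * g) = normBeta N ℓ f * normBeta N ℓ g := by
  unfold normBeta
  rw [map_mul, map_mul]

theorem normBeta_zero (N ℓ : ℕ) [NeZero N] [NeZero ℓ]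
    (hfin : FiniteAlong Kb (heckeAlphaBar Kb N ℓ)) :
    normBeta N ℓ 0 = 0 := by
  unfold normBeta
  letI := algebraAlong (heckeAlphaBar Kb N ℓ)
  haveI : Module.Finite (modularFunctionFieldBar N) (modularFunctionFieldBar (N * ℓ)) := hfin
  rw [map_zero]
  exact Algebra.norm_zero

/-- The conjugates formula in its natural shape (image of the norm under `ι = (q ↦ s^ℓ)` is the
product over the `ℓ + 1` embeddings). -/
def NormShape (N ℓ : ℕ) [NeZero N] [NeZero ℓ] (ζ : Kb) (hζ : ζ ≠ 0) : Prop :=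
  ∀ f : modularFunctionFieldBar N,
    qExpand Kb ℓ ((normBeta N ℓ f : modularFunctionFieldBar N) : LaurentSeries Kb) =
      qExpand Kb ℓ (qExpand Kb ℓ (f : LaurentSeries Kb)) *
        ∏ i ∈ Finset.range ℓ, lsTwist (ζ ^ i) (pow_ne_zero i hζ) (f : LaurentSeries Kb)

/-- The conjugates formula in the `G`-shape. -/
def NormShapeG (N ℓ : ℕ) [NeZero N] [NeZero ℓ] (ζ : Kb) (hζ : ζ ≠ 0) : Prop :=
  ∀ f : modularFunctionFieldBar N, ∃ G : LaurentSeries Kb,
    qExpand Kb ℓ G =
      ∏ i ∈ Finset.range ℓ, lsTwist (ζ ^ i) (pow_ne_zero i hζ) (f : LaurentSeries Kb) ∧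
    ((normBeta N ℓ f : modularFunctionFieldBar N) : LaurentSeries Kb) =
      qExpand Kb ℓ (f : LaurentSeries Kb) * G

theorem qExpand_injective (R : Type*) [CommRing R] (n : ℕ) [NeZero n] :
    Function.Injective (qExpand R n) := by
  intro x y h
  ext m
  have := congrArg (fun z => z.coeff ((n : ℤ) * m)) h
  simpa [qExpand_coeff_mul] using this

/-- From the natural shape to the `G`-shape. -/
theorem normShapeG_of_normShape {N ℓ : ℕ} [NeZero N] [NeZero ℓ] {ζ : Kb} {hζ : ζ ≠ 0}
    (h : NormShape N ℓ ζ hζ) : NormShapeG N ℓ ζ hζ := by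
  intro f
  by_cases hf : (f : LaurentSeries Kb) = 0
  · have hℓ : 0 < ℓ := Nat.pos_of_ne_zero (NeZero.ne ℓ)
    have hprod : ∏ i ∈ Finset.range ℓ, lsTwist (ζ ^ i) (pow_ne_zero i hζ) (f : LaurentSeries Kb)
        = 0 := by
      apply Finset.prod_eq_zero (Finset.mem_range.mpr hℓ)
      rw [hf, map_zero]
    have hn := h f
    rw [hprod, mul_zero] at hn
    have hn0 : ((normBeta N ℓ f : modularFunctionFieldBar N) : LaurentSeries Kb) = 0 :=
      qExpand_injective Kb ℓ (by rw [hn, map_zero])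
    refine ⟨0, ?_, ?_⟩
    · rw [map_zero, hprod]
    · rw [hn0, mul_zero]
  · have hq : qExpand Kb ℓ (f : LaurentSeries Kb) ≠ 0 := fun h0 =>
      hf (qExpand_injective Kb ℓ (by rw [h0, map_zero]))
    refine ⟨((normBeta N ℓ f : modularFunctionFieldBar N) : LaurentSeries Kb) /
      qExpand Kb ℓ (f : LaurentSeries Kb), ?_, ?_⟩
    · have hqq : qExpand Kb ℓ (qExpand Kb ℓ (f : LaurentSeries Kb)) ≠ 0 := fun h0 =>
        hq (qExpand_injective Kb ℓ (by rw [h0, map_zero]))
      rw [map_div₀, h f, mul_div_assoc, mul_comm, div_mul_cancel₀ _ hqq]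
    · rw [mul_div_cancel₀ _ hq]

section Kron

variable (A : ValuationSubring Kb)

/-- The formal Kronecker congruence for series (the statement of `KronSeries.kron_norm`), for a
ring endomorphism `Φ` of `k((q))` (the coefficientwise Frobenius). -/
def KronShape (ℓ : ℕ) [NeZero ℓ] (ζ : Kb) (hζ : ζ ≠ 0)
    (Φ : LaurentSeries (IsLocalRing.ResidueField A) →+* LaurentSeries (IsLocalRing.ResidueField A)) :
    Prop :=
  ∀ (V : LaurentSeries A) (G : LaurentSeries Kb),
    qExpand Kb ℓ G = ∏ i ∈ Finset.range ℓ, lsTwist (ζ ^ i) (pow_ne_zero i hζ) (genS A V) →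
    ∃ W : LaurentSeries A, genS A W = qExpand Kb ℓ (genS A V) * G ∧
      redS A W = qExpand (IsLocalRing.ResidueField A) ℓ (redS A V) * Φ (redS A V)

variable {A}
variable {N ℓ : ℕ} [NeZero N] [NeZero ℓ] {ζ : Kb} {hζ : ζ ≠ 0}
  {Φ : LaurentSeries (IsLocalRing.ResidueField A) →+* LaurentSeries (IsLocalRing.ResidueField A)}

/-- **The norm of an integral series.**  For `V ∈ A((q))` in `F_N`, the norm of `β V` along `α`
is an integral series, with reduction `V̄(q^ℓ) · Φ(V̄)`. -/
theorem norm_integral (hPD : NormShapeG N ℓ ζ hζ) (hK : KronShape A ℓ ζ hζ Φ)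
    (V : LaurentSeries A) (hV : genS A V ∈ modularFunctionFieldBar N) :
    ∃ W : LaurentSeries A,
      ((normBeta N ℓ ⟨genS A V, hV⟩ : modularFunctionFieldBar N) : LaurentSeries Kb) = genS A W ∧
      redS A W = qExpand (IsLocalRing.ResidueField A) ℓ (redS A V) * Φ (redS A V) := by
  obtain ⟨G, hG, hnorm⟩ := hPD ⟨genS A V, hV⟩
  obtain ⟨W, hW, hred⟩ := hK V G hG
  exact ⟨W, by rw [hnorm, hW], hred⟩

/-- **Quotient form.**  If `f ∈ F_N` is a quotient `a / b` of integral series of `F_N` with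
`b̄ ≠ 0` and `x = ā / b̄`, then `N_α(β f)` is a quotient `a' / b'` of integral series of `F_N`
with `b̄' ≠ 0` and `x(q^ℓ) · Φ(x) = ā' / b̄'`. -/
theorem main (hPD : NormShapeG N ℓ ζ hζ) (hK : KronShape A ℓ ζ hζ Φ)
    (hΦ : Function.Injective Φ)
    (f : modularFunctionFieldBar N) (x : LaurentSeries (IsLocalRing.ResidueField A))
    (a b : LaurentSeries A) (ha : genS A a ∈ modularFunctionFieldBar N)
    (hb : genS A b ∈ modularFunctionFieldBar N) (hb0 : redS A b ≠ 0)
    (hf : (f : LaurentSeries Kb) * genS A b = genS A a)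
    (hx : x * redS A b = redS A a) :
    ∃ a' b' : LaurentSeries A, genS A a' ∈ modularFunctionFieldBar N ∧
      genS A b' ∈ modularFunctionFieldBar N ∧ redS A b' ≠ 0 ∧
      ((normBeta N ℓ f : modularFunctionFieldBar N) : LaurentSeries Kb) * genS A b' = genS A a' ∧
      (qExpand (IsLocalRing.ResidueField A) ℓ x * Φ x) * redS A b' = redS A a' := by
  obtain ⟨a', ha', hra'⟩ := norm_integral hPD hK a ha
  obtain ⟨b', hb', hrb'⟩ := norm_integral hPD hK b hb
  refine ⟨a', b', ?_, ?_, ?_, ?_, ?_⟩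
  · rw [← ha']; exact SetLike.coe_mem _
  · rw [← hb']; exact SetLike.coe_mem _
  · rw [hrb']
    refine mul_ne_zero ?_ ?_
    · intro h0
      exact hb0 (qExpand_injective _ ℓ (by rw [h0, map_zero]))
    · intro h0
      exact hb0 (hΦ (by rw [h0, map_zero]))
  · have hmul : f * (⟨genS A b, hb⟩ : modularFunctionFieldBar N) = ⟨genS A a, ha⟩ :=
      Subtype.ext hf
    have h1 := normBeta_mul N ℓ f ⟨genS A b, hb⟩
    rw [hmul] at h1
    have h2 := congrArg (fun z : modularFunctionFieldBar N => (z : LaurentSeries Kb)) h1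
    simp only [MulMemClass.coe_mul] at h2
    rw [← hb', ← ha', h2]
  · rw [hra', hrb', ← hx, map_mul, map_mul]
    ring

end Kron

end Fermat.Agent.S37.KronRed

end
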