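import Mathlib
import Fermat.Agent.S18.CoreDefs
import Fermat.Agent.S18.Defs
import Fermat.Agent.S18.LatticeBridge
import Fermat.Agent.S18.GaussAMain

/-!
# S37 / RhoTower : Gauss-integral functions of `F_N` are quotients of integral series of `F_N`

`ℓ ∤ N`, `A` a valuation subring of `K = ℚ̄` over `ℓ`, `k` its residue field.

* `exists_integral_quot` (level `N` only): every `f ∈ F_N` is `c⁻¹ · a / b` with `a, b ∈ A((q))`
  integral series of `F_N` with nonzero coefficientwise reductions;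
* `exists_integral_rep` : for ANY reduction relation `Red` at a level `M` with `F_N ≤ F_M`
  (`RedFacts` + the `hint` of `Bridge.main`): if `f ∈ F_N` and `Red f x`, then `f = V₁ / V₂`,
  `x = V̄₁ / V̄₂` with `V₁, V₂ ∈ A((q))` integral series of `F_N`, `V̄₂ ≠ 0`;
* `red_mem_kappa` : consequently `x ∈ kappa k N` (reductions of `F_N` at level `M` lie in `κ_N`).
-/

set_option autoImplicit false
set_option synthInstance.maxHeartbeats 400000

namespace Fermat.Agent.S37.RhoTower

open Polynomial ModularCurve Fermat.Agent.S28.Chart Fermat.Agent.S28.RedHyp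
open Fermat.Agent.S18 Fermat.Agent.S18.GaussA

section Abstract

variable {K : Type*} [Field K] {A : ValuationSubring K} {j u : LaurentSeries A} {P : A[X][X]}
  {F : IntermediateField K (LaurentSeries K)}
  {κ : IntermediateField (IsLocalRing.ResidueField A) (LaurentSeries (IsLocalRing.ResidueField A))}

theorem toK_ev1_mem (H : FHyp A j u P F κ) (g : A[X]) :
    coeffMap A.subtype (ev1 HahnSeries.C j g) ∈ F := by
  rw [coeffMap_ev1]
  have h := coe_ev1 F (⟨coeffMap A.subtype j, H.hj⟩ : F) (g.map A.subtype)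
  rw [← h]
  exact Subtype.property _

theorem toK_ev2_mem (H : FHyp A j u P F κ) (G : A[X][X]) :
    coeffMap A.subtype (ev2 HahnSeries.C j u G) ∈ F := by
  rw [coeffMap_ev2]
  have h := coe_ev2 F (⟨coeffMap A.subtype j, H.hj⟩ : F) (⟨coeffMap A.subtype u, H.hu⟩ : F)
    (G.map (mapRingHom A.subtype))
  rw [← h]
  exact Subtype.property _

/-- Every nonzero element of `F` is, up to a nonzero constant, a quotient of two integral series
of `F` with nonzero reductions. -/
theorem exists_integral_quot_of_fhyp (H : FHyp A j u P F κ) {f : LaurentSeries K} (hf : f ∈ F)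
    (hf0 : f ≠ 0) :
    ∃ (c : K) (a b : LaurentSeries A), c ≠ 0 ∧ coeffMap A.subtype a ∈ F ∧
      coeffMap A.subtype b ∈ F ∧ coeffMap (IsLocalRing.residue A) a ≠ 0 ∧
      coeffMap (IsLocalRing.residue A) b ≠ 0 ∧
      coeffMap A.subtype b * (HahnSeries.C c * f) = coeffMap A.subtype a := by
  obtain ⟨g, Q, hg, hdeg, hx⟩ := H.hrep f hf
  obtain ⟨c, hc, y, hy, g₀, r, hg₀, hK, hk⟩ := H.ghyp.normalize hf0 hg hdeg hx
  have hb := H.ghyp.tok_ev1_ne_zero hg₀
  refine ⟨c, ev2 HahnSeries.C j u r, ev1 HahnSeries.C j g₀, hc, toK_ev2_mem H r,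
    toK_ev1_mem H g₀, ?_, hb, hK⟩
  rw [← hk]
  exact mul_ne_zero hb hy

end Abstract

section Level

variable {ℓ N : ℕ} [NeZero N]

/-- **Level `N`.** Every nonzero `f ∈ F_N` is `c⁻¹ · a / b` with `a, b` integral series of `F_N`
with nonzero reductions. -/
theorem exists_integral_quot (hℓ : ℓ.Prime) (hℓN : ¬ ℓ ∣ N)
    (A : ValuationSubring (AlgebraicClosure ℚ)) (hA : A.LiesOverPrime ℓ)
    {f : LaurentSeries (AlgebraicClosure ℚ)} (hf : f ∈ modularFunctionFieldBar N) (hf0 : f ≠ 0) :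
    ∃ (c : AlgebraicClosure ℚ) (a b : LaurentSeries A), c ≠ 0 ∧
      genS A a ∈ modularFunctionFieldBar N ∧ genS A b ∈ modularFunctionFieldBar N ∧
      redS A a ≠ 0 ∧ redS A b ≠ 0 ∧ genS A b * (HahnSeries.C c * f) = genS A a := by
  obtain ⟨P, H⟩ := GaussA.exists_fhyp hℓ hℓN A hA
  exact exists_integral_quot_of_fhyp H hf hf0

variable {M : ℕ}

/-- Uniqueness step: a representation `f · V₂ = V₁` by integral series of `F_M` is respected by
any reduction relation at level `M` satisfying `RedFacts` and the `hint`. -/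
theorem red_mul_eq (A : ValuationSubring (AlgebraicClosure ℚ))
    (κ : IntermediateField (IsLocalRing.ResidueField A)
      (LaurentSeries (IsLocalRing.ResidueField A)))
    (Red : modularFunctionFieldBar M → κ → Prop) (hR : RedFacts A Red)
    (hint : ∀ (V : LaurentSeries A) (hV : genS A V ∈ modularFunctionFieldBar M),
      ∃ hx : redS A V ∈ κ, Red ⟨genS A V, hV⟩ ⟨redS A V, hx⟩)
    {f : LaurentSeries (AlgebraicClosure ℚ)} (hfM : f ∈ modularFunctionFieldBar M) {x : κ}
    (hfx : Red ⟨f, hfM⟩ x) {V₁ V₂ : LaurentSeries A}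
    (h₁ : genS A V₁ ∈ modularFunctionFieldBar M) (h₂ : genS A V₂ ∈ modularFunctionFieldBar M)
    (hrep : f * genS A V₂ = genS A V₁) :
    (x : LaurentSeries (IsLocalRing.ResidueField A)) * redS A V₂ = redS A V₁ := by
  obtain ⟨hx₁, hR₁⟩ := hint V₁ h₁
  obtain ⟨hx₂, hR₂⟩ := hint V₂ h₂
  have hmul := hR.mul _ _ _ _ hfx hR₂
  have he : (⟨f, hfM⟩ : modularFunctionFieldBar M) * ⟨genS A V₂, h₂⟩ = ⟨genS A V₁, h₁⟩ :=
    Subtype.ext hrep
  rw [he] at hmul
  have huniq := hR.unique _ _ _ hmul hR₁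
  exact congrArg Subtype.val huniq

/-- **Tower compatibility.** If `f ∈ F_N ⊆ F_M` and `Red f x` for a reduction relation at level
`M`, then `f = V₁ / V₂` and `x = V̄₁ / V̄₂` for integral series `V₁, V₂` of `F_N`, `V̄₂ ≠ 0`. -/
theorem exists_integral_rep (hℓ : ℓ.Prime) (hℓN : ¬ ℓ ∣ N)
    (A : ValuationSubring (AlgebraicClosure ℚ)) (hA : A.LiesOverPrime ℓ)
    (hle : modularFunctionFieldBar N ≤ modularFunctionFieldBar M)
    (κ : IntermediateField (IsLocalRing.ResidueField A)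
      (LaurentSeries (IsLocalRing.ResidueField A)))
    (Red : modularFunctionFieldBar M → κ → Prop) (hR : RedFacts A Red)
    (hint : ∀ (V : LaurentSeries A) (hV : genS A V ∈ modularFunctionFieldBar M),
      ∃ hx : redS A V ∈ κ, Red ⟨genS A V, hV⟩ ⟨redS A V, hx⟩)
    {f : LaurentSeries (AlgebraicClosure ℚ)} (hfN : f ∈ modularFunctionFieldBar N)
    (hfM : f ∈ modularFunctionFieldBar M) {x : κ} (hfx : Red ⟨f, hfM⟩ x) :
    ∃ V₁ V₂ : LaurentSeries A, genS A V₁ ∈ modularFunctionFieldBar N ∧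
      genS A V₂ ∈ modularFunctionFieldBar N ∧ redS A V₂ ≠ 0 ∧ f * genS A V₂ = genS A V₁ ∧
      (x : LaurentSeries (IsLocalRing.ResidueField A)) * redS A V₂ = redS A V₁ := by
  by_cases hf0 : f = 0
  · refine ⟨0, 1, ?_, ?_, ?_, ?_, ?_⟩
    · rw [map_zero]; exact zero_mem _
    · rw [map_one]; exact one_mem _
    · rw [map_one]; exact one_ne_zero
    · rw [hf0, map_zero, zero_mul]
    · have h0 : Red 0 0 := (LatticeBridge.redBase_of_redFacts hR).zero
      have hf' : (⟨f, hfM⟩ : modularFunctionFieldBar M) = 0 := Subtype.ext hf0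
      rw [hf'] at hfx
      have hx0 : x = 0 := hR.unique _ _ _ hfx h0
      rw [hx0, map_one, map_zero]
      simp
  obtain ⟨c, a, b, hc, haN, hbN, ha0, hb0, hrep⟩ := exists_integral_quot hℓ hℓN A hA hfN hf0
  have hCc : (HahnSeries.C c : LaurentSeries (AlgebraicClosure ℚ)) ∈ modularFunctionFieldBar N := by
    rw [← algebraMap_eq_C]
    exact IntermediateField.algebraMap_mem _ c
  have hCci : (HahnSeries.C c⁻¹ : LaurentSeries (AlgebraicClosure ℚ)) ∈
      modularFunctionFieldBar N := by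
    rw [← algebraMap_eq_C]
    exact IntermediateField.algebraMap_mem _ c⁻¹
  rcases A.mem_or_inv_mem c with hcA | hcA
  · -- `c ∈ A`: `V₂ = c b`, `V₁ = a`
    have e2 : genS A (HahnSeries.C (⟨c, hcA⟩ : A) * b) = HahnSeries.C c * genS A b := by
      rw [map_mul]
      congr 1
      exact coeffMap_C A.subtype (⟨c, hcA⟩ : A)
    have h2N : genS A (HahnSeries.C (⟨c, hcA⟩ : A) * b) ∈ modularFunctionFieldBar N := by
      rw [e2]; exact mul_mem hCc hbN
    have hrep' : f * genS A (HahnSeries.C (⟨c, hcA⟩ : A) * b) = genS A a := by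
      rw [e2, ← hrep]; ring
    have hred := red_mul_eq A κ Red hR hint hfM hfx (hle haN) (hle h2N) hrep'
    refine ⟨a, HahnSeries.C (⟨c, hcA⟩ : A) * b, haN, h2N, ?_, hrep', hred⟩
    intro h0
    rw [h0, mul_zero] at hred
    exact ha0 hred.symm
  · -- `c⁻¹ ∈ A`: `V₂ = b`, `V₁ = c⁻¹ a`
    have e1 : genS A (HahnSeries.C (⟨c⁻¹, hcA⟩ : A) * a) = HahnSeries.C c⁻¹ * genS A a := by
      rw [map_mul]
      congr 1
      exact coeffMap_C A.subtype (⟨c⁻¹, hcA⟩ : A)
    have h1N : genS A (HahnSeries.C (⟨c⁻¹, hcA⟩ : A) * a) ∈ modularFunctionFieldBar N := by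
      rw [e1]; exact mul_mem hCci haN
    have hCC : (HahnSeries.C c⁻¹ : LaurentSeries (AlgebraicClosure ℚ)) * HahnSeries.C c = 1 := by
      rw [← map_mul, inv_mul_cancel₀ hc, map_one]
    have hrep' : f * genS A b = genS A (HahnSeries.C (⟨c⁻¹, hcA⟩ : A) * a) := by
      rw [e1, ← hrep]
      calc f * genS A b = (HahnSeries.C c⁻¹ * HahnSeries.C c) * (f * genS A b) := by
            rw [hCC, one_mul]
        _ = HahnSeries.C c⁻¹ * (genS A b * (HahnSeries.C c * f)) := by ring
    have hred := red_mul_eq A κ Red hR hint hfM hfx (hle h1N) (hle hbN) hrep'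
    exact ⟨HahnSeries.C (⟨c⁻¹, hcA⟩ : A) * a, b, h1N, hbN, hb0, hrep', hred⟩

/-- **Reductions of `F_N` at level `M` lie in `κ_N`.** -/
theorem red_mem_kappa (hℓ : ℓ.Prime) (hℓN : ¬ ℓ ∣ N)
    (A : ValuationSubring (AlgebraicClosure ℚ)) (hA : A.LiesOverPrime ℓ)
    (hle : modularFunctionFieldBar N ≤ modularFunctionFieldBar M)
    (κ : IntermediateField (IsLocalRing.ResidueField A)
      (LaurentSeries (IsLocalRing.ResidueField A)))
    (Red : modularFunctionFieldBar M → κ → Prop) (hR : RedFacts A Red)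
    (hint : ∀ (V : LaurentSeries A) (hV : genS A V ∈ modularFunctionFieldBar M),
      ∃ hx : redS A V ∈ κ, Red ⟨genS A V, hV⟩ ⟨redS A V, hx⟩)
    {f : LaurentSeries (AlgebraicClosure ℚ)} (hfN : f ∈ modularFunctionFieldBar N)
    (hfM : f ∈ modularFunctionFieldBar M) {x : κ} (hfx : Red ⟨f, hfM⟩ x) :
    (x : LaurentSeries (IsLocalRing.ResidueField A)) ∈
      GaussA.kappa (IsLocalRing.ResidueField A) N := by
  obtain ⟨V₁, V₂, h₁, h₂, h20, -, hred⟩ :=
    exists_integral_rep hℓ hℓN A hA hle κ Red hR hint hfN hfM hfx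
  obtain ⟨hx₁, -⟩ := GaussA.hint hℓ hℓN A hA V₁ h₁
  obtain ⟨hx₂, -⟩ := GaussA.hint hℓ hℓN A hA V₂ h₂
  have hx : (x : LaurentSeries (IsLocalRing.ResidueField A)) = redS A V₁ / redS A V₂ := by
    rw [eq_div_iff h20]; exact hred
  rw [hx]
  exact div_mem hx₁ hx₂

end Level

end Fermat.Agent.S37.RhoTower
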