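import Mathlib
import Fermat.Agent.S37.KronRed
import Fermat.Agent.S37.KronSeries
import Fermat.Agent.S37.RhoTower
import Fermat.Agent.S37.NormConj
import Fermat.Agent.S37.KappaAut
import Fermat.Agent.S18.GaussAMain
import Fermat.Agent.S18.Charts

/-!
# S37 / KronRedLvl: the Kronecker congruence for norms, in terms of the Gauss reduction relation

`ℓ ∤ N` prime, `A` a valuation subring of `ℚ̄` over `ℓ`, `k` its residue field, `F_N ≤ F_M`.
For `f ∈ F_N` with `Red_M f x`, the norm `N_α(β f) ∈ F_N` (norm from `F_{Nℓ}` along the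
inclusion `α`, `β f = f(q^ℓ)`) satisfies `Red_M (N_α(β f)) y` with `y = x(q^ℓ) · Frob(x)`, i.e.
`y = φ • x * (φ⁻¹ • x) ^ ℓ` for the coefficientwise Frobenius `φ = KappaAut.frobA` of `κ_M`.

* `red_of_quot` : a quotient of integral series reduces to the quotient of the reductions
  (any reduction relation with `RedFacts` and the `hint`);
* `red_norm_of` : the congruence for any such relation, from the conjugates formula
  (`KronRed.NormShapeG`) and the formal Kronecker congruence (`KronRed.KronShape`);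
* `normShapeG`, `kronShape` : these two inputs, closed (`NormConj.norm_eq_bar`,
  `KronSeries.kron_norm`);
* `red_norm` : the closed statement for `GaussA.Red A M`.
-/

set_option autoImplicit false
set_option synthInstance.maxHeartbeats 400000
set_option maxHeartbeats 1600000

noncomputable section

namespace Fermat.Agent.S37.KronRedLvl

open AlgebraicCurve ModularCurve Fermat.Agent.S18 Fermat.Agent.S24 Fermat.Agent.S37.KronRed

local notation "Kb" => AlgebraicClosure ℚ

section Abstract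

variable {M : ℕ} (A : ValuationSubring Kb)
  (κ : IntermediateField (IsLocalRing.ResidueField A)
    (LaurentSeries (IsLocalRing.ResidueField A)))
  (Red : modularFunctionFieldBar M → κ → Prop)

/-- A quotient of integral series of `F_M` reduces to the quotient of the reductions. -/
theorem red_of_quot (hR : RedFacts A Red)
    (hint : ∀ (V : LaurentSeries A) (hV : genS A V ∈ modularFunctionFieldBar M),
      ∃ hx : redS A V ∈ κ, Red ⟨genS A V, hV⟩ ⟨redS A V, hx⟩)
    {g : LaurentSeries Kb} (hgM : g ∈ modularFunctionFieldBar M)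
    {y : LaurentSeries (IsLocalRing.ResidueField A)}
    {a b : LaurentSeries A} (ha : genS A a ∈ modularFunctionFieldBar M)
    (hb : genS A b ∈ modularFunctionFieldBar M) (hb0 : redS A b ≠ 0)
    (hg : g * genS A b = genS A a) (hy : y * redS A b = redS A a) :
    ∃ hy' : y ∈ κ, Red ⟨g, hgM⟩ ⟨y, hy'⟩ := by
  obtain ⟨hxa, hRa⟩ := hint a ha
  obtain ⟨hxb, hRb⟩ := hint b hb
  have hbne : (⟨redS A b, hxb⟩ : κ) ≠ 0 := fun h0 => hb0 (congrArg Subtype.val h0)
  have hRinv := Charts.red_inv hR hRb hbne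
  have hRq := hR.mul _ _ _ _ hRa hRinv
  have hgbne : (⟨genS A b, hb⟩ : modularFunctionFieldBar M) ≠ 0 :=
    Charts.ne_zero_of_red hR hRb hbne
  have hyeq : y = redS A a * (redS A b)⁻¹ := by
    rw [← hy, mul_assoc, mul_inv_cancel₀ hb0, mul_one]
  have hgeq : (⟨g, hgM⟩ : modularFunctionFieldBar M) =
      ⟨genS A a, ha⟩ * (⟨genS A b, hb⟩ : modularFunctionFieldBar M)⁻¹ := by
    rw [eq_mul_inv_iff_mul_eq₀ hgbne]
    exact Subtype.ext hg
  have hy' : y ∈ κ := by
    rw [hyeq]
    exact mul_mem hxa (inv_mem hxb)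
  refine ⟨hy', ?_⟩
  have hyeq' : (⟨y, hy'⟩ : κ) = ⟨redS A a, hxa⟩ * (⟨redS A b, hxb⟩ : κ)⁻¹ := Subtype.ext hyeq
  rw [hgeq, hyeq']
  exact hRq

end Abstract

section Level

variable {ℓ N M : ℕ} [NeZero N] [NeZero ℓ]

/-- **The Kronecker congruence for norms**, for any reduction relation at a level `M` with
`F_N ≤ F_M`, from the conjugates formula and the formal Kronecker congruence. -/
theorem red_norm_of (hℓ : ℓ.Prime) (hℓN : ¬ ℓ ∣ N)
    (A : ValuationSubring Kb) (hA : A.LiesOverPrime ℓ)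
    (hle : modularFunctionFieldBar N ≤ modularFunctionFieldBar M)
    (κ : IntermediateField (IsLocalRing.ResidueField A)
      (LaurentSeries (IsLocalRing.ResidueField A)))
    (Red : modularFunctionFieldBar M → κ → Prop) (hR : RedFacts A Red)
    (hint : ∀ (V : LaurentSeries A) (hV : genS A V ∈ modularFunctionFieldBar M),
      ∃ hx : redS A V ∈ κ, Red ⟨genS A V, hV⟩ ⟨redS A V, hx⟩)
    {ζ : Kb} {hζ : ζ ≠ 0}
    {Φ : LaurentSeries (IsLocalRing.ResidueField A) →+* LaurentSeries (IsLocalRing.ResidueField A)}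
    (hPD : NormShapeG N ℓ ζ hζ) (hK : KronShape A ℓ ζ hζ Φ) (hΦ : Function.Injective Φ)
    (f : modularFunctionFieldBar N) {x : κ}
    (hred : Red ⟨(f : LaurentSeries Kb), hle f.2⟩ x) :
    ∃ hy : qExpand (IsLocalRing.ResidueField A) ℓ
        (x : LaurentSeries (IsLocalRing.ResidueField A)) *
          Φ (x : LaurentSeries (IsLocalRing.ResidueField A)) ∈ κ,
      Red ⟨((normBeta N ℓ f : modularFunctionFieldBar N) : LaurentSeries Kb),
        hle (normBeta N ℓ f).2⟩ ⟨_, hy⟩ := by
  obtain ⟨a, b, haN, hbN, hb0, hfa, hxa⟩ :=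
    RhoTower.exists_integral_rep hℓ hℓN A hA hle κ Red hR hint f.2 (hle f.2) hred
  obtain ⟨a', b', ha'N, hb'N, hb'0, hnorm, hredn⟩ :=
    KronRed.main hPD hK hΦ f (x : LaurentSeries (IsLocalRing.ResidueField A)) a b haN hbN hb0
      hfa hxa
  exact red_of_quot A κ Red hR hint (hle (normBeta N ℓ f).2) (hle ha'N) (hle hb'N) hb'0 hnorm
    hredn

/-- The conjugates formula (package PD), closed: `NormConj.norm_eq_bar`. -/
theorem normShapeG (hℓ : ℓ.Prime) (hℓN : ¬ ℓ ∣ N) {ζ : Kb} (hζ : IsPrimitiveRoot ζ ℓ) :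
    NormShapeG N ℓ ζ (hζ.ne_zero hℓ.ne_zero) :=
  normShapeG_of_normShape (fun f => NormConj.norm_eq_bar hℓ hℓN ζ hζ f)

/-- The formal Kronecker congruence, closed: `KronSeries.kron_norm`. -/
theorem kronShape (hℓ : ℓ.Prime) (A : ValuationSubring Kb)
    [ExpChar (IsLocalRing.ResidueField A) ℓ] {ζ : Kb} (hζ : IsPrimitiveRoot ζ ℓ) :
    KronShape A ℓ ζ (hζ.ne_zero hℓ.ne_zero)
      (coeffMap (frobenius (IsLocalRing.ResidueField A) ℓ)) := by
  intro V G hG
  exact KronSeries.kron_norm A ζ (hζ.ne_zero hℓ.ne_zero) hζ.pow_eq_one V G _ hG rfl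

variable {L : ℕ} [NeZero L]

/-- **The Kronecker congruence for norms, Gauss form, closed.**  If `f ∈ F_N ≤ F_L` reduces to
`x ∈ κ_L`, then `N_α(β f)` reduces to `φ • x * (φ⁻¹ • x) ^ ℓ`, `φ` the coefficientwise Frobenius
of `κ_L`. -/
theorem red_norm (hℓ : ℓ.Prime) (hℓN : ¬ ℓ ∣ N) (hℓL : ¬ ℓ ∣ L)
    (A : ValuationSubring Kb) (hA : A.LiesOverPrime ℓ)
    (hle : modularFunctionFieldBar N ≤ modularFunctionFieldBar L)
    (f : modularFunctionFieldBar N) (x : GaussA.kappa (IsLocalRing.ResidueField A) L)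
    (hred : GaussA.Red A L (IntermediateField.inclusion hle f) x) :
    GaussA.Red A L (IntermediateField.inclusion hle (normBeta N ℓ f))
      (KappaAut.frobA hℓ A hA L • x * ((KappaAut.frobA hℓ A hA L)⁻¹ • x) ^ ℓ) := by
  have : ExpChar (IsLocalRing.ResidueField A) ℓ := KappaAut.expChar_res hℓ A hA
  have : PerfectRing (IsLocalRing.ResidueField A) ℓ := KappaAut.perfectRing_res hℓ A hA
  obtain ⟨ζ, hζ⟩ := NormConj.exists_primitiveRoot_bar ℓ
  have hΦ : Function.Injective (coeffMap (frobenius (IsLocalRing.ResidueField A) ℓ)) :=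
    KronSeries.coeffMap_injective _ (frobenius_inj (IsLocalRing.ResidueField A) ℓ)
  have hred' : GaussA.Red A L ⟨(f : LaurentSeries Kb), hle f.2⟩ x := hred
  obtain ⟨hy, hRy⟩ := red_norm_of hℓ hℓN A hA hle _ (GaussA.Red A L)
    (GaussA.redFacts hℓ hℓL A hA) (GaussA.hint hℓ hℓL A hA) (normShapeG hℓ hℓN hζ)
    (kronShape hℓ A hζ) hΦ f hred'
  have h1 : ((KappaAut.frobA hℓ A hA L • x : GaussA.kappa (IsLocalRing.ResidueField A) L) :
      LaurentSeries (IsLocalRing.ResidueField A)) =
      coeffMap (frobenius (IsLocalRing.ResidueField A) ℓ)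
        (x : LaurentSeries (IsLocalRing.ResidueField A)) := rfl
  have h3 : ((KappaAut.frobA hℓ A hA L • ((KappaAut.frobA hℓ A hA L)⁻¹ • x) :
      GaussA.kappa (IsLocalRing.ResidueField A) L) :
      LaurentSeries (IsLocalRing.ResidueField A)) =
      coeffMap (frobenius (IsLocalRing.ResidueField A) ℓ)
        (((KappaAut.frobA hℓ A hA L)⁻¹ • x : GaussA.kappa (IsLocalRing.ResidueField A) L) :
          LaurentSeries (IsLocalRing.ResidueField A)) := rfl
  have h2 : qExpand (IsLocalRing.ResidueField A) ℓ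
      (x : LaurentSeries (IsLocalRing.ResidueField A)) =
      (((KappaAut.frobA hℓ A hA L)⁻¹ • x : GaussA.kappa (IsLocalRing.ResidueField A) L) :
          LaurentSeries (IsLocalRing.ResidueField A)) ^ ℓ := by
    rw [← KronSeries.qExpand_frob, ← h3, smul_inv_smul]
  have hyeq : (⟨_, hy⟩ : GaussA.kappa (IsLocalRing.ResidueField A) L) =
      KappaAut.frobA hℓ A hA L • x * ((KappaAut.frobA hℓ A hA L)⁻¹ • x) ^ ℓ := by
    apply Subtype.ext
    show qExpand (IsLocalRing.ResidueField A) ℓ (x : LaurentSeries (IsLocalRing.ResidueField A)) *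
        coeffMap (frobenius (IsLocalRing.ResidueField A) ℓ)
          (x : LaurentSeries (IsLocalRing.ResidueField A)) =
      ((KappaAut.frobA hℓ A hA L • x * ((KappaAut.frobA hℓ A hA L)⁻¹ • x) ^ ℓ :
        GaussA.kappa (IsLocalRing.ResidueField A) L) : LaurentSeries (IsLocalRing.ResidueField A))
    rw [MulMemClass.coe_mul, SubmonoidClass.coe_pow, h1, ← h2, mul_comm]
  rw [← hyeq]
  exact hRy

end Level

end Fermat.Agent.S37.KronRedLvl

end
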