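import Fermat.Agent.S18.CoreSat
import Fermat.Agent.S18.LatticeBridge

/-!
# S37 package PB, part 1: the reduction `Lam V` of a `K`-subspace of `F`

`Red : F → κ → Prop` an abstract Gauss reduction (`RedFacts A Red`).  For a `K`-subspace `V` of
`F`, `Lam A Red V` is the `k`-subspace of `κ` of all reductions of elements of `V`.

* `mem_Lam` : `x ∈ Lam A Red V ↔ ∃ f ∈ V, Red f x`;
* `finrank_Lam` (B1) : `dim_k Lam V = dim_K V` for finite-dimensional `V`;
* `mem_Lam_mul` (B2) : `Lam (f V) = fb · Lam V` when `Red f fb`, `fb ≠ 0`.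
-/

set_option autoImplicit false

noncomputable section

namespace Fermat.Agent.S37.Lam

open AlgebraicCurve Fermat.Agent.S18 Fermat.Agent.S18.CoreRed

variable {K F κ : Type*} [Field K] [Field F] [Algebra K F] (A : ValuationSubring K)
  [Field κ] [Algebra (IsLocalRing.ResidueField A) κ] (Red : F → κ → Prop)

/-- The reduction of a `K`-subspace of `F`: the `k`-span of the reductions of its elements
(under `RedFacts` the reductions already form a subspace, see `mem_Lam`). -/
def Lam (V : Submodule K F) : Submodule (IsLocalRing.ResidueField A) κ :=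
  Submodule.span (IsLocalRing.ResidueField A) {x | ∃ f ∈ V, Red f x}

variable {A Red}

theorem mem_Lam (h : RedFacts A Red) {V : Submodule K F} {x : κ} :
    x ∈ Lam A Red V ↔ ∃ f ∈ V, Red f x := by
  constructor
  · intro hx
    unfold Lam at hx
    induction hx using Submodule.span_induction with
    | mem x hx => exact hx
    | zero => exact ⟨0, V.zero_mem, red_zero h⟩
    | add x y _ _ hx hy =>
      obtain ⟨f, hf, hfx⟩ := hx
      obtain ⟨g, hg, hgy⟩ := hy
      exact ⟨f + g, V.add_mem hf hg, h.add _ _ _ _ hfx hgy⟩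
    | smul c x _ hx =>
      obtain ⟨f, hf, hfx⟩ := hx
      obtain ⟨a, rfl⟩ := IsLocalRing.residue_surjective c
      refine ⟨algebraMap K F (a : K) * f, ?_, ?_⟩
      · rw [← Algebra.smul_def]
        exact V.smul_mem _ hf
      · rw [Algebra.smul_def]
        exact red_smul h a hfx
  · rintro ⟨f, hf, hfx⟩
    exact Submodule.subset_span ⟨f, hf, hfx⟩

theorem Lam_mono {V W : Submodule K F} (hVW : V ≤ W) : Lam A Red V ≤ Lam A Red W := by
  unfold Lam
  apply Submodule.span_mono
  rintro x ⟨f, hf, hfx⟩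
  exact ⟨f, hVW hf, hfx⟩

/-- The reduction of `V` is spanned by the reductions of an orthonormal basis. -/
theorem Lam_eq_span (h : RedFacts A Red) (V : Submodule K F) [FiniteDimensional K V]
    (e : Fin (Module.finrank K V) → F) (eb : Fin (Module.finrank K V) → κ)
    (heV : ∀ i, e i ∈ V) (heR : ∀ i, Red (e i) (eb i))
    (hli : LinearIndependent (IsLocalRing.ResidueField A) eb) :
    Lam A Red V = Submodule.span (IsLocalRing.ResidueField A) (Set.range eb) := by
  apply le_antisymm
  · intro x hx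
    obtain ⟨f, hf, hfx⟩ := (mem_Lam h).mp hx
    obtain ⟨c, hc⟩ := CoreSat.exists_coeff h V e eb heV heR hli f hf
    have hcA : ∀ i, c i ∈ A := fun i =>
      coeff_mem_of_red h e eb heR hli c x (by rw [← hc]; exact hfx) i
    have hred := red_combination h e eb heR c hcA
    rw [← hc] at hred
    rw [h.unique _ _ _ hfx hred]
    refine Submodule.sum_mem _ fun i _ => ?_
    rw [← Algebra.smul_def]
    exact Submodule.smul_mem _ _ (Submodule.subset_span ⟨i, rfl⟩)
  · rw [Submodule.span_le]
    rintro _ ⟨i, rfl⟩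
    exact (mem_Lam h).mpr ⟨e i, heV i, heR i⟩

/-- (B1) `dim_k Lam V = dim_K V`. -/
theorem finrank_Lam (h : RedFacts A Red) (V : Submodule K F) [FiniteDimensional K V] :
    Module.finrank (IsLocalRing.ResidueField A) (Lam A Red V) = Module.finrank K V := by
  obtain ⟨e, eb, heV, heR, hli⟩ := h.lattice V inferInstance
  rw [Lam_eq_span h V e eb heV heR hli, finrank_span_eq_card hli, Fintype.card_fin]

theorem finiteDimensional_Lam (h : RedFacts A Red) (V : Submodule K F) [FiniteDimensional K V] :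
    FiniteDimensional (IsLocalRing.ResidueField A) (Lam A Red V) := by
  obtain ⟨e, eb, heV, heR, hli⟩ := h.lattice V inferInstance
  rw [Lam_eq_span h V e eb heV heR hli]
  exact FiniteDimensional.span_of_finite _ (Set.finite_range eb)

/-- (B2) `Lam (f V) = fb · Lam V` if `Red f fb`, `fb ≠ 0`. -/
theorem mem_Lam_mul (h : RedFacts A Red) {f : F} {fb : κ} (hf : Red f fb) (hfb : fb ≠ 0)
    (V : Submodule K F) {y : κ} :
    y ∈ Lam A Red (V.map (LinearMap.mulLeft K f)) ↔ ∃ x ∈ Lam A Red V, y = fb * x := by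
  constructor
  · intro hy
    obtain ⟨g', ⟨g, hg, rfl⟩, hgy⟩ := (mem_Lam h).mp hy
    by_cases hy0 : y = 0
    · exact ⟨0, Submodule.zero_mem _, by rw [hy0, mul_zero]⟩
    · have hgy' : Red (f * g) y := hgy
      obtain ⟨x, hx, hxy⟩ :=
        (LatticeBridge.redBase_of_redFacts h).red_of_mul hf hfb hgy' hy0
      exact ⟨x, (mem_Lam h).mpr ⟨g, hg, hx⟩, hxy.symm⟩
  · rintro ⟨x, hx, rfl⟩
    obtain ⟨g, hg, hgx⟩ := (mem_Lam h).mp hx
    exact (mem_Lam h).mpr ⟨f * g, ⟨g, hg, rfl⟩, h.mul _ _ _ _ hf hgx⟩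

/-- `1 ∈ Lam V` as soon as `1 ∈ V`. -/
theorem one_mem_Lam (h : RedFacts A Red) {V : Submodule K F} (h1 : (1 : F) ∈ V) :
    (1 : κ) ∈ Lam A Red V :=
  (mem_Lam h).mpr ⟨1, h1, h.one⟩

end Fermat.Agent.S37.Lam

end
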