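import Mathlib
import Fermat.Agent.S18.Int
import Fermat.Agent.RR.Defs

/-!
# S37 / PB, step B3: the degree inequality `[κ : k(x)] ≤ [F : K(f)]` for `Red f x`

`hB3` is, verbatim, the hypothesis `hB3` of `LamKey.exists_Z_of`.  The proof lifts a
`k(x)`-basis of `κ` along the (surjective) reduction relation and uses
`S18.Int.linearIndependent_adjoin` (a family with `k(x)`-independent reductions is
`K(f)`-independent) and `S18.Int.transcendental`.
-/

set_option autoImplicit false

noncomputable section

namespace Fermat.Agent.S37.LamDegInt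

open Fermat.Agent.S18 IntermediateField

variable {K F κ : Type*} [Field K] [Field F] [Algebra K F] {A : ValuationSubring K}
  [Field κ] [Algebra (IsLocalRing.ResidueField A) κ] {Red : F → κ → Prop}

local notation "kk" => IsLocalRing.ResidueField A

/-- **(B3)** `[κ : k(f̄)] ≤ [F : K(f)]` when `F / K(f)` is finite. -/
theorem finrank_le (hR : RedFacts A Red) (hsurj : ∀ x : κ, ∃ f : F, Red f x) {f : F} {fb : κ}
    (hf : Red f fb) (hfb : Transcendental kk fb) [Module.Finite K⟮f⟯ F] :
    Module.finrank kk⟮fb⟯ κ ≤ Module.finrank K⟮f⟯ F := by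
  by_cases hfin : Module.Finite kk⟮fb⟯ κ
  · choose b hb using fun i : Fin (Module.finrank kk⟮fb⟯ κ) =>
      hsurj (Module.finBasis kk⟮fb⟯ κ i)
    have hli : LinearIndependent kk⟮fb⟯
        (fun i : Fin (Module.finrank kk⟮fb⟯ κ) => Module.finBasis kk⟮fb⟯ κ i) :=
      (Module.finBasis kk⟮fb⟯ κ).linearIndependent
    have h1 := Fermat.Agent.S18.Int.linearIndependent_adjoin hR hf hfb hb hli
    have h2 := h1.fintype_card_le_finrank
    rwa [Fintype.card_fin] at h2
  · rw [Module.finrank_of_not_finite hfin]
    exact Nat.zero_le _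

/-- **(B3)** in the shape of the hypothesis `hB3` of `LamKey.exists_Z_of`. -/
theorem hB3 (hR : RedFacts A Red) (hsurj : ∀ x : κ, ∃ f : F, Red f x)
    (hP : Fermat.Agent.RR.PlaceFacts K F) :
    ∀ (f : F) (x : κ), Red f x → Transcendental kk x →
      Transcendental K f ∧ Module.finrank kk⟮x⟯ κ ≤ Module.finrank K⟮f⟯ F := by
  intro f x hfx hx
  have hft : Transcendental K f := Fermat.Agent.S18.Int.transcendental hR hfx hx
  have hfd : Module.Finite K⟮f⟯ F := hP.hfd f hft
  exact ⟨hft, finrank_le hR hsurj hfx hx⟩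

end Fermat.Agent.S37.LamDegInt

end
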