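import Fermat.Agent.S18.Close
import Fermat.Agent.S18.GaussAMain

/-!
# S37 / LevelM : the closed Gauss layer at level `M = lcm(M₀, N)` (bundle of facts on main)

For a prime `ℓ ∤ N`, a valuation subring `A` of `K = ℚ̄` over `ℓ`, `k` its residue field and
`M = LevelNum.levelM ℓ N`, the relation `Red = GaussA.Red A M : F_M → κ_M → Prop`
(`κ_M = GaussA.kappa k M = k(j̄, ū_M) ⊆ k((q))`) satisfies all the hypotheses of the abstract
specialisation packages of S37:

* `redFacts`, `hint`, `red_j`, `surj`;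
* `placeFacts`, `riemannFacts` (for `F_M / K`), `placeFactsBar`, `riemannFactsBar` (for `κ_M / k`);
* `genus_eq` : `finrank K (H¹(0)) = finrank k (H¹(0))` (equality of genera of `F_M` and `κ_M`);
* `coreStmt`, `kummerM`, `rootDescent`, `restrict`, `kummerN` (the statements of S18, closed);
* `isAlgClosed`, `infinite`, `charP` for `k`; `bar_le : F_N ≤ F_M`.

No new mathematics: this is the preamble of `S18.Close.main` with the concrete Gauss layer
`GaussA.Red`, exported as closed theorems.  (The abstract section works with an arbitrary Gauss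
layer `Red`, exactly as `Close.main`; the concrete statements are instances.)
-/

set_option autoImplicit false
set_option synthInstance.maxHeartbeats 400000
set_option maxHeartbeats 1600000

noncomputable section

namespace Fermat.Agent.S37.LevelM

open AlgebraicCurve ModularCurve Fermat.Agent.S18 Fermat.Agent.RR
open scoped IntermediateField

/-- The residue field of a valuation subring of `ℚ̄` is algebraically closed. -/
theorem isAlgClosed (A : ValuationSubring (AlgebraicClosure ℚ)) :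
    IsAlgClosed (IsLocalRing.ResidueField A) := ResField.isAlgClosed A

/-- The residue field of a valuation subring of `ℚ̄` is infinite. -/
theorem infinite (A : ValuationSubring (AlgebraicClosure ℚ)) :
    Infinite (IsLocalRing.ResidueField A) := by
  have hk : IsAlgClosed (IsLocalRing.ResidueField A) := ResField.isAlgClosed A
  exact IsAlgClosed.instInfinite

/-- The residue field of a valuation subring over `ℓ` has characteristic `ℓ`. -/
theorem charP {ℓ : ℕ} (hℓ : ℓ.Prime) (A : ValuationSubring (AlgebraicClosure ℚ))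
    (hA : A.LiesOverPrime ℓ) : CharP (IsLocalRing.ResidueField A) ℓ := ResField.charP A hℓ hA

/-! ### Any level `L` prime to `ℓ`, abstract Gauss layer -/

section Abstract

variable {ℓ L : ℕ} [NeZero L]

/-- `PlaceFacts` for `κ_L / k`. -/
theorem placeFactsBar_level (hℓ : ℓ.Prime) (hℓL : ¬ ℓ ∣ L)
    (A : ValuationSubring (AlgebraicClosure ℚ)) (hA : A.LiesOverPrime ℓ) :
    PlaceFacts (IsLocalRing.ResidueField A) (GaussA.kappa (IsLocalRing.ResidueField A) L) := by
  have hk : IsAlgClosed (IsLocalRing.ResidueField A) := ResField.isAlgClosed A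
  have hchar : CharP (IsLocalRing.ResidueField A) ℓ := ResField.charP A hℓ hA
  have hfd := KappaDeg.finiteDimensional (k := IsLocalRing.ResidueField A) hℓ L hℓL
    (GaussA.jbE (IsLocalRing.ResidueField A) L) rfl
  exact SepPF.placeFacts_of_finite _ (GaussA.jbE (IsLocalRing.ResidueField A) L) rfl

/-- `RiemannFacts` for `κ_L / k`. -/
theorem riemannFactsBar_level (hℓ : ℓ.Prime) (hℓL : ¬ ℓ ∣ L)
    (A : ValuationSubring (AlgebraicClosure ℚ)) (hA : A.LiesOverPrime ℓ) :
    RiemannFacts (IsLocalRing.ResidueField A) (GaussA.kappa (IsLocalRing.ResidueField A) L) := by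
  have hk : IsAlgClosed (IsLocalRing.ResidueField A) := ResField.isAlgClosed A
  have hchar : CharP (IsLocalRing.ResidueField A) ℓ := ResField.charP A hℓ hA
  have hfd := KappaDeg.finiteDimensional (k := IsLocalRing.ResidueField A) hℓ L hℓL
    (GaussA.jbE (IsLocalRing.ResidueField A) L) rfl
  exact SepPF.riemannFacts_of_finite _ (GaussA.jbE (IsLocalRing.ResidueField A) L) rfl

/-- `Red j j̄` and surjectivity, for an abstract Gauss layer at level `L`. -/
theorem red_j_surj_of_layer (A : ValuationSubring (AlgebraicClosure ℚ))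
    (Red : modularFunctionFieldBar L → GaussA.kappa (IsLocalRing.ResidueField A) L → Prop)
    (hR : RedFacts A Red)
    (hint : ∀ (V : LaurentSeries A) (hV : genS A V ∈ modularFunctionFieldBar L),
      ∃ hx : redS A V ∈ GaussA.kappa (IsLocalRing.ResidueField A) L,
        Red ⟨genS A V, hV⟩ ⟨redS A V, hx⟩) :
    Red (Fermat.Agent.S24.xgen (AlgebraicClosure ℚ) L : modularFunctionFieldBar L)
        (GaussA.jbE (IsLocalRing.ResidueField A) L) ∧
      ∀ x : GaussA.kappa (IsLocalRing.ResidueField A) L,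
        ∃ f : modularFunctionFieldBar L, Red f x :=
  SemiLvl.hj_hsurj_of_hint A L Red hR hint (GenBar.uK_mem _)

/-- Semicontinuity of the genus, for an abstract Gauss layer at level `L`: `ḡ_L ≤ g_L`. -/
theorem genus_le_of_layer (hℓ : ℓ.Prime) (hℓL : ¬ ℓ ∣ L)
    (A : ValuationSubring (AlgebraicClosure ℚ)) (hA : A.LiesOverPrime ℓ)
    (Red : modularFunctionFieldBar L → GaussA.kappa (IsLocalRing.ResidueField A) L → Prop)
    (hR : RedFacts A Red)
    (hint : ∀ (V : LaurentSeries A) (hV : genS A V ∈ modularFunctionFieldBar L),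
      ∃ hx : redS A V ∈ GaussA.kappa (IsLocalRing.ResidueField A) L,
        Red ⟨genS A V, hV⟩ ⟨redS A V, hx⟩) :
    Module.finrank (IsLocalRing.ResidueField A)
        (H1 (0 : Divisor (IsLocalRing.ResidueField A)
          (GaussA.kappa (IsLocalRing.ResidueField A) L)))
      ≤ Module.finrank (AlgebraicClosure ℚ)
        (H1 (0 : Divisor (AlgebraicClosure ℚ) (modularFunctionFieldBar L))) := by
  have hchar : CharP (IsLocalRing.ResidueField A) ℓ := ResField.charP A hℓ hA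
  have hfd := KappaDeg.finiteDimensional (k := IsLocalRing.ResidueField A) hℓ L hℓL
    (GaussA.jbE (IsLocalRing.ResidueField A) L) rfl
  have hfr := KappaDeg.finrank_eq (k := IsLocalRing.ResidueField A) hℓ L hℓL
    (GaussA.jbE (IsLocalRing.ResidueField A) L) rfl
  obtain ⟨hj, hsurj⟩ := red_j_surj_of_layer A Red hR hint
  exact SemiLvl.genus_le_of_gauss A L _ (GaussA.jbE (IsLocalRing.ResidueField A) L) rfl hfd hfr
    Red hR hj hsurj

end Abstract

/-! ### Level `M = levelM ℓ N`, abstract Gauss layers at `M₀` and `M` -/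

section AbstractM

variable {ℓ N : ℕ} [NeZero N]

/-- The genus inequality `g_M ≤ ḡ_M` from abstract Gauss layers at levels `M₀` and `M`. -/
theorem genus_ge_of_layers (hℓ : ℓ.Prime) (hℓN : ¬ ℓ ∣ N)
    (A : ValuationSubring (AlgebraicClosure ℚ)) (hA : A.LiesOverPrime ℓ)
    (Red0 : modularFunctionFieldBar (LevelNum.M0 ℓ) →
      GaussA.kappa (IsLocalRing.ResidueField A) (LevelNum.M0 ℓ) → Prop)
    (hR0 : RedFacts A Red0)
    (hint0 : ∀ (V : LaurentSeries A) (hV : genS A V ∈ modularFunctionFieldBar (LevelNum.M0 ℓ)),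
      ∃ hx : redS A V ∈ GaussA.kappa (IsLocalRing.ResidueField A) (LevelNum.M0 ℓ),
        Red0 ⟨genS A V, hV⟩ ⟨redS A V, hx⟩)
    (Red : modularFunctionFieldBar (LevelNum.levelM ℓ N) →
      GaussA.kappa (IsLocalRing.ResidueField A) (LevelNum.levelM ℓ N) → Prop)
    (hR : RedFacts A Red)
    (hint : ∀ (V : LaurentSeries A)
      (hV : genS A V ∈ modularFunctionFieldBar (LevelNum.levelM ℓ N)),
      ∃ hx : redS A V ∈ GaussA.kappa (IsLocalRing.ResidueField A) (LevelNum.levelM ℓ N),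
        Red ⟨genS A V, hV⟩ ⟨redS A V, hx⟩) :
    (Module.finrank (AlgebraicClosure ℚ)
        (H1 (0 : Divisor (AlgebraicClosure ℚ)
          (modularFunctionFieldBar (LevelNum.levelM ℓ N)))) : ℤ)
      ≤ (Module.finrank (IsLocalRing.ResidueField A)
        (H1 (0 : Divisor (IsLocalRing.ResidueField A)
          (GaussA.kappa (IsLocalRing.ResidueField A) (LevelNum.levelM ℓ N)))) : ℤ) := by
  have hℓM0 : ¬ ℓ ∣ LevelNum.M0 ℓ := LevelNum.not_dvd_M0 hℓ
  have hℓM : ¬ ℓ ∣ LevelNum.levelM ℓ N := LevelNum.not_dvd_levelM hℓ hℓN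
  have hM : Close.Layer A (LevelNum.levelM ℓ N) := ⟨Red, hR, hint⟩
  have hle := Close.tower (LevelNum.M0_dvd_levelM ℓ N) A hM
  have hchar : CharP (IsLocalRing.ResidueField A) ℓ := ResField.charP A hℓ hA
  have hfd0 := KappaDeg.finiteDimensional (k := IsLocalRing.ResidueField A) hℓ (LevelNum.M0 ℓ) hℓM0
    (GaussA.jbE (IsLocalRing.ResidueField A) (LevelNum.M0 ℓ)) rfl
  have hfr0 := KappaDeg.finrank_eq (k := IsLocalRing.ResidueField A) hℓ (LevelNum.M0 ℓ) hℓM0
    (GaussA.jbE (IsLocalRing.ResidueField A) (LevelNum.M0 ℓ)) rfl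
  have hfd := KappaDeg.finiteDimensional (k := IsLocalRing.ResidueField A) hℓ
    (LevelNum.levelM ℓ N) hℓM (GaussA.jbE (IsLocalRing.ResidueField A) (LevelNum.levelM ℓ N)) rfl
  have hfr := KappaDeg.finrank_eq (k := IsLocalRing.ResidueField A) hℓ
    (LevelNum.levelM ℓ N) hℓM (GaussA.jbE (IsLocalRing.ResidueField A) (LevelNum.levelM ℓ N)) rfl
  obtain ⟨hj0, hsurj0⟩ := red_j_surj_of_layer A Red0 hR0 hint0
  have hc0 := CuspsKappa.card_poles A hℓ (LevelNum.M0 ℓ) hℓM0 hA
    (placeFactsBar_level hℓ hℓM0 A hA) hfr0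
  have hc := CuspsKappa.card_poles A hℓ (LevelNum.levelM ℓ N) hℓM hA
    (placeFactsBar_level hℓ hℓM A hA) hfr
  exact GenusWire.genus_ge_of ℓ A (LevelNum.M0_dvd_levelM ℓ N) _ _ hle
    (GaussA.jbE (IsLocalRing.ResidueField A) (LevelNum.M0 ℓ)) rfl
    (GaussA.jbE (IsLocalRing.ResidueField A) (LevelNum.levelM ℓ N)) rfl
    hfd0 hfr0 hfd hfr Red0 hR0 hj0 hsurj0 hc0 hc

/-- The two-chart core, the Kummer statement at level `M` and the descent of roots, from abstract
Gauss layers at levels `M₀` and `M`. -/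
theorem core_kummer_root_of_layers (hℓ : ℓ.Prime) (hℓN : ¬ ℓ ∣ N)
    (A : ValuationSubring (AlgebraicClosure ℚ)) (hA : A.LiesOverPrime ℓ)
    (Red0 : modularFunctionFieldBar (LevelNum.M0 ℓ) →
      GaussA.kappa (IsLocalRing.ResidueField A) (LevelNum.M0 ℓ) → Prop)
    (hR0 : RedFacts A Red0)
    (hint0 : ∀ (V : LaurentSeries A) (hV : genS A V ∈ modularFunctionFieldBar (LevelNum.M0 ℓ)),
      ∃ hx : redS A V ∈ GaussA.kappa (IsLocalRing.ResidueField A) (LevelNum.M0 ℓ),
        Red0 ⟨genS A V, hV⟩ ⟨redS A V, hx⟩)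
    (Red : modularFunctionFieldBar (LevelNum.levelM ℓ N) →
      GaussA.kappa (IsLocalRing.ResidueField A) (LevelNum.levelM ℓ N) → Prop)
    (hR : RedFacts A Red)
    (hint : ∀ (V : LaurentSeries A)
      (hV : genS A V ∈ modularFunctionFieldBar (LevelNum.levelM ℓ N)),
      ∃ hx : redS A V ∈ GaussA.kappa (IsLocalRing.ResidueField A) (LevelNum.levelM ℓ N),
        Red ⟨genS A V, hV⟩ ⟨redS A V, hx⟩) :
    CoreStmt A Red ∧ KummerStmt ℓ A (LevelNum.levelM ℓ N) ∧
      RootDescentStmt ℓ A N (LevelNum.levelM ℓ N) := by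
  have hℓM : ¬ ℓ ∣ LevelNum.levelM ℓ N := LevelNum.not_dvd_levelM hℓ hℓN
  have hchar : CharP (IsLocalRing.ResidueField A) ℓ := ResField.charP A hℓ hA
  have hfd := KappaDeg.finiteDimensional (k := IsLocalRing.ResidueField A) hℓ
    (LevelNum.levelM ℓ N) hℓM (GaussA.jbE (IsLocalRing.ResidueField A) (LevelNum.levelM ℓ N)) rfl
  have hfr := KappaDeg.finrank_eq (k := IsLocalRing.ResidueField A) hℓ
    (LevelNum.levelM ℓ N) hℓM (GaussA.jbE (IsLocalRing.ResidueField A) (LevelNum.levelM ℓ N)) rfl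
  obtain ⟨hj, hsurj⟩ := red_j_surj_of_layer A Red hR hint
  have hg := genus_ge_of_layers hℓ hℓN A hA Red0 hR0 hint0 Red hR hint
  have hcore : CoreStmt A Red :=
    CoreLvl.of_gauss A (LevelNum.levelM ℓ N) _
      (GaussA.jbE (IsLocalRing.ResidueField A) (LevelNum.levelM ℓ N)) rfl hfd hfr Red hR hj hsurj
      hg
  refine ⟨hcore, Bridge.main hℓ A hA _ Red hR hint hcore, ?_⟩
  exact RootLvl.of_gauss (LevelNum.dvd_levelM ℓ N) hℓ A hA _
    (GaussA.jbE (IsLocalRing.ResidueField A) (LevelNum.levelM ℓ N)) rfl hfd hfr Red hR hint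
    hj hsurj

end AbstractM

/-! ### The concrete Gauss layer `GaussA.Red` -/

section Level

variable {ℓ L : ℕ} [NeZero L]

/-- `Red j j̄` and surjectivity of the Gauss reduction at any level `L` prime to `ℓ`. -/
theorem red_j_surj (hℓ : ℓ.Prime) (hℓL : ¬ ℓ ∣ L) (A : ValuationSubring (AlgebraicClosure ℚ))
    (hA : A.LiesOverPrime ℓ) :
    GaussA.Red A L (Fermat.Agent.S24.xgen (AlgebraicClosure ℚ) L : modularFunctionFieldBar L)
        (GaussA.jbE (IsLocalRing.ResidueField A) L) ∧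
      ∀ x : GaussA.kappa (IsLocalRing.ResidueField A) L,
        ∃ f : modularFunctionFieldBar L, GaussA.Red A L f x :=
  red_j_surj_of_layer A (GaussA.Red A L) (GaussA.redFacts hℓ hℓL A hA) (GaussA.hint hℓ hℓL A hA)

/-- Semicontinuity of the genus at any level `L` prime to `ℓ`: `ḡ_L ≤ g_L`. -/
theorem genus_le_level (hℓ : ℓ.Prime) (hℓL : ¬ ℓ ∣ L) (A : ValuationSubring (AlgebraicClosure ℚ))
    (hA : A.LiesOverPrime ℓ) :
    Module.finrank (IsLocalRing.ResidueField A)
        (H1 (0 : Divisor (IsLocalRing.ResidueField A)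
          (GaussA.kappa (IsLocalRing.ResidueField A) L)))
      ≤ Module.finrank (AlgebraicClosure ℚ)
        (H1 (0 : Divisor (AlgebraicClosure ℚ) (modularFunctionFieldBar L))) :=
  genus_le_of_layer hℓ hℓL A hA (GaussA.Red A L) (GaussA.redFacts hℓ hℓL A hA)
    (GaussA.hint hℓ hℓL A hA)

end Level

section LevelM

variable {ℓ N : ℕ} [NeZero N]

/-- **`RedFacts`** for the Gauss reduction at level `M`. -/
theorem redFacts (hℓ : ℓ.Prime) (hℓN : ¬ ℓ ∣ N) (A : ValuationSubring (AlgebraicClosure ℚ))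
    (hA : A.LiesOverPrime ℓ) : RedFacts A (GaussA.Red A (LevelNum.levelM ℓ N)) :=
  GaussA.redFacts hℓ (LevelNum.not_dvd_levelM hℓ hℓN) A hA

/-- **Integral series of `F_M` reduce coefficientwise.** -/
theorem hint (hℓ : ℓ.Prime) (hℓN : ¬ ℓ ∣ N) (A : ValuationSubring (AlgebraicClosure ℚ))
    (hA : A.LiesOverPrime ℓ) :
    ∀ (V : LaurentSeries A) (hV : genS A V ∈ modularFunctionFieldBar (LevelNum.levelM ℓ N)),
      ∃ hx : redS A V ∈ GaussA.kappa (IsLocalRing.ResidueField A) (LevelNum.levelM ℓ N),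
        GaussA.Red A (LevelNum.levelM ℓ N) ⟨genS A V, hV⟩ ⟨redS A V, hx⟩ :=
  GaussA.hint hℓ (LevelNum.not_dvd_levelM hℓ hℓN) A hA

/-- `Red j j̄` at level `M`. -/
theorem red_j (hℓ : ℓ.Prime) (hℓN : ¬ ℓ ∣ N) (A : ValuationSubring (AlgebraicClosure ℚ))
    (hA : A.LiesOverPrime ℓ) :
    GaussA.Red A (LevelNum.levelM ℓ N)
      (Fermat.Agent.S24.xgen (AlgebraicClosure ℚ) (LevelNum.levelM ℓ N) :
        modularFunctionFieldBar (LevelNum.levelM ℓ N))
      (GaussA.jbE (IsLocalRing.ResidueField A) (LevelNum.levelM ℓ N)) :=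
  (red_j_surj hℓ (LevelNum.not_dvd_levelM hℓ hℓN) A hA).1

/-- **Surjectivity** of the Gauss reduction at level `M`. -/
theorem surj (hℓ : ℓ.Prime) (hℓN : ¬ ℓ ∣ N) (A : ValuationSubring (AlgebraicClosure ℚ))
    (hA : A.LiesOverPrime ℓ) :
    ∀ x : GaussA.kappa (IsLocalRing.ResidueField A) (LevelNum.levelM ℓ N),
      ∃ f : modularFunctionFieldBar (LevelNum.levelM ℓ N),
        GaussA.Red A (LevelNum.levelM ℓ N) f x :=
  (red_j_surj hℓ (LevelNum.not_dvd_levelM hℓ hℓN) A hA).2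

/-- `PlaceFacts` for `F_M / ℚ̄`. -/
theorem placeFacts (ℓ N : ℕ) [NeZero N] :
    PlaceFacts (AlgebraicClosure ℚ) (modularFunctionFieldBar (LevelNum.levelM ℓ N)) :=
  ConstPF.placeFacts_bar _

/-- `RiemannFacts` for `F_M / ℚ̄`. -/
theorem riemannFacts (ℓ N : ℕ) [NeZero N] :
    RiemannFacts (AlgebraicClosure ℚ) (modularFunctionFieldBar (LevelNum.levelM ℓ N)) :=
  GenusBar.riemannFacts_bar _

/-- `PlaceFacts` for `κ_M / k`. -/
theorem placeFactsBar (hℓ : ℓ.Prime) (hℓN : ¬ ℓ ∣ N)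
    (A : ValuationSubring (AlgebraicClosure ℚ)) (hA : A.LiesOverPrime ℓ) :
    PlaceFacts (IsLocalRing.ResidueField A)
      (GaussA.kappa (IsLocalRing.ResidueField A) (LevelNum.levelM ℓ N)) :=
  placeFactsBar_level hℓ (LevelNum.not_dvd_levelM hℓ hℓN) A hA

/-- `RiemannFacts` for `κ_M / k`. -/
theorem riemannFactsBar (hℓ : ℓ.Prime) (hℓN : ¬ ℓ ∣ N)
    (A : ValuationSubring (AlgebraicClosure ℚ)) (hA : A.LiesOverPrime ℓ) :
    RiemannFacts (IsLocalRing.ResidueField A)
      (GaussA.kappa (IsLocalRing.ResidueField A) (LevelNum.levelM ℓ N)) :=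
  riemannFactsBar_level hℓ (LevelNum.not_dvd_levelM hℓ hℓN) A hA

/-- The genus inequality `g_M ≤ ḡ_M` (Riemann–Hurwitz over the genus-zero level `M₀`). -/
theorem genus_ge (hℓ : ℓ.Prime) (hℓN : ¬ ℓ ∣ N) (A : ValuationSubring (AlgebraicClosure ℚ))
    (hA : A.LiesOverPrime ℓ) :
    (Module.finrank (AlgebraicClosure ℚ)
        (H1 (0 : Divisor (AlgebraicClosure ℚ)
          (modularFunctionFieldBar (LevelNum.levelM ℓ N)))) : ℤ)
      ≤ (Module.finrank (IsLocalRing.ResidueField A)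
        (H1 (0 : Divisor (IsLocalRing.ResidueField A)
          (GaussA.kappa (IsLocalRing.ResidueField A) (LevelNum.levelM ℓ N)))) : ℤ) :=
  genus_ge_of_layers hℓ hℓN A hA (GaussA.Red A (LevelNum.M0 ℓ))
    (GaussA.redFacts hℓ (LevelNum.not_dvd_M0 hℓ) A hA)
    (GaussA.hint hℓ (LevelNum.not_dvd_M0 hℓ) A hA)
    (GaussA.Red A (LevelNum.levelM ℓ N)) (redFacts hℓ hℓN A hA) (hint hℓ hℓN A hA)

/-- **Equality of genera** of `F_M / ℚ̄` and `κ_M / k`. -/
theorem genus_eq (hℓ : ℓ.Prime) (hℓN : ¬ ℓ ∣ N) (A : ValuationSubring (AlgebraicClosure ℚ))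
    (hA : A.LiesOverPrime ℓ) :
    Module.finrank (AlgebraicClosure ℚ)
        (H1 (0 : Divisor (AlgebraicClosure ℚ) (modularFunctionFieldBar (LevelNum.levelM ℓ N))))
      = Module.finrank (IsLocalRing.ResidueField A)
        (H1 (0 : Divisor (IsLocalRing.ResidueField A)
          (GaussA.kappa (IsLocalRing.ResidueField A) (LevelNum.levelM ℓ N)))) := by
  have h1 := genus_ge hℓ hℓN A hA
  have h2 := genus_le_level hℓ (LevelNum.not_dvd_levelM hℓ hℓN) A hA
  exact le_antisymm (by exact_mod_cast h1) h2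

/-- The two-chart core of S18 at level `M`, closed. -/
theorem coreStmt (hℓ : ℓ.Prime) (hℓN : ¬ ℓ ∣ N) (A : ValuationSubring (AlgebraicClosure ℚ))
    (hA : A.LiesOverPrime ℓ) : CoreStmt A (GaussA.Red A (LevelNum.levelM ℓ N)) :=
  (core_kummer_root_of_layers hℓ hℓN A hA (GaussA.Red A (LevelNum.M0 ℓ))
    (GaussA.redFacts hℓ (LevelNum.not_dvd_M0 hℓ) A hA)
    (GaussA.hint hℓ (LevelNum.not_dvd_M0 hℓ) A hA)
    (GaussA.Red A (LevelNum.levelM ℓ N)) (redFacts hℓ hℓN A hA) (hint hℓ hℓN A hA)).1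

/-- The Kummer statement of S18 at level `M`, closed. -/
theorem kummerM (hℓ : ℓ.Prime) (hℓN : ¬ ℓ ∣ N) (A : ValuationSubring (AlgebraicClosure ℚ))
    (hA : A.LiesOverPrime ℓ) : KummerStmt ℓ A (LevelNum.levelM ℓ N) :=
  (core_kummer_root_of_layers hℓ hℓN A hA (GaussA.Red A (LevelNum.M0 ℓ))
    (GaussA.redFacts hℓ (LevelNum.not_dvd_M0 hℓ) A hA)
    (GaussA.hint hℓ (LevelNum.not_dvd_M0 hℓ) A hA)
    (GaussA.Red A (LevelNum.levelM ℓ N)) (redFacts hℓ hℓN A hA) (hint hℓ hℓN A hA)).2.1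

/-- Descent of roots from level `M` to level `N`, closed. -/
theorem rootDescent (hℓ : ℓ.Prime) (hℓN : ¬ ℓ ∣ N) (A : ValuationSubring (AlgebraicClosure ℚ))
    (hA : A.LiesOverPrime ℓ) : RootDescentStmt ℓ A N (LevelNum.levelM ℓ N) :=
  (core_kummer_root_of_layers hℓ hℓN A hA (GaussA.Red A (LevelNum.M0 ℓ))
    (GaussA.redFacts hℓ (LevelNum.not_dvd_M0 hℓ) A hA)
    (GaussA.hint hℓ (LevelNum.not_dvd_M0 hℓ) A hA)
    (GaussA.Red A (LevelNum.levelM ℓ N)) (redFacts hℓ hℓN A hA) (hint hℓ hℓN A hA)).2.2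

/-- Restriction of places along `F_N ⊆ F_M`, closed. -/
theorem restrict (ℓ N : ℕ) [NeZero N] : RestrictStmt N (LevelNum.levelM ℓ N) :=
  Restrict.main (LevelNum.dvd_levelM ℓ N) (LevelNum.levelM_ne_zero ℓ N (NeZero.ne N))

/-- **The Kummer statement of S18 at level `N`**, closed. -/
theorem kummerN (hℓ : ℓ.Prime) (hℓN : ¬ ℓ ∣ N) (A : ValuationSubring (AlgebraicClosure ℚ))
    (hA : A.LiesOverPrime ℓ) : KummerStmt ℓ A N :=
  Descent.main (NeZero.ne N) (LevelNum.levelM_ne_zero ℓ N (NeZero.ne N))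
    (LevelNum.dvd_levelM ℓ N) A (kummerM hℓ hℓN A hA) (restrict ℓ N) (rootDescent hℓ hℓN A hA)

/-- `F_N ⊆ F_M`. -/
theorem bar_le (ℓ N : ℕ) [NeZero N] :
    modularFunctionFieldBar N ≤ modularFunctionFieldBar (LevelNum.levelM ℓ N) :=
  Descent.bar_le (NeZero.ne N) (LevelNum.levelM_ne_zero ℓ N (NeZero.ne N))
    (LevelNum.dvd_levelM ℓ N)

end LevelM

end Fermat.Agent.S37.LevelM

end
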