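import Mathlib
import Fermat.Agent.S37.NormConjCore
import Fermat.Agent.S37.DegAlpha
import Fermat.Agent.S37.ConjEmb

/-!
# S37, package PD: the norm of `β f` from `F_{Nℓ}` to `α F_N`

For a prime `ℓ ∤ N`, `f ∈ F_N` and a primitive `ℓ`-th root of unity `ζ` of the coefficient field,
in `K((s))`, `s = q^{1/ℓ}`:

  `N_{F_{Nℓ}/αF_N}(β f)(s^ℓ) = f(s^{ℓ²}) · ∏_{i<ℓ} f(ζ^i s)`.

This is `NormConjCore.norm_eq_of` with the degree (`DegAlpha`) and the `ℓ + 1` conjugate
embeddings (`ConjEmb.exists_conj`) plugged in.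
-/

set_option autoImplicit false
set_option synthInstance.maxHeartbeats 400000

namespace Fermat.Agent.S37.NormBeta

open ModularCurve AlgebraicCurve
open Fermat.Agent.S24

/-- **Norm of `β f`** (any coefficient field `K ⊆ ℂ`). -/
theorem norm_eq {K : Type*} [Field K] [Algebra ℚ K] (φ : K →+* ℂ) {N l : ℕ} [NeZero N] [NeZero l]
    (hl : l.Prime) (hlN : ¬ l ∣ N) (ζ : K) (hζ : IsPrimitiveRoot ζ l) (hζ0 : ∀ i : ℕ, ζ ^ i ≠ 0)
    (f : FK K N) :
    letI := algebraAlong (heckeAlphaBar K N l)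
    qExpand K l ((Algebra.norm (FK K N) (heckeBetaBar K N l f) : FK K N) : LaurentSeries K)
      = qExpand K l (qExpand K l (f : LaurentSeries K))
        * ∏ i ∈ Finset.range l, lsTwist (ζ ^ i) (hζ0 i) (f : LaurentSeries K) := by
  obtain ⟨ψ, hinj, hα, hβ0, hβ⟩ := ConjEmb.exists_conj φ hl hlN
  exact NormConjCore.norm_eq_of φ (DegAlpha.finiteDimensional_alpha K N l φ hl hlN)
    (DegAlpha.isSeparable_alpha K N l φ hl hlN) (DegAlpha.finrank_alpha K N l φ hl hlN).2
    ψ hinj hα hβ0 hβ ζ hζ hζ0 f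

/-- **Norm of `β f`** over `ℚ̄` (the field of the statement). -/
theorem norm_eq_bar {N l : ℕ} [NeZero N] [NeZero l] (hl : l.Prime) (hlN : ¬ l ∣ N)
    (ζ : AlgebraicClosure ℚ) (hζ : IsPrimitiveRoot ζ l) (f : modularFunctionFieldBar N) :
    letI := algebraAlong (heckeAlphaBar (AlgebraicClosure ℚ) N l)
    qExpand (AlgebraicClosure ℚ) l
        ((Algebra.norm (modularFunctionFieldBar N) (heckeBetaBar (AlgebraicClosure ℚ) N l f) :
          modularFunctionFieldBar N) : LaurentSeries (AlgebraicClosure ℚ))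
      = qExpand (AlgebraicClosure ℚ) l
          (qExpand (AlgebraicClosure ℚ) l (f : LaurentSeries (AlgebraicClosure ℚ)))
        * ∏ i ∈ Finset.range l, lsTwist (ζ ^ i) (pow_ne_zero i (hζ.ne_zero (NeZero.ne l)))
            (f : LaurentSeries (AlgebraicClosure ℚ)) :=
  norm_eq kEmb hl hlN ζ hζ (fun i => pow_ne_zero i (hζ.ne_zero (NeZero.ne l))) f

end Fermat.Agent.S37.NormBeta
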