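/-
S37, package PA2 (owner: helper9): the norm formula for divisors.

For a finite separable extension `F/E` of function fields over `K` all of whose places have degree
one, the fundamental identity `∑_{w ∣ v} e_w = [F : E]` implies
`ord_v (N_{F/E} f) = ∑_{w ∣ v} ord_w f`, i.e. the Prelude's `Divisor.PushforwardNormFormula K E F`
(`pushforwardNormFormula`), and its `NormFormulaAlong` form (`normFormulaAlong`,
`normFormulaAlong_of_charZero`), which is one of the inputs of `HeckeInputsAlong`.

Proof: the integral closure `B` of the valuation ring `O_v` in `F` is a Dedekind domain whose height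
one primes are the places above `v`; Mathlib's relative ideal norm is multiplicative, sends every
prime of `B` to a power `𝔪_v ^ s` with `s ≥ 1`, and `𝔪_v B` to `𝔪_v ^ [F : E]`, so the fundamental
identity forces `s = 1` for every prime.
-/
import Mathlib
import Fermat.Prelude.Def_AlgebraicCurve_Correspondence
import Fermat.Agent.S24.PlacesOver

set_option autoImplicit false

noncomputable section

namespace Fermat.Agent.S37.NormFormula

open Ideal UniqueFactorizationMonoid IsLocalRing AlgebraicCurve IsDedekindDomain

section Abstract

variable {R S : Type*} [CommRing R] [IsDomain R] [IsDiscreteValuationRing R]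
  [CommRing S] [IsDedekindDomain S] [Algebra R S] [Module.Finite R S] [Module.IsTorsionFree R S]

theorem maximalIdeal_ne_bot' : maximalIdeal R ≠ ⊥ :=
  IsDiscreteValuationRing.not_a_field R

theorem maximalIdeal_pow_injective :
    Function.Injective (fun n : ℕ => maximalIdeal R ^ n) := by
  intro a b hab
  simp only at hab
  by_contra hne
  rcases Nat.lt_or_gt_of_ne hne with h | h
  · exact (Ideal.pow_right_strictAnti (maximalIdeal R) maximalIdeal_ne_bot'
      (IsPrime.ne_top inferInstance) h).ne' hab
  · exact (Ideal.pow_right_strictAnti (maximalIdeal R) maximalIdeal_ne_bot'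
      (IsPrime.ne_top inferInstance) h).ne hab

omit [Module.Finite R S] [Module.IsTorsionFree R S] in
/-- Every nonzero prime of `S` lies over the maximal ideal of the DVR `R`. -/
theorem under_eq_maximalIdeal [Algebra.IsIntegral R S] (P : Ideal S) [hP : P.IsPrime]
    (hP0 : P ≠ ⊥) : P.under R = maximalIdeal R := by
  have h1 : (P.under R).IsPrime := Ideal.comap_isPrime _ _
  have h2 : P.under R ≠ ⊥ := Ideal.under_ne_bot R hP0
  have h3 : (P.under R).IsMaximal := h1.isMaximal h2
  exact IsLocalRing.eq_maximalIdeal h3

/-- Every nonzero prime of `S` has relative norm a positive power of the maximal ideal. -/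
theorem exists_relNorm_eq_pow (P : Ideal S) [hP : P.IsPrime] (hP0 : P ≠ ⊥) :
    ∃ s : ℕ, 1 ≤ s ∧ relNorm R P = maximalIdeal R ^ s := by
  have : Algebra.IsIntegral R S := Algebra.IsIntegral.of_finite R S
  have hover : P.LiesOver (maximalIdeal R) := ⟨(under_eq_maximalIdeal P hP0).symm⟩
  obtain ⟨s, hs⟩ := exists_relNorm_eq_pow_of_isPrime P (maximalIdeal R)
  refine ⟨s, ?_, hs⟩
  rcases Nat.eq_zero_or_pos s with h0 | h0
  · exfalso
    rw [h0, pow_zero, Ideal.one_eq_top] at hs
    have hle := relNorm_le_comap R P
    rw [hs, top_le_iff] at hle
    have h1 : (P.under R) = ⊤ := hle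
    rw [under_eq_maximalIdeal P hP0] at h1
    exact (IsPrime.ne_top inferInstance) h1
  · exact h0

/-- Multiset bookkeeping for relative norms of products of primes. -/
theorem relNorm_multiset_prod (M : Multiset (Ideal S))
    (hM : ∀ Q ∈ M, ∃ s : ℕ, 1 ≤ s ∧ relNorm R Q = maximalIdeal R ^ s) :
    ∃ k : ℕ, Multiset.card M ≤ k ∧ relNorm R M.prod = maximalIdeal R ^ k ∧
      (k = Multiset.card M → ∀ Q ∈ M, relNorm R Q = maximalIdeal R) := by
  induction M using Multiset.induction_on with
  | empty =>
    refine ⟨0, le_rfl, ?_, fun _ Q hQ => absurd hQ (Multiset.notMem_zero Q)⟩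
    rw [Multiset.prod_zero, pow_zero, map_one]
  | cons Q M ih =>
    obtain ⟨k, hk, hprod, hall⟩ := ih fun Q' hQ' => hM Q' (Multiset.mem_cons_of_mem hQ')
    obtain ⟨s, hs1, hs⟩ := hM Q (Multiset.mem_cons_self Q M)
    refine ⟨s + k, ?_, ?_, ?_⟩
    · rw [Multiset.card_cons]; omega
    · rw [Multiset.prod_cons, map_mul, hs, hprod, pow_add]
    · intro heq Q' hQ'
      rw [Multiset.card_cons] at heq
      have hs' : s = 1 := by omega
      have hk' : k = Multiset.card M := by omega
      rcases Multiset.mem_cons.mp hQ' with rfl | h
      · rw [hs, hs', pow_one]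
      · exact hall hk' Q' h

/-- If the prime factorisation of `𝔪 S` has exactly `[S : R]` factors (the fundamental identity
with trivial residue field extensions), every nonzero prime of `S` has relative norm `𝔪`. -/
theorem relNorm_prime_eq
    (hcard : Multiset.card (normalizedFactors ((maximalIdeal R).map (algebraMap R S)))
      = Module.finrank R S)
    (P : Ideal S) [hP : P.IsPrime] (hP0 : P ≠ ⊥) : relNorm R P = maximalIdeal R := by
  have : Algebra.IsIntegral R S := Algebra.IsIntegral.of_finite R S
  have hinj : Function.Injective (algebraMap R S) := FaithfulSMul.algebraMap_injective R S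
  have hmap0 : (maximalIdeal R).map (algebraMap R S) ≠ ⊥ := by
    rw [ne_eq, Ideal.map_eq_bot_iff_of_injective hinj]
    exact maximalIdeal_ne_bot'
  have hfac : ∀ Q ∈ normalizedFactors ((maximalIdeal R).map (algebraMap R S)),
      ∃ s : ℕ, 1 ≤ s ∧ relNorm R Q = maximalIdeal R ^ s := by
    intro Q hQ
    have hQ' := (Ideal.mem_normalizedFactors_iff hmap0).mp hQ
    have : Q.IsPrime := hQ'.1
    have hQ0 : Q ≠ ⊥ := by
      rintro rfl
      exact hmap0 (le_bot_iff.mp hQ'.2)
    exact exists_relNorm_eq_pow Q hQ0
  obtain ⟨k, hk, hprod, hall⟩ := relNorm_multiset_prod _ hfac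
  rw [Ideal.prod_normalizedFactors_eq_self hmap0, relNorm_algebraMap] at hprod
  have hkn : Module.finrank R S = k := maximalIdeal_pow_injective hprod
  apply hall (by rw [hcard, hkn])
  rw [Ideal.mem_normalizedFactors_iff hmap0]
  refine ⟨hP, ?_⟩
  rw [Ideal.map_le_iff_le_comap]
  exact (under_eq_maximalIdeal P hP0).ge

/-- The norm of a nonzero element generates the power of the maximal ideal whose exponent is the
number of prime factors (with multiplicity) of the element. -/
theorem span_intNorm_eq_pow
    (hrel : ∀ (P : Ideal S), P.IsPrime → P ≠ ⊥ → relNorm R P = maximalIdeal R)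
    (b : S) (hb : b ≠ 0) :
    Ideal.span {Algebra.intNorm R S b}
      = maximalIdeal R ^ Multiset.card (normalizedFactors (Ideal.span {b})) := by
  have hb0 : Ideal.span {b} ≠ ⊥ := by
    rw [ne_eq, Ideal.span_singleton_eq_bot]
    exact hb
  rw [← relNorm_singleton]
  conv_lhs => rw [← Ideal.prod_normalizedFactors_eq_self hb0]
  rw [map_multiset_prod]
  have hrep : (normalizedFactors (Ideal.span {b})).map (relNorm R)
      = Multiset.replicate (Multiset.card (normalizedFactors (Ideal.span {b}))) (maximalIdeal R) := by
    rw [Multiset.eq_replicate]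
    refine ⟨Multiset.card_map _ _, fun I hI => ?_⟩
    obtain ⟨Q, hQ, rfl⟩ := Multiset.mem_map.mp hI
    have hQ' := (Ideal.mem_normalizedFactors_iff hb0).mp hQ
    have hQ0 : Q ≠ ⊥ := by
      rintro rfl
      exact hb0 (le_bot_iff.mp hQ'.2)
    exact hrel Q hQ'.1 hQ0
  rw [hrep, Multiset.prod_replicate]

end Abstract

section Places

variable {K E F : Type*} [Field K] [Field E] [Field F] [Algebra K E] [Algebra K F] [Algebra E F]
  [IsScalarTower K E F] [Algebra.IsIntegral E F] [HasPrincipalDivisors K F]
variable {B : Type*} [CommRing B] [IsDedekindDomain B] [Algebra B F] [IsFractionRing B F]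
  [Algebra K B] [IsScalarTower K B F]

omit [Algebra K E] [Algebra E F] [IsScalarTower K E F] [Algebra.IsIntegral E F]
  [HasPrincipalDivisors K F] in
/-- The order at the place of a height one prime counts the prime in the factorisation. -/
theorem ord_ofHeightOneSpectrum_algebraMap (P : HeightOneSpectrum B) (b : B) (hb : b ≠ 0) :
    (Place.ofHeightOneSpectrum (K := K) P).ord (algebraMap B F b)
      = (Multiset.count P.asIdeal (normalizedFactors (Ideal.span {b})) : ℤ) := by
  classical
  have hsr : Ideal.span {b} ≠ 0 := by
    rw [ne_eq, Ideal.zero_eq_bot, Ideal.span_singleton_eq_bot]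
    exact hb
  rw [Fermat.Agent.S24.PlacesOver.ord_ofHeightOneSpectrum, HeightOneSpectrum.valuation_of_algebraMap,
    HeightOneSpectrum.intValuation_if_neg _ hb, WithZero.log_exp, neg_neg,
    Ideal.count_associates_factors_eq hsr P.isPrime P.ne_bot]

/-- The sum of the orders of `b ∈ B` over the places above `v` is the number of prime factors of
`(b)`, when the places above `v` are exactly the places of the height one primes of `B`. -/
theorem sum_fiber_ord (v : Place K E)
    (hB : ∀ w : Place K F, w.restrict E = v → ∀ b : B, algebraMap B F b ∈ w.toValuationSubring)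
    (hv : ∀ P : HeightOneSpectrum B,
      (Place.ofHeightOneSpectrum (K := K) (F := F) P).restrict E = v)
    (b : B) (hb : b ≠ 0) :
    ∑ w ∈ v.fiber F, w.ord (algebraMap B F b)
      = (Multiset.card (normalizedFactors (Ideal.span {b})) : ℤ) := by
  classical
  have hb0 : Ideal.span {b} ≠ ⊥ := by
    rw [ne_eq, Ideal.span_singleton_eq_bot]
    exact hb
  -- the height one spectrum is finite and parametrises the fibre
  have hinj : Function.Injective
      (fun P : HeightOneSpectrum B => Place.ofHeightOneSpectrum (K := K) (F := F) P) :=
    Fermat.Agent.S24.PlacesOver.ofHeightOneSpectrum_injective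
  have hfinite : Finite (HeightOneSpectrum B) := by
    refine Finite.of_injective
      (fun P : HeightOneSpectrum B =>
        (⟨Place.ofHeightOneSpectrum (K := K) (F := F) P, Place.mem_fiber.mpr (hv P)⟩ :
          {w // w ∈ v.fiber F})) ?_
    intro P Q h
    exact hinj (congrArg Subtype.val h)
  have : Fintype (HeightOneSpectrum B) := Fintype.ofFinite _
  have hW : v.fiber F = Finset.univ.image
      (fun P : HeightOneSpectrum B => Place.ofHeightOneSpectrum (K := K) (F := F) P) := by
    ext w
    rw [Place.mem_fiber, Finset.mem_image]
    constructor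
    · intro hw
      obtain ⟨P, hP⟩ := Fermat.Agent.S24.PlacesOver.exists_eq_ofHeightOneSpectrum w (hB w hw)
      exact ⟨P, Finset.mem_univ _, hP⟩
    · rintro ⟨P, -, rfl⟩
      exact hv P
  rw [hW, Finset.sum_image (fun P _ Q _ h => hinj h)]
  simp_rw [ord_ofHeightOneSpectrum_algebraMap _ b hb]
  rw [← Nat.cast_sum]
  congr 1
  have hasinj : Function.Injective (fun P : HeightOneSpectrum B => P.asIdeal) :=
    fun P Q h => HeightOneSpectrum.ext h
  rw [← Finset.sum_image (f := fun I => Multiset.count I (normalizedFactors (Ideal.span {b})))
    (g := fun P : HeightOneSpectrum B => P.asIdeal) (fun P _ Q _ h => hasinj h)]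
  apply Multiset.sum_count_eq_card
  intro I hI
  have hI' := (Ideal.mem_normalizedFactors_iff hb0).mp hI
  have hI0 : I ≠ ⊥ := by
    rintro rfl
    exact hb0 (le_bot_iff.mp hI'.2)
  exact Finset.mem_image.mpr ⟨⟨I, hI'.1, hI0⟩, Finset.mem_univ _, rfl⟩

end Places

section OrdCoe

variable {K E : Type*} [Field K] [Field E] [Algebra K E]

/-- The order of an element of the valuation ring, read off from the ideal it generates. -/
theorem ord_coe_of_span_eq (v : Place K E) (x : v.toValuationSubring) (hx : x ≠ 0) (m : ℕ)
    (h : Ideal.span {x} = maximalIdeal v.toValuationSubring ^ m) : v.ord (x : E) = m := by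
  have h0 : maximalIdeal v.toValuationSubring ≠ 0 := maximalIdeal_ne_bot'
  have h1 : ¬ IsUnit (maximalIdeal v.toValuationSubring) := by
    rw [Ideal.isUnit_iff]
    exact IsPrime.ne_top inferInstance
  rw [Place.ord, v.adicValuation_coe, HeightOneSpectrum.intValuation_eq_exp_neg_multiplicity _ hx,
    Place.heightOneSpectrum_asIdeal, h, multiplicity_pow_self h0 h1, WithZero.log_exp, neg_neg]

end OrdCoe

section Norm

variable {K E F : Type*} [Field K] [Field E] [Field F] [Algebra K E] [Algebra K F] [Algebra E F]
  [IsScalarTower K E F] [Algebra.IsIntegral E F] [HasPrincipalDivisors K F] [FiniteDimensional E F]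
variable (v : Place K E)
variable {B : Type*} [CommRing B] [IsDedekindDomain B] [Algebra B F] [IsFractionRing B F]
  [Algebra K B] [IsScalarTower K B F]
  [Algebra v.toValuationSubring B] [Module.Finite v.toValuationSubring B]
  [Module.IsTorsionFree v.toValuationSubring B]
  [Algebra v.toValuationSubring F] [IsScalarTower v.toValuationSubring E F]
  [IsScalarTower v.toValuationSubring B F] [IsIntegralClosure B v.toValuationSubring F]

/-- The fundamental identity (with trivial residue extensions) counts the prime factors of
`𝔪_v B`. -/
theorem card_factors_eq [FundamentalIdentity K E F] (hdegv : v.deg = 1)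
    (hdeg : ∀ w : Place K F, w.deg = 1)
    (hB : ∀ w : Place K F, w.restrict E = v → ∀ b : B, algebraMap B F b ∈ w.toValuationSubring)
    (hv : ∀ P : HeightOneSpectrum B,
      (Place.ofHeightOneSpectrum (K := K) (F := F) P).restrict E = v) :
    Multiset.card (normalizedFactors
      ((maximalIdeal v.toValuationSubring).map (algebraMap v.toValuationSubring B)))
      = Module.finrank v.toValuationSubring B := by
  obtain ⟨π, hπ⟩ := IsDiscreteValuationRing.exists_irreducible v.toValuationSubring
  have hinj : Function.Injective (algebraMap v.toValuationSubring B) :=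
    FaithfulSMul.algebraMap_injective _ _
  have hπB : algebraMap v.toValuationSubring B π ≠ 0 := by
    intro h
    exact hπ.ne_zero (hinj (by rw [h, map_zero]))
  rw [hπ.maximalIdeal_eq, Ideal.map_span, Set.image_singleton]
  have hsum := sum_fiber_ord (K := K) (E := E) (F := F) v hB hv _ hπB
  have hcoe : algebraMap B F (algebraMap v.toValuationSubring B π) = algebraMap E F (π : E) := by
    rw [← IsScalarTower.algebraMap_apply v.toValuationSubring B F,
      IsScalarTower.algebraMap_apply v.toValuationSubring E F]
    rfl
  have hFI := FundamentalIdentity.sum_ramificationIndex_mul_deg (K := K) (F := E) (F' := F) v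
  have hterm : ∀ w ∈ v.fiber F, w.ord (algebraMap B F (algebraMap v.toValuationSubring B π))
      = (w.ramificationIndex E : ℤ) * (w.deg : ℤ) := by
    intro w hw
    rw [hcoe, w.ord_restrict (π : E), Place.mem_fiber.mp hw, v.ord_coe_irreducible hπ, hdeg w,
      Nat.cast_one]
  rw [Finset.sum_congr rfl hterm, hFI, hdegv] at hsum
  have hfr : Module.finrank E F = Module.finrank v.toValuationSubring B :=
    IsFractionRing.finrank_eq v.toValuationSubring E B F
  rw [← hfr]
  have : ((Multiset.card (normalizedFactors (Ideal.span
      {algebraMap v.toValuationSubring B π})) : ℕ) : ℤ) = (Module.finrank E F : ℤ) := by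
    rw [← hsum]; simp
  exact_mod_cast this

/-- **Norm formula for integral elements**: `ord_v (N b) = ∑_{w ∣ v} ord_w b`. -/
theorem ord_norm_algebraMap [FundamentalIdentity K E F] (hdegv : v.deg = 1)
    (hdeg : ∀ w : Place K F, w.deg = 1)
    (hB : ∀ w : Place K F, w.restrict E = v → ∀ b : B, algebraMap B F b ∈ w.toValuationSubring)
    (hv : ∀ P : HeightOneSpectrum B,
      (Place.ofHeightOneSpectrum (K := K) (F := F) P).restrict E = v)
    (b : B) (hb : b ≠ 0) :
    v.ord (Algebra.norm E (algebraMap B F b)) = ∑ w ∈ v.fiber F, w.ord (algebraMap B F b) := by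
  have hint : Algebra.IsIntegral v.toValuationSubring B := Algebra.IsIntegral.of_finite _ _
  have hcard := card_factors_eq (K := K) (E := E) (F := F) v hdegv hdeg hB hv
  have hrel : ∀ (P : Ideal B), P.IsPrime → P ≠ ⊥ →
      relNorm v.toValuationSubring P = maximalIdeal v.toValuationSubring :=
    fun P hP hP0 => relNorm_prime_eq hcard P hP0
  have hspan := span_intNorm_eq_pow hrel b hb
  have hne : Algebra.intNorm v.toValuationSubring B b ≠ 0 := by
    intro h0
    rw [h0, Ideal.span_singleton_eq_bot.mpr rfl] at hspan
    exact pow_ne_zero _ maximalIdeal_ne_bot' hspan.symm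
  rw [sum_fiber_ord (K := K) (E := E) (F := F) v hB hv b hb,
    ← Algebra.algebraMap_intNorm (A := v.toValuationSubring) (K := E) (L := F) (B := B) b]
  exact ord_coe_of_span_eq v _ hne _ hspan

end Norm

theorem isTorsionFree_of_faithfulSMul {R S : Type*} [CommRing R] [IsDomain R] [CommRing S]
    [IsDomain S] [Algebra R S] [FaithfulSMul R S] : Module.IsTorsionFree R S := inferInstance

section Inst

variable {K E F : Type*} [Field K] [Field E] [Field F] [Algebra K E] [Algebra K F] [Algebra E F]
  [IsScalarTower K E F] [Algebra.IsIntegral E F] [HasPrincipalDivisors K F] [FiniteDimensional E F]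
  [Algebra.IsSeparable E F]
variable (v : Place K E)

/-- The valuation ring of `v` acts on `F` through `E`. -/
abbrev algOV : Algebra v.toValuationSubring F :=
  ((algebraMap E F).comp (algebraMap v.toValuationSubring E)).toAlgebra

/-- The norm formula at a fixed place `v`: `ord_v (N f) = ∑_{w ∣ v} ord_w f`. -/
theorem ord_norm_eq_sum_fiber [FundamentalIdentity K E F] (hdegv : v.deg = 1)
    (hdeg : ∀ w : Place K F, w.deg = 1) (f : F) (hf : f ≠ 0) :
    v.ord (Algebra.norm E f) = ∑ w ∈ v.fiber F, w.ord f := by
  letI : Algebra v.toValuationSubring F := algOV v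
  have h1 : IsScalarTower v.toValuationSubring E F := IsScalarTower.of_algebraMap_eq fun _ => rfl
  have h2 : IsScalarTower K v.toValuationSubring F :=
    IsScalarTower.of_algebraMap_eq fun a => by
      rw [IsScalarTower.algebraMap_apply K E F]
      rfl
  have h3 : IsDedekindDomain (integralClosure v.toValuationSubring F) :=
    integralClosure.isDedekindDomain v.toValuationSubring E F
  have h4 : IsFractionRing (integralClosure v.toValuationSubring F) F :=
    integralClosure.isFractionRing_of_finite_extension E F
  have h5 : Module.Finite v.toValuationSubring (integralClosure v.toValuationSubring F) :=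
    IsIntegralClosure.finite v.toValuationSubring E F (integralClosure v.toValuationSubring F)
  have h6a : FaithfulSMul v.toValuationSubring (integralClosure v.toValuationSubring F) := by
    rw [faithfulSMul_iff_algebraMap_injective]
    intro x y hxy
    have h := congrArg (algebraMap (integralClosure v.toValuationSubring F) F) hxy
    rw [← IsScalarTower.algebraMap_apply, ← IsScalarTower.algebraMap_apply] at h
    have h' : algebraMap E F (x : E) = algebraMap E F (y : E) := h
    exact Subtype.ext ((algebraMap E F).injective h')
  have h6 : Module.IsTorsionFree v.toValuationSubring (integralClosure v.toValuationSubring F) :=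
    isTorsionFree_of_faithfulSMul
  -- the integral closure lies in every valuation ring above `v`
  have hB : ∀ w : Place K F, w.restrict E = v →
      ∀ b : integralClosure v.toValuationSubring F,
        algebraMap (integralClosure v.toValuationSubring F) F b ∈ w.toValuationSubring := by
    intro w hw b
    have hmem : ∀ x : v.toValuationSubring,
        algebraMap v.toValuationSubring F x ∈ w.toValuationSubring := by
      intro x
      have hx : (x : E) ∈ (w.restrict E).toValuationSubring := by rw [hw]; exact x.2
      exact (Place.mem_restrict_iff w).mp hx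
    let φ : v.toValuationSubring →+* w.toValuationSubring :=
      (algebraMap v.toValuationSubring F).codRestrict w.toValuationSubring.toSubring hmem
    obtain ⟨p, hp, hp0⟩ := b.2
    have hint' : IsIntegral w.toValuationSubring (b : F) :=
      ⟨p.map φ, hp.map φ, by rw [Polynomial.eval₂_map]; exact hp0⟩
    obtain ⟨z, hz⟩ := IsIntegrallyClosed.isIntegral_iff.mp hint'
    show (b : F) ∈ w.toValuationSubring
    rw [← hz]
    exact z.2
  -- every height one prime gives a place above `v`
  have hv : ∀ P : HeightOneSpectrum (integralClosure v.toValuationSubring F),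
      (Place.ofHeightOneSpectrum (K := K) (F := F) P).restrict E = v := by
    intro P
    have hle : v.toValuationSubring
        ≤ ((Place.ofHeightOneSpectrum (K := K) (F := F) P).restrict E).toValuationSubring := by
      intro x hx
      rw [Place.mem_restrict_iff, Place.ofHeightOneSpectrum_toValuationSubring,
        Valuation.mem_valuationSubring_iff]
      exact P.valuation_le_one (K := F)
        (algebraMap v.toValuationSubring (integralClosure v.toValuationSubring F) ⟨x, hx⟩)
    have heq := ValuationSubring.eq_of_le_of_ne_top _ hle
      ((Place.ofHeightOneSpectrum (K := K) (F := F) P).restrict E).ne_top'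
    exact (Place.ext heq).symm
  -- write `f` as a quotient of integral elements
  obtain ⟨a, b, hb, rfl⟩ := IsFractionRing.div_surjective
    (A := integralClosure v.toValuationSubring F) f
  have hb0 : b ≠ 0 := nonZeroDivisors.ne_zero hb
  have hbF : algebraMap (integralClosure v.toValuationSubring F) F b ≠ 0 := by
    intro h
    exact hb0 ((IsFractionRing.injective (integralClosure v.toValuationSubring F) F)
      (by rw [h, map_zero]))
  have ha0 : a ≠ 0 := by
    rintro rfl
    rw [map_zero, zero_div] at hf
    exact hf rfl
  have haF : algebraMap (integralClosure v.toValuationSubring F) F a ≠ 0 := by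
    intro h
    exact ha0 ((IsFractionRing.injective (integralClosure v.toValuationSubring F) F)
      (by rw [h, map_zero]))
  have hNa := ord_norm_algebraMap (K := K) (E := E) (F := F) v hdegv hdeg hB hv a ha0
  have hNb := ord_norm_algebraMap (K := K) (E := E) (F := F) v hdegv hdeg hB hv b hb0
  have hna : Algebra.norm E (algebraMap (integralClosure v.toValuationSubring F) F a) ≠ 0 :=
    Algebra.norm_ne_zero_iff.mpr haF
  have hnb : Algebra.norm E (algebraMap (integralClosure v.toValuationSubring F) F b) ≠ 0 :=
    Algebra.norm_ne_zero_iff.mpr hbF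
  have hfb : algebraMap (integralClosure v.toValuationSubring F) F a
        / algebraMap (integralClosure v.toValuationSubring F) F b
      * algebraMap (integralClosure v.toValuationSubring F) F b
      = algebraMap (integralClosure v.toValuationSubring F) F a := div_mul_cancel₀ _ hbF
  have hnf : Algebra.norm E (algebraMap (integralClosure v.toValuationSubring F) F a
      / algebraMap (integralClosure v.toValuationSubring F) F b) ≠ 0 :=
    Algebra.norm_ne_zero_iff.mpr hf
  have hN : v.ord (Algebra.norm E (algebraMap (integralClosure v.toValuationSubring F) F a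
        / algebraMap (integralClosure v.toValuationSubring F) F b))
      + v.ord (Algebra.norm E (algebraMap (integralClosure v.toValuationSubring F) F b))
      = v.ord (Algebra.norm E (algebraMap (integralClosure v.toValuationSubring F) F a)) := by
    rw [← v.ord_mul hnf hnb, ← map_mul, hfb]
  have hW : ∑ w ∈ v.fiber F, w.ord (algebraMap (integralClosure v.toValuationSubring F) F a
        / algebraMap (integralClosure v.toValuationSubring F) F b)
      + ∑ w ∈ v.fiber F, w.ord (algebraMap (integralClosure v.toValuationSubring F) F b)
      = ∑ w ∈ v.fiber F, w.ord (algebraMap (integralClosure v.toValuationSubring F) F a) := by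
    rw [← Finset.sum_add_distrib]
    refine Finset.sum_congr rfl fun w _ => ?_
    rw [← w.ord_mul hf hbF, hfb]
  rw [hNa, hNb] at hN
  linarith

omit [FiniteDimensional E F] [Algebra.IsSeparable E F] [HasPrincipalDivisors K F] in
theorem inertiaDeg_eq_one (hdegE : ∀ v : Place K E, v.deg = 1) (hdegF : ∀ w : Place K F, w.deg = 1)
    (w : Place K F) : w.inertiaDeg E = 1 := by
  have h := w.deg_restrict_mul_inertiaDeg (F := E)
  rw [hdegE, hdegF, one_mul] at h
  exact h

/-- **The norm formula** `N_* (div f) = div (N f)` for a finite separable extension `F/E` of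
function fields over `K` all of whose places have degree one (e.g. `K` algebraically closed),
given the fundamental identity `∑_{w ∣ v} e_w = [F : E]`. -/
theorem pushforwardNormFormula [FundamentalIdentity K E F] (hdegE : ∀ v : Place K E, v.deg = 1)
    (hdegF : ∀ w : Place K F, w.deg = 1) : Divisor.PushforwardNormFormula K E F := by
  classical
  intro f hf D hD v
  rw [Divisor.pushforward_apply, ord_norm_eq_sum_fiber v (hdegE v) hdegF f hf, ← Finset.sum_filter]
  have hsub : D.support.filter (fun w => w.restrict E = v) ⊆ v.fiber F := by
    intro w hw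
    exact Place.mem_fiber.mpr (Finset.mem_filter.mp hw).2
  rw [← Finset.sum_subset hsub]
  · refine Finset.sum_congr rfl fun w _ => ?_
    rw [inertiaDeg_eq_one hdegE hdegF w, Nat.cast_one, mul_one, hD w]
  · intro w hw hnot
    rw [← hD w]
    by_contra h0
    exact hnot (Finset.mem_filter.mpr ⟨Finsupp.mem_support_iff.mpr h0, Place.mem_fiber.mp hw⟩)

end Inst

section Along

variable {K F F' : Type*} [Field K] [Field F] [Field F'] [Algebra K F] [Algebra K F']

/-- The norm formula along an algebra homomorphism, in the shape of the Prelude's
`NormFormulaAlong` (input of `HeckeInputsAlong`). -/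
theorem normFormulaAlong (φ : F →ₐ[K] F') [HasPrincipalDivisors K F'] (hfin : FiniteAlong K φ)
    (hsep : SeparableAlong K φ) (hφ : φ.toRingHom.IsIntegral)
    (hFI : FundamentalIdentityAlong K φ hφ)
    (hdegF : ∀ v : Place K F, v.deg = 1) (hdegF' : ∀ w : Place K F', w.deg = 1) :
    NormFormulaAlong K φ hfin := by
  letI := algebraAlong φ
  haveI := isScalarTower_along φ
  haveI := isIntegral_along φ hφ
  haveI : Module.Finite F F' := hfin
  haveI : Algebra.IsSeparable F F' := hsep
  haveI : FundamentalIdentity K F F' := hFI
  exact pushforwardNormFormula hdegF hdegF'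

/-- Characteristic zero version: separability is automatic. -/
theorem normFormulaAlong_of_charZero [CharZero K] (φ : F →ₐ[K] F') [HasPrincipalDivisors K F']
    (hfin : FiniteAlong K φ) (hφ : φ.toRingHom.IsIntegral)
    (hFI : FundamentalIdentityAlong K φ hφ)
    (hdegF : ∀ v : Place K F, v.deg = 1) (hdegF' : ∀ w : Place K F', w.deg = 1) :
    NormFormulaAlong K φ hfin := by
  have hsep : SeparableAlong K φ := by
    letI := algebraAlong φ
    haveI : Module.Finite F F' := hfin
    haveI : CharZero F := charZero_of_injective_algebraMap (algebraMap K F).injective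
    show Algebra.IsSeparable F F'
    infer_instance
  exact normFormulaAlong φ hfin hsep hφ hFI hdegF hdegF'

end Along

end Fermat.Agent.S37.NormFormula

end
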