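import Mathlib
import Fermat.Prelude.Def_AlgebraicCurve_BaseChangeGalois

/-!
# S37 / RSub : the subgroup `R = {[D] | ρ(D) = 0}` of `Pic⁰` and its stability properties

Abstract setting: function fields `E / K`, `κ / k`, an additive map `ρ : Div(E) → Div(κ)`.

* `sub ρ : AddSubgroup (Pic0 K E)` is the set of classes represented by a degree-zero divisor
  `D` with `ρ D = 0`;
* `sub_inertia` : if `ρ (g • D) = ρ D` on degree-zero divisors then `g • x - x ∈ sub ρ`
  (shape of `hR1` of `Top.ESStmtAt.of_subgroup`);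
* `sub_frob` : if `ρ (g₀ • D) = φ • ρ D` and `ρ (T D) = φ • ρ D + ℓ • φ⁻¹ • ρ D` on degree-zero
  divisors, and `Tb [D] = [T D]`, then `g₀ • g₀ • x - Tb (g₀ • x) + ℓ • x ∈ sub ρ`
  (shape of `hR4`).
-/

set_option autoImplicit false

noncomputable section

namespace Fermat.Agent.S37.RSub

open AlgebraicCurve

variable {K E : Type*} [Field K] [Field E] [Algebra K E]
variable {k κ : Type*} [Field k] [Field κ] [Algebra k κ]

/-- The subgroup of `Pic⁰(E)` of classes represented by a degree-zero divisor killed by `ρ`. -/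
def sub (rho : Divisor K E →+ Divisor k κ) : AddSubgroup (Pic0 K E) where
  carrier := {x | ∃ D : Divisor.degZero (K := K) (F := E),
    Pic0.mk D = x ∧ rho (D : Divisor K E) = 0}
  zero_mem' := ⟨0, rfl, by rw [ZeroMemClass.coe_zero, map_zero]⟩
  add_mem' := by
    rintro _ _ ⟨D, rfl, hD⟩ ⟨D', rfl, hD'⟩
    exact ⟨D + D', rfl, by rw [AddSubgroup.coe_add, map_add, hD, hD', add_zero]⟩
  neg_mem' := by
    rintro _ ⟨D, rfl, hD⟩
    exact ⟨-D, rfl, by rw [AddSubgroup.coe_neg, map_neg, hD, neg_zero]⟩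

theorem mem_sub {rho : Divisor K E →+ Divisor k κ} {x : Pic0 K E} :
    x ∈ sub rho ↔ ∃ D : Divisor.degZero (K := K) (F := E),
      Pic0.mk D = x ∧ rho (D : Divisor K E) = 0 := Iff.rfl

theorem mk_mem_sub {rho : Divisor K E →+ Divisor k κ}
    (D : Divisor.degZero (K := K) (F := E)) (hD : rho (D : Divisor K E) = 0) :
    Pic0.mk D ∈ sub rho := ⟨D, rfl, hD⟩

/-- `hR1` shape: an automorphism under which `ρ` is invariant on degree-zero divisors acts
trivially modulo `sub ρ`. -/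
theorem sub_inertia (rho : Divisor K E →+ Divisor k κ) (g : SemilinearAut K E)
    (h2 : ∀ D : Divisor K E, Divisor.degree D = 0 → rho (g • D) = rho D) (x : Pic0 K E) :
    g • x - x ∈ sub rho := by
  obtain ⟨D, rfl⟩ := Pic0.mk_surjective x
  rw [SemilinearAut.pic0_smul_mk]
  have e : Pic0.mk (SemilinearAut.degZeroSMulHom g D) - Pic0.mk D
      = Pic0.mk (SemilinearAut.degZeroSMulHom g D - D) := by
    show QuotientAddGroup.mk' _ (SemilinearAut.degZeroSMulHom g D) - QuotientAddGroup.mk' _ D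
      = QuotientAddGroup.mk' _ (SemilinearAut.degZeroSMulHom g D - D)
    rw [map_sub]
  rw [e]
  refine mk_mem_sub _ ?_
  rw [AddSubgroup.coe_sub, SemilinearAut.coe_degZeroSMulHom, map_sub,
    h2 _ (Divisor.mem_degZero.mp D.2), sub_self]

/-- `hR4` shape: the Eichler–Shimura relation modulo `sub ρ`. -/
theorem sub_frob (rho : Divisor K E →+ Divisor k κ) (g₀ : SemilinearAut K E)
    (φ : SemilinearAut k κ) (ℓ : ℕ) (T : Divisor K E →+ Divisor K E)
    (hTdeg : ∀ D : Divisor K E, Divisor.degree D = 0 → Divisor.degree (T D) = 0)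
    (Tb : Pic0 K E → Pic0 K E)
    (hTb : ∀ D : Divisor.degZero (K := K) (F := E),
      Tb (Pic0.mk D) = Pic0.mk ⟨T (D : Divisor K E),
        Divisor.mem_degZero.mpr (hTdeg _ (Divisor.mem_degZero.mp D.2))⟩)
    (h3 : ∀ D : Divisor K E, Divisor.degree D = 0 → rho (g₀ • D) = φ • rho D)
    (h4 : ∀ D : Divisor K E, Divisor.degree D = 0 →
      rho (T D) = φ • rho D + (ℓ : ℤ) • (φ⁻¹ • rho D))
    (x : Pic0 K E) : g₀ • g₀ • x - Tb (g₀ • x) + ℓ • x ∈ sub rho := by
  obtain ⟨D, rfl⟩ := Pic0.mk_surjective x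
  have hD0 : Divisor.degree (D : Divisor K E) = 0 := Divisor.mem_degZero.mp D.2
  have hD1 : Divisor.degree (g₀ • (D : Divisor K E)) = 0 := by
    rw [SemilinearAut.degree_smul, hD0]
  rw [SemilinearAut.pic0_smul_mk, SemilinearAut.pic0_smul_mk, hTb]
  set D1 : Divisor.degZero (K := K) (F := E) := SemilinearAut.degZeroSMulHom g₀ D with hD1def
  set D2 : Divisor.degZero (K := K) (F := E) := SemilinearAut.degZeroSMulHom g₀ D1 with hD2def
  set D3 : Divisor.degZero (K := K) (F := E) := ⟨T (D1 : Divisor K E),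
    Divisor.mem_degZero.mpr (hTdeg _ (Divisor.mem_degZero.mp D1.2))⟩ with hD3def
  have e : Pic0.mk D2 - Pic0.mk D3 + ℓ • Pic0.mk D = Pic0.mk (D2 - D3 + ℓ • D) := by
    show QuotientAddGroup.mk' _ D2 - QuotientAddGroup.mk' _ D3 + ℓ • QuotientAddGroup.mk' _ D
      = QuotientAddGroup.mk' _ (D2 - D3 + ℓ • D)
    rw [map_add, map_sub, map_nsmul]
  rw [e]
  refine mk_mem_sub _ ?_
  have hc : ((D2 - D3 + ℓ • D : Divisor.degZero (K := K) (F := E)) : Divisor K E)
      = g₀ • g₀ • (D : Divisor K E) - T (g₀ • (D : Divisor K E)) + ℓ • (D : Divisor K E) := by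
    rw [AddSubgroup.coe_add, AddSubgroup.coe_sub, AddSubgroup.coe_nsmul]
    rfl
  rw [hc, map_add, map_sub, map_nsmul, h3 _ hD1, h4 _ hD1, h3 _ hD0, inv_smul_smul,
    natCast_zsmul]
  abel

end Fermat.Agent.S37.RSub

end
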