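import Mathlib
import Fermat.Agent.S18.GaussQ
import Fermat.Agent.S18.GaussAMain
import Fermat.Agent.S18.HKappa
import Fermat.Agent.S18.LatticeBridge

/-!
# S37 / RedBridge : the Gauss reduction relation at level `L` is unique

Two relations `Red₁, Red₂ : F_L → κ → Prop` (`κ ⊆ k((q))` an intermediate field) which both
satisfy `RedFacts` and the reduction of integral series (`hint`: `Red ⟨genS V, _⟩ ⟨redS V, _⟩` for
every integral series `V` of `F_L`) coincide (`imp_of_hint`, `eq_of_hint`).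

In particular the two Gauss layers on main agree (for `ℓ ∤ L`, `A` over `ℓ`):
`GaussQ.RedQ A L (GaussA.kappa k L) = GaussA.Red A L` (`redQ_eq_red`, `redQ_iff_red`),
so every statement about one of them transfers to the other by rewriting.
-/

set_option autoImplicit false
set_option synthInstance.maxHeartbeats 400000

noncomputable section

namespace Fermat.Agent.S37.RedBridge

open AlgebraicCurve ModularCurve Fermat.Agent.S18 Fermat.Agent.S18.LatticeBridge

section Abstract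

variable {K F κ : Type*} [Field K] [Field F] [Algebra K F] {A : ValuationSubring K} [Field κ]
  [Algebra (IsLocalRing.ResidueField A) κ]

/-- If two base relations agree on a normalised multiple `c f ↦ x' ≠ 0`, then they agree at `f`. -/
theorem transfer_of_scaled {Red₁ Red₂ : F → κ → Prop} (b₁ : RedBase A Red₁)
    (b₂ : RedBase A Red₂) {f : F} {x : κ} (hfx : Red₁ f x) {c : K} (hc : c ≠ 0) {x' : κ}
    (hx' : x' ≠ 0) (hR1 : Red₁ (algebraMap K F c * f) x')
    (hR2 : Red₂ (algebraMap K F c * f) x') : Red₂ f x := by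
  have hc' : algebraMap K F c ≠ 0 := fun h0 => hc ((map_eq_zero (algebraMap K F)).mp h0)
  by_cases hcA : c⁻¹ ∈ A
  · have he : algebraMap K F (((⟨c⁻¹, hcA⟩ : A) : K)) * (algebraMap K F c * f) = f := by
      have h0 : (((⟨c⁻¹, hcA⟩ : A) : K)) = c⁻¹ := rfl
      rw [h0, map_inv₀, ← mul_assoc, inv_mul_cancel₀ hc', one_mul]
    have h3 := b₁.smul ⟨c⁻¹, hcA⟩ hR1
    rw [he] at h3
    have h4 := b₂.smul ⟨c⁻¹, hcA⟩ hR2
    rw [he] at h4
    rw [b₁.unique _ _ _ hfx h3]
    exact h4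
  · exfalso
    have hcA' : c ∈ A := (A.mem_or_inv_mem c).resolve_right hcA
    have h3 := b₁.smul_of_inv_notMem hcA' hcA hfx
    exact hx' (b₁.unique _ _ _ hR1 h3)

end Abstract

variable {L : ℕ} [NeZero L] (A : ValuationSubring (AlgebraicClosure ℚ))
  (κ : IntermediateField (IsLocalRing.ResidueField A)
    (LaurentSeries (IsLocalRing.ResidueField A)))

omit [NeZero L] in
/-- A base relation which reduces integral series contains the quotient relation `RedQ` (at
nonzero values). -/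
theorem red_of_redQ (Red : modularFunctionFieldBar L → κ → Prop) (bR : RedBase A Red)
    (hint : ∀ (V : LaurentSeries A) (hV : genS A V ∈ modularFunctionFieldBar L),
      ∃ hx : redS A V ∈ κ, Red ⟨genS A V, hV⟩ ⟨redS A V, hx⟩)
    (g : modularFunctionFieldBar L) (x' : κ) (hx' : x' ≠ 0) (hq : GaussQ.RedQ A L κ g x') :
    Red g x' := by
  obtain ⟨a, b, ha, hb, hb0, hfa, hxa⟩ := hq
  obtain ⟨hxa', hRa⟩ := hint a ha
  obtain ⟨hxb', hRb⟩ := hint b hb
  have hmulF : (⟨genS A b, hb⟩ : modularFunctionFieldBar L) * g = ⟨genS A a, ha⟩ := by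
    apply Subtype.ext
    rw [MulMemClass.coe_mul, mul_comm]
    exact hfa
  have ha0 : redS A a ≠ 0 := by
    rw [← hxa]
    exact mul_ne_zero (fun h0 => hx' (Subtype.ext h0)) hb0
  have hdb : (⟨redS A b, hxb'⟩ : κ) ≠ 0 := fun h0 => hb0 (congrArg Subtype.val h0)
  have hy0 : (⟨redS A a, hxa'⟩ : κ) ≠ 0 := fun h0 => ha0 (congrArg Subtype.val h0)
  rw [← hmulF] at hRa
  obtain ⟨xi, hxi, hxi'⟩ := bR.red_of_mul hRb hdb hRa hy0
  have h1 : redS A b * (xi : LaurentSeries (IsLocalRing.ResidueField A)) = redS A a :=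
    congrArg Subtype.val hxi'
  have h2 : xi = x' := by
    apply Subtype.ext
    have h3 : redS A b * ((xi : LaurentSeries (IsLocalRing.ResidueField A)) - x') = 0 := by
      rw [mul_sub, h1, ← hxa]
      ring
    exact sub_eq_zero.mp ((mul_eq_zero.mp h3).resolve_left hb0)
  rw [← h2]
  exact hxi

/-- **Uniqueness of the Gauss reduction relation** (one direction). -/
theorem imp_of_hint (Red₁ Red₂ : modularFunctionFieldBar L → κ → Prop)
    (h₁ : RedFacts A Red₁) (h₂ : RedFacts A Red₂)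
    (hint₁ : ∀ (V : LaurentSeries A) (hV : genS A V ∈ modularFunctionFieldBar L),
      ∃ hx : redS A V ∈ κ, Red₁ ⟨genS A V, hV⟩ ⟨redS A V, hx⟩)
    (hint₂ : ∀ (V : LaurentSeries A) (hV : genS A V ∈ modularFunctionFieldBar L),
      ∃ hx : redS A V ∈ κ, Red₂ ⟨genS A V, hV⟩ ⟨redS A V, hx⟩)
    (f : modularFunctionFieldBar L) (x : κ) (hfx : Red₁ f x) : Red₂ f x := by
  have b₁ := redBase_of_redFacts h₁
  have b₂ := redBase_of_redFacts h₂
  by_cases hf : f = 0
  · subst hf
    have hx0 : x = 0 := h₁.unique _ _ _ hfx b₁.zero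
    rw [hx0]
    exact b₂.zero
  have hκ : ∀ Y : LaurentSeries A, genS A Y ∈ modularFunctionFieldBar L → redS A Y ∈ κ :=
    fun Y hY => (hint₁ Y hY).1
  obtain ⟨c, hc, x', hx', hq⟩ := GaussQ.redQ_normalize hκ f hf
  exact transfer_of_scaled b₁ b₂ hfx hc hx' (red_of_redQ A κ Red₁ b₁ hint₁ _ x' hx' hq)
    (red_of_redQ A κ Red₂ b₂ hint₂ _ x' hx' hq)

/-- **Uniqueness of the Gauss reduction relation.** -/
theorem eq_of_hint (Red₁ Red₂ : modularFunctionFieldBar L → κ → Prop)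
    (h₁ : RedFacts A Red₁) (h₂ : RedFacts A Red₂)
    (hint₁ : ∀ (V : LaurentSeries A) (hV : genS A V ∈ modularFunctionFieldBar L),
      ∃ hx : redS A V ∈ κ, Red₁ ⟨genS A V, hV⟩ ⟨redS A V, hx⟩)
    (hint₂ : ∀ (V : LaurentSeries A) (hV : genS A V ∈ modularFunctionFieldBar L),
      ∃ hx : redS A V ∈ κ, Red₂ ⟨genS A V, hV⟩ ⟨redS A V, hx⟩) : Red₁ = Red₂ := by
  funext f x
  exact propext ⟨imp_of_hint A κ Red₁ Red₂ h₁ h₂ hint₁ hint₂ f x,
    imp_of_hint A κ Red₂ Red₁ h₂ h₁ hint₂ hint₁ f x⟩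

variable {A}

/-- **The two Gauss layers on main agree.** -/
theorem redQ_eq_red {ℓ : ℕ} (hℓ : ℓ.Prime) (hℓL : ¬ ℓ ∣ L) (hA : A.LiesOverPrime ℓ) :
    GaussQ.RedQ A L (GaussA.kappa (IsLocalRing.ResidueField A) L) = GaussA.Red A L :=
  eq_of_hint A _ _ _ (GaussQ.redFacts (HKappa.main hℓ hℓL A hA)) (GaussA.redFacts hℓ hℓL A hA)
    (GaussQ.hint (HKappa.main hℓ hℓL A hA)) (GaussA.hint hℓ hℓL A hA)

theorem redQ_iff_red {ℓ : ℕ} (hℓ : ℓ.Prime) (hℓL : ¬ ℓ ∣ L) (hA : A.LiesOverPrime ℓ)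
    (f : modularFunctionFieldBar L) (x : GaussA.kappa (IsLocalRing.ResidueField A) L) :
    GaussQ.RedQ A L (GaussA.kappa (IsLocalRing.ResidueField A) L) f x ↔ GaussA.Red A L f x := by
  rw [redQ_eq_red hℓ hℓL hA]

end Fermat.Agent.S37.RedBridge

end
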