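import Fermat.Agent.S18.GaussQ
import Fermat.Agent.S18.GaussAMain
import Fermat.Agent.S18.HKappa

/-!
# S37 / RedUnique : the Gauss layer is unique

* `eq_of_le` : two reduction relations with `RedFacts`, one contained in the other, are equal.
* `redQ_le` : the `q`-expansion relation `GaussQ.RedQ A L κ` is contained in every relation `Red'`
  with `RedFacts` for which integral series reduce coefficientwise (`hint`).
* `eq_redQ` : hence every such `Red'` IS `GaussQ.RedQ A L κ`.
* `gaussA_red_eq` : `GaussA.Red A L = GaussQ.RedQ A L (GaussA.kappa k L)` for `ℓ ∤ L`.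

So statements proved for one of the two level-`L` relations transfer to the other by rewriting.
-/

set_option autoImplicit false
set_option synthInstance.maxHeartbeats 400000

noncomputable section

namespace Fermat.Agent.S37.RedUnique

open ModularCurve Fermat.Agent.S18

section Abstract

variable {K F κ : Type*} [Field K] [Field F] [Algebra K F] {A : ValuationSubring K}
  [Field κ] [Algebra (IsLocalRing.ResidueField A) κ] {Red₁ Red₂ : F → κ → Prop}

/-- Multiplication by the inverse of a scalar `c` with `c⁻¹ ∈ A`. -/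
theorem red_inv_smul {Red : F → κ → Prop} (h : RedFacts A Red) {c : K} (hc0 : c ≠ 0)
    (hcA : c⁻¹ ∈ A) {f : F} {y : κ} (hf : Red (algebraMap K F c * f) y) :
    Red f (algebraMap (IsLocalRing.ResidueField A) κ (IsLocalRing.residue A ⟨c⁻¹, hcA⟩) * y) := by
  have h1 := h.mul _ _ _ _ (h.const ⟨c⁻¹, hcA⟩) hf
  have hc0' : algebraMap K F c ≠ 0 := fun h0 => hc0 ((map_eq_zero (algebraMap K F)).mp h0)
  have he : algebraMap K F ((⟨c⁻¹, hcA⟩ : A) : K) * (algebraMap K F c * f) = f := by
    show algebraMap K F c⁻¹ * (algebraMap K F c * f) = f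
    rw [map_inv₀, ← mul_assoc, inv_mul_cancel₀ hc0', one_mul]
  rwa [he] at h1

/-- The residue of an element of `A` whose inverse is not in `A` vanishes. -/
theorem residue_eq_zero_of_inv_notMem {c : K} (hc : c ∈ A) (hc' : c⁻¹ ∉ A) :
    IsLocalRing.residue A ⟨c, hc⟩ = 0 := by
  rw [IsLocalRing.residue_eq_zero_iff, IsLocalRing.mem_maximalIdeal, mem_nonunits_iff]
  rintro ⟨u, hu⟩
  apply hc'
  have h1 : c * ((↑u⁻¹ : A) : K) = 1 := by
    have h2 : (u : A) * (↑u⁻¹ : A) = 1 := Units.mul_inv u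
    rw [hu] at h2
    exact congrArg Subtype.val h2
  have h3 : c⁻¹ = ((↑u⁻¹ : A) : K) := by
    rw [inv_eq_iff_eq_inv]
    exact eq_inv_of_mul_eq_one_left h1
  rw [h3]
  exact (↑u⁻¹ : A).2

theorem red_zero' {Red : F → κ → Prop} (h : RedFacts A Red) : Red 0 0 := by
  have h0 := h.const 0
  simpa using h0

/-- Two reduction relations with `RedFacts`, one contained in the other, are equal. -/
theorem eq_of_le (h₁ : RedFacts A Red₁) (h₂ : RedFacts A Red₂)
    (hle : ∀ f x, Red₁ f x → Red₂ f x) : Red₁ = Red₂ := by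
  funext f x
  refine propext ⟨hle f x, fun hfx => ?_⟩
  by_cases hf0 : f = 0
  · subst hf0
    have hx : x = 0 := h₂.unique 0 _ _ hfx (red_zero' h₂)
    rw [hx]
    exact red_zero' h₁
  obtain ⟨c, hc0, y, hy0, hcy⟩ := h₁.normalize f hf0
  by_cases hcA : c⁻¹ ∈ A
  · have h1 := red_inv_smul h₁ hc0 hcA hcy
    have h2 := hle _ _ h1
    rw [h₂.unique f _ _ hfx h2]
    exact h1
  · exfalso
    have hc : c ∈ A := (A.mem_or_inv_mem c).resolve_right hcA
    have h1 := h₂.mul _ _ _ _ (h₂.const ⟨c, hc⟩) hfx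
    rw [residue_eq_zero_of_inv_notMem hc hcA, map_zero, zero_mul] at h1
    exact hy0 (h₂.unique _ _ _ (hle _ _ hcy) h1)

end Abstract

section Modular

variable {A : ValuationSubring (AlgebraicClosure ℚ)} {L : ℕ}
  {κ : IntermediateField (IsLocalRing.ResidueField A)
    (LaurentSeries (IsLocalRing.ResidueField A))}

/-- The `q`-expansion relation is contained in every Gauss layer. -/
theorem redQ_le (Red' : modularFunctionFieldBar L → κ → Prop) (hR' : RedFacts A Red')
    (hint' : ∀ (V : LaurentSeries A) (hV : genS A V ∈ modularFunctionFieldBar L),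
      ∃ hx : redS A V ∈ κ, Red' ⟨genS A V, hV⟩ ⟨redS A V, hx⟩)
    (f : modularFunctionFieldBar L) (x : κ) (hfx : GaussQ.RedQ A L κ f x) : Red' f x := by
  obtain ⟨a, b, ha, hb, hb0, hfab, hxab⟩ := hfx
  obtain ⟨hax, hRa⟩ := hint' a ha
  obtain ⟨hbx, hRb⟩ := hint' b hb
  have hbx0 : (⟨redS A b, hbx⟩ : κ) ≠ 0 := fun h0 => hb0 (congrArg Subtype.val h0)
  have hfb : f * ⟨genS A b, hb⟩ = (⟨genS A a, ha⟩ : modularFunctionFieldBar L) :=
    Subtype.ext hfab
  have hxb : x * ⟨redS A b, hbx⟩ = (⟨redS A a, hax⟩ : κ) := Subtype.ext hxab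
  by_cases hf0 : f = 0
  · subst hf0
    rw [zero_mul] at hfb
    have hx0 : x = 0 := by
      have h1 : (⟨redS A a, hax⟩ : κ) = 0 := by
        rw [← hfb] at hRa
        exact hR'.unique _ _ _ hRa (red_zero' hR')
      rw [h1] at hxb
      exact (mul_eq_zero.mp hxb).resolve_right hbx0
    rw [hx0]
    exact red_zero' hR'
  obtain ⟨c, hc0, y, hy0, hcy⟩ := hR'.normalize f hf0
  have hmul := hR'.mul _ _ _ _ hcy hRb
  have he : algebraMap (AlgebraicClosure ℚ) (modularFunctionFieldBar L) c * f * ⟨genS A b, hb⟩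
      = algebraMap (AlgebraicClosure ℚ) (modularFunctionFieldBar L) c * ⟨genS A a, ha⟩ := by
    rw [mul_assoc, hfb]
  rw [he] at hmul
  by_cases hcA : c ∈ A
  · have h1 := hR'.mul _ _ _ _ (hR'.const ⟨c, hcA⟩) hRa
    have h2 := hR'.unique _ _ _ hmul h1
    rw [← hxb, ← mul_assoc] at h2
    have h3 : y = algebraMap (IsLocalRing.ResidueField A) κ (IsLocalRing.residue A ⟨c, hcA⟩) * x :=
      mul_right_cancel₀ hbx0 h2
    have hcinv : c⁻¹ ∈ A := by
      by_contra hn
      rw [residue_eq_zero_of_inv_notMem hcA hn, map_zero, zero_mul] at h3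
      exact hy0 h3
    have h4 := red_inv_smul hR' hc0 hcinv hcy
    rw [h3, ← mul_assoc, ← map_mul, ← map_mul] at h4
    have h5 : (⟨c⁻¹, hcinv⟩ : A) * ⟨c, hcA⟩ = 1 := Subtype.ext (inv_mul_cancel₀ hc0)
    rw [h5, map_one, map_one, one_mul] at h4
    exact h4
  · have hcinv : c⁻¹ ∈ A := (A.mem_or_inv_mem c).resolve_left hcA
    have hres : IsLocalRing.residue A ⟨c⁻¹, hcinv⟩ = 0 :=
      residue_eq_zero_of_inv_notMem hcinv (by rwa [inv_inv])
    have h1 := red_inv_smul hR' hc0 hcinv hmul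
    rw [hres, map_zero, zero_mul] at h1
    have ha0 : (⟨redS A a, hax⟩ : κ) = 0 := hR'.unique _ _ _ hRa h1
    have hx0 : x = 0 := by
      rw [ha0] at hxb
      exact (mul_eq_zero.mp hxb).resolve_right hbx0
    have h2 := red_inv_smul hR' hc0 hcinv hcy
    rw [hres, map_zero, zero_mul] at h2
    rw [hx0]
    exact h2

/-- Every Gauss layer at level `L` is the `q`-expansion relation. -/
theorem eq_redQ [NeZero L]
    (hκ : ∀ Y : LaurentSeries A, genS A Y ∈ modularFunctionFieldBar L → redS A Y ∈ κ)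
    (Red' : modularFunctionFieldBar L → κ → Prop) (hR' : RedFacts A Red')
    (hint' : ∀ (V : LaurentSeries A) (hV : genS A V ∈ modularFunctionFieldBar L),
      ∃ hx : redS A V ∈ κ, Red' ⟨genS A V, hV⟩ ⟨redS A V, hx⟩) :
    Red' = GaussQ.RedQ A L κ :=
  (eq_of_le (GaussQ.redFacts hκ) hR' (redQ_le Red' hR' hint')).symm

/-- The two level-`L` relations on main coincide. -/
theorem gaussA_red_eq {ℓ : ℕ} [NeZero L] (hℓ : ℓ.Prime) (hℓL : ¬ ℓ ∣ L)
    (A : ValuationSubring (AlgebraicClosure ℚ)) (hA : A.LiesOverPrime ℓ) :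
    GaussA.Red A L = GaussQ.RedQ A L (GaussA.kappa (IsLocalRing.ResidueField A) L) :=
  eq_redQ (HKappa.main hℓ hℓL A hA) _ (GaussA.redFacts hℓ hℓL A hA) (GaussA.hint hℓ hℓL A hA)

end Modular

end Fermat.Agent.S37.RedUnique

end
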