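import Mathlib
import Fermat.Prelude.Def_AlgebraicCurve_BaseChangeGalois
import Fermat.Agent.S24.FFBasic
import Fermat.Agent.S37.BddZero

/-!
# S37 / Rho23 : equivariance of the specialisation map on degree-zero divisors

Abstract setting: function fields `E / K` and `κ / k`, an additive map
`ρ : Div(E) → Div(κ)` with the "r-axiom" `ρ(div f) = div x` whenever `Red f x`, `x ≠ 0`,
a semilinear automorphism `g` of `E` and one `θ` of `κ` such that `Red f x → Red (g • f) (θ • x)`.
Then `ρ(g • D) = θ • ρ(D)` for every divisor `D` of degree `0`.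

The proof is the boundedness lemma `BddZero.eq_zero`: the difference
`δ = ρ ∘ g - θ ∘ ρ` kills principal divisors and is bounded on single places.
-/

set_option autoImplicit false

noncomputable section

namespace Fermat.Agent.S37.Rho23

open AlgebraicCurve

variable {K E : Type*} [Field K] [Field E] [Algebra K E]
variable {k κ : Type*} [Field k] [Field κ] [Algebra k κ]

/-- The degree of a divisor is the sum of its coefficients when all places have degree one. -/
theorem degree_eq_sum (hdegb : ∀ Q : Place k κ, Q.deg = 1) (D : Divisor k κ) :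
    Divisor.degree D = D.sum fun _ a => a := by
  classical
  induction D using Finsupp.induction with
  | zero => simp
  | single_add Q n D hQ hn ih =>
    rw [map_add, Divisor.degree_single, hdegb Q, ih,
      Finsupp.sum_add_index' (fun _ => rfl) (fun _ _ _ => rfl), Finsupp.sum_single_index rfl]
    simp

/-- The action of a semilinear automorphism on divisors preserves effectivity. -/
theorem smul_nonneg (θ : SemilinearAut k κ) {D : Divisor k κ} (hD : ∀ Q, 0 ≤ D Q) :
    ∀ Q, 0 ≤ (θ • D) Q := fun Q => by
  rw [SemilinearAut.divisor_smul_apply]; exact hD _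

/-- If `W` is the divisor of `f`, then `g • W` is the divisor of `g • f`. -/
theorem smul_divisor_eq_ord (g : SemilinearAut K E) {f : E} {W : Divisor K E}
    (hW : ∀ v, W v = v.ord f) : ∀ v, (g • W) v = v.ord (g • f) := fun v => by
  rw [SemilinearAut.divisor_smul_apply, hW]
  have h := SemilinearAut.ord_smul g (g⁻¹ • v) f
  rw [smul_inv_smul] at h
  exact h.symm

/-- The difference `ρ ∘ g - θ ∘ ρ` as an additive map. -/
def delta (rho : Divisor K E →+ Divisor k κ) (g : SemilinearAut K E) (θ : SemilinearAut k κ) :
    Divisor K E →+ Divisor k κ :=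
  rho.comp (DistribSMul.toAddMonoidHom (Divisor K E) g)
    - (DistribSMul.toAddMonoidHom (Divisor k κ) θ).comp rho

theorem delta_apply (rho : Divisor K E →+ Divisor k κ) (g : SemilinearAut K E)
    (θ : SemilinearAut k κ) (D : Divisor K E) :
    delta rho g θ D = rho (g • D) - θ • rho D := rfl

/-- **Equivariance of `ρ` on degree-zero divisors** (abstract form of `rho2`, `rho3`). -/
theorem main (hP : Fermat.Agent.RR.PlaceFacts K E) (hR : Fermat.Agent.RR.RiemannFacts K E)
    (hdegb : ∀ Q : Place k κ, Q.deg = 1)
    (rho : Divisor K E →+ Divisor k κ) (g : SemilinearAut K E) (θ : SemilinearAut k κ) (n : ℤ)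
    (Red' : E → κ → Prop)
    (hnorm : ∀ f : E, f ≠ 0 → ∃ c : K, c ≠ 0 ∧ ∃ x : κ, x ≠ 0 ∧ Red' (algebraMap K E c * f) x)
    (hrho1 : ∀ (f : E) (x : κ), Red' f x → x ≠ 0 → ∀ D : Divisor K E, (∀ v, D v = v.ord f) →
      ∀ Q, rho D Q = Q.ord x)
    (hequiv : ∀ (f : E) (x : κ), Red' f x → Red' (g • f) (θ • x))
    (hrho_nonneg : ∀ D : Divisor K E, (∀ v, 0 ≤ D v) → ∀ Q, 0 ≤ rho D Q)
    (hrho_deg : ∀ P : Place K E, Divisor.degree (rho (Finsupp.single P 1)) ≤ n)
    (D : Divisor K E) (hD : Divisor.degree D = 0) : rho (g • D) = θ • rho D := by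
  classical
  have key : delta rho g θ D = 0 := by
    refine BddZero.eq_zero_of_sub hP hR (delta rho g θ) n ?_ ?_ D hD
    · -- principal divisors
      intro f hf W hW
      obtain ⟨c, hc, x, hx, hred⟩ := hnorm f hf
      have hcf : algebraMap K E c * f ≠ 0 := mul_ne_zero (by simpa using hc) hf
      have hW' : ∀ v, W v = v.ord (algebraMap K E c * f) := by
        intro v
        rw [hW v, v.ord_mul (by simpa using hc) hf, Fermat.Agent.S24.ord_algebraMap, zero_add]
      have hgW := smul_divisor_eq_ord g hW'
      have hred' := hequiv _ _ hred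
      have hθx : θ • x ≠ 0 := by
        intro h0
        apply hx
        have := congrArg (fun y => θ⁻¹ • y) h0
        simpa using this
      rw [delta_apply, sub_eq_zero]
      ext Q
      rw [hrho1 _ _ hred' hθx _ hgW Q, SemilinearAut.divisor_smul_apply,
        hrho1 _ _ hred hx W hW' (θ⁻¹ • Q)]
      have h := SemilinearAut.ord_smul θ (θ⁻¹ • Q) x
      rw [smul_inv_smul] at h
      exact h
    · -- the bound
      intro P
      refine ⟨rho (g • Finsupp.single P 1), θ • rho (Finsupp.single P 1), rfl, ?_, ?_, ?_, ?_⟩
      · apply hrho_nonneg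
        intro v
        rw [SemilinearAut.smul_single, Finsupp.single_apply]
        split_ifs <;> norm_num
      · apply smul_nonneg
        apply hrho_nonneg
        intro v
        rw [Finsupp.single_apply]
        split_ifs <;> norm_num
      · rw [← degree_eq_sum hdegb, SemilinearAut.smul_single]
        exact hrho_deg _
      · rw [← degree_eq_sum hdegb, SemilinearAut.degree_smul]
        exact hrho_deg _
  rw [delta_apply, sub_eq_zero] at key
  exact key

end Fermat.Agent.S37.Rho23

end
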