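import Mathlib
import Fermat.Prelude.Def_AlgebraicCurve_BaseChangeGalois
import Fermat.Agent.RR.Defs
import Fermat.Agent.S24.FFBasic
import Fermat.Agent.S37.BddZero

/-!
# S37 / RhoEquiv : equivariance of the specialisation map `ρ` on divisors of degree zero

Abstract setting: a function field `E / K` with `PlaceFacts` and `RiemannFacts`, a function field
`κ / k` all of whose places have degree one, an additive map `ρ : Div(E) → Div(κ)` (think
`ρ = r_* ∘ π^*`, `RhoDef.rho`) and a relation `Red' : E → κ → Prop` (think `Red' f x = Red_M (ι f) x`)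
such that

* (normalisation) every `f ≠ 0` has a constant multiple with nonzero reduction;
* (rho1) `ρ(div f) = div x` whenever `Red' f x`, `x ≠ 0`;
* `ρ` preserves effectivity and multiplies degrees by `n`.

If `g : SemilinearAut K E` and `θb : SemilinearAut k κ` satisfy the function-level equivariance
`Red' f x → Red' (g • f) (θb • x)`, then `ρ (g • D) = θb • ρ D` for every divisor `D` of degree `0`
(`main`).  The proof is the boundedness lemma `BddZero.eq_zero_of_sub` applied to
`δ = ρ ∘ g - θb ∘ ρ`.  Instances: `θb = 1` (inertia, `main_one`) and `θb =` Frobenius.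
-/

set_option autoImplicit false

noncomputable section

namespace Fermat.Agent.S37.RhoEquiv

open AlgebraicCurve

variable {K E : Type*} [Field K] [Field E] [Algebra K E]
variable {k κ : Type*} [Field k] [Field κ] [Algebra k κ]

/-- The defect of equivariance `δ = ρ ∘ g - θb ∘ ρ`. -/
def delta (rho : Divisor K E →+ Divisor k κ) (g : SemilinearAut K E) (θb : SemilinearAut k κ) :
    Divisor K E →+ Divisor k κ :=
  rho.comp (DistribSMul.toAddMonoidHom (Divisor K E) g)
    - (DistribSMul.toAddMonoidHom (Divisor k κ) θb).comp rho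

theorem delta_apply (rho : Divisor K E →+ Divisor k κ) (g : SemilinearAut K E)
    (θb : SemilinearAut k κ) (D : Divisor K E) :
    delta rho g θb D = rho (g • D) - θb • rho D := rfl

/-- The total mass of a divisor is its degree when all places have degree one. -/
theorem sum_eq_degree (hdegb : ∀ Q : Place k κ, Q.deg = 1) (Z : Divisor k κ) :
    (Z.sum fun _ a => a) = Divisor.degree Z := by
  rw [Divisor.degree, Finsupp.liftAddHom_apply]
  refine Finsupp.sum_congr fun Q _ => ?_
  rw [AddMonoidHom.coe_mulRight, hdegb Q, Nat.cast_one]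
  exact (mul_one _).symm

/-- The divisor of `g • f` is `g •` the divisor of `f`. -/
theorem smul_div (g : SemilinearAut K E) {f : E} {W : Divisor K E} (hW : ∀ v, W v = v.ord f)
    (v : Place K E) : (g • W) v = v.ord (g • f) := by
  rw [SemilinearAut.divisor_smul_apply, hW]
  have h := SemilinearAut.ord_smul g (g⁻¹ • v) f
  rw [smul_inv_smul] at h
  exact h.symm

theorem smul_nonneg' (θb : SemilinearAut k κ) {Z : Divisor k κ} (hZ : 0 ≤ Z) : 0 ≤ θb • Z := by
  intro Q
  rw [SemilinearAut.divisor_smul_apply]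
  exact hZ _

/-- **Equivariance of `ρ` on divisors of degree zero** from function-level equivariance. -/
theorem main (hP : Fermat.Agent.RR.PlaceFacts K E) (hR : Fermat.Agent.RR.RiemannFacts K E)
    (hdegb : ∀ Q : Place k κ, Q.deg = 1)
    (rho : Divisor K E →+ Divisor k κ) (g : SemilinearAut K E) (θb : SemilinearAut k κ) (n : ℤ)
    (Red' : E → κ → Prop)
    (hnorm : ∀ f : E, f ≠ 0 → ∃ c : K, c ≠ 0 ∧ ∃ x : κ, x ≠ 0 ∧ Red' (algebraMap K E c * f) x)
    (hrho1 : ∀ (f : E) (x : κ), Red' f x → x ≠ 0 → ∀ D : Divisor K E, (∀ v, D v = v.ord f) →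
      ∀ Q, rho D Q = Q.ord x)
    (hequiv : ∀ (f : E) (x : κ), Red' f x → x ≠ 0 → Red' (g • f) (θb • x))
    (hrho_nonneg : ∀ D, 0 ≤ D → 0 ≤ rho D)
    (hrho_deg : ∀ D, Divisor.degree (rho D) = n * Divisor.degree D)
    (D : Divisor K E) (hD : Divisor.degree D = 0) : rho (g • D) = θb • rho D := by
  have hprin : ∀ f : E, f ≠ 0 → ∀ W : Divisor K E, (∀ v, W v = v.ord f) →
      delta rho g θb W = 0 := by
    intro f hf W hW
    obtain ⟨c, hc, x, hx, hred⟩ := hnorm f hf
    have hc' : algebraMap K E c ≠ 0 := fun h0 => hc ((map_eq_zero (algebraMap K E)).mp h0)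
    have hW' : ∀ v, W v = v.ord (algebraMap K E c * f) := fun v => by
      rw [hW, Place.ord_mul v hc' hf, Fermat.Agent.S24.ord_algebraMap, zero_add]
    have h1 : ∀ Q, rho W Q = Q.ord x := hrho1 _ _ hred hx W hW'
    have hθx : θb • x ≠ 0 := by simpa using hx
    have h2 : ∀ Q, rho (g • W) Q = Q.ord (θb • x) :=
      hrho1 _ _ (hequiv _ _ hred hx) hθx (g • W) (smul_div g hW')
    ext Q
    rw [delta_apply, Finsupp.sub_apply, h2, SemilinearAut.divisor_smul_apply, h1,
      Finsupp.zero_apply]
    have h3 := SemilinearAut.ord_smul θb (θb⁻¹ • Q) x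
    rw [smul_inv_smul] at h3
    rw [h3, sub_self]
  have hbdd : ∀ P : Place K E, ∃ E₁ E₂ : Place k κ →₀ ℤ,
      delta rho g θb (Finsupp.single P 1) = E₁ - E₂ ∧
      (∀ b, 0 ≤ E₁ b) ∧ (∀ b, 0 ≤ E₂ b) ∧ (E₁.sum fun _ a => a) ≤ n ∧
        (E₂.sum fun _ a => a) ≤ n := by
    intro P
    have hs : ∀ P' : Place K E, (0 : Divisor K E) ≤ Finsupp.single P' 1 := fun P' =>
      Finsupp.single_nonneg.mpr zero_le_one
    have h1 : (0 : Divisor k κ) ≤ rho (g • Finsupp.single P 1) := by
      rw [SemilinearAut.smul_single]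
      exact hrho_nonneg _ (hs _)
    have h2 : (0 : Divisor k κ) ≤ θb • rho (Finsupp.single P 1) :=
      smul_nonneg' θb (hrho_nonneg _ (hs _))
    have h3 : ((rho (g • Finsupp.single P 1) : Divisor k κ).sum fun _ a => a) ≤ n := by
      rw [sum_eq_degree hdegb, hrho_deg, SemilinearAut.smul_single, Divisor.degree_single,
        hP.hdeg, Nat.cast_one, mul_one, mul_one]
    have h4 : ((θb • rho (Finsupp.single P 1) : Divisor k κ).sum fun _ a => a) ≤ n := by
      rw [sum_eq_degree hdegb, SemilinearAut.degree_smul, hrho_deg, Divisor.degree_single,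
        hP.hdeg, Nat.cast_one, mul_one, mul_one]
    exact ⟨rho (g • Finsupp.single P 1), θb • rho (Finsupp.single P 1),
      delta_apply rho g θb _, fun b => h1 b, fun b => h2 b, h3, h4⟩
  have h := BddZero.eq_zero_of_sub hP hR (delta rho g θb) n hprin hbdd D hD
  rw [delta_apply, sub_eq_zero] at h
  exact h

/-- **Invariance of `ρ` on divisors of degree zero** (`θb = 1`, e.g. `g` in the inertia group). -/
theorem main_one (hP : Fermat.Agent.RR.PlaceFacts K E) (hR : Fermat.Agent.RR.RiemannFacts K E)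
    (hdegb : ∀ Q : Place k κ, Q.deg = 1)
    (rho : Divisor K E →+ Divisor k κ) (g : SemilinearAut K E) (n : ℤ)
    (Red' : E → κ → Prop)
    (hnorm : ∀ f : E, f ≠ 0 → ∃ c : K, c ≠ 0 ∧ ∃ x : κ, x ≠ 0 ∧ Red' (algebraMap K E c * f) x)
    (hrho1 : ∀ (f : E) (x : κ), Red' f x → x ≠ 0 → ∀ D : Divisor K E, (∀ v, D v = v.ord f) →
      ∀ Q, rho D Q = Q.ord x)
    (hequiv : ∀ (f : E) (x : κ), Red' f x → x ≠ 0 → Red' (g • f) x)
    (hrho_nonneg : ∀ D, 0 ≤ D → 0 ≤ rho D)
    (hrho_deg : ∀ D, Divisor.degree (rho D) = n * Divisor.degree D)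
    (D : Divisor K E) (hD : Divisor.degree D = 0) : rho (g • D) = rho D := by
  have h := main hP hR hdegb rho g (1 : SemilinearAut k κ) n Red' hnorm hrho1
    (fun f x hfx hx => by rw [one_smul]; exact hequiv f x hfx hx) hrho_nonneg hrho_deg D hD
  rw [one_smul] at h
  exact h

end Fermat.Agent.S37.RhoEquiv

end
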