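import Mathlib
import Fermat.Prelude.Def_ModularCurve_HeckeOperator
import Fermat.Agent.RR.RiemannFacts
import Fermat.Agent.S18.CoreDefs
import Fermat.Agent.S37.FundId
import Fermat.Agent.S37.HeckeFin
import Fermat.Agent.S37.Unfold
import Fermat.Agent.S37.RhoDef
import Fermat.Agent.S37.RhoEquiv
import Fermat.Agent.S37.Rho4

/-!
# S37 / RhoLvl: the closed level instances of the hypotheses on `ρ`

`ρ = r_* ∘ ι^* : Div(E) → Div(κ)` (`RhoDef.rho ι hι r`) for an embedding `ι : E → F` of function
fields over `K`, a reduction relation `Red : F → κ → Prop` with `RedFacts A Red`, and a map of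
places `r` with the `r`-axiom `RhoDef.IsRAxiom Red r`.

Generic part: the hypotheses `hnorm`, `hρ1`, `hρ_nonneg`, `hρ_deg` of `Rho4.main`,
`Rho4.equivariant`, `RhoEquiv.main` for `Red' f x := Red (ι f) x`, and the composed statements
* `rho_equivariant` : `ρ (g • D) = θb • ρ D` on `Div⁰`, from function-level equivariance;
* `rho_invariant` : the case `θb = 1`;
* `rho_correspondence` : `ρ (T D) = φ • ρ D + ℓ • φ⁻¹ • ρ D` on `Div⁰` for a correspondence
  `T = a_* ∘ b^*`, from the function-level Kronecker congruence.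

Level part (`K = ℚ̄`, `E = F_N ≤ F = F_M`, `ι` the inclusion): `incl_isIntegral`, `fundId`,
and the same statements with all place facts discharged; `rho_hecke` for `T = heckeDivBar`.
-/

set_option autoImplicit false
set_option synthInstance.maxHeartbeats 400000

noncomputable section

namespace Fermat.Agent.S37.RhoLvl

open AlgebraicCurve ModularCurve Fermat.Agent.RR Fermat.Agent.S18 Fermat.Agent.S37.RhoDef

section Generic

variable {K E F : Type*} [Field K] [Field E] [Field F] [Algebra K E] [Algebra K F]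
  [HasPrincipalDivisors K F]
variable {A : ValuationSubring K} {κ : Type*} [Field κ] [Algebra (IsLocalRing.ResidueField A) κ]
variable (ι : E →ₐ[K] F) (hι : ι.toRingHom.IsIntegral)
  (r : Place K F → Place (IsLocalRing.ResidueField A) κ) {Red : F → κ → Prop}

omit [HasPrincipalDivisors K F] in
/-- `hnorm` : every nonzero function of `E` can be scaled to have a nonzero reduction. -/
theorem hnorm (hR : RedFacts A Red) :
    ∀ f : E, f ≠ 0 → ∃ c : K, c ≠ 0 ∧ ∃ x : κ, x ≠ 0 ∧ Red (ι (algebraMap K E c * f)) x := by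
  intro f hf
  obtain ⟨c, hc, x, hx, h⟩ := hR.normalize (ι f) ((map_ne_zero ι).mpr hf)
  refine ⟨c, hc, x, hx, ?_⟩
  rw [map_mul, AlgHom.commutes]
  exact h

/-- `hρ1` : `ρ (div f) = div x` whenever `Red (ι f) x`, `x ≠ 0`. -/
theorem hrho1 (hr : IsRAxiom Red r) :
    ∀ (f : E) (x : κ), Red (ι f) x → x ≠ 0 → ∀ D : Divisor K E,
      (∀ v : Place K E, D v = v.ord f) →
        ∀ Q : Place (IsLocalRing.ResidueField A) κ, rho ι hι r D Q = Q.ord x :=
  fun _ _ hred hx D hD => rho_principal ι hι r hr hred hx D hD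

/-- `hρ_nonneg` : `ρ` preserves effective divisors. -/
theorem hrho_nonneg : ∀ D : Divisor K E, 0 ≤ D → 0 ≤ rho ι hι r D :=
  fun _ hD => rho_nonneg ι hι r hD

/-- `hρ_deg` : `ρ` multiplies degrees by `[F : E]`. -/
theorem hrho_deg (hPE : PlaceFacts K E) (hPF : PlaceFacts K F)
    (hdegb : ∀ Q : Place (IsLocalRing.ResidueField A) κ, Q.deg = 1) :
    ∀ D : Divisor K E,
      Divisor.degree (rho ι hι r D) = (finrankAlong K ι : ℤ) * Divisor.degree D :=
  fun D => degree_rho ι hι r (FundId.fundamentalIdentityAlong ι hι hPE hPF) hPF.hdeg hdegb D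

/-- **Equivariance of `ρ` on `Div⁰`** from function-level equivariance of the reduction. -/
theorem rho_equivariant (hPE : PlaceFacts K E) (hPF : PlaceFacts K F)
    (hdegb : ∀ Q : Place (IsLocalRing.ResidueField A) κ, Q.deg = 1)
    (hR : RedFacts A Red) (hr : IsRAxiom Red r)
    (g : SemilinearAut K E) (θb : SemilinearAut (IsLocalRing.ResidueField A) κ)
    (hequiv : ∀ (f : E) (x : κ), Red (ι f) x → x ≠ 0 → Red (ι (g • f)) (θb • x))
    (D : Divisor K E) (hD : Divisor.degree D = 0) :
    rho ι hι r (g • D) = θb • rho ι hι r D :=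
  RhoEquiv.main hPE (riemannFacts_of_placeFacts hPE) hdegb (rho ι hι r) g θb
    (finrankAlong K ι : ℤ) (fun f x => Red (ι f) x) (hnorm ι hR) (hrho1 ι hι r hr) hequiv
    (hrho_nonneg ι hι r) (hrho_deg ι hι r hPE hPF hdegb) D hD

/-- **Invariance of `ρ` on `Div⁰`** (`θb = 1`, e.g. inertia). -/
theorem rho_invariant (hPE : PlaceFacts K E) (hPF : PlaceFacts K F)
    (hdegb : ∀ Q : Place (IsLocalRing.ResidueField A) κ, Q.deg = 1)
    (hR : RedFacts A Red) (hr : IsRAxiom Red r) (g : SemilinearAut K E)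
    (hequiv : ∀ (f : E) (x : κ), Red (ι f) x → x ≠ 0 → Red (ι (g • f)) x)
    (D : Divisor K E) (hD : Divisor.degree D = 0) :
    rho ι hι r (g • D) = rho ι hι r D :=
  RhoEquiv.main_one hPE (riemannFacts_of_placeFacts hPE) hdegb (rho ι hι r) g
    (finrankAlong K ι : ℤ) (fun f x => Red (ι f) x) (hnorm ι hR) (hrho1 ι hι r hr) hequiv
    (hrho_nonneg ι hι r) (hrho_deg ι hι r hPE hPF hdegb) D hD

/-- **The Eichler–Shimura relation for `ρ` on `Div⁰`**, for a correspondence `T = a_* ∘ b^*`
of `E`, from the function-level Kronecker congruence `hT`. -/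
theorem rho_correspondence {E' : Type*} [Field E'] [Algebra K E'] [HasPrincipalDivisors K E']
    (hPE : PlaceFacts K E) (hPE' : PlaceFacts K E') (hPF : PlaceFacts K F)
    (hdegb : ∀ Q : Place (IsLocalRing.ResidueField A) κ, Q.deg = 1)
    (hR : RedFacts A Red) (hr : IsRAxiom Red r)
    (b a : E →ₐ[K] E') (hb : b.toRingHom.IsIntegral) (ha : a.toRingHom.IsIntegral)
    (φ : SemilinearAut (IsLocalRing.ResidueField A) κ) (ℓ : ℕ)
    (hT : ∀ (f : E) (x : κ), Red (ι f) x → x ≠ 0 → ∃ g : E, g ≠ 0 ∧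
      (∀ W : Divisor K E, (∀ v : Place K E, W v = v.ord f) →
        ∀ v : Place K E, Divisor.correspondence b a hb ha W v = v.ord g) ∧
      ∃ c : K, c ≠ 0 ∧ Red (ι (algebraMap K E c * g)) (φ • x * (φ⁻¹ • x) ^ ℓ))
    (D : Divisor K E) (hD : Divisor.degree D = 0) :
    rho ι hι r (Divisor.correspondence b a hb ha D)
      = φ • rho ι hι r D + (ℓ : ℤ) • (φ⁻¹ • rho ι hι r D) :=
  Rho4.main hPE (riemannFacts_of_placeFacts hPE) hdegb (rho ι hι r)
    (Divisor.correspondence b a hb ha) φ ℓ (finrankAlong K ι) (finrankAlong K b)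
    (fun f x => Red (ι f) x) (hnorm ι hR) (hrho1 ι hι r hr) hT
    (hrho_nonneg ι hι r) (hrho_deg ι hι r hPE hPF hdegb)
    (fun D hD v => Unfold.correspondence_nonneg b a hb ha D hD v)
    (fun D => Divisor.degree_correspondence b a hb ha
      (FundId.fundamentalIdentityAlong b hb hPE hPE') D) D hD

end Generic

/-! ### The level instance: `F_N ⊆ F_M` over `ℚ̄` -/

section Level

local notation "Qb" => AlgebraicClosure ℚ

variable {N M : ℕ} [NeZero N] [NeZero M]
  (hle : modularFunctionFieldBar N ≤ modularFunctionFieldBar M)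

omit [NeZero N] in
/-- `F_M / F_N` is integral. -/
theorem incl_isIntegral : (IntermediateField.inclusion hle).toRingHom.IsIntegral :=
  HeckeFin.isIntegral_of_finiteAlong _
    (HeckeFin.finiteAlong_of_placeFacts _ (HeckeFin.placeFacts M)
      (Fermat.Agent.S24.transcendental_xgen Qb N))

/-- The fundamental identity for `F_M / F_N`. -/
theorem fundId [HasPrincipalDivisors Qb (modularFunctionFieldBar M)] :
    FundamentalIdentityAlong Qb (IntermediateField.inclusion hle) (incl_isIntegral hle) :=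
  FundId.fundamentalIdentityAlong _ _ (HeckeFin.placeFacts N) (HeckeFin.placeFacts M)

variable {A : ValuationSubring Qb} {κ : Type*} [Field κ]
  [Algebra (IsLocalRing.ResidueField A) κ]
  [HasPrincipalDivisors Qb (modularFunctionFieldBar M)]
  (r : Place Qb (modularFunctionFieldBar M) → Place (IsLocalRing.ResidueField A) κ)
  {Red : modularFunctionFieldBar M → κ → Prop}

/-- The specialisation of divisors `Div(F_N) → Div(κ)` through level `M`. -/
abbrev rhoNM : Divisor Qb (modularFunctionFieldBar N) →+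
    Divisor (IsLocalRing.ResidueField A) κ :=
  rho (IntermediateField.inclusion hle) (incl_isIntegral hle) r

/-- `ρ (g • D) = θb • ρ D` on `Div⁰(F_N)`. -/
theorem rhoNM_equivariant
    (hdegb : ∀ Q : Place (IsLocalRing.ResidueField A) κ, Q.deg = 1)
    (hR : RedFacts A Red) (hr : IsRAxiom Red r)
    (g : SemilinearAut Qb (modularFunctionFieldBar N))
    (θb : SemilinearAut (IsLocalRing.ResidueField A) κ)
    (hequiv : ∀ (f : modularFunctionFieldBar N) (x : κ),
      Red (IntermediateField.inclusion hle f) x → x ≠ 0 →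
        Red (IntermediateField.inclusion hle (g • f)) (θb • x))
    (D : Divisor Qb (modularFunctionFieldBar N)) (hD : Divisor.degree D = 0) :
    rhoNM hle r (g • D) = θb • rhoNM hle r D :=
  rho_equivariant _ _ r (HeckeFin.placeFacts N) (HeckeFin.placeFacts M) hdegb hR hr g θb
    hequiv D hD

/-- `ρ (g • D) = ρ D` on `Div⁰(F_N)`. -/
theorem rhoNM_invariant
    (hdegb : ∀ Q : Place (IsLocalRing.ResidueField A) κ, Q.deg = 1)
    (hR : RedFacts A Red) (hr : IsRAxiom Red r)
    (g : SemilinearAut Qb (modularFunctionFieldBar N))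
    (hequiv : ∀ (f : modularFunctionFieldBar N) (x : κ),
      Red (IntermediateField.inclusion hle f) x → x ≠ 0 →
        Red (IntermediateField.inclusion hle (g • f)) x)
    (D : Divisor Qb (modularFunctionFieldBar N)) (hD : Divisor.degree D = 0) :
    rhoNM hle r (g • D) = rhoNM hle r D :=
  rho_invariant _ _ r (HeckeFin.placeFacts N) (HeckeFin.placeFacts M) hdegb hR hr g
    hequiv D hD

/-- **`ρ ∘ T_ℓ = (φ + ℓ φ⁻¹) ∘ ρ` on `Div⁰(F_N)`**, `T_ℓ = heckeDivBar = α_* ∘ β^*`, from the
function-level Kronecker congruence `hT`. -/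
theorem rhoNM_hecke (ℓ : ℕ) [NeZero ℓ]
    [HasPrincipalDivisors Qb (modularFunctionFieldBar (N * ℓ))]
    (hα : HeckeAlphaBarIntegral Qb N ℓ) (hβ : HeckeBetaBarIntegral Qb N ℓ)
    (hdegb : ∀ Q : Place (IsLocalRing.ResidueField A) κ, Q.deg = 1)
    (hR : RedFacts A Red) (hr : IsRAxiom Red r)
    (φ : SemilinearAut (IsLocalRing.ResidueField A) κ)
    (hT : ∀ (f : modularFunctionFieldBar N) (x : κ),
      Red (IntermediateField.inclusion hle f) x → x ≠ 0 →
      ∃ g : modularFunctionFieldBar N, g ≠ 0 ∧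
        (∀ W : Divisor Qb (modularFunctionFieldBar N),
          (∀ v : Place Qb (modularFunctionFieldBar N), W v = v.ord f) →
          ∀ v : Place Qb (modularFunctionFieldBar N), heckeDivBar hα hβ W v = v.ord g) ∧
        ∃ c : Qb, c ≠ 0 ∧
          Red (IntermediateField.inclusion hle (algebraMap Qb (modularFunctionFieldBar N) c * g))
            (φ • x * (φ⁻¹ • x) ^ ℓ))
    (D : Divisor Qb (modularFunctionFieldBar N)) (hD : Divisor.degree D = 0) :
    rhoNM hle r (heckeDivBar hα hβ D)
      = φ • rhoNM hle r D + (ℓ : ℤ) • (φ⁻¹ • rhoNM hle r D) :=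
  rho_correspondence _ _ r (HeckeFin.placeFacts N) (HeckeFin.placeFacts (N * ℓ))
    (HeckeFin.placeFacts M) hdegb hR hr (heckeBetaBar Qb N ℓ) (heckeAlphaBar Qb N ℓ) hβ hα φ ℓ
    hT D hD

end Level

end Fermat.Agent.S37.RhoLvl

end
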