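import Mathlib
import Fermat.Prelude.Def_AlgebraicCurve_Correspondence
import Fermat.Agent.RR.Defs
import Fermat.Agent.S24.FFBasic
import Fermat.Agent.S24.Principal
import Fermat.Agent.S18.CoreDefs
import Fermat.Agent.S18.Charts
import Fermat.Agent.S18.ChartInt
import Fermat.Agent.S18.RHCount

/-!
# S37 / RhoSupp: positivity, degree and support of the specialisation map `ρ`

Setting (abstract form of package PC (d) of route Λ): function fields `E`, `F` over `K` with an
inclusion `ι : E →ₐ[K] F` (think `F_N ⊆ F_M`), a valuation subring `A` of `K` with residue field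
`k`, a function field `κ / k`, a reduction relation `Red : F → κ → Prop` and an additive map
`ρ : Div(E) → Div(κ)` (think `mapDomain r_M ∘ pullbackAlong ι`).

`RhoHyp ι Red ρ n` bundles the three properties of `ρ` that are used:
* `principal` : `ρ (div f) = div x` whenever `Red (ι f) x`, `x ≠ 0` (`rho1`);
* `nonneg` : `ρ (P) ≥ 0` for every place `P`;
* `degree` : `deg (ρ D) = n * deg D`.
`rhoHyp_of_rAxiom` gives it for the literal `ρ = mapDomain r ∘ pullbackAlong ι` from the
`r`-axiom and the degree formula.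

Results:
* `map_poleDiv_zeroDiv` : for `y ∈ E` transcendental with `Red (ι y) ȳ`, `ȳ` transcendental and
  `n [E : K(y)] = [κ : k(ȳ)]`: `ρ (y)_∞ = (ȳ)_∞` and `ρ (y)_0 = (ȳ)_0`;
* `le_zeroDiv_of_zero`, `ord_pos_of_mem_support` : a zero `P` of `y` has `ρ(P) ≤ (ȳ)_0`;
* `supp_finite` : if `j(P) = c ∈ A` then `ρ(P)` is supported on the zeros of `j̄ - c̄`;
* `supp_infinite` : if `P` is a pole of `j` or `|j(P)| > 1` (i.e. `P` is a zero of `j⁻¹ - c'`,
  `c'` in the maximal ideal of `A`), then `ρ(P)` is supported on the poles of `j̄`;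
* `exists_value` : every place of `E` is of one of these two kinds;
* `valueAt x v : Option K` (the value of `x` at `v` in `ℙ¹(K)`), `redP1 A : ℙ¹(K) → ℙ¹(k)` and
  `valueAt_eq_of_mem_support` : `Q ∈ supp ρ(P) → valueAt j̄ Q = redP1 A (valueAt j P)`;
* `degree_single`, `sum_abs_single`, `nonneg_of_nonneg`, `mono`.
-/

set_option autoImplicit false
set_option linter.unusedSectionVars false

noncomputable section

namespace Fermat.Agent.S37.RhoSupp

open AlgebraicCurve IntermediateField Fermat.Agent.RR Fermat.Agent.S24 Fermat.Agent.S18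
  Fermat.Agent.S18.Charts
open scoped IntermediateField

section Generic

variable {K F : Type*} [Field K] [Field F] [Algebra K F]

/-- An effective divisor of degree zero is zero (all places of degree one). -/
theorem eq_zero_of_nonneg_of_degree_eq_zero (hdeg : ∀ v : Place K F, v.deg = 1)
    {D : Divisor K F} (hD : ∀ v, 0 ≤ D v) (h0 : Divisor.degree D = 0) : D = 0 := by
  classical
  have hsum : Divisor.degree D = ∑ v ∈ D.support, D v := by
    unfold Divisor.degree
    rw [Finsupp.liftAddHom_apply, Finsupp.sum]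
    refine Finset.sum_congr rfl fun v _ => ?_
    rw [AddMonoidHom.coe_mulRight, hdeg v, Nat.cast_one]
    exact mul_one _
  rw [hsum] at h0
  have hz := (Finset.sum_eq_zero_iff_of_nonneg (fun v _ => hD v)).mp h0
  ext v
  by_cases hv : v ∈ D.support
  · rw [hz v hv]; rfl
  · rw [Finsupp.notMem_support_iff.mp hv]; rfl

/-- The divisor of a function is the difference of its zero and pole divisors. -/
theorem eq_zeroDiv_sub_poleDiv {y : F} {D Z0 Z1 : Divisor K F} (hD : ∀ v, D v = v.ord y)
    (hZ0 : IsPoleDiv y Z0) (hZ1 : IsZeroDiv y Z1) : D = Z1 - Z0 := by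
  ext v
  rw [Finsupp.sub_apply, hD v, hZ1 v, hZ0 v]
  rcases le_total (v.ord y) 0 with h | h
  · rw [max_eq_right h, max_eq_left (by omega)]; omega
  · rw [max_eq_left h, max_eq_right (by omega)]; omega

/-! ### Values of a function at places, as points of `ℙ¹` -/

open Classical in
/-- The value of `x` at the place `v`, as a point of `ℙ¹(K) = Option K` (`none = ∞`; also `none`
if `x` has no value in `K` at `v`). -/
def valueAt (x : F) (v : Place K F) : Option K :=
  if h : ∃ a : K, 0 < v.ord (x - algebraMap K F a) then some h.choose else none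

theorem valueAt_unique {x : F} {v : Place K F} {a b : K}
    (ha : 0 < v.ord (x - algebraMap K F a)) (hb : 0 < v.ord (x - algebraMap K F b)) : a = b := by
  by_contra hab
  have hsum : (x - algebraMap K F b) + -(x - algebraMap K F a) = algebraMap K F (a - b) := by
    rw [map_sub]; ring
  have hne : (x - algebraMap K F b) + -(x - algebraMap K F a) ≠ 0 := by
    rw [hsum, Ne, map_eq_zero]
    exact sub_ne_zero.mpr hab
  have h1 := ord_add_ge v hne
  rw [hsum, ord_algebraMap, ord_neg] at h1
  rcases min_le_iff.mp h1 with h2 | h2 <;> omega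

theorem valueAt_eq_some {x : F} {v : Place K F} {a : K}
    (ha : 0 < v.ord (x - algebraMap K F a)) : valueAt x v = some a := by
  have hex : ∃ a : K, 0 < v.ord (x - algebraMap K F a) := ⟨a, ha⟩
  unfold valueAt
  rw [dif_pos hex]
  exact congrArg some (valueAt_unique hex.choose_spec ha)

theorem valueAt_eq_some_iff {x : F} {v : Place K F} {a : K} :
    valueAt x v = some a ↔ 0 < v.ord (x - algebraMap K F a) := by
  refine ⟨fun h => ?_, valueAt_eq_some⟩
  unfold valueAt at h
  split_ifs at h with hex
  · have := hex.choose_spec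
    rwa [Option.some.inj h] at this

theorem valueAt_eq_none_of_neg {x : F} {v : Place K F} (h : v.ord x < 0) :
    valueAt x v = none := by
  unfold valueAt
  rw [dif_neg]
  rintro ⟨a, ha⟩
  rw [ord_sub_algebraMap_of_neg v h a] at ha
  omega

theorem valueAt_eq_none_iff (hP : PlaceFacts K F) {x : F} (hx : Transcendental K x)
    {v : Place K F} : valueAt x v = none ↔ v.ord x < 0 := by
  refine ⟨fun h => ?_, valueAt_eq_none_of_neg⟩
  by_contra hcon
  obtain ⟨a, ha | ha⟩ := hP.hres v x (mem_of_ord_nonneg v (not_lt.mp hcon))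
  · rw [valueAt_eq_some ha] at h
    exact Option.some_ne_none _ h
  · exact hx (ha ▸ isAlgebraic_algebraMap a)

open Classical in
/-- Reduction `ℙ¹(K) → ℙ¹(k)` for a valuation subring `A` of `K` with residue field `k`. -/
def redP1 (A : ValuationSubring K) : Option K → Option (IsLocalRing.ResidueField A)
  | some c => if h : c ∈ A then some (IsLocalRing.residue A ⟨c, h⟩) else none
  | none => none

theorem redP1_some_mem (A : ValuationSubring K) (c : A) :
    redP1 A (some (c : K)) = some (IsLocalRing.residue A c) := by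
  simp only [redP1]
  rw [dif_pos c.2]

theorem redP1_some_not_mem (A : ValuationSubring K) {c : K} (hc : c ∉ A) :
    redP1 A (some c) = none := by
  simp only [redP1]
  rw [dif_neg hc]

theorem redP1_none (A : ValuationSubring K) : redP1 A none = none := rfl

/-- The sum of the coefficients of an effective divisor is its degree (places of degree one). -/
theorem sum_abs_eq_degree (hdeg : ∀ v : Place K F, v.deg = 1) {D : Divisor K F}
    (hD : ∀ v, 0 ≤ D v) : ∑ v ∈ D.support, |D v| = Divisor.degree D := by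
  classical
  have hsum : Divisor.degree D = ∑ v ∈ D.support, D v := by
    unfold Divisor.degree
    rw [Finsupp.liftAddHom_apply, Finsupp.sum]
    refine Finset.sum_congr rfl fun v _ => ?_
    rw [AddMonoidHom.coe_mulRight, hdeg v, Nat.cast_one]
    exact mul_one _
  rw [hsum]
  exact Finset.sum_congr rfl fun v _ => abs_of_nonneg (hD v)

end Generic

section Abstract

variable {K E F κ : Type*} [Field K] [Field E] [Field F] [Algebra K E] [Algebra K F]
  {A : ValuationSubring K} [Field κ] [Algebra (IsLocalRing.ResidueField A) κ]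

/-- The properties of the specialisation map `ρ : Div(E) → Div(κ)` used below
(`ι : E → F` the inclusion of function fields, `Red` the reduction relation on `F`). -/
structure RhoHyp (ι : E →ₐ[K] F) (Red : F → κ → Prop)
    (ρ : Divisor K E →+ Divisor (IsLocalRing.ResidueField A) κ) (n : ℕ) : Prop where
  /-- `ρ (div f) = div x` if `Red (ι f) x`, `x ≠ 0` (`rho1`) -/
  principal : ∀ (f : E) (x : κ), Red (ι f) x → x ≠ 0 → ∀ D : Divisor K E,
    (∀ v : Place K E, D v = v.ord f) →
      ∀ Q : Place (IsLocalRing.ResidueField A) κ, ρ D Q = Q.ord x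
  /-- `ρ(P)` is effective -/
  nonneg : ∀ (P : Place K E) (Q : Place (IsLocalRing.ResidueField A) κ),
    0 ≤ ρ (Finsupp.single P 1) Q
  /-- `deg ρ(D) = n deg D` -/
  degree : ∀ D : Divisor K E, Divisor.degree (ρ D) = (n : ℤ) * Divisor.degree D

variable {ι : E →ₐ[K] F} {Red : F → κ → Prop}
  {ρ : Divisor K E →+ Divisor (IsLocalRing.ResidueField A) κ} {n : ℕ}

/-- `ρ` preserves effectivity. -/
theorem nonneg_of_nonneg (h : RhoHyp ι Red ρ n) {D : Divisor K E} (hD : ∀ v, 0 ≤ D v)
    (Q : Place (IsLocalRing.ResidueField A) κ) : 0 ≤ ρ D Q := by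
  classical
  have hsum : D = ∑ v ∈ D.support, (D v).toNat • Finsupp.single v (1 : ℤ) := by
    conv_lhs => rw [← Finsupp.sum_single D]
    rw [Finsupp.sum]
    refine Finset.sum_congr rfl fun v _ => ?_
    rw [Finsupp.smul_single, nsmul_eq_mul, mul_one, Int.toNat_of_nonneg (hD v)]
  rw [hsum, map_sum, Finsupp.finsetSum_apply]
  refine Finset.sum_nonneg fun v _ => ?_
  rw [map_nsmul, Finsupp.smul_apply, nsmul_eq_mul]
  exact mul_nonneg (Int.natCast_nonneg _) (h.nonneg v Q)

/-- `ρ` is monotone. -/
theorem mono (h : RhoHyp ι Red ρ n) {D D' : Divisor K E} (hle : ∀ v, D v ≤ D' v)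
    (Q : Place (IsLocalRing.ResidueField A) κ) : ρ D Q ≤ ρ D' Q := by
  have h1 := nonneg_of_nonneg h (D := D' - D) (fun v => by
    rw [Finsupp.sub_apply]; exact sub_nonneg.mpr (hle v)) Q
  rw [map_sub, Finsupp.sub_apply] at h1
  exact sub_nonneg.mp h1

/-- `ρ(P)` has degree `n`. -/
theorem degree_single (h : RhoHyp ι Red ρ n) (hPE : PlaceFacts K E) (P : Place K E) :
    Divisor.degree (ρ (Finsupp.single P 1)) = n := by
  rw [h.degree, Divisor.degree_single, hPE.hdeg P]
  simp

/-- **`ρ` maps pole and zero divisors to pole and zero divisors.** -/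
theorem map_poleDiv_zeroDiv (h : RhoHyp ι Red ρ n) (hPE : PlaceFacts K E)
    (hPκ : PlaceFacts (IsLocalRing.ResidueField A) κ) {y : E} {yb : κ}
    (hy : Transcendental K y) (hyb : Transcendental (IsLocalRing.ResidueField A) yb)
    (hred : Red (ι y) yb)
    (hn : (n : ℤ) * (Module.finrank K⟮y⟯ E : ℤ)
      = (Module.finrank (IsLocalRing.ResidueField A)⟮yb⟯ κ : ℤ))
    {Z0 Z1 : Divisor K E} {Zb0 Zb1 : Divisor (IsLocalRing.ResidueField A) κ}
    (hZ0 : IsPoleDiv y Z0) (hZ1 : IsZeroDiv y Z1) (hZb0 : IsPoleDiv yb Zb0)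
    (hZb1 : IsZeroDiv yb Zb1) : ρ Z0 = Zb0 ∧ ρ Z1 = Zb1 := by
  have hy0 : y ≠ 0 := fun h0 => hy (h0 ▸ isAlgebraic_zero)
  have hyb0 : yb ≠ 0 := fun h0 => hyb (h0 ▸ isAlgebraic_zero)
  have hprE : HasPrincipalDivisors K E := hasPrincipalDivisors_of hPE.hdeg hPE.hfin hPE.hsum
  have hprκ : HasPrincipalDivisors (IsLocalRing.ResidueField A) κ :=
    hasPrincipalDivisors_of hPκ.hdeg hPκ.hfin hPκ.hsum
  obtain ⟨D, hD, -⟩ := hprE.exists_divisor y hy0
  obtain ⟨Db, hDb, -⟩ := hprκ.exists_divisor yb hyb0
  have hρ : ρ D = Db := by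
    ext Q
    rw [h.principal y yb hred hyb0 D hD Q, hDb Q]
  rw [eq_zeroDiv_sub_poleDiv hD hZ0 hZ1, eq_zeroDiv_sub_poleDiv hDb hZb0 hZb1, map_sub] at hρ
  -- pointwise `ρ Z0 ≥ Zb0`
  have hge : ∀ Q, 0 ≤ (ρ Z0 - Zb0) Q := by
    intro Q
    rw [Finsupp.sub_apply]
    have h0 := nonneg_of_nonneg h hZ0.nonneg Q
    have h1 := nonneg_of_nonneg h hZ1.nonneg Q
    have hQ := DFunLike.congr_fun hρ Q
    rw [Finsupp.sub_apply, Finsupp.sub_apply] at hQ
    rcases disjoint_pole_zero hZb0 hZb1 Q with hz | hz
    · rw [hz]; omega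
    · rw [hz] at hQ; omega
  have hdeg : Divisor.degree (ρ Z0 - Zb0) = 0 := by
    rw [map_sub, h.degree, hZ0.degree_eq hPE hy, hZb0.degree_eq hPκ hyb, hn, sub_self]
  have hz := eq_zero_of_nonneg_of_degree_eq_zero hPκ.hdeg hge hdeg
  have h0 : ρ Z0 = Zb0 := sub_eq_zero.mp hz
  refine ⟨h0, ?_⟩
  rw [h0] at hρ
  exact sub_left_injective hρ

/-- A zero `P` of `y` has `ρ(P) ≤ (ȳ)_0`. -/
theorem le_zeroDiv_of_zero (h : RhoHyp ι Red ρ n) (hPE : PlaceFacts K E)
    (hPκ : PlaceFacts (IsLocalRing.ResidueField A) κ) {y : E} {yb : κ}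
    (hy : Transcendental K y) (hyb : Transcendental (IsLocalRing.ResidueField A) yb)
    (hred : Red (ι y) yb)
    (hn : (n : ℤ) * (Module.finrank K⟮y⟯ E : ℤ)
      = (Module.finrank (IsLocalRing.ResidueField A)⟮yb⟯ κ : ℤ))
    (P : Place K E) (hP : 0 < P.ord y) (Q : Place (IsLocalRing.ResidueField A) κ) :
    ρ (Finsupp.single P 1) Q ≤ max (Q.ord yb) 0 := by
  classical
  obtain ⟨Z0, hZ0, -⟩ := exists_poleDiv hPE y hy
  obtain ⟨Z1, hZ1, -⟩ := exists_zeroDiv hPE y hy
  obtain ⟨Zb0, hZb0, -⟩ := exists_poleDiv hPκ yb hyb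
  obtain ⟨Zb1, hZb1, -⟩ := exists_zeroDiv hPκ yb hyb
  obtain ⟨-, h1⟩ := map_poleDiv_zeroDiv h hPE hPκ hy hyb hred hn hZ0 hZ1 hZb0 hZb1
  have hle : ∀ v, (Finsupp.single P (1 : ℤ)) v ≤ Z1 v := by
    intro v
    by_cases hv : v = P
    · subst hv
      rw [Finsupp.single_eq_same, hZ1 v, max_eq_left hP.le]
      omega
    · rw [Finsupp.single_eq_of_ne hv]
      exact hZ1.nonneg v
  have := mono h hle Q
  rwa [h1, hZb1 Q] at this

/-- A zero `P` of `y`: every place in the support of `ρ(P)` is a zero of `ȳ`. -/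
theorem ord_pos_of_mem_support (h : RhoHyp ι Red ρ n) (hPE : PlaceFacts K E)
    (hPκ : PlaceFacts (IsLocalRing.ResidueField A) κ) {y : E} {yb : κ}
    (hy : Transcendental K y) (hyb : Transcendental (IsLocalRing.ResidueField A) yb)
    (hred : Red (ι y) yb)
    (hn : (n : ℤ) * (Module.finrank K⟮y⟯ E : ℤ)
      = (Module.finrank (IsLocalRing.ResidueField A)⟮yb⟯ κ : ℤ))
    (P : Place K E) (hP : 0 < P.ord y) (Q : Place (IsLocalRing.ResidueField A) κ)
    (hQ : ρ (Finsupp.single P 1) Q ≠ 0) : 0 < Q.ord yb := by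
  have h1 := le_zeroDiv_of_zero h hPE hPκ hy hyb hred hn P hP Q
  have h2 := h.nonneg P Q
  by_contra hcon
  rw [max_eq_right (not_lt.mp hcon)] at h1
  omega

/-- `∑_Q |ρ(P)(Q)| = n`. -/
theorem sum_abs_single (h : RhoHyp ι Red ρ n) (hPE : PlaceFacts K E)
    (hPκ : PlaceFacts (IsLocalRing.ResidueField A) κ) (P : Place K E) :
    ∑ Q ∈ (ρ (Finsupp.single P 1)).support, |ρ (Finsupp.single P 1) Q| = n := by
  rw [sum_abs_eq_degree hPκ.hdeg (h.nonneg P), degree_single h hPE P]

end Abstract

section JLine

variable {K E F κ : Type*} [Field K] [Field E] [Field F] [Algebra K E] [Algebra K F]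
  {A : ValuationSubring K} [Field κ] [Algebra (IsLocalRing.ResidueField A) κ]
  {ι : E →ₐ[K] F} {Red : F → κ → Prop}
  {ρ : Divisor K E →+ Divisor (IsLocalRing.ResidueField A) κ} {n : ℕ}

/-- Every place of `E` has a `j`-value in `A` or in `ℙ¹ ∖ A`. -/
theorem exists_value (hPE : PlaceFacts K E) {j : E} (hj : Transcendental K j) (P : Place K E) :
    (∃ c : A, 0 < P.ord (j - algebraMap K E (c : K))) ∨
      (∃ c : A, IsLocalRing.residue A c = 0 ∧ 0 < P.ord (j⁻¹ - algebraMap K E (c : K))) := by
  have hj0 : j ≠ 0 := fun h0 => hj (h0 ▸ isAlgebraic_zero)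
  rcases lt_or_ge (P.ord j) 0 with hneg | hnonneg
  · -- pole of `j`
    right
    refine ⟨0, map_zero _, ?_⟩
    have : ((0 : A) : K) = 0 := rfl
    rw [this, map_zero, sub_zero, P.ord_inv]
    omega
  · have hmem : j ∈ P.toValuationSubring := mem_of_ord_nonneg P hnonneg
    obtain ⟨a, ha | ha⟩ := hPE.hres P j hmem
    · by_cases haA : a ∈ A
      · exact Or.inl ⟨⟨a, haA⟩, ha⟩
      · right
        have ha0 : a ≠ 0 := fun h0 => haA (h0 ▸ zero_mem A)
        have hinv : a⁻¹ ∈ A := (A.mem_or_inv_mem a).resolve_left haA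
        refine ⟨⟨a⁻¹, hinv⟩, ?_, ?_⟩
        · -- `a⁻¹` is not a unit of `A`
          rw [IsLocalRing.residue_eq_zero_iff, IsLocalRing.mem_maximalIdeal, mem_nonunits_iff]
          intro hu
          obtain ⟨b, hb⟩ := isUnit_iff_exists_inv.mp hu
          have hb' : a⁻¹ * (b : K) = 1 := congrArg Subtype.val hb
          have : (b : K) = a := by
            field_simp at hb'
            exact hb'
          exact haA (this ▸ b.2)
        · -- `j⁻¹ - a⁻¹ = -(j - a) / (j a)`
          have hca : algebraMap K E a ≠ 0 := by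
            rw [Ne, map_eq_zero]; exact ha0
          have hsub : j - algebraMap K E a ≠ 0 := by
            intro h0
            rw [h0, P.ord_zero] at ha
            exact lt_irrefl _ ha
          have hordj : P.ord j = 0 := by
            have h1 : P.ord (algebraMap K E a + (j - algebraMap K E a)) = P.ord (algebraMap K E a) :=
              ord_add_eq_of_lt P hca (by rw [ord_algebraMap]; exact ha)
            rw [add_sub_cancel, ord_algebraMap] at h1
            exact h1
          have heq : j⁻¹ - algebraMap K E ((⟨a⁻¹, hinv⟩ : A) : K)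
              = -(j - algebraMap K E a) * (j⁻¹ * (algebraMap K E a)⁻¹) := by
            show j⁻¹ - algebraMap K E a⁻¹ = _
            rw [map_inv₀]
            field_simp
            ring
          rw [heq, P.ord_mul (neg_ne_zero.mpr hsub)
            (mul_ne_zero (inv_ne_zero hj0) (inv_ne_zero hca)), ord_neg,
            P.ord_mul (inv_ne_zero hj0) (inv_ne_zero hca), P.ord_inv, P.ord_inv, hordj,
            ord_algebraMap]
          omega
    · exact absurd (ha ▸ isAlgebraic_algebraMap a) hj

variable (hR : RedFacts A Red) (h : RhoHyp ι Red ρ n) (hPE : PlaceFacts K E)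
  (hPκ : PlaceFacts (IsLocalRing.ResidueField A) κ) {j : E} {jb : κ}
  (hj : Transcendental K j) (hjb : Transcendental (IsLocalRing.ResidueField A) jb)
  (hred : Red (ι j) jb)
  (hn : (n : ℤ) * (Module.finrank K⟮j⟯ E : ℤ)
    = (Module.finrank (IsLocalRing.ResidueField A)⟮jb⟯ κ : ℤ))

include hR h hPE hPκ hj hjb hred hn

/-- **Finite values.** If `j(P) = c ∈ A`, then `ρ(P)` is supported on the zeros of `j̄ - c̄`. -/
theorem supp_finite (c : A) (P : Place K E) (hP : 0 < P.ord (j - algebraMap K E (c : K)))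
    (Q : Place (IsLocalRing.ResidueField A) κ) (hQ : ρ (Finsupp.single P 1) Q ≠ 0) :
    0 < Q.ord (jb - algebraMap (IsLocalRing.ResidueField A) κ (IsLocalRing.residue A c)) := by
  have hy : Transcendental K (j - algebraMap K E (c : K)) :=
    RHCount.transcendental_sub hj _
  have hyb : Transcendental (IsLocalRing.ResidueField A)
      (jb - algebraMap (IsLocalRing.ResidueField A) κ (IsLocalRing.residue A c)) :=
    RHCount.transcendental_sub hjb _
  have hred' : Red (ι (j - algebraMap K E (c : K)))
      (jb - algebraMap (IsLocalRing.ResidueField A) κ (IsLocalRing.residue A c)) := by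
    rw [map_sub, AlgHom.commutes]
    exact ChartInt.red_sub hR hred (hR.const c)
  have hn' : (n : ℤ) * (Module.finrank K⟮j - algebraMap K E (c : K)⟯ E : ℤ)
      = (Module.finrank (IsLocalRing.ResidueField A)⟮jb -
          algebraMap (IsLocalRing.ResidueField A) κ (IsLocalRing.residue A c)⟯ κ : ℤ) := by
    rw [RHCount.adjoin_sub_eq, RHCount.adjoin_sub_eq]
    exact hn
  exact ord_pos_of_mem_support h hPE hPκ hy hyb hred' hn' P hP Q hQ

/-- **Infinite values.** If `P` is a zero of `j⁻¹ - c'` with `c'` in the maximal ideal of `A`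
(i.e. `P` is a pole of `j`, or `|j(P)| > 1`), then `ρ(P)` is supported on the poles of `j̄`. -/
theorem supp_infinite (c : A) (hc : IsLocalRing.residue A c = 0) (P : Place K E)
    (hP : 0 < P.ord (j⁻¹ - algebraMap K E (c : K)))
    (Q : Place (IsLocalRing.ResidueField A) κ) (hQ : ρ (Finsupp.single P 1) Q ≠ 0) :
    Q.ord jb < 0 := by
  have hjb0 : jb ≠ 0 := fun h0 => hjb (h0 ▸ isAlgebraic_zero)
  have hy : Transcendental K (j⁻¹ - algebraMap K E (c : K)) :=
    RHCount.transcendental_sub (transcendental_inv hj) _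
  have hyb : Transcendental (IsLocalRing.ResidueField A) jb⁻¹ := transcendental_inv hjb
  have hred' : Red (ι (j⁻¹ - algebraMap K E (c : K))) jb⁻¹ := by
    rw [map_sub, AlgHom.commutes, map_inv₀]
    have h1 := ChartInt.red_sub hR (ChartInt.red_inv hR hred hjb0) (hR.const c)
    rwa [hc, map_zero, sub_zero] at h1
  have hn' : (n : ℤ) * (Module.finrank K⟮j⁻¹ - algebraMap K E (c : K)⟯ E : ℤ)
      = (Module.finrank (IsLocalRing.ResidueField A)⟮jb⁻¹⟯ κ : ℤ) := by
    rw [RHCount.adjoin_sub_eq, adjoin_inv_eq, adjoin_inv_eq]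
    exact hn
  have := ord_pos_of_mem_support h hPE hPκ hy hyb hred' hn' P hP Q hQ
  rw [Q.ord_inv] at this
  omega

/-- **Support of `ρ(P)` in terms of `j`-values**: every place `Q` in the support of `ρ(P)` has
`j̄(Q) = red (j(P))` in `ℙ¹(k)`. -/
theorem valueAt_eq_of_mem_support (P : Place K E)
    (Q : Place (IsLocalRing.ResidueField A) κ) (hQ : ρ (Finsupp.single P 1) Q ≠ 0) :
    valueAt jb Q = redP1 A (valueAt j P) := by
  have hj0 : j ≠ 0 := fun h0 => hj (h0 ▸ isAlgebraic_zero)
  rcases exists_value (A := A) hPE hj P with ⟨c, hc⟩ | ⟨c, hc0, hc⟩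
  · rw [valueAt_eq_some hc, redP1_some_mem,
      valueAt_eq_some (supp_finite hR h hPE hPκ hj hjb hred hn c P hc Q hQ)]
  · rw [valueAt_eq_none_of_neg (supp_infinite hR h hPE hPκ hj hjb hred hn c hc0 P hc Q hQ)]
    -- the value of `j` at `P` is `∞` or outside `A`
    cases hval : valueAt j P with
    | none => rfl
    | some a =>
      rw [valueAt_eq_some_iff] at hval
      by_cases haA : a ∈ A
      · exfalso
        rcases eq_or_ne a 0 with rfl | ha0
        · -- `j(P) = 0`: then `j⁻¹` has a pole at `P`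
          rw [map_zero, sub_zero] at hval
          have hneg : P.ord j⁻¹ < 0 := by rw [P.ord_inv]; omega
          rw [ord_sub_algebraMap_of_neg P hneg] at hc
          omega
        · have hca : algebraMap K E a ≠ 0 := by
            rw [Ne, map_eq_zero]; exact ha0
          have hsub : j - algebraMap K E a ≠ 0 := by
            intro h0
            rw [h0, P.ord_zero] at hval
            exact lt_irrefl _ hval
          have hordj : P.ord j = 0 := by
            have h1 : P.ord (algebraMap K E a + (j - algebraMap K E a))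
                = P.ord (algebraMap K E a) :=
              ord_add_eq_of_lt P hca (by rw [ord_algebraMap]; exact hval)
            rw [add_sub_cancel, ord_algebraMap] at h1
            exact h1
          have heq : j⁻¹ - algebraMap K E a⁻¹
              = -(j - algebraMap K E a) * (j⁻¹ * (algebraMap K E a)⁻¹) := by
            rw [map_inv₀]
            field_simp
            ring
          have hinv : 0 < P.ord (j⁻¹ - algebraMap K E a⁻¹) := by
            rw [heq, P.ord_mul (neg_ne_zero.mpr hsub)
              (mul_ne_zero (inv_ne_zero hj0) (inv_ne_zero hca)), ord_neg,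
              P.ord_mul (inv_ne_zero hj0) (inv_ne_zero hca), P.ord_inv, P.ord_inv, hordj,
              ord_algebraMap]
            omega
          have hcc : a⁻¹ = (c : K) := valueAt_unique hinv hc
          -- `1 = a * c` lies in the maximal ideal
          have hmem : c ∈ IsLocalRing.maximalIdeal A :=
            (IsLocalRing.residue_eq_zero_iff c).mp hc0
          have hone : (⟨a, haA⟩ : A) * c = 1 := by
            apply Subtype.ext
            show a * (c : K) = 1
            rw [← hcc, mul_inv_cancel₀ ha0]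
          have : (1 : A) ∈ IsLocalRing.maximalIdeal A := by
            rw [← hone]
            exact Ideal.mul_mem_left _ _ hmem
          exact (IsLocalRing.maximalIdeal A).ne_top_iff_one.mp
            (IsLocalRing.maximalIdeal.isMaximal A).ne_top this
      · rw [redP1_some_not_mem A haA]

end JLine

/-! ### The literal `ρ = mapDomain r ∘ pullback` -/

section Literal

variable {K E F κ : Type*} [Field K] [Field E] [Field F] [Algebra K E] [Algebra K F]
  [HasPrincipalDivisors K F]
  {A : ValuationSubring K} [Field κ] [Algebra (IsLocalRing.ResidueField A) κ]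

omit [Field K] [Field F] [Algebra K F] [HasPrincipalDivisors K F] [Field E] [Algebra K E]
  [Field κ] in
theorem mapDomain_nonneg {α β : Type*} (r : α → β) {D : α →₀ ℤ} (hD : ∀ a, 0 ≤ D a) (b : β) :
    0 ≤ Finsupp.mapDomain r D b := by
  classical
  rw [Finsupp.mapDomain, Finsupp.sum_apply]
  refine Finset.sum_nonneg fun a _ => ?_
  show 0 ≤ (Finsupp.single (r a) (D a)) b
  rw [Finsupp.single_apply]
  split_ifs
  · exact hD a
  · exact le_rfl

/-- The hypotheses `RhoHyp` for `ρ = mapDomain r ∘ pullbackAlong ι` (the literal body of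
`RhoDef.rho`), from the `r`-axiom for `r` (shape of `RhoDef.IsRAxiom` / `SpecMap.div`) and the
degree formula. -/
theorem rhoHyp_of_rAxiom (ι : E →ₐ[K] F) (hι : ι.toRingHom.IsIntegral) {Red : F → κ → Prop}
    (r : Place K F → Place (IsLocalRing.ResidueField A) κ)
    (hr : ∀ (f : F) (x : κ), Red f x → x ≠ 0 → ∀ D : Divisor K F,
      (∀ P : Place K F, D P = P.ord f) →
        ∀ Q : Place (IsLocalRing.ResidueField A) κ, Finsupp.mapDomain r D Q = Q.ord x)
    {n : ℕ}
    (hdeg : ∀ D : Divisor K E,
      Divisor.degree (Finsupp.mapDomain r (Divisor.pullbackAlong ι hι D))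
        = (n : ℤ) * Divisor.degree D) :
    RhoHyp ι Red ((Finsupp.mapDomain.addMonoidHom r).comp (Divisor.pullbackAlong ι hι)) n where
  principal f x hred hx D hD Q := by
    refine hr (ι f) x hred hx (Divisor.pullbackAlong ι hι D) (fun W => ?_) Q
    rw [Divisor.pullbackAlong_apply, hD, ← Place.ord_restrictAlong]
  nonneg P Q := by
    classical
    refine mapDomain_nonneg r (fun W => ?_) Q
    rw [Divisor.pullbackAlong_apply]
    refine mul_nonneg (Int.natCast_nonneg _) ?_
    rw [Finsupp.single_apply]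
    split_ifs <;> norm_num
  degree D := hdeg D

end Literal

end Fermat.Agent.S37.RhoSupp

end
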