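import Mathlib
import Fermat.Agent.S18.CoreDefs
import Fermat.Agent.S18.LatticeBridge
import Fermat.Agent.S18.Core
import Fermat.Agent.RR.Riemann
import Fermat.Agent.S18.RHDeg

/-!
# S37 / SpecMap : the specialisation map on places (B5 + B6)

Setting: `F/K`, `κ/k` function fields, `Red : F → κ → Prop` a Gauss reduction (`RedFacts`).
`IsSpecDiv Red H Z` says that the effective divisor `Z` of `κ` is the specialisation of the
effective divisor `H` of `F`: `deg Z = deg H`, the reductions of `L(H)` are exactly `L(Z)`, and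
`Z` is the pole divisor of `L(Z)`.

From the key statement (`hkey`: every effective `H` of large degree has a specialisation) we
construct `r : Place K F → Place k κ` with `IsSpecDiv Red H (mapDomain r H)` for all large effective
`H` (`exists_specMap`), prove that `r` is unique (`SpecMap.unique`) and that it is compatible with
divisors of functions (`SpecMap.div`).
-/

set_option autoImplicit false
set_option synthInstance.maxHeartbeats 400000

noncomputable section

namespace Fermat.Agent.S37.SpecMap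

open AlgebraicCurve Fermat.Agent.RR Fermat.Agent.S18

/-! ### Generalities on divisors -/

section Div

variable {K F : Type*} [Field K] [Field F] [Algebra K F]

theorem mul_mem_L {H₁ H₂ : Divisor K F} {f₁ f₂ : F} (h₁ : f₁ ∈ riemannRochSpace H₁)
    (h₂ : f₂ ∈ riemannRochSpace H₂) : f₁ * f₂ ∈ riemannRochSpace (H₁ + H₂) := by
  rw [mem_riemannRochSpace_iff] at h₁ h₂ ⊢
  intro v
  by_cases hf₁ : f₁ = 0
  · left; rw [hf₁, zero_mul]
  by_cases hf₂ : f₂ = 0
  · left; rw [hf₂, mul_zero]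
  right
  have a₁ := (h₁ v).resolve_left hf₁
  have a₂ := (h₂ v).resolve_left hf₂
  rw [v.ord_mul hf₁ hf₂, Finsupp.add_apply]
  omega

theorem degree_nonneg_of_nonneg (hdeg : ∀ v : Place K F, v.deg = 1) {H : Divisor K F}
    (hH : 0 ≤ H) : 0 ≤ Divisor.degree H := by
  have := Riemann.degree_mono hdeg hH
  rwa [map_zero] at this

/-- An effective divisor of degree one is a place. -/
theorem exists_single_of_degree_one (hdeg : ∀ v : Place K F, v.deg = 1) (E : Divisor K F)
    (hE : 0 ≤ E) (h1 : Divisor.degree E = 1) : ∃ Q : Place K F, E = Finsupp.single Q 1 := by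
  obtain ⟨Q, hQ⟩ : ∃ Q, E Q ≠ 0 := by
    by_contra hall
    have hall' : ∀ Q, E Q = 0 := fun Q => by
      by_contra h
      exact hall ⟨Q, h⟩
    have : E = 0 := Finsupp.ext hall'
    rw [this, map_zero] at h1
    exact zero_ne_one h1
  have hEQ : 0 ≤ E Q := Finsupp.le_def.mp hE Q
  have hpos : 1 ≤ E Q := by omega
  refine ⟨Q, ?_⟩
  have hnn : ∀ v, 0 ≤ (E - Finsupp.single Q 1 : Divisor K F) v := by
    intro w
    rw [Finsupp.sub_apply]
    by_cases hwv : w = Q
    · subst hwv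
      rw [Finsupp.single_eq_same]; omega
    · rw [Finsupp.single_eq_of_ne hwv]
      have := Finsupp.le_def.mp hE w
      simpa using this
  have hd0 : Divisor.degree (E - Finsupp.single Q 1 : Divisor K F) = 0 := by
    rw [map_sub, h1, Divisor.degree_single, hdeg Q]
    simp
  have := Core.eq_zero_of_nonneg_of_degree_eq_zero hdeg _ hnn hd0
  exact sub_eq_zero.mp this

end Div

variable {K F κ : Type*} [Field K] [Field F] [Algebra K F] {A : ValuationSubring K}
  [Field κ] [Algebra (IsLocalRing.ResidueField A) κ]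

/-- `Z` is the specialisation of the effective divisor `H`. -/
structure IsSpecDiv (Red : F → κ → Prop) (H : Divisor K F)
    (Z : Divisor (IsLocalRing.ResidueField A) κ) : Prop where
  nonneg : 0 ≤ Z
  deg : Divisor.degree Z = Divisor.degree H
  mem_iff : ∀ x : κ, (∃ f ∈ riemannRochSpace H, Red f x) ↔ x ∈ riemannRochSpace Z
  attain : ∀ Q : Place (IsLocalRing.ResidueField A) κ,
    ∃ x ∈ riemannRochSpace Z, x ≠ 0 ∧ Q.ord x = - Z Q

variable {Red : F → κ → Prop}

namespace IsSpecDiv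

variable {H H' H₁ H₂ : Divisor K F} {Z Z' Z₁ Z₂ : Divisor (IsLocalRing.ResidueField A) κ}

theorem le_of_subset (h : IsSpecDiv Red H Z)
    (hsub : ∀ x : κ, x ∈ riemannRochSpace Z → x ∈ riemannRochSpace Z') : Z ≤ Z' := by
  rw [Finsupp.le_def]
  intro Q
  obtain ⟨x, hx, hx0, hord⟩ := h.attain Q
  have h1 := mem_riemannRochSpace_iff.mp (hsub x hx) Q
  rcases h1 with h1 | h1
  · exact absurd h1 hx0
  · omega

theorem mono (h : IsSpecDiv Red H Z) (h' : IsSpecDiv Red H' Z') (hle : H ≤ H') : Z ≤ Z' := by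
  refine h.le_of_subset fun x hx => ?_
  obtain ⟨f, hf, hfx⟩ := (h.mem_iff x).mpr hx
  exact (h'.mem_iff x).mp ⟨f, Riemann.riemannRochSpace_mono hle hf, hfx⟩

theorem unique (h : IsSpecDiv Red H Z) (h' : IsSpecDiv Red H Z') : Z = Z' :=
  le_antisymm (h.mono h' le_rfl) (h'.mono h le_rfl)

theorem add (hR : RedFacts A Red)
    (hdeg : ∀ v : Place (IsLocalRing.ResidueField A) κ, v.deg = 1)
    (h₁ : IsSpecDiv Red H₁ Z₁) (h₂ : IsSpecDiv Red H₂ Z₂)
    (h : IsSpecDiv Red (H₁ + H₂) Z) : Z = Z₁ + Z₂ := by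
  have hle : ∀ Q, 0 ≤ (Z - (Z₁ + Z₂)) Q := by
    intro Q
    obtain ⟨x₁, hx₁, hx₁0, ho₁⟩ := h₁.attain Q
    obtain ⟨x₂, hx₂, hx₂0, ho₂⟩ := h₂.attain Q
    obtain ⟨f₁, hf₁, hr₁⟩ := (h₁.mem_iff x₁).mpr hx₁
    obtain ⟨f₂, hf₂, hr₂⟩ := (h₂.mem_iff x₂).mpr hx₂
    have hmem : x₁ * x₂ ∈ riemannRochSpace Z :=
      (h.mem_iff _).mp ⟨f₁ * f₂, mul_mem_L hf₁ hf₂, hR.mul _ _ _ _ hr₁ hr₂⟩
    have h1 := (mem_riemannRochSpace_iff.mp hmem Q).resolve_left (mul_ne_zero hx₁0 hx₂0)
    rw [Q.ord_mul hx₁0 hx₂0] at h1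
    rw [Finsupp.sub_apply, Finsupp.add_apply]
    omega
  have hd0 : Divisor.degree (Z - (Z₁ + Z₂)) = 0 := by
    rw [map_sub, map_add, h.deg, h₁.deg, h₂.deg, map_add]
    ring
  have := Core.eq_zero_of_nonneg_of_degree_eq_zero hdeg _ hle hd0
  exact sub_eq_zero.mp this

end IsSpecDiv

/-- `r` computes the specialisation of every effective divisor of degree `≥ n₁`. -/
structure IsSpecMap (Red : F → κ → Prop) (n₁ : ℤ)
    (r : Place K F → Place (IsLocalRing.ResidueField A) κ) : Prop where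
  spec : ∀ H : Divisor K F, 0 ≤ H → n₁ ≤ Divisor.degree H →
    IsSpecDiv Red H (Finsupp.mapDomain r H)


/-! ### Construction of the specialisation map -/

section Construct

variable (hR : RedFacts A Red) (hP : PlaceFacts K F)
  (hPb : PlaceFacts (IsLocalRing.ResidueField A) κ) {n₁ : ℤ}
  (hkey : ∀ H : Divisor K F, 0 ≤ H → n₁ ≤ Divisor.degree H →
    ∃ Z : Divisor (IsLocalRing.ResidueField A) κ, IsSpecDiv Red H Z)

include hP in
/-- There are effective divisors of arbitrarily large degree. -/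
theorem exists_large (n : ℤ) : ∃ H₀ : Divisor K F, 0 ≤ H₀ ∧ n ≤ Divisor.degree H₀ := by
  obtain ⟨P₀⟩ := RHDeg.nonempty_place_of hP
  refine ⟨Finsupp.single P₀ (n.toNat : ℤ), ?_, ?_⟩
  · rw [Finsupp.le_def]
    intro v
    by_cases hv : v = P₀
    · subst hv
      rw [Finsupp.single_eq_same]
      simp
    · rw [Finsupp.single_eq_of_ne hv]
      simp
  · rw [Divisor.degree_single, hP.hdeg P₀]
    simp only [Nat.cast_one, mul_one]
    exact Int.self_le_toNat n

theorem single_nonneg (P : Place K F) : (0 : Divisor K F) ≤ Finsupp.single P 1 := by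
  rw [Finsupp.le_def]
  intro v
  by_cases hv : v = P
  · subst hv
    rw [Finsupp.single_eq_same]
    simp
  · rw [Finsupp.single_eq_of_ne hv]
    simp

include hR hP hPb hkey in
/-- **B5.** The specialisation map exists. -/
theorem exists_specMap : ∃ r : Place K F → Place (IsLocalRing.ResidueField A) κ,
    IsSpecMap Red n₁ r := by
  classical
  obtain ⟨H₀, hH₀, hn₀⟩ := exists_large hP n₁
  have hd₀ : 0 ≤ Divisor.degree H₀ := degree_nonneg_of_nonneg hP.hdeg hH₀
  obtain ⟨Z₀, hZ₀⟩ := hkey H₀ hH₀ hn₀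
  -- the key statement for sums
  have hkey' : ∀ H : Divisor K F, 0 ≤ H → n₁ ≤ Divisor.degree H → ∀ P : Place K F,
      ∃ Z : Divisor (IsLocalRing.ResidueField A) κ, IsSpecDiv Red (H + Finsupp.single P 1) Z := by
    intro H hH hn P
    refine hkey _ (add_nonneg hH (single_nonneg P)) ?_
    rw [Riemann.degree_step hP.hdeg]
    omega
  -- definition of `r`
  have hex : ∀ P : Place K F, ∃ Q : Place (IsLocalRing.ResidueField A) κ,
      ∀ Z : Divisor (IsLocalRing.ResidueField A) κ,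
        IsSpecDiv Red (H₀ + Finsupp.single P 1) Z → Z = Z₀ + Finsupp.single Q 1 := by
    intro P
    obtain ⟨Z, hZ⟩ := hkey' H₀ hH₀ hn₀ P
    have hle : Z₀ ≤ Z := hZ₀.mono hZ (le_add_of_nonneg_right (single_nonneg P))
    have hdeg1 : Divisor.degree (Z - Z₀) = 1 := by
      rw [map_sub, hZ.deg, hZ₀.deg, Riemann.degree_step hP.hdeg]
      ring
    obtain ⟨Q, hQ⟩ := exists_single_of_degree_one hPb.hdeg (Z - Z₀) (sub_nonneg.mpr hle) hdeg1
    refine ⟨Q, fun Z' hZ' => ?_⟩
    rw [← hZ.unique hZ', ← hQ]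
    abel
  choose r hr using hex
  -- one step
  have hstep : ∀ H : Divisor K F, 0 ≤ H → n₁ ≤ Divisor.degree H → ∀ (P : Place K F)
      (Z Z' : Divisor (IsLocalRing.ResidueField A) κ),
      IsSpecDiv Red H Z → IsSpecDiv Red (H + Finsupp.single P 1) Z' →
      Z' = Z + Finsupp.single (r P) 1 := by
    intro H hH hn P Z Z' hZ hZ'
    obtain ⟨ZP, hZP⟩ := hkey' H₀ hH₀ hn₀ P
    have hZP' := hr P ZP hZP
    have hHP : (0 : Divisor K F) ≤ H + Finsupp.single P 1 := add_nonneg hH (single_nonneg P)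
    have hT : (0 : Divisor K F) ≤ H + Finsupp.single P 1 + H₀ := add_nonneg hHP hH₀
    have hTd : n₁ ≤ Divisor.degree (H + Finsupp.single P 1 + H₀) := by
      rw [map_add, Riemann.degree_step hP.hdeg]
      omega
    obtain ⟨ZT, hZT⟩ := hkey _ hT hTd
    have e1 : ZT = Z' + Z₀ := IsSpecDiv.add hR hPb.hdeg hZ' hZ₀ hZT
    have hZT' : IsSpecDiv Red (H + (H₀ + Finsupp.single P 1)) ZT := by
      have he : H + (H₀ + Finsupp.single P 1) = H + Finsupp.single P 1 + H₀ := by abel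
      rw [he]
      exact hZT
    have e2 : ZT = Z + ZP := IsSpecDiv.add hR hPb.hdeg hZ hZP hZT'
    rw [hZP'] at e2
    have e3 : Z' + Z₀ = Z + (Z₀ + Finsupp.single (r P) 1) := by rw [← e1, e2]
    have e4 : Z' = Z + (Z₀ + Finsupp.single (r P) 1) - Z₀ := by
      rw [← e3]
      abel
    rw [e4]
    abel
  -- induction above `H₀`
  have hind : ∀ D' : Divisor K F, H₀ ≤ D' →
      ∀ Z' : Divisor (IsLocalRing.ResidueField A) κ,
        IsSpecDiv Red D' Z' → Z' = Z₀ + Finsupp.mapDomain r (D' - H₀) := by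
    refine Riemann.le_induction H₀ (fun D' => ∀ Z' : Divisor (IsLocalRing.ResidueField A) κ,
      IsSpecDiv Red D' Z' → Z' = Z₀ + Finsupp.mapDomain r (D' - H₀)) ?_ ?_
    · intro Z' hZ'
      rw [sub_self, Finsupp.mapDomain_zero, add_zero]
      exact hZ'.unique hZ₀
    · intro D' v hD' ih Z'' hZ''
      have hD'0 : (0 : Divisor K F) ≤ D' := hH₀.trans hD'
      have hD'n : n₁ ≤ Divisor.degree D' := hn₀.trans (Riemann.degree_mono hP.hdeg hD')
      obtain ⟨Z', hZ'⟩ := hkey D' hD'0 hD'n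
      have e1 := hstep D' hD'0 hD'n v Z' Z'' hZ' hZ''
      have e2 := ih Z' hZ'
      have e3 : D' + Finsupp.single v 1 - H₀ = (D' - H₀) + Finsupp.single v 1 := by abel
      rw [e1, e2, e3, Finsupp.mapDomain_add, Finsupp.mapDomain_single]
      abel
  refine ⟨r, ⟨fun H hH hn => ?_⟩⟩
  obtain ⟨Z, hZ⟩ := hkey H hH hn
  have hS : (0 : Divisor K F) ≤ H₀ + H := add_nonneg hH₀ hH
  have hSd : n₁ ≤ Divisor.degree (H₀ + H) := by
    rw [map_add]
    omega
  obtain ⟨ZS, hZS⟩ := hkey _ hS hSd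
  have e1 : ZS = Z₀ + Z := IsSpecDiv.add hR hPb.hdeg hZ₀ hZ hZS
  have e2 := hind (H₀ + H) (le_add_of_nonneg_right hH) ZS hZS
  rw [add_sub_cancel_left] at e2
  have e3 : Z = Finsupp.mapDomain r H := by
    have : Z₀ + Z = Z₀ + Finsupp.mapDomain r H := by rw [← e1, e2]
    exact add_left_cancel this
  rw [← e3]
  exact hZ

end Construct

namespace IsSpecMap

variable {n₁ n₁' : ℤ} {r r' : Place K F → Place (IsLocalRing.ResidueField A) κ}

/-- The specialisation map is unique. -/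
theorem unique (hP : PlaceFacts K F) (h : IsSpecMap Red n₁ r) (h' : IsSpecMap Red n₁' r') :
    r = r' := by
  funext P
  obtain ⟨H₀, hH₀, hn₀⟩ := exists_large hP (max n₁ n₁')
  have hn : n₁ ≤ Divisor.degree H₀ := (le_max_left _ _).trans hn₀
  have hn' : n₁' ≤ Divisor.degree H₀ := (le_max_right _ _).trans hn₀
  have e0 : Finsupp.mapDomain r H₀ = Finsupp.mapDomain r' H₀ :=
    (h.spec H₀ hH₀ hn).unique (h'.spec H₀ hH₀ hn')
  have hH₁ : (0 : Divisor K F) ≤ H₀ + Finsupp.single P 1 := add_nonneg hH₀ (single_nonneg P)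
  have hd₁ : Divisor.degree (H₀ + Finsupp.single P 1) = Divisor.degree H₀ + 1 :=
    Riemann.degree_step hP.hdeg H₀ P
  have e1 : Finsupp.mapDomain r (H₀ + Finsupp.single P 1)
      = Finsupp.mapDomain r' (H₀ + Finsupp.single P 1) :=
    (h.spec _ hH₁ (by rw [hd₁]; omega)).unique (h'.spec _ hH₁ (by rw [hd₁]; omega))
  rw [Finsupp.mapDomain_add, Finsupp.mapDomain_add, e0, Finsupp.mapDomain_single,
    Finsupp.mapDomain_single] at e1
  have e2 := add_left_cancel e1
  exact Finsupp.single_left_injective (one_ne_zero) e2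

/-- The specialisation map preserves degrees (all places have degree one). -/
theorem deg (hP : PlaceFacts K F) (hPb : PlaceFacts (IsLocalRing.ResidueField A) κ)
    (r : Place K F → Place (IsLocalRing.ResidueField A) κ) (P : Place K F) :
    (r P).deg = P.deg := by
  rw [hP.hdeg, hPb.hdeg]

/-- **B6.** The specialisation map is compatible with divisors of functions: if `f` reduces to
`x ≠ 0` then `r_* (div f) = div x`. -/
theorem div (hR : RedFacts A Red) (hP : PlaceFacts K F) (h : IsSpecMap Red n₁ r)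
    {f : F} {x : κ} (hf : Red f x) (hx : x ≠ 0) (D : Divisor K F) (hD : ∀ P, D P = P.ord f)
    (Q : Place (IsLocalRing.ResidueField A) κ) : Finsupp.mapDomain r D Q = Q.ord x := by
  classical
  have hB := LatticeBridge.redBase_of_redFacts hR
  have hf0 : f ≠ 0 := by
    rintro rfl
    exact hx (hR.unique 0 _ _ hf hB.zero)
  obtain ⟨H, hH, hn⟩ := exists_large hP n₁
  obtain ⟨Dp, hDp⟩ : ∃ Dp : Divisor K F, Dp = D ⊔ 0 := ⟨_, rfl⟩
  obtain ⟨Dm, hDm⟩ : ∃ Dm : Divisor K F, Dm = (-D) ⊔ 0 := ⟨_, rfl⟩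
  have hDpv : ∀ v, Dp v = max (D v) 0 := fun v => by rw [hDp, Finsupp.sup_apply]; rfl
  have hDmv : ∀ v, Dm v = max (-D v) 0 := fun v => by
    rw [hDm, Finsupp.sup_apply, Finsupp.neg_apply]; rfl
  have hDp0 : (0 : Divisor K F) ≤ Dp := by rw [hDp]; exact le_sup_right
  have hDm0 : (0 : Divisor K F) ≤ Dm := by rw [hDm]; exact le_sup_right
  have hsplit : H + Dp = (H + Dm) + D := by
    ext v
    simp only [Finsupp.add_apply, hDpv, hDmv]
    omega
  have hH1 : (0 : Divisor K F) ≤ H + Dm := add_nonneg hH hDm0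
  have hH2 : (0 : Divisor K F) ≤ H + Dp := add_nonneg hH hDp0
  have hn1 : n₁ ≤ Divisor.degree (H + Dm) := by
    rw [map_add]
    have := degree_nonneg_of_nonneg hP.hdeg hDm0
    omega
  have hn2 : n₁ ≤ Divisor.degree (H + Dp) := by
    rw [map_add]
    have := degree_nonneg_of_nonneg hP.hdeg hDp0
    omega
  have s1 := h.spec (H + Dm) hH1 hn1
  have s2 := h.spec (H + Dp) hH2 hn2
  -- `f * L(H + D⁺) = L(H + D⁻)`
  have hmul : ∀ g, g ∈ riemannRochSpace (H + Dp) → f * g ∈ riemannRochSpace (H + Dm) := by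
    intro g hg
    rw [mem_riemannRochSpace_iff] at hg ⊢
    intro v
    by_cases hg0 : g = 0
    · left; rw [hg0, mul_zero]
    right
    have a := (hg v).resolve_left hg0
    rw [v.ord_mul hf0 hg0, ← hD v]
    rw [Finsupp.add_apply, hDpv] at a
    rw [Finsupp.add_apply, hDmv]
    omega
  have hdiv : ∀ g, g ∈ riemannRochSpace (H + Dm) → f⁻¹ * g ∈ riemannRochSpace (H + Dp) := by
    intro g hg
    rw [mem_riemannRochSpace_iff] at hg ⊢
    intro v
    by_cases hg0 : g = 0
    · left; rw [hg0, mul_zero]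
    right
    have a := (hg v).resolve_left hg0
    rw [v.ord_mul (inv_ne_zero hf0) hg0, v.ord_inv, ← hD v]
    rw [Finsupp.add_apply, hDmv] at a
    rw [Finsupp.add_apply, hDpv]
    omega
  -- `x * L(Z₂) ⊆ L(Z₁)`
  have hi : ∀ x', x' ∈ riemannRochSpace (Finsupp.mapDomain r (H + Dp)) →
      x * x' ∈ riemannRochSpace (Finsupp.mapDomain r (H + Dm)) := by
    intro x' hx'
    obtain ⟨g, hg, hgx⟩ := (s2.mem_iff x').mpr hx'
    exact (s1.mem_iff _).mp ⟨f * g, hmul g hg, hR.mul _ _ _ _ hf hgx⟩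
  -- nonzero elements of `L(Z₁)` are in `x * L(Z₂)`
  have hii : ∀ y, y ∈ riemannRochSpace (Finsupp.mapDomain r (H + Dm)) → y ≠ 0 →
      ∃ x', x' ∈ riemannRochSpace (Finsupp.mapDomain r (H + Dp)) ∧ x * x' = y := by
    intro y hy hy0
    obtain ⟨g', hg', hgy⟩ := (s1.mem_iff y).mpr hy
    have hg'' : Red (f * (f⁻¹ * g')) y := by
      rw [← mul_assoc, mul_inv_cancel₀ hf0, one_mul]
      exact hgy
    obtain ⟨x', hx', hxx⟩ := hB.red_of_mul hf hx hg'' hy0
    exact ⟨x', (s2.mem_iff x').mp ⟨f⁻¹ * g', hdiv g' hg', hx'⟩, hxx⟩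
  obtain ⟨x₂, hx₂, hx₂0, ho₂⟩ := s2.attain Q
  have h1 := (mem_riemannRochSpace_iff.mp (hi x₂ hx₂) Q).resolve_left (mul_ne_zero hx hx₂0)
  rw [Q.ord_mul hx hx₂0, ho₂] at h1
  obtain ⟨y, hy, hy0, ho₁⟩ := s1.attain Q
  obtain ⟨x', hx', hxx⟩ := hii y hy hy0
  have hx'0 : x' ≠ 0 := by
    rintro rfl
    rw [mul_zero] at hxx
    exact hy0 hxx.symm
  have h2 := (mem_riemannRochSpace_iff.mp hx' Q).resolve_left hx'0
  rw [← hxx, Q.ord_mul hx hx'0] at ho₁
  have e : Finsupp.mapDomain r (H + Dp) Q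
      = Finsupp.mapDomain r (H + Dm) Q + Finsupp.mapDomain r D Q := by
    rw [hsplit, Finsupp.mapDomain_add, Finsupp.add_apply]
  omega

end IsSpecMap

end Fermat.Agent.S37.SpecMap

end
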