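import Fermat.Agent.S18.LayerQ
import Fermat.Agent.S18.KappaPF

/-!
# S37, input of package PG (`R3`): the Kummer statement at level `N`

* `Tors.kummerN` : the Kummer statement of S18 at level `N` (`ℓ ∤ N`) as a closed theorem
  (the body of `S18.Close.main` up to the Kummer statement at level `M = levelM ℓ N` and the
  descent of roots, followed by `S18.Descent.main`).  For every prime `d ≠ ℓ` and integral series
  `V₁, V₂` of `F_N` with equal nonzero reductions, if all orders of `genS V₁ / genS V₂` are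
  divisible by `d`, then the quotient is a `d`-th power in `F_N`.
-/

set_option autoImplicit false
set_option synthInstance.maxHeartbeats 400000

noncomputable section

namespace Fermat.Agent.S37.Tors

open AlgebraicCurve ModularCurve Fermat.Agent.S18
open scoped IntermediateField

/-- **The Kummer statement of S18 at level `N`**, closed form. -/
theorem kummerN {ℓ N : ℕ} [NeZero N] (hℓ : ℓ.Prime) (hℓN : ¬ ℓ ∣ N)
    (A : ValuationSubring (AlgebraicClosure ℚ)) (hA : A.LiesOverPrime ℓ) : KummerStmt ℓ A N := by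
  have h0 : Close.Layer A (LevelNum.M0 ℓ) := LayerQ.layer hℓ (LevelNum.not_dvd_M0 hℓ) A hA
  have hM : Close.Layer A (LevelNum.levelM ℓ N) :=
    LayerQ.layer hℓ (LevelNum.not_dvd_levelM hℓ hℓN) A hA
  have hk : IsAlgClosed (IsLocalRing.ResidueField A) := ResField.isAlgClosed A
  have hchar : CharP (IsLocalRing.ResidueField A) ℓ := ResField.charP A hℓ hA
  have hℓM0 : ¬ ℓ ∣ LevelNum.M0 ℓ := LevelNum.not_dvd_M0 hℓ
  have hℓM : ¬ ℓ ∣ LevelNum.levelM ℓ N := LevelNum.not_dvd_levelM hℓ hℓN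
  have hle := Close.tower (LevelNum.M0_dvd_levelM ℓ N) A hM
  obtain ⟨Red0, hR0, hint0⟩ := h0
  obtain ⟨Red, hR, hint⟩ := hM
  have hfd0 := KappaDeg.finiteDimensional (k := IsLocalRing.ResidueField A) hℓ (LevelNum.M0 ℓ) hℓM0
    (GaussA.jbE (IsLocalRing.ResidueField A) (LevelNum.M0 ℓ)) rfl
  have hfr0 := KappaDeg.finrank_eq (k := IsLocalRing.ResidueField A) hℓ (LevelNum.M0 ℓ) hℓM0
    (GaussA.jbE (IsLocalRing.ResidueField A) (LevelNum.M0 ℓ)) rfl
  have hfd := KappaDeg.finiteDimensional (k := IsLocalRing.ResidueField A) hℓ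
    (LevelNum.levelM ℓ N) hℓM (GaussA.jbE (IsLocalRing.ResidueField A) (LevelNum.levelM ℓ N)) rfl
  have hfr := KappaDeg.finrank_eq (k := IsLocalRing.ResidueField A) hℓ
    (LevelNum.levelM ℓ N) hℓM (GaussA.jbE (IsLocalRing.ResidueField A) (LevelNum.levelM ℓ N)) rfl
  obtain ⟨hj0, hsurj0⟩ :=
    SemiLvl.hj_hsurj_of_hint A (LevelNum.M0 ℓ) Red0 hR0 hint0 (GenBar.uK_mem _)
  obtain ⟨hj, hsurj⟩ :=
    SemiLvl.hj_hsurj_of_hint A (LevelNum.levelM ℓ N) Red hR hint (GenBar.uK_mem _)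
  have hc0 := CuspsKappa.card_poles A hℓ (LevelNum.M0 ℓ) hℓM0 hA
    (SepPF.placeFacts_of_finite _ (GaussA.jbE (IsLocalRing.ResidueField A) (LevelNum.M0 ℓ)) rfl)
    hfr0
  have hc := CuspsKappa.card_poles A hℓ (LevelNum.levelM ℓ N) hℓM hA
    (SepPF.placeFacts_of_finite _
      (GaussA.jbE (IsLocalRing.ResidueField A) (LevelNum.levelM ℓ N)) rfl) hfr
  have hg := GenusWire.genus_ge_of ℓ A (LevelNum.M0_dvd_levelM ℓ N) _ _ hle
    (GaussA.jbE (IsLocalRing.ResidueField A) (LevelNum.M0 ℓ)) rfl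
    (GaussA.jbE (IsLocalRing.ResidueField A) (LevelNum.levelM ℓ N)) rfl
    hfd0 hfr0 hfd hfr Red0 hR0 hj0 hsurj0 hc0 hc
  have hcore : CoreStmt A Red :=
    CoreLvl.of_gauss A (LevelNum.levelM ℓ N) _
      (GaussA.jbE (IsLocalRing.ResidueField A) (LevelNum.levelM ℓ N)) rfl hfd hfr Red hR hj hsurj hg
  have hK : KummerStmt ℓ A (LevelNum.levelM ℓ N) := Bridge.main hℓ A hA _ Red hR hint hcore
  have hRoot : RootDescentStmt ℓ A N (LevelNum.levelM ℓ N) :=
    RootLvl.of_gauss (LevelNum.dvd_levelM ℓ N) hℓ A hA _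
      (GaussA.jbE (IsLocalRing.ResidueField A) (LevelNum.levelM ℓ N)) rfl hfd hfr Red hR hint
      hj hsurj
  exact Descent.main (NeZero.ne N) (LevelNum.levelM_ne_zero ℓ N (NeZero.ne N))
    (LevelNum.dvd_levelM ℓ N) A hK
    (Restrict.main (LevelNum.dvd_levelM ℓ N) (LevelNum.levelM_ne_zero ℓ N (NeZero.ne N))) hRoot

end Fermat.Agent.S37.Tors

end
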